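import Mathlib
import Fermat.Prelude.Def_ModularCurve_ArithmeticGalois
import Fermat.Prelude.Def_ModularCurve_GenusNumerics
import Fermat.Prelude.Def_AlgebraicCurve_CanonicalDivisor

/-!
# Project X0 (statement S24): shared definitions and contracts

Owner: lead.  Every slab of the project imports this file.  Nothing here is proved; the
file only fixes the objects and the exact statements (`def … : Prop`) exchanged between slabs.
-/

set_option autoImplicit false

noncomputable section

namespace Fermat.Agent.Lib.X0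

open AlgebraicCurve ModularCurve
open scoped MatrixGroups

/-! ## 1. Abstract function fields -/

section Abstract

/-- `x : F` is a *coordinate* of the function field `F/k`: it is transcendental over `k` and
`F` is finite over `k(x)`. -/
structure IsCoord (k : Type) {F : Type} [Field k] [Field F] [Algebra k F] (x : F) : Prop where
  transc : Transcendental k x
  finite : FiniteDimensional (IntermediateField.adjoin k {x}) F

/-- The degree `[F : k(x)]`. -/
def coordDegree (k : Type) {F : Type} [Field k] [Field F] [Algebra k F] (x : F) : ℕ :=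
  Module.finrank (IntermediateField.adjoin k {x}) F

/-- Local embedding data at the local parameter `t` (`t = x - c` or `t = x⁻¹`): a family,
indexed by `Q`, of pairwise distinct ring homomorphisms `F →+* K'((u))`, compatible with
`ι : k →+* K'` on constants, all equal at `x`, under which `t` has order `M > 0`. -/
structure LocalEmb {k F K' : Type} [Field k] [Field F] [Algebra k F] [Field K']
    (ι : k →+* K') (x t : F) (Q : Type) (M : ℕ) where
  τ : Q → (F →+* LaurentSeries K')
  inj : Function.Injective τ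
  const : ∀ q (a : k), τ q (algebraMap k F a) = HahnSeries.C (ι a)
  agree : ∀ q q', τ q x = τ q' x
  ord_t : ∀ q, (τ q t).order = (M : ℤ)
  M_pos : 0 < M

/-- (G2) **Embedding count theorem**. -/
def EmbCountStatement : Prop :=
  ∀ {k F K' : Type} [Field k] [IsAlgClosed k] [CharZero k] [Field F] [Algebra k F] [Field K']
    (ι : k →+* K') (x : F) (_ : IsCoord k x) (t : F)
    (_ : (∃ c : k, t = x - algebraMap k F c) ∨ t = x⁻¹)
    (Q : Type) [Fintype Q] (_ : Fintype.card Q = coordDegree k x) (M : ℕ)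
    (E : LocalEmb ι x t Q M),
    ∃ P : Q → Place k F,
      (∀ q, 0 < (P q).ord t) ∧
      (∀ v : Place k F, 0 < v.ord t → ∃ q, P q = v) ∧
      (∀ v : Place k F, 0 < v.ord t → (Nat.card {q // P q = v} : ℤ) = v.ord t) ∧
      (∀ q (f : F), f ≠ 0 → (E.τ q f).order * (P q).ord t = (M : ℤ) * (P q).ord f)

/-- (G2') **Count corollary**: if `h q` is at the same time a lower bound for the number of
indices with the same order function as `q`, and `M / h q` divides all orders of `τ q`,
then the ramification index of the place of `q` is `h q` and the number of places over the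
point is `∑ q, 1 / h q`. -/
def EmbCountCorStatement : Prop :=
  ∀ {k F K' : Type} [Field k] [IsAlgClosed k] [CharZero k] [Field F] [Algebra k F] [Field K']
    (ι : k →+* K') (x : F) (_ : IsCoord k x) (t : F)
    (_ : (∃ c : k, t = x - algebraMap k F c) ∨ t = x⁻¹)
    (Q : Type) [Fintype Q] (_ : Fintype.card Q = coordDegree k x) (M : ℕ)
    (E : LocalEmb ι x t Q M) (h : Q → ℕ)
    (_ : ∀ q, h q ≤ Nat.card {q' // ∀ f : F, (E.τ q' f).order = (E.τ q f).order})
    (_ : ∀ q, h q ∣ M ∧ ∀ f : F, f ≠ 0 → (((M / h q : ℕ) : ℤ) ∣ (E.τ q f).order)),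
    Set.Finite {v : Place k F | 0 < v.ord t} ∧
    (Nat.card {v : Place k F // 0 < v.ord t} : ℚ) = ∑ q, (1 : ℚ) / (h q)

/-- (G1) **Places dictionary / fundamental identity / principal divisors**. -/
def PlacesStatement : Prop :=
  ∀ {k F : Type} [Field k] [IsAlgClosed k] [CharZero k] [Field F] [Algebra k F]
    (x : F) (_ : IsCoord k x),
    (∀ v : Place k F, v.deg = 1) ∧
    (∀ v : Place k F, 0 ≤ v.ord x → ∃! c : k, 0 < v.ord (x - algebraMap k F c)) ∧
    (∀ t : F, Transcendental k t →
      Set.Finite {v : Place k F | 0 < v.ord t} ∧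
      (∑ᶠ v ∈ {v : Place k F | 0 < v.ord t}, v.ord t
        = (Module.finrank (IntermediateField.adjoin k {t}) F : ℤ))) ∧
    (∀ f : F, f ≠ 0 → ∃ D : Divisor k F, (∀ v, D v = v.ord f) ∧ Divisor.degree D = 0)

open KaehlerDifferential in
/-- (G3) **Differentials**: `Ω[F/k] = F dx ≠ 0` and the tame different exponent. -/
def DifferentialStatement : Prop :=
  ∀ {k F : Type} [Field k] [IsAlgClosed k] [CharZero k] [Field F] [Algebra k F]
    (x : F) (_ : IsCoord k x),
    Submodule.span F {KaehlerDifferential.D k F x} = ⊤ ∧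
    KaehlerDifferential.D k F x ≠ 0 ∧
    (∀ v : Place k F, v.DCoordGenerates) ∧
    (∀ (v : Place k F) (c : k), 0 < v.ord (x - algebraMap k F c) →
      v.ordDifferential (KaehlerDifferential.D k F x) = v.ord (x - algebraMap k F c) - 1) ∧
    (∀ v : Place k F, v.ord x < 0 →
      v.ordDifferential (KaehlerDifferential.D k F x) = v.ord x - 1)

end Abstract

/-! ## 2. The concrete objects -/

/-- `ℚ̄`. -/
abbrev Kbar : Type := AlgebraicClosure ℚ

/-- The function field of `X₀(N)` over `ℚ̄` (as a type). -/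
abbrev FN (N : ℕ) : Type := ↥(modularFunctionFieldBar N)

theorem isAlgebraic_Kbar : Algebra.IsAlgebraic ℚ Kbar := by
  have h : (DivisionRing.toRatAlgebra : Algebra ℚ Kbar) =
      AlgebraicClosure.instAlgebra (k := ℚ) (R := ℚ) := Subsingleton.elim _ _
  rw [h]
  exact AlgebraicClosure.isAlgebraic ℚ

/-- A fixed embedding `ℚ̄ → ℂ`. -/
def iotaC : Kbar →+* ℂ :=
  haveI := isAlgebraic_Kbar
  ((IsAlgClosed.lift : Kbar →ₐ[ℚ] ℂ) : Kbar →+* ℂ)

/-- The `j`-function as an element of `ℚ̄((q))`. -/
def jBar : LaurentSeries Kbar := coeffEmb Kbar jq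

theorem jBar_mem (N : ℕ) : jBar ∈ modularFunctionFieldBar N := by
  refine coeffEmb_mem_laurentBaseChange Kbar ?_
  have h := jqd_mem_full N (one_dvd N)
  rwa [qExpand_one_apply] at h

/-- The coordinate `x = j` of `F_N`. -/
def xJ (N : ℕ) : FN N := ⟨jBar, jBar_mem N⟩

/-- `j(q^d)` as an element of `F_N`, for `d ∣ N`. -/
def xJd (N : ℕ) (d : ℕ) [NeZero d] (hd : d ∣ N) : FN N :=
  ⟨coeffEmb Kbar (qExpand ℚ d jq), coeffEmb_mem_laurentBaseChange Kbar (jqd_mem_full N hd)⟩

/-- The analytic `j`-function `E₄³/Δ` on the upper half plane. -/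
def jFun (τ : UpperHalfPlane) : ℂ := ModularForm.E₄ τ ^ 3 / ModularForm.discriminant τ

/-- The index set of the embeddings: left cosets `g Γ₀(N)`, with the left multiplication action
of `SL(2,ℤ)`.  The embedding attached to `g Γ₀(N)` expands `f ∘ g⁻¹`. -/
abbrev QN (N : ℕ) : Type := SL(2, ℤ) ⧸ CongruenceSubgroup.Gamma0 N

/-- `S = [0 -1; 1 0]`, fixing `i`. -/
abbrev matS : SL(2, ℤ) := ModularGroup.S
/-- `T = [1 1; 0 1]`. -/
abbrev matT : SL(2, ℤ) := ModularGroup.T
/-- `U = S T = [0 -1; 1 1]`, `τ ↦ -1/(τ+1)`, fixing `ρ = e^{2πi/3}`. -/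
abbrev matU : SL(2, ℤ) := ModularGroup.S * ModularGroup.T

/-! ## 3. Contracts for the concrete objects -/

/-- (C5)+(C4) `x = j` is a coordinate of `F_N` and `[F_N : ℚ̄(j)] = [SL₂(ℤ) : Γ₀(N)]`. -/
def CoordStatement (N : ℕ) : Prop :=
  IsCoord Kbar (xJ N) ∧ coordDegree Kbar (xJ N) = Nat.card (QN N)

/-- (C, finite points) local embedding data over `j = c`, for every `c : ℚ̄`. -/
def CFiniteStatement (N : ℕ) : Prop :=
  ∀ c : Kbar, ∃ (M : ℕ)
    (E : LocalEmb iotaC (xJ N) (xJ N - algebraMap Kbar (FN N) c) (QN N) M),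
    (c ≠ 0 → c ≠ 1728 → M = 1) ∧
    (c = 0 → M = 3 ∧
      (∀ q f, (E.τ (matU • q) f).order = (E.τ q f).order) ∧
      (∀ q, matU • q = q → ∀ f, f ≠ 0 → (3 : ℤ) ∣ (E.τ q f).order)) ∧
    (c = 1728 → M = 2 ∧
      (∀ q f, (E.τ (matS • q) f).order = (E.τ q f).order) ∧
      (∀ q, matS • q = q → ∀ f, f ≠ 0 → (2 : ℤ) ∣ (E.τ q f).order))

/-- (C, cusps) local embedding data over `j = ∞`. -/
def CInftyStatement (N : ℕ) : Prop :=
  ∃ E : LocalEmb iotaC (xJ N) (xJ N)⁻¹ (QN N) N,
    (∀ q f, (E.τ (matT • q) f).order = (E.τ q f).order) ∧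
    (∀ q (h : ℕ), 0 < h → h ∣ N → matT ^ h • q = q →
      ∀ f, f ≠ 0 → (((N / h : ℕ) : ℤ) ∣ (E.τ q f).order))

/-- (B) combinatorics of `SL₂(ℤ)/Γ₀(N)`. -/
def CombStatement (N : ℕ) : Prop :=
  Nat.card (QN N) = dedekindPsi N ∧
  Nat.card {q : QN N // matS • q = q} = nuTwo N ∧
  Nat.card {q : QN N // matU • q = q} = nuThree N ∧
  Nat.card (MulAction.orbitRel.Quotient (Subgroup.zpowers matT) (QN N)) = cuspCount N ∧
  (∀ q : QN N, matT ^ N • q = q) ∧
  ∃ g : ℕ, (g : ℚ) = genusFormula N

end Fermat.Agent.Lib.X0
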