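/-
X0 project (S24), piece (A2) (helper3): the elliptic points `i` and `ρ = e^{2πi/3}` of the upper half
plane, the modular transformation equations for level one forms, `E₆(i) = 0`, `E₄(ρ) = 0`.
-/
import Mathlib

set_option autoImplicit false

open UpperHalfPlane hiding I
open Complex ModularForm EisensteinSeries ModularGroup
open scoped MatrixGroups ModularForm Manifold Topology Real

namespace Fermat.Agent.Lib.X0


local notation "Δ" => ModularForm.discriminant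

/-- `S • i = i`. -/
theorem h3_S_smul_I : ModularGroup.S • UpperHalfPlane.I = UpperHalfPlane.I := by
  rw [UpperHalfPlane.modular_S_smul]
  ext
  simp [UpperHalfPlane.I]

/-- The point `ρ = e^{2πi/3} = -1/2 + (√3/2) i` of the upper half plane. -/
noncomputable def h3_rho : ℍ := ⟨-1 / 2 + (Real.sqrt 3 / 2 : ℝ) * Complex.I, by simp⟩

theorem h3_rho_coe : (h3_rho : ℂ) = -1 / 2 + (Real.sqrt 3 / 2 : ℝ) * Complex.I := rfl

theorem h3_rho_sq : (h3_rho : ℂ) ^ 2 + (h3_rho : ℂ) + 1 = 0 := by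
  rw [h3_rho_coe]
  have h3 : ((Real.sqrt 3 : ℝ) : ℂ) ^ 2 = 3 := by
    rw [← Complex.ofReal_pow, Real.sq_sqrt (by norm_num)]; norm_num
  push_cast
  linear_combination (-1 / 4 : ℂ) * h3 + ((Real.sqrt 3 : ℂ) ^ 2 / 4) * Complex.I_sq

/-- `(S T) • ρ = ρ`. -/
theorem h3_ST_smul_rho : (ModularGroup.S * ModularGroup.T) • h3_rho = h3_rho := by
  rw [mul_smul, UpperHalfPlane.modular_T_smul, UpperHalfPlane.modular_S_smul]
  ext
  simp only [UpperHalfPlane.coe_vadd]
  have h := h3_rho_sq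
  have hne : (h3_rho : ℂ) ≠ 0 := UpperHalfPlane.ne_zero _
  have hne1 : ((1 : ℝ) : ℂ) + (h3_rho : ℂ) ≠ 0 := by
    intro h0
    have : (h3_rho : ℂ) = -1 := by push_cast at h0; linear_combination h0
    rw [this] at h
    norm_num at h
  show (-(((1 : ℝ) : ℂ) + (h3_rho : ℂ)))⁻¹ = (h3_rho : ℂ)
  rw [inv_eq_iff_eq_inv, neg_eq_iff_eq_neg]
  field_simp
  push_cast
  linear_combination h



theorem h3_modular_eqn {k : ℤ} (f : ModularForm 𝒮ℒ k) (γ : SL(2, ℤ)) (z : ℍ) :
    f (γ • z) = (denom γ z) ^ k * f z := by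
  have hγ : (Matrix.SpecialLinearGroup.mapGL ℝ γ) ∈ 𝒮ℒ := ⟨γ, rfl⟩
  exact SlashInvariantForm.slash_action_eqn'' f hγ z

theorem h3_denom_T (z : ℍ) : denom ModularGroup.T z = 1 := by
  rw [ModularGroup.denom_apply]
  simp [ModularGroup.coe_T]

theorem h3_modular_eqn_S {k : ℤ} (f : ModularForm 𝒮ℒ k) (z : ℍ) :
    f (ModularGroup.S • z) = (z : ℂ) ^ k * f z := by
  rw [h3_modular_eqn, ModularGroup.denom_S]

theorem h3_modular_eqn_T {k : ℤ} (f : ModularForm 𝒮ℒ k) (z : ℍ) :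
    f (ModularGroup.T • z) = f z := by
  rw [h3_modular_eqn, h3_denom_T, one_zpow, one_mul]

theorem h3_modular_eqn_ST {k : ℤ} (f : ModularForm 𝒮ℒ k) (z : ℍ) :
    f ((ModularGroup.S * ModularGroup.T) • z) = ((z : ℂ) + 1) ^ k * f z := by
  rw [mul_smul, h3_modular_eqn_S, h3_modular_eqn_T, UpperHalfPlane.modular_T_smul]
  congr 2
  simp [UpperHalfPlane.coe_vadd, add_comm]


/-- `E₆(i) = 0`. -/
theorem h3_E₆_I : E₆ UpperHalfPlane.I = 0 := by
  have h := h3_modular_eqn_S E₆ UpperHalfPlane.I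
  rw [h3_S_smul_I] at h
  have hI : ((UpperHalfPlane.I : ℍ) : ℂ) ^ (6 : ℤ) = -1 := by
    have : ((UpperHalfPlane.I : ℍ) : ℂ) = Complex.I := rfl
    rw [this]
    have h4 : Complex.I ^ 4 = 1 := Complex.I_pow_four
    have h6 : Complex.I ^ 6 = -1 := by
      calc Complex.I ^ 6 = Complex.I ^ 4 * Complex.I ^ 2 := by ring
        _ = -1 := by rw [h4, Complex.I_sq]; ring
    exact_mod_cast h6
  rw [hI] at h
  have : (2 : ℂ) * E₆ UpperHalfPlane.I = 0 := by linear_combination h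
  simpa using this

theorem h3_rho_cube : (h3_rho : ℂ) ^ 3 = 1 := by
  linear_combination ((h3_rho : ℂ) - 1) * h3_rho_sq

/-- `E₄(ρ) = 0`. -/
theorem h3_E₄_rho : E₄ h3_rho = 0 := by
  have h := h3_modular_eqn_ST E₄ h3_rho
  rw [h3_ST_smul_rho] at h
  have h4 : ((h3_rho : ℂ) + 1) ^ (4 : ℤ) = -(h3_rho : ℂ) - 1 := by
    norm_cast
    linear_combination ((h3_rho : ℂ) ^ 2 + 3 * (h3_rho : ℂ) + 2) * h3_rho_sq
  rw [h4] at h
  have hne : (h3_rho : ℂ) + 2 ≠ 0 := by
    intro h0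
    have him := congrArg Complex.im h0
    have : (h3_rho : ℂ).im = h3_rho.im := rfl
    simp only [Complex.add_im, this] at him
    have hpos := h3_rho.im_pos
    norm_num at him
    linarith
  have : ((h3_rho : ℂ) + 2) * E₄ h3_rho = 0 := by linear_combination h
  exact (mul_eq_zero.mp this).resolve_left hne

end Fermat.Agent.Lib.X0
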