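/-
X0 project (S24), piece (A2) (helper3): the normalized derivative `D = q d/dq` on level one forms, its behaviour at `i∞` and under `SL(2,ℤ)`, and the bracket identity `4 E₄ · D E₆ - 6 E₆ · D E₄ = -3456 Δ`.
-/
import Mathlib
import Fermat.Agent.Lib.X0.LevelOnePoints

set_option autoImplicit false

open UpperHalfPlane hiding I
open Complex ModularForm EisensteinSeries ModularGroup Filter Function
open scoped MatrixGroups ModularForm Manifold Topology Real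

namespace Fermat.Agent.Lib.X0

local notation "Δ" => ModularForm.discriminant
local notation "𝕢" => Periodic.qParam

open Derivative

theorem h3_hasDerivAt_qParam (z : ℂ) :
    HasDerivAt (𝕢 1) (2 * π * Complex.I * 𝕢 1 z) z := by
  unfold Periodic.qParam
  have h1 : HasDerivAt (fun z : ℂ => 2 * π * Complex.I * z / (1 : ℝ)) (2 * π * Complex.I) z := by
    have := (hasDerivAt_id z).const_mul (2 * π * Complex.I)
    simpa using this
  have := h1.cexp
  simpa [mul_comm] using this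

/-- `D f (τ) = q · F'(q)` where `F` is the cusp function of `f` and `q = e^{2πiτ}`. -/
theorem h3_D_eq {k : ℤ} (f : ModularForm 𝒮ℒ k) (τ : ℍ) :
    D f τ = 𝕢 1 τ * deriv (cuspFunction 1 f) (𝕢 1 τ) := by
  have hper : Periodic (f ∘ ofComplex) (1 : ℝ) :=
    SlashInvariantFormClass.periodic_comp_ofComplex f one_mem_strictPeriods_SL
  have hcomp : (f ∘ ofComplex) = (cuspFunction 1 f) ∘ (𝕢 1) := by
    funext z
    exact (Periodic.eq_cuspFunction (h := 1) one_ne_zero hper z).symm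
  have hq : ‖𝕢 1 (τ : ℂ)‖ < 1 := Periodic.norm_qParam_lt_one one_pos τ.im_pos
  have hdiff : DifferentiableAt ℂ (cuspFunction 1 f) (𝕢 1 τ) :=
    ModularFormClass.differentiableAt_cuspFunction f one_pos one_mem_strictPeriods_SL hq
  have hchain := hdiff.hasDerivAt.comp (τ : ℂ) (h3_hasDerivAt_qParam τ)
  rw [normalizedDerivOfComplex, hcomp, hchain.deriv]
  have h2pi : (2 * π * Complex.I : ℂ) ≠ 0 := by
    simp [Real.pi_ne_zero]
  field_simp

theorem h3_tendsto_D_div_q {k : ℤ} (f : ModularForm 𝒮ℒ k) :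
    Tendsto (fun τ : ℍ => D f τ / 𝕢 1 τ) atImInfty (𝓝 ((qExpansion 1 f).coeff 1)) := by
  have han : AnalyticAt ℂ (cuspFunction 1 f) 0 :=
    ModularFormClass.analyticAt_cuspFunction_zero f one_pos one_mem_strictPeriods_SL
  have hcont : ContinuousAt (deriv (cuspFunction 1 f)) 0 := han.deriv.continuousAt
  have hlim : Tendsto (fun τ : ℍ => deriv (cuspFunction 1 f) (𝕢 1 τ)) atImInfty
      (𝓝 (deriv (cuspFunction 1 f) 0)) :=
    hcont.tendsto.comp (qParam_tendsto_atImInfty one_pos)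
  have hcoeff : (qExpansion 1 f).coeff 1 = deriv (cuspFunction 1 f) 0 := by
    rw [qExpansion_coeff]
    simp [iteratedDeriv_one]
  rw [hcoeff]
  refine hlim.congr fun τ => ?_
  rw [h3_D_eq]
  field_simp [Periodic.qParam_ne_zero (h := 1) (τ : ℂ)]

theorem h3_isZeroAtImInfty_D {k : ℤ} (f : ModularForm 𝒮ℒ k) : IsZeroAtImInfty (D f) := by
  have h1 := (h3_tendsto_D_div_q f).mul (qParam_tendsto_atImInfty one_pos)
  rw [mul_zero] at h1
  refine h1.congr fun τ => ?_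
  field_simp [Periodic.qParam_ne_zero (h := 1) (τ : ℂ)]

theorem h3_tendsto_modform {k : ℤ} (f : ModularForm 𝒮ℒ k) :
    Tendsto f atImInfty (𝓝 ((qExpansion 1 f).coeff 0)) := by
  have han : AnalyticAt ℂ (cuspFunction 1 f) 0 :=
    ModularFormClass.analyticAt_cuspFunction_zero f one_pos one_mem_strictPeriods_SL
  have hper : Periodic (f ∘ ofComplex) (1 : ℝ) :=
    SlashInvariantFormClass.periodic_comp_ofComplex f one_mem_strictPeriods_SL
  have hlim : Tendsto (fun τ : ℍ => cuspFunction 1 f (𝕢 1 τ)) atImInfty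
      (𝓝 (cuspFunction 1 f 0)) :=
    han.continuousAt.tendsto.comp (qParam_tendsto_atImInfty one_pos)
  have hcoeff : (qExpansion 1 f).coeff 0 = cuspFunction 1 f 0 := by
    rw [qExpansion_coeff]
    simp
  rw [hcoeff]
  refine hlim.congr fun τ => ?_
  exact eq_cuspFunction τ one_ne_zero hper

theorem h3_tendsto_discriminant_div_q :
    Tendsto (fun τ : ℍ => Δ τ / 𝕢 1 τ) atImInfty (𝓝 1) := by
  refine tendsto_atImInfty_tprod_one_sub_eta_q_pow.congr fun τ => ?_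
  rw [discriminant_eq_q_prod]
  field_simp [Periodic.qParam_ne_zero (h := 1) (τ : ℂ)]

/-- The first Rankin–Cohen bracket `[E₄, E₆]₁ = 4 E₄ · D E₆ - 6 E₆ · D E₄`. -/
noncomputable def h3_bracket : ℍ → ℂ := fun τ => 4 * E₄ τ * D E₆ τ - 6 * E₆ τ * D E₄ τ

theorem h3_slash_eq_self {k : ℤ} (f : ModularForm 𝒮ℒ k) (γ : SL(2, ℤ)) :
    (f : ℍ → ℂ) ∣[k] γ = f := by
  have hγ : (Matrix.SpecialLinearGroup.mapGL ℝ γ) ∈ 𝒮ℒ := ⟨γ, rfl⟩
  exact SlashInvariantFormClass.slash_action_eq f _ hγ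

theorem h3_mdiff {k : ℤ} (f : ModularForm 𝒮ℒ k) : MDiff (f : ℍ → ℂ) := f.holo'

/-- `(D f)(γ τ) = (cτ+d)^{k+2} (D f τ + k (2πi)⁻¹ c/(cτ+d) f τ)`. -/
theorem h3_D_modular {k : ℤ} (f : ModularForm 𝒮ℒ k) (γ : SL(2, ℤ)) (z : ℍ) :
    D f (γ • z) = (denom γ z) ^ (k + 2) *
      (D f z + (k : ℂ) * (2 * π * Complex.I)⁻¹ * ((γ 1 0 : ℂ) / denom γ z) * f z) := by
  have h := congrFun (normalizedDerivOfComplex_SL_slash (k := k) (h3_mdiff f) (γ := γ)) z
  rw [h3_slash_eq_self] at h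
  simp only [Pi.sub_apply, ModularForm.SL_slash_apply] at h
  have hj : denom γ z ≠ 0 := denom_ne_zero γ z
  have hjk : (denom γ z) ^ (k + 2) ≠ 0 := zpow_ne_zero _ hj
  have h' : D f (γ • z) * (denom γ z) ^ (-(k + 2)) = D f z +
      (k : ℂ) * (2 * π * Complex.I)⁻¹ * ((γ 1 0 : ℂ) / denom γ z) * f z := by
    linear_combination -h
  rw [← h', mul_comm, mul_assoc, ← zpow_add₀ hj]
  simp

theorem h3_bracket_modular (γ : SL(2, ℤ)) (z : ℍ) :
    h3_bracket (γ • z) = (denom γ z) ^ (12 : ℤ) * h3_bracket z := by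
  unfold h3_bracket
  rw [h3_modular_eqn E₄ γ z, h3_modular_eqn E₆ γ z, h3_D_modular E₄ γ z, h3_D_modular E₆ γ z]
  have hj : denom γ z ≠ 0 := denom_ne_zero γ z
  have e12a : (denom γ z) ^ (12 : ℤ) = (denom γ z) ^ (4 : ℤ) * (denom γ z) ^ ((6 : ℤ) + 2) := by
    rw [← zpow_add₀ hj]; norm_num
  have e12b : (denom γ z) ^ (12 : ℤ) = (denom γ z) ^ (6 : ℤ) * (denom γ z) ^ ((4 : ℤ) + 2) := by
    rw [← zpow_add₀ hj]; norm_num
  have lhs : 4 * ((denom γ z) ^ (4 : ℤ) * E₄ z) * ((denom γ z) ^ ((6 : ℤ) + 2) *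
      (D E₆ z + ((6 : ℤ) : ℂ) * (2 * π * Complex.I)⁻¹ * ((γ 1 0 : ℂ) / denom γ z) * E₆ z)) -
      6 * ((denom γ z) ^ (6 : ℤ) * E₆ z) * ((denom γ z) ^ ((4 : ℤ) + 2) *
      (D E₄ z + ((4 : ℤ) : ℂ) * (2 * π * Complex.I)⁻¹ * ((γ 1 0 : ℂ) / denom γ z) * E₄ z)) =
      ((denom γ z) ^ (4 : ℤ) * (denom γ z) ^ ((6 : ℤ) + 2)) * (4 * E₄ z *
      (D E₆ z + ((6 : ℤ) : ℂ) * (2 * π * Complex.I)⁻¹ * ((γ 1 0 : ℂ) / denom γ z) * E₆ z)) -
      ((denom γ z) ^ (6 : ℤ) * (denom γ z) ^ ((4 : ℤ) + 2)) * (6 * E₆ z *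
      (D E₄ z + ((4 : ℤ) : ℂ) * (2 * π * Complex.I)⁻¹ * ((γ 1 0 : ℂ) / denom γ z) * E₄ z)) := by
    ring
  rw [lhs, ← e12a, ← e12b]
  push_cast
  ring

theorem h3_bracket_slash (γ : SL(2, ℤ)) : h3_bracket ∣[(12 : ℤ)] γ = h3_bracket := by
  funext z
  rw [ModularForm.SL_slash_apply, h3_bracket_modular, mul_comm, ← mul_assoc,
    ← zpow_add₀ (denom_ne_zero γ z)]
  simp

theorem h3_bracket_mdiff : MDiff h3_bracket := by
  have h4 : MDiff (D (E₄ : ℍ → ℂ)) := normalizedDerivOfComplex_mdifferentiable (h3_mdiff E₄)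
  have h6 : MDiff (D (E₆ : ℍ → ℂ)) := normalizedDerivOfComplex_mdifferentiable (h3_mdiff E₆)
  have hc4 : MDiff (fun _ : ℍ => (4 : ℂ)) := mdifferentiable_const
  have hc6 : MDiff (fun _ : ℍ => (6 : ℂ)) := mdifferentiable_const
  exact ((hc4.mul (h3_mdiff E₄)).mul h6).sub ((hc6.mul (h3_mdiff E₆)).mul h4)

theorem h3_tendsto_bracket_div_q :
    Tendsto (fun τ : ℍ => h3_bracket τ / 𝕢 1 τ) atImInfty (𝓝 (-3456)) := by
  have h4 := h3_tendsto_modform E₄
  have h6 := h3_tendsto_modform E₆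
  rw [E_qExpansion_coeff_zero _ ⟨2, rfl⟩] at h4
  rw [E_qExpansion_coeff_zero _ ⟨3, rfl⟩] at h6
  have d4 := h3_tendsto_D_div_q E₄
  have d6 := h3_tendsto_D_div_q E₆
  rw [E₄_qExpansion_coeff_one] at d4
  rw [E₆_qExpansion_coeff_one] at d6
  have hlim := ((h4.const_mul 4).mul d6).sub ((h6.const_mul 6).mul d4)
  have hval : (4 : ℂ) * 1 * (-504) - 6 * 1 * 240 = -3456 := by norm_num
  rw [hval] at hlim
  refine hlim.congr fun τ => ?_
  unfold h3_bracket
  field_simp [Periodic.qParam_ne_zero (h := 1) (τ : ℂ)]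

theorem h3_bracket_isZeroAtImInfty : IsZeroAtImInfty h3_bracket := by
  have h1 := h3_tendsto_bracket_div_q.mul (qParam_tendsto_atImInfty one_pos)
  rw [mul_zero] at h1
  refine h1.congr fun τ => ?_
  field_simp [Periodic.qParam_ne_zero (h := 1) (τ : ℂ)]

/-- The bracket as a cusp form of weight 12. -/
noncomputable def h3_bracketCuspForm : CuspForm 𝒮ℒ 12 where
  toFun := h3_bracket
  slash_action_eq' A hA := by
    obtain ⟨A, rfl⟩ := hA
    exact h3_bracket_slash A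
  holo' := h3_bracket_mdiff
  zero_at_cusps' hc := by
    rw [Subgroup.IsArithmetic.isCusp_iff_isCusp_SL2Z] at hc
    rw [OnePoint.isZeroAt_iff_forall_SL2Z hc]
    intro γ _
    rw [h3_bracket_slash]
    exact h3_bracket_isZeroAtImInfty

/-- **Bracket identity**: `4 E₄ · D E₆ - 6 E₆ · D E₄ = -3456 Δ`. -/
theorem h3_bracket_eq (τ : ℍ) : h3_bracket τ = -3456 * Δ τ := by
  obtain ⟨c, hc⟩ := CuspForm.exists_smul_discriminant_of_weight_eq_twelve h3_bracketCuspForm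
  have hfun : ∀ z : ℍ, h3_bracket z = c * Δ z := by
    intro z
    have := congrArg (fun f : CuspForm 𝒮ℒ 12 => f z) hc
    exact this.symm
  have hlim : Tendsto (fun τ : ℍ => h3_bracket τ / 𝕢 1 τ) atImInfty (𝓝 (c * 1)) := by
    refine (h3_tendsto_discriminant_div_q.const_mul c).congr fun z => ?_
    rw [hfun z]; ring
  have hc' : c * 1 = -3456 := tendsto_nhds_unique hlim h3_tendsto_bracket_div_q
  rw [hfun τ, ← hc', mul_one]

end Fermat.Agent.Lib.X0
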