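/-
X0 project (S24), piece (A2) (helper3): the analytic `j`-function `jFun = E₄³/Δ`: invariance, `j(ρ) = 0`, `j(i) = 1728`, `D j = -E₄²E₆/Δ`, the order of `j - j(τ₀)` at `τ₀` is `3` at `ρ`, `2` at `i`, `1` at points with `j ≠ 0, 1728`, and `j` is surjective.
-/
import Mathlib
import Fermat.Agent.Lib.X0.Defs
import Fermat.Agent.Lib.X0.LevelOneBracket

set_option autoImplicit false

open UpperHalfPlane hiding I
open Complex ModularForm EisensteinSeries ModularGroup Filter Function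
open scoped MatrixGroups ModularForm Manifold Topology Real

namespace Fermat.Agent.Lib.X0

local notation "Δ" => ModularForm.discriminant
local notation "𝕢" => Periodic.qParam

open Derivative

theorem h3_discriminant_eqn (γ : SL(2, ℤ)) (z : ℍ) :
    Δ (γ • z) = (denom γ z) ^ (12 : ℤ) * Δ z := by
  have hγ : (Matrix.SpecialLinearGroup.mapGL ℝ γ) ∈ 𝒮ℒ := ⟨γ, rfl⟩
  exact SlashInvariantForm.slash_action_eqn'' CuspForm.discriminant hγ z

/-- `j` is `SL(2,ℤ)`-invariant. -/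
theorem h3_jFun_smul (γ : SL(2, ℤ)) (τ : ℍ) : jFun (γ • τ) = jFun τ := by
  unfold jFun
  rw [h3_modular_eqn E₄ γ τ, h3_discriminant_eqn γ τ]
  have hj : denom γ τ ≠ 0 := denom_ne_zero γ τ
  have hΔ : Δ τ ≠ 0 := discriminant_ne_zero τ
  have h12 : (denom γ τ ^ (4 : ℤ)) ^ 3 = denom γ τ ^ (12 : ℤ) := by
    rw [← zpow_natCast, ← zpow_mul]; norm_num
  have hj12 : denom γ τ ^ (12 : ℤ) ≠ 0 := zpow_ne_zero _ hj
  rw [mul_pow, h12]
  field_simp

/-- `E₄³ - 1728 Δ = E₆²`. -/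
theorem h3_E₄_cube_sub (τ : ℍ) : E₄ τ ^ 3 - 1728 * Δ τ = E₆ τ ^ 2 := by
  rw [discriminant_eq_E₄_cube_sub_E₆_sq]; ring

theorem h3_jFun_sub_1728 (τ : ℍ) : jFun τ - 1728 = E₆ τ ^ 2 / Δ τ := by
  unfold jFun
  have hΔ : Δ τ ≠ 0 := discriminant_ne_zero τ
  rw [← h3_E₄_cube_sub]
  field_simp

/-- `j(ρ) = 0`. -/
theorem h3_jFun_rho : jFun h3_rho = 0 := by
  unfold jFun
  rw [h3_E₄_rho]; simp

/-- `j(i) = 1728`. -/
theorem h3_jFun_I : jFun UpperHalfPlane.I = 1728 := by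
  have h := h3_jFun_sub_1728 UpperHalfPlane.I
  rw [h3_E₆_I] at h
  have : jFun UpperHalfPlane.I - 1728 = 0 := by rw [h]; simp
  linear_combination this

theorem h3_jFun_eq_zero_iff (τ : ℍ) : jFun τ = 0 ↔ E₄ τ = 0 := by
  unfold jFun
  rw [div_eq_zero_iff]
  constructor
  · rintro (h | h)
    · exact pow_eq_zero_iff (by norm_num) |>.mp h
    · exact absurd h (discriminant_ne_zero τ)
  · intro h; left; rw [h]; norm_num

theorem h3_jFun_eq_1728_iff (τ : ℍ) : jFun τ = 1728 ↔ E₆ τ = 0 := by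
  rw [← sub_eq_zero, h3_jFun_sub_1728, div_eq_zero_iff]
  constructor
  · rintro (h | h)
    · exact pow_eq_zero_iff (by norm_num) |>.mp h
    · exact absurd h (discriminant_ne_zero τ)
  · intro h; left; rw [h]; norm_num

theorem h3_analyticAt_of_mdiff {f : ℍ → ℂ} (hf : MDiff f) (τ : ℍ) :
    AnalyticAt ℂ (f ∘ ofComplex) (τ : ℂ) := by
  rw [UpperHalfPlane.mdifferentiable_iff] at hf
  exact hf.analyticAt (isOpen_upperHalfPlaneSet.mem_nhds τ.im_pos)

theorem h3_discriminant_mdiff : MDiff (Δ : ℍ → ℂ) := CuspForm.discriminant.holo'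

theorem h3_deriv_eq_D (f : ℍ → ℂ) (τ : ℍ) :
    deriv (f ∘ ofComplex) (τ : ℂ) = 2 * π * Complex.I * D f τ := by
  rw [normalizedDerivOfComplex]
  have h2pi : (2 * π * Complex.I : ℂ) ≠ 0 := by simp [Real.pi_ne_zero]
  field_simp

theorem h3_jFun_comp_eq : (jFun ∘ ofComplex) =
    (E₄ ∘ ofComplex) ^ 3 / (Δ ∘ ofComplex) := by
  funext z
  simp [jFun]

theorem h3_jFun_analyticAt (τ : ℍ) : AnalyticAt ℂ (jFun ∘ ofComplex) (τ : ℂ) := by
  rw [h3_jFun_comp_eq]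
  refine ((h3_analyticAt_of_mdiff (h3_mdiff E₄) τ).pow 3).div
    (h3_analyticAt_of_mdiff h3_discriminant_mdiff τ) ?_
  simp only [Function.comp_apply, ofComplex_apply]
  exact discriminant_ne_zero τ

theorem h3_jFun_mdiff : MDiff jFun := by
  rw [UpperHalfPlane.mdifferentiable_iff]
  intro z hz
  have := h3_jFun_analyticAt ⟨z, hz⟩
  exact this.differentiableAt.differentiableWithinAt

/-- `D E₄ (ρ) ≠ 0`: the zero of `E₄` at `ρ` is simple. -/
theorem h3_D_E₄_rho_ne_zero : D E₄ h3_rho ≠ 0 := by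
  intro h0
  have hb := h3_bracket_eq h3_rho
  unfold h3_bracket at hb
  rw [h3_E₄_rho, h0] at hb
  have hΔ : Δ h3_rho ≠ 0 := discriminant_ne_zero _
  apply hΔ
  have : (-3456 : ℂ) * Δ h3_rho = 0 := by rw [← hb]; ring
  simpa using this

/-- `D E₆ (i) ≠ 0`: the zero of `E₆` at `i` is simple. -/
theorem h3_D_E₆_I_ne_zero : D E₆ UpperHalfPlane.I ≠ 0 := by
  intro h0
  have hb := h3_bracket_eq UpperHalfPlane.I
  unfold h3_bracket at hb
  rw [h3_E₆_I, h0] at hb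
  have hΔ : Δ UpperHalfPlane.I ≠ 0 := discriminant_ne_zero _
  apply hΔ
  have : (-3456 : ℂ) * Δ UpperHalfPlane.I = 0 := by rw [← hb]; ring
  simpa using this

theorem h3_two_pi_I_ne_zero : (2 * π * Complex.I : ℂ) ≠ 0 := by simp [Real.pi_ne_zero]

theorem h3_order_E₄_rho : analyticOrderAt (E₄ ∘ ofComplex) (h3_rho : ℂ) = 1 := by
  apply (h3_analyticAt_of_mdiff (h3_mdiff E₄) h3_rho).analyticOrderAt_eq_one_of_zero_deriv_ne_zero
  · simp only [Function.comp_apply, ofComplex_apply]; exact h3_E₄_rho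
  · rw [h3_deriv_eq_D]
    exact mul_ne_zero h3_two_pi_I_ne_zero h3_D_E₄_rho_ne_zero

theorem h3_order_E₆_I : analyticOrderAt (E₆ ∘ ofComplex) ((UpperHalfPlane.I : ℍ) : ℂ) = 1 := by
  apply (h3_analyticAt_of_mdiff (h3_mdiff E₆)
    UpperHalfPlane.I).analyticOrderAt_eq_one_of_zero_deriv_ne_zero
  · simp only [Function.comp_apply, ofComplex_apply]; exact h3_E₆_I
  · rw [h3_deriv_eq_D]
    exact mul_ne_zero h3_two_pi_I_ne_zero h3_D_E₆_I_ne_zero

theorem h3_order_inv_discriminant (τ : ℍ) :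
    analyticOrderAt (Δ ∘ ofComplex)⁻¹ (τ : ℂ) = 0 := by
  have hΔ : (Δ ∘ ofComplex) (τ : ℂ) ≠ 0 := by
    simp only [Function.comp_apply, ofComplex_apply]; exact discriminant_ne_zero τ
  have han : AnalyticAt ℂ (Δ ∘ ofComplex)⁻¹ (τ : ℂ) :=
    (h3_analyticAt_of_mdiff h3_discriminant_mdiff τ).inv hΔ
  rw [han.analyticOrderAt_eq_zero]
  simpa using hΔ

/-- The order of `j` at `ρ` is `3`. -/
theorem h3_order_jFun_rho : analyticOrderAt (jFun ∘ ofComplex) (h3_rho : ℂ) = 3 := by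
  have hΔ : (Δ ∘ ofComplex) (h3_rho : ℂ) ≠ 0 := by
    simp only [Function.comp_apply, ofComplex_apply]; exact discriminant_ne_zero _
  have e : (jFun ∘ ofComplex) = (E₄ ∘ ofComplex) ^ 3 * (Δ ∘ ofComplex)⁻¹ := by
    rw [h3_jFun_comp_eq, div_eq_mul_inv]
  rw [e, analyticOrderAt_mul ((h3_analyticAt_of_mdiff (h3_mdiff E₄) h3_rho).pow 3)
    ((h3_analyticAt_of_mdiff h3_discriminant_mdiff h3_rho).inv hΔ),
    analyticOrderAt_pow (h3_analyticAt_of_mdiff (h3_mdiff E₄) h3_rho), h3_order_E₄_rho,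
    h3_order_inv_discriminant]
  rfl

/-- The order of `j - 1728` at `i` is `2`. -/
theorem h3_order_jFun_I :
    analyticOrderAt (fun z => (jFun ∘ ofComplex) z - 1728) ((UpperHalfPlane.I : ℍ) : ℂ) = 2 := by
  have hΔ : (Δ ∘ ofComplex) ((UpperHalfPlane.I : ℍ) : ℂ) ≠ 0 := by
    simp only [Function.comp_apply, ofComplex_apply]; exact discriminant_ne_zero _
  have e : (fun z => (jFun ∘ ofComplex) z - 1728) = (E₆ ∘ ofComplex) ^ 2 * (Δ ∘ ofComplex)⁻¹ := by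
    funext z
    simp only [Function.comp_apply, Pi.mul_apply, Pi.pow_apply, Pi.inv_apply]
    rw [h3_jFun_sub_1728, div_eq_mul_inv]
  rw [e, analyticOrderAt_mul ((h3_analyticAt_of_mdiff (h3_mdiff E₆) UpperHalfPlane.I).pow 2)
    ((h3_analyticAt_of_mdiff h3_discriminant_mdiff UpperHalfPlane.I).inv hΔ),
    analyticOrderAt_pow (h3_analyticAt_of_mdiff (h3_mdiff E₆) UpperHalfPlane.I), h3_order_E₆_I,
    h3_order_inv_discriminant]
  rfl

theorem h3_jFun_comp_eq' : (jFun ∘ ofComplex) =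
    fun z => 1728 * (E₄ ∘ ofComplex) z ^ 3 / ((E₄ ∘ ofComplex) z ^ 3 - (E₆ ∘ ofComplex) z ^ 2) := by
  funext z
  simp only [Function.comp_apply, jFun]
  rw [discriminant_eq_E₄_cube_sub_E₆_sq]
  have h := discriminant_ne_zero (ofComplex z)
  rw [discriminant_eq_E₄_cube_sub_E₆_sq] at h
  have h' : E₄ (ofComplex z) ^ 3 - E₆ (ofComplex z) ^ 2 ≠ 0 := by
    intro h0; apply h; rw [h0]; simp
  field_simp

/-- `D j = - E₄² E₆ / Δ`. -/
theorem h3_D_jFun (τ : ℍ) : D jFun τ = -(E₄ τ ^ 2 * E₆ τ) / Δ τ := by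
  have h4 : HasDerivAt (E₄ ∘ ofComplex) (2 * π * Complex.I * D E₄ τ) (τ : ℂ) := by
    rw [← h3_deriv_eq_D]
    exact (h3_analyticAt_of_mdiff (h3_mdiff E₄) τ).differentiableAt.hasDerivAt
  have h6 : HasDerivAt (E₆ ∘ ofComplex) (2 * π * Complex.I * D E₆ τ) (τ : ℂ) := by
    rw [← h3_deriv_eq_D]
    exact (h3_analyticAt_of_mdiff (h3_mdiff E₆) τ).differentiableAt.hasDerivAt
  have hΔ := discriminant_ne_zero τ
  have hΔeq := discriminant_eq_E₄_cube_sub_E₆_sq τ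
  have hden : (E₄ ∘ ofComplex) (τ : ℂ) ^ 3 - (E₆ ∘ ofComplex) (τ : ℂ) ^ 2 ≠ 0 := by
    simp only [Function.comp_apply, ofComplex_apply]
    intro h0; apply hΔ; rw [hΔeq, h0]; simp
  have hnum := ((h4.pow 3).const_mul (1728 : ℂ))
  have hd := (h4.pow 3).sub (h6.pow 2)
  have hquot := hnum.div hd hden
  have hfun : (jFun ∘ ofComplex) = (fun y => 1728 * ((E₄ ∘ ofComplex) ^ 3) y) /
      ((E₄ ∘ ofComplex) ^ 3 - (E₆ ∘ ofComplex) ^ 2) := by
    rw [h3_jFun_comp_eq']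
    funext z
    simp
  have hderiv := hquot.deriv
  rw [← hfun] at hderiv
  have hb := h3_bracket_eq τ
  unfold h3_bracket at hb
  rw [normalizedDerivOfComplex, hderiv]
  simp only [Pi.sub_apply, Pi.pow_apply, Function.comp_apply, ofComplex_apply] at hden ⊢
  have h2pi := h3_two_pi_I_ne_zero
  have hΔ' : E₄ τ ^ 3 - E₆ τ ^ 2 = 1728 * Δ τ := by rw [hΔeq]; ring
  rw [hΔ']
  generalize E₄ τ = a at *
  generalize E₆ τ = b at *
  generalize D (⇑E₄) τ = a' at *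
  generalize D (⇑E₆) τ = b' at *
  generalize Δ τ = d at *
  field_simp
  push_cast
  linear_combination (-3 * a ^ 2 * a') * hΔ' + (a ^ 2 * b / 2) * hb

/-- At a point with `j ≠ 0, 1728` the function `j - j(τ₀)` has a simple zero. -/
theorem h3_order_jFun_generic (τ₀ : ℍ) (h0 : jFun τ₀ ≠ 0) (h1 : jFun τ₀ ≠ 1728) :
    analyticOrderAt (fun z => (jFun ∘ ofComplex) z - jFun τ₀) (τ₀ : ℂ) = 1 := by
  have hder : deriv (jFun ∘ ofComplex) (τ₀ : ℂ) ≠ 0 := by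
    rw [h3_deriv_eq_D, h3_D_jFun]
    refine mul_ne_zero h3_two_pi_I_ne_zero ?_
    have h4 : E₄ τ₀ ≠ 0 := fun h => h0 ((h3_jFun_eq_zero_iff τ₀).mpr h)
    have h6 : E₆ τ₀ ≠ 0 := fun h => h1 ((h3_jFun_eq_1728_iff τ₀).mpr h)
    exact div_ne_zero (neg_ne_zero.mpr (mul_ne_zero (pow_ne_zero 2 h4) h6))
      (discriminant_ne_zero τ₀)
  have := (h3_jFun_analyticAt τ₀).analyticOrderAt_sub_eq_one_of_deriv_ne_zero hder
  simpa using this

/-- The weight 12 form `E₄³ - c Δ`. -/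
noncomputable def h3_gc (c : ℂ) : ℍ → ℂ := fun τ => E₄ τ ^ 3 - c * Δ τ

theorem h3_gc_modular (c : ℂ) (γ : SL(2, ℤ)) (z : ℍ) :
    h3_gc c (γ • z) = (denom γ z) ^ (12 : ℤ) * h3_gc c z := by
  unfold h3_gc
  rw [h3_modular_eqn E₄ γ z, h3_discriminant_eqn γ z]
  have h12 : (denom γ z ^ (4 : ℤ)) ^ 3 = denom γ z ^ (12 : ℤ) := by
    rw [← zpow_natCast, ← zpow_mul]; norm_num
  rw [mul_pow, h12]; ring

theorem h3_gc_eq (c : ℂ) (τ : ℍ) : h3_gc c τ = Δ τ * (jFun τ - c) := by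
  unfold h3_gc jFun
  have := discriminant_ne_zero τ
  field_simp

theorem h3_gc_mdiff (c : ℂ) : MDiff (h3_gc c) := by
  have hc : MDiff (fun _ : ℍ => c) := mdifferentiable_const
  exact ((h3_mdiff E₄).pow 3).sub (hc.mul h3_discriminant_mdiff)

theorem h3_gc_tendsto (c : ℂ) : Tendsto (h3_gc c) atImInfty (𝓝 1) := by
  have h4 := h3_tendsto_modform E₄
  rw [E_qExpansion_coeff_zero _ ⟨2, rfl⟩] at h4
  have hΔ : Tendsto (Δ : ℍ → ℂ) atImInfty (𝓝 0) := discriminant_isZeroAtImInfty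
  have := (h4.pow 3).sub (hΔ.const_mul c)
  simp only [one_pow, mul_zero, sub_zero] at this
  exact this

theorem h3_gc_inv_slash (c : ℂ) (hne : ∀ τ, h3_gc c τ ≠ 0) (γ : SL(2, ℤ)) :
    (fun τ => (h3_gc c τ)⁻¹) ∣[(-12 : ℤ)] γ = fun τ => (h3_gc c τ)⁻¹ := by
  funext z
  rw [ModularForm.SL_slash_apply, h3_gc_modular]
  have hj : denom γ z ≠ 0 := denom_ne_zero γ z
  have hj12 : denom γ z ^ (12 : ℤ) ≠ 0 := zpow_ne_zero _ hj
  have hg := hne z
  simp only [neg_neg]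
  field_simp

theorem h3_gc_inv_mdiff (c : ℂ) (hne : ∀ τ, h3_gc c τ ≠ 0) :
    MDiff (fun τ => (h3_gc c τ)⁻¹) := by
  have h := h3_gc_mdiff c
  rw [UpperHalfPlane.mdifferentiable_iff] at h ⊢
  have : ((fun τ => (h3_gc c τ)⁻¹) ∘ ofComplex) = (h3_gc c ∘ ofComplex)⁻¹ := by
    funext z; simp
  rw [this]
  exact h.inv fun z _ => hne _

/-- `E₄³ - cΔ` has a zero in the upper half plane. -/
theorem h3_gc_exists_zero (c : ℂ) : ∃ τ : ℍ, h3_gc c τ = 0 := by
  by_contra hcon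
  push Not at hcon
  let f : ModularForm 𝒮ℒ (-12) :=
    { toFun := fun τ => (h3_gc c τ)⁻¹
      slash_action_eq' := by
        intro A hA
        obtain ⟨A, rfl⟩ := hA
        exact h3_gc_inv_slash c hcon A
      holo' := h3_gc_inv_mdiff c hcon
      bdd_at_cusps' := by
        intro cusp hc
        rw [Subgroup.IsArithmetic.isCusp_iff_isCusp_SL2Z] at hc
        rw [OnePoint.isBoundedAt_iff_forall_SL2Z hc]
        intro γ _
        rw [h3_gc_inv_slash c hcon]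
        have ht : Tendsto (fun τ => (h3_gc c τ)⁻¹) atImInfty (𝓝 (1 : ℂ)⁻¹) :=
          (h3_gc_tendsto c).inv₀ one_ne_zero
        exact ht.isBigO_one ℝ }
  have hzero := ModularFormClass.levelOne_neg_weight_eq_zero (by norm_num : (-12 : ℤ) < 0) f
  have h1 : (h3_gc c UpperHalfPlane.I)⁻¹ = 0 := congrFun hzero UpperHalfPlane.I
  exact hcon _ (inv_eq_zero.mp h1)

/-- `j : ℍ → ℂ` is surjective. -/
theorem h3_jFun_surjective : Function.Surjective jFun := by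
  intro c
  obtain ⟨τ, hτ⟩ := h3_gc_exists_zero c
  refine ⟨τ, ?_⟩
  rw [h3_gc_eq] at hτ
  rcases mul_eq_zero.mp hτ with h | h
  · exact absurd h (discriminant_ne_zero τ)
  · linear_combination h

end Fermat.Agent.Lib.X0
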