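/-
X0 project (S24), piece (G1): places dictionary, part 2.

For a transcendental `t : F` with `F / k(t)` finite separable: `A = k[t]` (`h4A k t`),
`B` = integral closure of `A` in `F` (`h4B k t`), Dedekind instances (under
`[Fact (Transcendental k t)]`), the places of `F / k` with `0 ≤ ord t` are the height one primes
of `B`, those with `0 < ord t` are the primes over `(t)`, and (for `k` algebraically closed) the
fundamental identity `∑ ord_v t = [F : k(t)]`, all such places having degree one.
-/
import Fermat.Agent.Lib.X0.Places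

set_option autoImplicit false
set_option linter.deprecated false

open AlgebraicCurve IsDedekindDomain WithZero IntermediateField
open scoped IntermediateField.algebraAdjoinAdjoin

namespace Fermat.Agent.Lib.X0

section Setup

variable (k : Type*) {F : Type*} [Field k] [Field F] [Algebra k F]

/-- The polynomial ring `k[t]` inside `F`. -/
abbrev h4A (t : F) : Subalgebra k F := Algebra.adjoin k {t}

/-- The integral closure of `k[t]` in `F`. -/
abbrev h4B (t : F) : Subalgebra (h4A k t) F := integralClosure (h4A k t) F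

/-- `t` as an element of `k[t]`. -/
abbrev h4t (t : F) : h4A k t := ⟨t, Algebra.self_mem_adjoin_singleton k t⟩

variable {k}

theorem h4_isPrincipalIdealRing_A {t : F} (ht : Transcendental k t) :
    IsPrincipalIdealRing (h4A k t) :=
  IsPrincipalIdealRing.of_surjective
    (Polynomial.algEquivOfTranscendental k t ht).toRingEquiv.toRingHom
    (Polynomial.algEquivOfTranscendental k t ht).surjective

instance h4_isScalarTower_kBF (t : F) : IsScalarTower k (h4B k t) F :=
  IsScalarTower.of_algebraMap_eq fun _ => rfl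

theorem h4_irreducible_t {t : F} (ht : Transcendental k t) : Irreducible (h4t k t) := by
  have h := (MulEquiv.irreducible_iff (Polynomial.algEquivOfTranscendental k t ht).toMulEquiv).mpr
    (Polynomial.irreducible_X (R := k))
  convert h using 1
  simp [h4t]

theorem h4_isDedekindDomain_B {t : F} (ht : Transcendental k t) [FiniteDimensional k⟮t⟯ F]
    [Algebra.IsSeparable k⟮t⟯ F] : IsDedekindDomain (h4B k t) := by
  have := h4_isPrincipalIdealRing_A ht
  exact IsIntegralClosure.isDedekindDomain (h4A k t) k⟮t⟯ F (h4B k t)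

theorem h4_finite_B {t : F} (ht : Transcendental k t) [FiniteDimensional k⟮t⟯ F]
    [Algebra.IsSeparable k⟮t⟯ F] : Module.Finite (h4A k t) (h4B k t) := by
  have := h4_isPrincipalIdealRing_A ht
  exact IsIntegralClosure.finite (h4A k t) k⟮t⟯ F (h4B k t)

instance h4_isFractionRing_B (t : F) [FiniteDimensional k⟮t⟯ F] : IsFractionRing (h4B k t) F :=
  integralClosure.isFractionRing_of_finite_extension k⟮t⟯ F

/-- The valuation ring of a place, as a `k`-subalgebra of `F`. -/
def h4_placeSubalgebra (v : Place k F) : Subalgebra k F :=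
  { v.toValuationSubring.toSubring with algebraMap_mem' := v.algebraMap_mem' }

theorem h4_mem_placeSubalgebra (v : Place k F) (f : F) :
    f ∈ h4_placeSubalgebra v ↔ f ∈ v.toValuationSubring := Iff.rfl

theorem h4_A_le_place {t : F} (v : Place k F) (hv : t ∈ v.toValuationSubring) :
    h4A k t ≤ h4_placeSubalgebra v :=
  Algebra.adjoin_le (by
    intro x hx
    rw [Set.mem_singleton_iff] at hx
    rw [hx]
    exact hv)

/-- The valuation ring of a place containing `t` contains the integral closure of `k[t]`. -/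
theorem h4_B_le_place {t : F} (v : Place k F) (hv : t ∈ v.toValuationSubring) (b : h4B k t) :
    (b : F) ∈ v.toValuationSubring := by
  have hA : ∀ a : h4A k t, (a : F) ∈ v.toValuationSubring := fun a => h4_A_le_place v hv a.2
  let _ : Algebra (h4A k t) v.toValuationSubring :=
    ((algebraMap (h4A k t) F).codRestrict v.toValuationSubring.toSubring hA).toAlgebra
  have : IsScalarTower (h4A k t) v.toValuationSubring F :=
    IsScalarTower.of_algebraMap_eq fun _ => rfl
  have hb : IsIntegral (h4A k t) (b : F) := b.2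
  have hb' : IsIntegral v.toValuationSubring (b : F) := hb.tower_top
  obtain ⟨y, hy⟩ := IsIntegrallyClosed.isIntegral_iff.mp hb'
  rw [← hy]
  exact y.2



/-- Elements of the valuation ring of a place have nonnegative order. -/
theorem h4_ord_nonneg_of_mem (v : Place k F) {f : F} (hf : f ∈ v.toValuationSubring) :
    0 ≤ v.ord f := by
  rcases eq_or_ne f 0 with rfl | hf0
  · simp
  obtain ⟨π, hπ⟩ := IsDiscreteValuationRing.exists_irreducible v.toValuationSubring
  obtain ⟨n, u, hu⟩ :=
    IsDiscreteValuationRing.eq_unit_mul_pow_irreducible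
      (x := (⟨f, hf⟩ : v.toValuationSubring)) (by simpa [Subtype.ext_iff] using hf0) hπ
  have hcoe : f = ((u : v.toValuationSubring) : F) * ((π : F) ^ (n : ℤ)) := by
    have h := congrArg (Subtype.val) hu
    push_cast at h
    rw [zpow_natCast]
    exact h
  rw [hcoe, v.ord_unit_smul_zpow u hπ (n : ℤ)]
  exact Int.natCast_nonneg n

/-- Nonzero elements of nonnegative order lie in the valuation ring. -/
theorem h4_mem_of_ord_nonneg (v : Place k F) {f : F} (h : 0 ≤ v.ord f) :
    f ∈ v.toValuationSubring := by
  rcases eq_or_ne f 0 with rfl | hf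
  · exact zero_mem _
  obtain ⟨π, hπ⟩ := IsDiscreteValuationRing.exists_irreducible v.toValuationSubring
  obtain ⟨u, hu⟩ := v.exists_unit_mul_zpow hf hπ
  rw [hu, show v.ord f = (((v.ord f).toNat : ℕ) : ℤ) from (Int.toNat_of_nonneg h).symm,
    zpow_natCast]
  exact mul_mem (u : v.toValuationSubring).2 (pow_mem (π : v.toValuationSubring).2 _)

section Fact

variable (t : F) [hT : Fact (Transcendental k t)]

instance h4_inst_isPrincipalIdealRing_A : IsPrincipalIdealRing (h4A k t) :=
  h4_isPrincipalIdealRing_A hT.out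

/-- The prime `(t)` of `k[t]`. -/
noncomputable def h4_pt : HeightOneSpectrum (h4A k t) where
  asIdeal := Ideal.span {h4t k t}
  isPrime := (Ideal.span_singleton_prime (h4_irreducible_t hT.out).ne_zero).mpr
    (h4_irreducible_t hT.out).prime
  ne_bot := by
    rw [ne_eq, Ideal.span_singleton_eq_bot]
    exact (h4_irreducible_t hT.out).ne_zero

theorem h4_pt_isMaximal : (h4_pt (k := k) t).asIdeal.IsMaximal :=
  (h4_pt (k := k) t).isMaximal

theorem h4_intValuation_pt : (h4_pt (k := k) t).intValuation (h4t k t) = exp (-1 : ℤ) :=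
  HeightOneSpectrum.intValuation_singleton _ (h4_irreducible_t hT.out).ne_zero rfl

variable [FiniteDimensional k⟮t⟯ F] [Algebra.IsSeparable k⟮t⟯ F]

instance h4_inst_isDedekindDomain_B : IsDedekindDomain (h4B k t) :=
  h4_isDedekindDomain_B hT.out

instance h4_inst_finite_B : Module.Finite (h4A k t) (h4B k t) :=
  h4_finite_B hT.out

omit [FiniteDimensional k⟮t⟯ F] [Algebra.IsSeparable k⟮t⟯ F] in
/-- A prime of `B` lies over `(t)` iff it contains `t`. -/
theorem h4_liesOver_iff (P : HeightOneSpectrum (h4B k t)) :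
    P.asIdeal.LiesOver (h4_pt (k := k) t).asIdeal ↔
      algebraMap (h4A k t) (h4B k t) (h4t k t) ∈ P.asIdeal := by
  constructor
  · intro h
    have : h4t k t ∈ (h4_pt (k := k) t).asIdeal := Ideal.subset_span rfl
    rw [h.over, Ideal.under_def] at this
    exact this
  · intro h
    refine ⟨?_⟩
    have hle : (h4_pt (k := k) t).asIdeal ≤ P.asIdeal.under (h4A k t) := by
      rw [h4_pt, Ideal.span_singleton_le_iff_mem, Ideal.under_def]
      exact h
    have hne : P.asIdeal.under (h4A k t) ≠ ⊤ := by
      have : (P.asIdeal.under (h4A k t)).IsPrime := Ideal.IsPrime.under _ _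
      exact this.ne_top
    exact (h4_pt_isMaximal (k := k) t).eq_of_le hne hle

/-- The ramification index over `(t)` is the order of `t`. -/
theorem h4_ramificationIdx_eq (P : HeightOneSpectrum (h4B k t))
    (hP : algebraMap (h4A k t) (h4B k t) (h4t k t) ∈ P.asIdeal) :
    (((h4_pt (k := k) t).asIdeal.ramificationIdx' P.asIdeal : ℕ) : ℤ)
      = (h4_placeOfPrime (k := k) (F := F) P).ord t := by
  have hlies : P.asIdeal.LiesOver (h4_pt (k := k) t).asIdeal := (h4_liesOver_iff t P).mpr hP
  have h := HeightOneSpectrum.intValuation_liesOver (h4_pt (k := k) t) P (h4t k t)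
  rw [h4_intValuation_pt, ← WithZero.exp_nsmul] at h
  rw [h4_placeOfPrime_ord]
  have h2 : P.valuation F t = P.intValuation (algebraMap (h4A k t) (h4B k t) (h4t k t)) := by
    rw [← HeightOneSpectrum.valuation_of_algebraMap (K := F)]
    rfl
  rw [h2, ← h, WithZero.log_exp]
  simp


/-- `t ∈ P` iff `t` has positive order at the place of `P`. -/
theorem h4_mem_prime_iff_ord_pos (P : HeightOneSpectrum (h4B k t)) :
    algebraMap (h4A k t) (h4B k t) (h4t k t) ∈ P.asIdeal ↔
      0 < (h4_placeOfPrime (k := k) (F := F) P).ord t := by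
  rw [h4_placeOfPrime_ord]
  have h2 : P.valuation F t
      = P.valuation F (algebraMap (h4B k t) F (algebraMap (h4A k t) (h4B k t) (h4t k t))) := rfl
  rw [← P.valuation_lt_one_iff_mem (K := F), ← h2]
  have ht0 : t ≠ 0 := fun h0 => by
    have := hT.out
    rw [h0] at this
    exact this (isAlgebraic_zero)
  have hne : P.valuation F t ≠ 0 := (Valuation.ne_zero_iff _).mpr ht0
  constructor
  · intro h
    rw [← WithZero.exp_log hne, ← WithZero.exp_zero, WithZero.exp_lt_exp] at h
    omega
  · intro h
    rw [← WithZero.exp_log hne, ← WithZero.exp_zero, WithZero.exp_lt_exp]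
    omega

/-- Every place whose valuation ring contains `t` comes from a prime of `B`. -/
theorem h4_exists_prime_of_mem (v : Place k F) (hv : t ∈ v.toValuationSubring) :
    ∃ P : HeightOneSpectrum (h4B k t), h4_placeOfPrime (k := k) (F := F) P = v :=
  h4_exists_prime_of_le v (fun b => h4_B_le_place v hv b)

/-- Elements of `k[t]` are constant modulo a prime containing `t`. -/
theorem h4_A_mod_P (P : HeightOneSpectrum (h4B k t))
    (hP : algebraMap (h4A k t) (h4B k t) (h4t k t) ∈ P.asIdeal) (a : h4A k t) :
    ∃ c : k, Ideal.Quotient.mk P.asIdeal (algebraMap (h4A k t) (h4B k t) a)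
      = algebraMap k (h4B k t ⧸ P.asIdeal) c := by
  obtain ⟨a, ha⟩ := a
  induction ha using Algebra.adjoin_induction with
  | mem x hx =>
    rw [Set.mem_singleton_iff] at hx
    subst hx
    refine ⟨0, ?_⟩
    rw [map_zero, Ideal.Quotient.eq_zero_iff_mem]
    exact hP
  | algebraMap c => exact ⟨c, rfl⟩
  | add x y hx hy hx' hy' =>
    obtain ⟨c, hc⟩ := hx'
    obtain ⟨d, hd⟩ := hy'
    refine ⟨c + d, ?_⟩
    have e : (⟨x + y, Subalgebra.add_mem _ hx hy⟩ : h4A k t) = ⟨x, hx⟩ + ⟨y, hy⟩ := rfl
    rw [e, RingHom.map_add, RingHom.map_add, hc, hd, RingHom.map_add]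
  | mul x y hx hy hx' hy' =>
    obtain ⟨c, hc⟩ := hx'
    obtain ⟨d, hd⟩ := hy'
    refine ⟨c * d, ?_⟩
    have e : (⟨x * y, Subalgebra.mul_mem _ hx hy⟩ : h4A k t) = ⟨x, hx⟩ * ⟨y, hy⟩ := rfl
    rw [e, RingHom.map_mul, RingHom.map_mul, hc, hd, RingHom.map_mul]

/-- Nonzero constants are units at every place. -/
theorem h4_valuation_const (P : HeightOneSpectrum (h4B k t)) {c : k} (hc : c ≠ 0) :
    P.valuation F (algebraMap k F c) = 1 := by
  have h1 : P.valuation F (algebraMap k F c) ≤ 1 := by
    rw [IsScalarTower.algebraMap_apply k (h4B k t) F]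
    exact P.valuation_le_one _
  have h2 : P.valuation F (algebraMap k F c⁻¹) ≤ 1 := by
    rw [IsScalarTower.algebraMap_apply k (h4B k t) F]
    exact P.valuation_le_one _
  have h3 : P.valuation F (algebraMap k F c) * P.valuation F (algebraMap k F c⁻¹) = 1 := by
    rw [← map_mul, ← map_mul, mul_inv_cancel₀ hc, map_one, map_one]
  refine le_antisymm h1 ?_
  by_contra hlt
  rw [not_le] at hlt
  have : P.valuation F (algebraMap k F c) * P.valuation F (algebraMap k F c⁻¹) < 1 :=
    calc _ ≤ P.valuation F (algebraMap k F c) * 1 := mul_le_mul' le_rfl h2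
      _ = P.valuation F (algebraMap k F c) := mul_one _
      _ < 1 := hlt
  rw [h3] at this
  exact lt_irrefl _ this

/-- Every place at which `t` has nonnegative order comes from a unique prime of `B`. -/
theorem h4_existsUnique_prime_of_ord_nonneg (v : Place k F) (hv : 0 ≤ v.ord t) :
    ∃! P : HeightOneSpectrum (h4B k t), h4_placeOfPrime (k := k) (F := F) P = v := by
  obtain ⟨P, hP⟩ := h4_exists_prime_of_mem t v (h4_mem_of_ord_nonneg v hv)
  exact ⟨P, hP, fun Q hQ => h4_placeOfPrime_injective (hQ.trans hP.symm)⟩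

section AlgClosed

variable [IsAlgClosed k]

/-- The residue field of a prime over `(t)` is `k`. -/
theorem h4_residue_surjective (P : HeightOneSpectrum (h4B k t))
    (hP : algebraMap (h4A k t) (h4B k t) (h4t k t) ∈ P.asIdeal) :
    Function.Surjective (algebraMap k (h4B k t ⧸ P.asIdeal)) := by
  have hmax : P.asIdeal.IsMaximal := P.isMaximal
  have : Algebra.IsIntegral k (h4B k t ⧸ P.asIdeal) := by
    refine ⟨fun x => ?_⟩
    obtain ⟨b, rfl⟩ := Ideal.Quotient.mk_surjective x
    obtain ⟨p, hpm, hpb⟩ : IsIntegral (h4A k t) b := Algebra.IsIntegral.isIntegral b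
    set φ : h4A k t →+* (h4B k t ⧸ P.asIdeal) :=
      (Ideal.Quotient.mk P.asIdeal).comp (algebraMap (h4A k t) (h4B k t)) with hφ
    have hlift : p.map φ ∈ Polynomial.lifts (algebraMap k (h4B k t ⧸ P.asIdeal)) := by
      rw [Polynomial.lifts_iff_coeff_lifts]
      intro n
      rw [Polynomial.coeff_map]
      obtain ⟨c, hc⟩ := h4_A_mod_P t P hP (p.coeff n)
      exact ⟨c, hc.symm⟩
    obtain ⟨q, hq, -, hqm⟩ :=
      Polynomial.lifts_and_natDegree_eq_and_monic hlift (hpm.map φ)
    refine ⟨q, hqm, ?_⟩
    rw [← Polynomial.eval_map, hq, Polynomial.eval_map, hφ, ← Polynomial.hom_eval₂, hpb, map_zero]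
  exact (IsAlgClosed.algebraMap_bijective_of_isIntegral).2


theorem h4_finrank_eq_one_of_surjective {K L : Type*} [Field K] [Field L] [Algebra K L]
    (h : Function.Surjective (algebraMap K L)) : Module.finrank K L = 1 := by
  have hbij : Function.Bijective (Algebra.ofId K L) := ⟨(algebraMap K L).injective, h⟩
  have e := (AlgEquiv.ofBijective (Algebra.ofId K L) hbij).toLinearEquiv.finrank_eq
  rw [Module.finrank_self] at e
  exact e.symm

/-- The inertia degree of a prime over `(t)` is one. -/
theorem h4_inertiaDeg_eq_one (P : HeightOneSpectrum (h4B k t))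
    (hP : algebraMap (h4A k t) (h4B k t) (h4t k t) ∈ P.asIdeal) :
    (h4_pt (k := k) t).asIdeal.inertiaDeg' P.asIdeal = 1 := by
  have hlies : P.asIdeal.LiesOver (h4_pt (k := k) t).asIdeal := (h4_liesOver_iff t P).mpr hP
  have hmaxP : P.asIdeal.IsMaximal := P.isMaximal
  have hmaxp : (h4_pt (k := k) t).asIdeal.IsMaximal := h4_pt_isMaximal t
  rw [Ideal.inertiaDeg'_algebraMap]
  let _ : Field (h4A k t ⧸ (h4_pt (k := k) t).asIdeal) := Ideal.Quotient.field _
  let _ : Field (h4B k t ⧸ P.asIdeal) := Ideal.Quotient.field _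
  apply h4_finrank_eq_one_of_surjective
  intro y
  obtain ⟨c, hc⟩ := h4_residue_surjective t P hP y
  refine ⟨Ideal.Quotient.mk _ (algebraMap k (h4A k t) c), ?_⟩
  rw [← hc]
  rfl


/-- Every element of `B` is congruent to a constant modulo a prime over `(t)`. -/
theorem h4_B_mod_P (P : HeightOneSpectrum (h4B k t))
    (hP : algebraMap (h4A k t) (h4B k t) (h4t k t) ∈ P.asIdeal) (b : h4B k t) :
    ∃ c : k, P.valuation F ((b : F) - algebraMap k F c) < 1 := by
  obtain ⟨c, hc⟩ := h4_residue_surjective t P hP (Ideal.Quotient.mk P.asIdeal b)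
  refine ⟨c, ?_⟩
  have hmem : b - algebraMap k (h4B k t) c ∈ P.asIdeal := by
    rw [← Ideal.Quotient.eq]
    exact hc.symm
  exact (P.valuation_lt_one_iff_mem (K := F) _).mpr hmem

/-- Every element of the valuation ring of a prime over `(t)` is congruent to a constant. -/
theorem h4_O_mod_P (P : HeightOneSpectrum (h4B k t))
    (hP : algebraMap (h4A k t) (h4B k t) (h4t k t) ∈ P.asIdeal) (f : F)
    (hf : P.valuation F f ≤ 1) :
    ∃ c : k, P.valuation F (f - algebraMap k F c) < 1 := by
  obtain ⟨n, ⟨d, hd⟩, hnd⟩ := P.exists_primeCompl_mul_eq_of_integer f hf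
  obtain ⟨cn, hcn⟩ := h4_B_mod_P t P hP n
  obtain ⟨cd, hcd⟩ := h4_B_mod_P t P hP d
  have hdval : P.valuation F (algebraMap (h4B k t) F d) = 1 := by
    rw [HeightOneSpectrum.valuation_of_algebraMap]
    exact (P.intValuation_eq_one_iff_mem_primeCompl d).mpr hd
  have hcd0 : cd ≠ 0 := by
    rintro rfl
    rw [map_zero, sub_zero] at hcd
    have : P.valuation F (algebraMap (h4B k t) F d) < 1 := hcd
    rw [hdval] at this
    exact lt_irrefl _ this
  refine ⟨cn / cd, ?_⟩
  have hcdv := h4_valuation_const t P hcd0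
  have e : f - algebraMap k F (cn / cd)
      = ((algebraMap (h4B k t) F n - algebraMap k F cn)
          - f * (algebraMap (h4B k t) F d - algebraMap k F cd)) * (algebraMap k F cd)⁻¹ := by
    have hcdF : algebraMap k F cd ≠ 0 := by
      intro h0
      rw [h0, map_zero] at hcdv
      exact zero_ne_one hcdv
    rw [map_div₀]
    field_simp
    rw [← hnd]
    ring
  rw [e, map_mul, map_inv₀, hcdv, inv_one, mul_one]
  apply Valuation.map_sub_lt _ hcn
  rw [map_mul]
  calc P.valuation F f * P.valuation F (algebraMap (h4B k t) F d - algebraMap k F cd)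
      ≤ 1 * P.valuation F (algebraMap (h4B k t) F d - algebraMap k F cd) :=
        mul_le_mul' hf le_rfl
    _ = P.valuation F (algebraMap (h4B k t) F d - algebraMap k F cd) := one_mul _
    _ < 1 := hcd

/-- Places over `t = 0` have degree one (`k` algebraically closed). -/
theorem h4_deg_placeOfPrime (P : HeightOneSpectrum (h4B k t))
    (hP : algebraMap (h4A k t) (h4B k t) (h4t k t) ∈ P.asIdeal) :
    (h4_placeOfPrime (k := k) (F := F) P).deg = 1 := by
  unfold Place.deg
  apply h4_finrank_eq_one_of_surjective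
  intro x
  obtain ⟨f, rfl⟩ := IsLocalRing.residue_surjective x
  obtain ⟨c, hc⟩ := h4_O_mod_P t P hP (f : F) f.2
  refine ⟨c, ?_⟩
  have hmem : f - algebraMap k (h4_placeOfPrime (k := k) (F := F) P).toValuationSubring c
      ∈ IsLocalRing.maximalIdeal (h4_placeOfPrime (k := k) (F := F) P).toValuationSubring := by
    rw [IsLocalRing.mem_maximalIdeal, mem_nonunits_iff]
    intro hu
    obtain ⟨g, hg⟩ := isUnit_iff_exists_inv.mp hu
    have hg' : ((f : F) - algebraMap k F c) * (g : F) = 1 := by
      have := congrArg Subtype.val hg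
      simpa using this
    have hgv : P.valuation F (g : F) ≤ 1 := g.2
    have h1 : P.valuation F ((f : F) - algebraMap k F c) * P.valuation F (g : F) = 1 := by
      rw [← map_mul, hg', map_one]
    have : P.valuation F ((f : F) - algebraMap k F c) * P.valuation F (g : F) < 1 :=
      calc _ ≤ P.valuation F ((f : F) - algebraMap k F c) * 1 := mul_le_mul' le_rfl hgv
        _ = _ := mul_one _
        _ < 1 := hc
    rw [h1] at this
    exact lt_irrefl _ this
  show IsLocalRing.residue _ (algebraMap k _ c) = IsLocalRing.residue _ f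
  symm
  rw [← sub_eq_zero, ← map_sub, IsLocalRing.residue_eq_zero_iff]
  exact hmem


/-- **Fundamental identity** for the places over `t = 0`: they form a finite set, all have
degree one, and the orders of `t` add up to `[F : k(t)]`. -/
theorem h4_fundamental_identity :
    ∃ S : Finset (Place k F), (∀ v : Place k F, v ∈ S ↔ 0 < v.ord t) ∧
      (∑ v ∈ S, v.ord t = (Module.finrank k⟮t⟯ F : ℤ)) ∧ ∀ v ∈ S, v.deg = 1 := by
  classical
  have ht0 : t ≠ 0 := fun h0 => by
    have := hT.out
    rw [h0] at this
    exact this (isAlgebraic_zero)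
  have hmaxp : (h4_pt (k := k) t).asIdeal.IsMaximal := h4_pt_isMaximal t
  have hp0 : (h4_pt (k := k) t).asIdeal ≠ ⊥ := (h4_pt (k := k) t).ne_bot
  have hsum := Ideal.sum_ramification_inertia (h4B k t) k⟮t⟯ F hp0
  -- the map from primes over `(t)` to places
  have hmem : ∀ P ∈ IsDedekindDomain.primesOverFinset (h4_pt (k := k) t).asIdeal (h4B k t),
      P.IsPrime ∧ P.LiesOver (h4_pt (k := k) t).asIdeal := fun P hP =>
    (IsDedekindDomain.mem_primesOverFinset_iff hp0 _).mp hP
  let toH : {P // P ∈ IsDedekindDomain.primesOverFinset (h4_pt (k := k) t).asIdeal (h4B k t)} →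
      HeightOneSpectrum (h4B k t) := fun P =>
    ⟨P.1, (hmem P.1 P.2).1, by
      have h1 := (hmem P.1 P.2).2
      intro hbot
      have h2 : h4t k t ∈ (h4_pt (k := k) t).asIdeal := Ideal.subset_span rfl
      rw [h1.over, Ideal.under_def, hbot, Ideal.mem_comap, Ideal.mem_bot] at h2
      have h3 : (algebraMap (h4B k t) F) (algebraMap (h4A k t) (h4B k t) (h4t k t)) = 0 := by
        rw [h2, map_zero]
      exact ht0 h3⟩
  have htoH : ∀ P, algebraMap (h4A k t) (h4B k t) (h4t k t) ∈ (toH P).asIdeal := fun P =>
    (h4_liesOver_iff t (toH P)).mp (hmem P.1 P.2).2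
  let g : {P // P ∈ IsDedekindDomain.primesOverFinset (h4_pt (k := k) t).asIdeal (h4B k t)} →
      Place k F := fun P => h4_placeOfPrime (k := k) (F := F) (toH P)
  have hg : Function.Injective g := by
    intro P Q h
    have := h4_placeOfPrime_injective h
    exact Subtype.ext (congrArg HeightOneSpectrum.asIdeal this)
  refine ⟨Finset.image g Finset.univ, ?_, ?_, ?_⟩
  · intro v
    constructor
    · intro hv
      obtain ⟨P, -, rfl⟩ := Finset.mem_image.mp hv
      exact (h4_mem_prime_iff_ord_pos t (toH P)).mp (htoH P)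
    · intro hv
      have hvmem : t ∈ v.toValuationSubring := by
        by_contra hnot
        have hinv : t⁻¹ ∈ v.toValuationSubring :=
          (v.toValuationSubring.mem_or_inv_mem t).resolve_left hnot
        have := h4_ord_nonneg_of_mem v hinv
        rw [v.ord_inv] at this
        omega
      obtain ⟨P, rfl⟩ := h4_exists_prime_of_mem t v hvmem
      have hP := (h4_mem_prime_iff_ord_pos t P).mpr hv
      have hlies := (h4_liesOver_iff t P).mpr hP
      have hPmem : P.asIdeal ∈
          IsDedekindDomain.primesOverFinset (h4_pt (k := k) t).asIdeal (h4B k t) :=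
        (IsDedekindDomain.mem_primesOverFinset_iff hp0 _).mpr ⟨P.isPrime, hlies⟩
      refine Finset.mem_image.mpr ⟨⟨P.asIdeal, hPmem⟩, Finset.mem_univ _, ?_⟩
      rfl
  · rw [Finset.sum_image (fun P _ Q _ h => hg h)]
    have h1 : ∑ P ∈ (Finset.univ : Finset {P // P ∈
          IsDedekindDomain.primesOverFinset (h4_pt (k := k) t).asIdeal (h4B k t)}), (g P).ord t
        = ∑ P : {P // P ∈
          IsDedekindDomain.primesOverFinset (h4_pt (k := k) t).asIdeal (h4B k t)},
            (((h4_pt (k := k) t).asIdeal.ramificationIdx' P.1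
              * (h4_pt (k := k) t).asIdeal.inertiaDeg' P.1 : ℕ) : ℤ) := by
      refine Finset.sum_congr rfl fun P _ => ?_
      have hi : (h4_pt (k := k) t).asIdeal.inertiaDeg' P.1 = 1 :=
        h4_inertiaDeg_eq_one t (toH P) (htoH P)
      rw [hi, mul_one]
      exact (h4_ramificationIdx_eq t (toH P) (htoH P)).symm
    rw [h1, Finset.sum_coe_sort
      (IsDedekindDomain.primesOverFinset (h4_pt (k := k) t).asIdeal (h4B k t))
      (fun P => (((h4_pt (k := k) t).asIdeal.ramificationIdx' P
              * (h4_pt (k := k) t).asIdeal.inertiaDeg' P : ℕ) : ℤ)), ← Nat.cast_sum, hsum]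
  · intro v hv
    obtain ⟨P, -, rfl⟩ := Finset.mem_image.mp hv
    exact h4_deg_placeOfPrime t (toH P) (htoH P)

end AlgClosed

end Fact

end Setup
end Fermat.Agent.Lib.X0
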