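/-
X0 project (S24), piece (G1): places dictionary, part 3: proof of `PlacesStatement`.
-/
import Fermat.Agent.Lib.X0.PlacesOver
import Fermat.Agent.Lib.X0.Defs

set_option autoImplicit false
set_option linter.deprecated false

open AlgebraicCurve IsDedekindDomain WithZero IntermediateField
open scoped IntermediateField.algebraAdjoinAdjoin

namespace Fermat.Agent.Lib.X0

section Finiteness

universe u v
variable {k : Type u} {F : Type v} [Field k] [Field F] [Algebra k F]

/-- In a function field of one variable, `F` is algebraic over `k(t)` for every transcendental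
`t`. -/
theorem h4_isAlgebraic_of_transcendental {x t : F}
    (hfin : Algebra.IsAlgebraic k⟮x⟯ F) (ht : Transcendental k t) :
    Algebra.IsAlgebraic k⟮t⟯ F := by
  have halg : Algebra.IsAlgebraic (Algebra.adjoin k ({x} : Set F)) F :=
    Algebra.IsAlgebraic.trans (Algebra.adjoin k ({x} : Set F)) k⟮x⟯ F
  have htr : Algebra.trdeg k F ≤ 1 := by
    have := Algebra.IsAlgebraic.trdeg_le_cardinalMk k ({x} : Set F)
    simpa using this
  have hind : AlgebraicIndependent k (fun _ : PUnit.{v+1} => t) :=
    (algebraicIndependent_unique_type_iff (ι := PUnit.{v+1})).mpr ht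
  have hbasis : IsTranscendenceBasis k (fun _ : PUnit.{v+1} => t) :=
    hind.isTranscendenceBasis_of_trdeg_le_of_finite (by simpa using htr)
  have := hbasis.isAlgebraic_field
  have hrange : Set.range (fun _ : PUnit.{v+1} => t) = {t} := by
    ext y; simp [eq_comm]
  rwa [hrange] at this

/-- In a function field of one variable, `F` is finite over `k(t)` for every transcendental
`t`. -/
theorem h4_finiteDimensional_of_transcendental {x t : F}
    (hfin : FiniteDimensional k⟮x⟯ F) (ht : Transcendental k t) :
    FiniteDimensional k⟮t⟯ F := by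
  have halg : Algebra.IsAlgebraic k⟮t⟯ F :=
    h4_isAlgebraic_of_transcendental (x := x) inferInstance ht
  have h1 : Algebra.EssFiniteType k k⟮x⟯ :=
    IntermediateField.essFiniteType_iff.mpr
      (IntermediateField.fg_adjoin_of_finite (Set.finite_singleton x))
  have h2 : Algebra.EssFiniteType k⟮x⟯ F := inferInstance
  have h3 : Algebra.EssFiniteType k F := Algebra.EssFiniteType.comp k k⟮x⟯ F
  have h4 : Algebra.EssFiniteType k⟮t⟯ F := Algebra.EssFiniteType.of_comp k k⟮t⟯ F
  exact Algebra.finite_of_essFiniteType_of_isAlgebraic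

end Finiteness

section Basics

variable {k F : Type*} [Field k] [Field F] [Algebra k F]

/-- Constants have order zero at every place. -/
theorem h4_ord_const (v : Place k F) (c : k) : v.ord (algebraMap k F c) = 0 := by
  rcases eq_or_ne c 0 with rfl | hc
  · simp
  have h1 := h4_ord_nonneg_of_mem v (v.algebraMap_mem' c)
  have h2 := h4_ord_nonneg_of_mem v (v.algebraMap_mem' c⁻¹)
  rw [map_inv₀, v.ord_inv] at h2
  omega

/-- Over an algebraically closed field, algebraic elements are constants. -/
theorem h4_const_of_algebraic [IsAlgClosed k] {f : F} (hf : IsAlgebraic k f) :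
    ∃ c : k, algebraMap k F c = f := by
  have hint : IsIntegral k f := hf.isIntegral
  have hirr := minpoly.irreducible hint
  have hdeg := IsAlgClosed.degree_eq_one_of_irreducible k hirr
  exact minpoly.mem_range_of_degree_eq_one k f hdeg

/-- A nonzero element of the valuation ring has positive order iff it is a nonunit. -/
theorem h4_ord_pos_iff (v : Place k F) (f : v.toValuationSubring) (hf : f ≠ 0) :
    0 < v.ord (f : F) ↔ f ∈ IsLocalRing.maximalIdeal v.toValuationSubring := by
  rw [IsLocalRing.mem_maximalIdeal, mem_nonunits_iff]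
  constructor
  · intro h hu
    have := v.ord_coe_unit hu.unit
    rw [IsUnit.unit_spec] at this
    omega
  · intro hnu
    have hf' : (f : F) ≠ 0 := fun h => hf (Subtype.ext h)
    have h0 : 0 ≤ v.ord (f : F) := h4_ord_nonneg_of_mem v f.2
    rcases h0.lt_or_eq with h | h
    · exact h
    · exfalso
      obtain ⟨π, hπ⟩ := IsDiscreteValuationRing.exists_irreducible v.toValuationSubring
      obtain ⟨u, hu⟩ := v.exists_unit_mul_zpow hf' hπ
      rw [← h, zpow_zero, mul_one] at hu
      apply hnu
      have : f = (u : v.toValuationSubring) := Subtype.ext hu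
      rw [this]
      exact u.isUnit

/-- Elements of positive order lie in the valuation ring and are nonunits there. -/
theorem h4_mem_maximalIdeal_of_ord_pos (v : Place k F) {f : F} (h : 0 < v.ord f) :
    ∃ hf : f ∈ v.toValuationSubring,
      (⟨f, hf⟩ : v.toValuationSubring) ∈ IsLocalRing.maximalIdeal v.toValuationSubring := by
  have hf : f ∈ v.toValuationSubring := h4_mem_of_ord_nonneg v h.le
  refine ⟨hf, ?_⟩
  have hne : (⟨f, hf⟩ : v.toValuationSubring) ≠ 0 := by
    intro h0
    have : f = 0 := congrArg Subtype.val h0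
    rw [this, v.ord_zero] at h
    exact lt_irrefl _ h
  exact (h4_ord_pos_iff v ⟨f, hf⟩ hne).mp h

theorem h4_finrank_adjoin_inv (f : F) :
    Module.finrank k⟮f⁻¹⟯ F = Module.finrank k⟮f⟯ F := by
  have h : k⟮f⁻¹⟯ = k⟮f⟯ := by
    apply le_antisymm
    · rw [IntermediateField.adjoin_simple_le_iff]
      exact inv_mem (IntermediateField.mem_adjoin_simple_self k f)
    · rw [IntermediateField.adjoin_simple_le_iff]
      have := inv_mem (IntermediateField.mem_adjoin_simple_self k f⁻¹)
      rwa [inv_inv] at this
  have key : ∀ K L : IntermediateField k F, K = L → Module.finrank K F = Module.finrank L F := by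
    rintro K _ rfl
    rfl
  exact key _ _ h

end Basics

section Proof

variable {k F : Type} [Field k] [IsAlgClosed k] [CharZero k] [Field F] [Algebra k F]

/-- Every place of a function field of one variable over an algebraically closed field has
degree one. -/
theorem h4_deg_eq_one (x : F) (hx : IsCoord k x) (v : Place k F) : v.deg = 1 := by
  obtain ⟨π, hπ⟩ := IsDiscreteValuationRing.exists_irreducible v.toValuationSubring
  have hord : v.ord (π : F) = 1 := v.ord_coe_irreducible hπ
  have htr : Transcendental k (π : F) := by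
    intro halg
    obtain ⟨c, hc⟩ := h4_const_of_algebraic halg
    rw [← hc, h4_ord_const] at hord
    exact zero_ne_one hord
  have : Fact (Transcendental k (π : F)) := ⟨htr⟩
  have : FiniteDimensional k⟮(π : F)⟯ F :=
    h4_finiteDimensional_of_transcendental hx.finite htr
  obtain ⟨S, hS, -, hdeg⟩ := h4_fundamental_identity (k := k) (π : F)
  exact hdeg v ((hS v).mpr (by rw [hord]; exact one_pos))

/-- The zeros of a transcendental element, counted with multiplicity. -/
theorem h4_sum_ord (x : F) (hx : IsCoord k x) (t : F) (ht : Transcendental k t) :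
    ∃ S : Finset (Place k F), (∀ v : Place k F, v ∈ S ↔ 0 < v.ord t) ∧
      (∑ v ∈ S, v.ord t = (Module.finrank k⟮t⟯ F : ℤ)) := by
  have : Fact (Transcendental k t) := ⟨ht⟩
  have : FiniteDimensional k⟮t⟯ F := h4_finiteDimensional_of_transcendental hx.finite ht
  obtain ⟨S, hS, hsum, -⟩ := h4_fundamental_identity (k := k) t
  exact ⟨S, hS, hsum⟩

theorem h4_existsUnique_value (x : F) (hx : IsCoord k x) (v : Place k F) (hv : 0 ≤ v.ord x) :
    ∃! c : k, 0 < v.ord (x - algebraMap k F c) := by
  have hdeg : Module.finrank k v.ResidueField = 1 := h4_deg_eq_one x hx v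
  have hsurj : Function.Surjective (algebraMap k v.ResidueField) := by
    rw [Algebra.surjective_algebraMap_iff]
    exact (Subalgebra.bot_eq_top_of_finrank_eq_one hdeg).symm
  have hxmem : x ∈ v.toValuationSubring := h4_mem_of_ord_nonneg v hv
  obtain ⟨c, hc⟩ := hsurj (IsLocalRing.residue _ (⟨x, hxmem⟩ : v.toValuationSubring))
  have hne : ∀ c : k, x - algebraMap k F c ≠ 0 := by
    intro c h0
    apply hx.transc
    rw [sub_eq_zero] at h0
    rw [h0]
    exact isAlgebraic_algebraMap c
  refine ⟨c, ?_, ?_⟩
  · have hmem : (⟨x, hxmem⟩ : v.toValuationSubring) - algebraMap k v.toValuationSubring c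
        ∈ IsLocalRing.maximalIdeal v.toValuationSubring := by
      rw [← IsLocalRing.residue_eq_zero_iff, map_sub, sub_eq_zero]
      exact hc.symm
    have hne' : (⟨x, hxmem⟩ : v.toValuationSubring) - algebraMap k v.toValuationSubring c ≠ 0 := by
      intro h0
      apply hne c
      have := congrArg Subtype.val h0
      simpa using this
    have := (h4_ord_pos_iff v _ hne').mpr hmem
    simpa using this
  · intro c' hc'
    by_contra hcc
    have hmem : (⟨x, hxmem⟩ : v.toValuationSubring) - algebraMap k v.toValuationSubring c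
        ∈ IsLocalRing.maximalIdeal v.toValuationSubring := by
      rw [← IsLocalRing.residue_eq_zero_iff, map_sub, sub_eq_zero]
      exact hc.symm
    obtain ⟨hf', hmem'⟩ := h4_mem_maximalIdeal_of_ord_pos v hc'
    have hdiff : algebraMap k v.toValuationSubring (c' - c)
        ∈ IsLocalRing.maximalIdeal v.toValuationSubring := by
      have := Ideal.sub_mem _ hmem hmem'
      convert this using 1
      apply Subtype.ext
      simp
    have hcc' : c' - c ≠ 0 := sub_ne_zero.mpr hcc
    have hunit : IsUnit (algebraMap k v.toValuationSubring (c' - c)) :=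
      (isUnit_iff_ne_zero.mpr hcc').map _
    rw [IsLocalRing.mem_maximalIdeal, mem_nonunits_iff] at hdiff
    exact hdiff hunit

theorem h4_principal_divisor (x : F) (hx : IsCoord k x) (f : F) (hf : f ≠ 0) :
    ∃ D : Divisor k F, (∀ v, D v = v.ord f) ∧ Divisor.degree D = 0 := by
  classical
  by_cases halg : IsAlgebraic k f
  · obtain ⟨c, rfl⟩ := h4_const_of_algebraic halg
    refine ⟨0, fun v => ?_, map_zero _⟩
    rw [h4_ord_const]
    rfl
  · have htr : Transcendental k f := halg
    have htr' : Transcendental k f⁻¹ := by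
      intro h
      apply htr
      have := h.inv
      rwa [inv_inv] at this
    obtain ⟨S₁, hS₁, hsum₁⟩ := h4_sum_ord x hx f htr
    obtain ⟨S₂, hS₂, hsum₂⟩ := h4_sum_ord x hx f⁻¹ htr'
    have hdisj : Disjoint S₁ S₂ := by
      rw [Finset.disjoint_left]
      intro v h1 h2
      have a := (hS₁ v).mp h1
      have b := (hS₂ v).mp h2
      rw [v.ord_inv] at b
      omega
    have hsupp : ∀ v : Place k F, v.ord f ≠ 0 → v ∈ S₁ ∪ S₂ := by
      intro v hv
      rw [Finset.mem_union, hS₁, hS₂, v.ord_inv]
      omega
    refine ⟨Finsupp.onFinset (S₁ ∪ S₂) (fun v => v.ord f) hsupp, fun v => rfl, ?_⟩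
    have hdeg : ∀ D : Divisor k F, Divisor.degree D = D.sum (fun v n => n * (v.deg : ℤ)) := by
      intro D
      simp [Divisor.degree]
    rw [hdeg, Finsupp.onFinset_sum (g := fun (v : Place k F) (n : ℤ) => n * (v.deg : ℤ)) hsupp
      (fun v => zero_mul _), Finset.sum_union hdisj]
    have e1 : ∑ v ∈ S₁, v.ord f * (v.deg : ℤ) = (Module.finrank k⟮f⟯ F : ℤ) := by
      rw [← hsum₁]
      refine Finset.sum_congr rfl fun v _ => ?_
      rw [h4_deg_eq_one x hx v]
      simp
    have e2 : ∑ v ∈ S₂, v.ord f * (v.deg : ℤ) = -(Module.finrank k⟮f⟯ F : ℤ) := by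
      rw [← h4_finrank_adjoin_inv f, ← hsum₂, ← Finset.sum_neg_distrib]
      refine Finset.sum_congr rfl fun v _ => ?_
      rw [h4_deg_eq_one x hx v, v.ord_inv]
      simp
    rw [e1, e2]
    ring

/-- (G1) the places dictionary. -/
theorem h4_places : PlacesStatement := by
  intro k F _ _ _ _ _ x hx
  refine ⟨h4_deg_eq_one x hx, h4_existsUnique_value x hx, ?_, h4_principal_divisor x hx⟩
  intro t ht
  obtain ⟨S, hS, hsum⟩ := h4_sum_ord x hx t ht
  have hset : {v : Place k F | 0 < v.ord t} = ↑S := by
    ext v
    simp [hS]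
  rw [hset]
  refine ⟨S.finite_toSet, ?_⟩
  rw [finsum_mem_coe_finset]
  exact hsum

end Proof

end Fermat.Agent.Lib.X0
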