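import Fermat.Agent.Lib.X0.Defs

/-!
# Project X0: abstract Riemann–Hurwitz degree computation (owner: lead)

From the places dictionary (G1) and the differential statement (G3) we compute the degree of
the divisor of an arbitrary nonzero Kähler differential of `F/k` in terms of the numbers of
places over the branch values of a coordinate `x`.
-/

set_option autoImplicit false

noncomputable section

namespace Fermat.Agent.Lib.X0

open AlgebraicCurve KaehlerDifferential

section RH

variable {k F : Type} [Field k] [Field F] [Algebra k F]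

/-- Places over the finite point `x = c`. -/
def placesOver (x : F) (c : k) : Set (Place k F) := {v | 0 < v.ord (x - algebraMap k F c)}

/-- Places over `x = ∞`. -/
def placesInf (x : F) : Set (Place k F) := {v | 0 < v.ord x⁻¹}

theorem finrank_congr_intermediateField {E₁ E₂ : IntermediateField k F} (h : E₁ = E₂) :
    Module.finrank E₁ F = Module.finrank E₂ F := by
  subst h; rfl

theorem adjoin_sub_const (x : F) (c : k) :
    IntermediateField.adjoin k {x - algebraMap k F c} = IntermediateField.adjoin k {x} := by
  apply le_antisymm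
  · rw [IntermediateField.adjoin_simple_le_iff]
    exact sub_mem (IntermediateField.mem_adjoin_simple_self k x) (IntermediateField.algebraMap_mem _ c)
  · rw [IntermediateField.adjoin_simple_le_iff]
    have h : x = (x - algebraMap k F c) + algebraMap k F c := by ring
    have h2 : (x - algebraMap k F c) + algebraMap k F c ∈
        IntermediateField.adjoin k {x - algebraMap k F c} :=
      add_mem (IntermediateField.mem_adjoin_simple_self k _)
        (IntermediateField.algebraMap_mem _ c)
    rwa [← h] at h2

theorem adjoin_inv (x : F) :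
    IntermediateField.adjoin k {x⁻¹} = IntermediateField.adjoin k {x} := by
  apply le_antisymm
  · rw [IntermediateField.adjoin_simple_le_iff]
    exact inv_mem (IntermediateField.mem_adjoin_simple_self k x)
  · rw [IntermediateField.adjoin_simple_le_iff]
    have h2 : (x⁻¹)⁻¹ ∈ IntermediateField.adjoin k {x⁻¹} :=
      inv_mem (IntermediateField.mem_adjoin_simple_self k _)
    rwa [inv_inv] at h2

theorem transcendental_sub_const {x : F} (hx : Transcendental k x) (c : k) :
    Transcendental k (x - algebraMap k F c) := by
  intro h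
  apply hx
  have : x = (x - algebraMap k F c) + algebraMap k F c := by ring
  rw [this]
  exact h.add (isAlgebraic_algebraMap c)

theorem transcendental_inv' {x : F} (hx : Transcendental k x) : Transcendental k x⁻¹ := by
  intro h
  apply hx
  have : x = (x⁻¹)⁻¹ := (inv_inv x).symm
  rw [this]
  exact h.inv

theorem ord_add_ge (v : Place k F) {f g : F} (hf : f ≠ 0) (hg : g ≠ 0) (hfg : f + g ≠ 0) :
    min (v.ord f) (v.ord g) ≤ v.ord (f + g) := by
  unfold Place.ord
  have h := v.adicValuation.map_add f g
  have hf' := v.adicValuation_ne_zero hf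
  have hg' := v.adicValuation_ne_zero hg
  have hfg' := v.adicValuation_ne_zero hfg
  rcases le_max_iff.1 h with h1 | h1
  · have := (WithZero.log_le_log hfg' hf').2 h1
    omega
  · have := (WithZero.log_le_log hfg' hg').2 h1
    omega

theorem ord_algebraMap (v : Place k F) (c : k) : v.ord (algebraMap k F c) = 0 := by
  rcases eq_or_ne c 0 with rfl | hc
  · simp
  · have hu : IsUnit (algebraMap k v.toValuationSubring c) := (hc.isUnit).map _
    have := v.ord_coe_unit hu.unit
    simpa using this

theorem ord_nonneg_of_pos_sub (v : Place k F) (x : F) (c : k)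
    (h : 0 < v.ord (x - algebraMap k F c)) : 0 ≤ v.ord x := by
  rcases eq_or_ne c 0 with rfl | hc
  · rw [map_zero, sub_zero] at h; exact h.le
  rcases eq_or_ne x 0 with rfl | hx0
  · simp
  have hxc : x - algebraMap k F c ≠ 0 := by
    intro h0; rw [h0, Place.ord_zero] at h; exact lt_irrefl _ h
  have hc' : algebraMap k F c ≠ 0 := by
    rwa [Ne, map_eq_zero]
  have hsum : (x - algebraMap k F c) + algebraMap k F c ≠ 0 := by
    rwa [sub_add_cancel]
  have := ord_add_ge v hxc hc' hsum
  rw [sub_add_cancel, ord_algebraMap] at this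
  have h2 : min (v.ord (x - algebraMap k F c)) 0 = 0 := min_eq_right h.le
  omega

variable [IsAlgClosed k] [CharZero k]

/-- The degree of a divisor is the plain sum of its values when all places have degree one. -/
theorem degree_eq_sum_of_deg_one (hdeg : ∀ v : Place k F, v.deg = 1) (D : Divisor k F)
    (s : Finset (Place k F)) (hs : D.support ⊆ s) :
    Divisor.degree D = ∑ v ∈ s, D v := by
  unfold Divisor.degree
  rw [Finsupp.liftAddHom_apply, Finsupp.sum_of_support_subset D hs _ (fun i _ => by simp)]
  refine Finset.sum_congr rfl fun v _ => ?_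
  simp [hdeg v]

/-- **Abstract Riemann–Hurwitz** for the divisor of a differential. -/
theorem degree_differential
    (hG1 : PlacesStatement) (hG3 : DifferentialStatement) (x : F) (hx : IsCoord k x)
    (B : Finset k)
    (hunr : ∀ c, c ∉ B → ∀ v : Place k F, 0 < v.ord (x - algebraMap k F c) →
      v.ord (x - algebraMap k F c) = 1)
    (ω : Ω[F⁄k]) (hω : ω ≠ 0) (D : Divisor k F) (hD : ∀ v, D v = v.ordDifferential ω) :
    Divisor.degree D
      = ∑ c ∈ B, ((coordDegree k x : ℤ) - (Nat.card (placesOver (k := k) x c) : ℤ))
          - (coordDegree k x : ℤ) - (Nat.card (placesInf (k := k) x) : ℤ) := by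
  classical
  set dX : Ω[F⁄k] := KaehlerDifferential.D k F x with hdX
  obtain ⟨hspan, hne, hgen, hfin, hinf⟩ := hG3 x hx
  obtain ⟨hdeg, huniq, hFI, hprin⟩ := hG1 x hx
  haveI : Nontrivial Ω[F⁄k] := ⟨⟨dX, 0, hne⟩⟩
  -- write ω = g • dx
  obtain ⟨g, hg⟩ : ∃ g : F, g • dX = ω :=
    (Submodule.mem_span_singleton).1 (hspan ▸ Submodule.mem_top)
  have hg0 : g ≠ 0 := by
    rintro rfl
    rw [zero_smul] at hg
    exact hω hg.symm
  obtain ⟨Dg, hDg, hDg0⟩ := hprin g hg0
  have hcoeff : ∀ v : Place k F, v.differentialCoeff (dX) ≠ 0 := by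
    intro v h0
    haveI := hgen v
    have := v.differentialCoeff_smul_dCoord (dX)
    rw [h0, zero_smul] at this
    exact hne this.symm
  have key : ∀ v, D v = Dg v + v.ordDifferential (dX) := by
    intro v
    haveI := hgen v
    rw [hD, ← hg, Place.ordDifferential_smul v hg0 (hcoeff v), hDg]
  -- the difference divisor
  set D' : Divisor k F := D - Dg with hD'
  have hD'v : ∀ v, D' v = v.ordDifferential (dX) := by
    intro v
    rw [hD', Finsupp.sub_apply, key v]; ring
  have hdegD : Divisor.degree D = Divisor.degree D' := by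
    rw [hD', map_sub, hDg0, sub_zero]
  rw [hdegD]
  -- finiteness and fundamental identity at each point
  have htc : ∀ c : k, Transcendental k (x - algebraMap k F c) :=
    fun c => transcendental_sub_const hx.transc c
  have hti : Transcendental k x⁻¹ := transcendental_inv' hx.transc
  have hfinc : ∀ c : k, (placesOver (k := k) x c).Finite := fun c => (hFI _ (htc c)).1
  have hfini : (placesInf (k := k) x).Finite := (hFI _ hti).1
  have hFIc : ∀ c : k, ∑ v ∈ (hfinc c).toFinset, v.ord (x - algebraMap k F c)
      = (coordDegree k x : ℤ) := by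
    intro c
    have h : ∑ᶠ v ∈ placesOver (k := k) x c, v.ord (x - algebraMap k F c)
        = (Module.finrank (IntermediateField.adjoin k {x - algebraMap k F c}) F : ℤ) :=
      (hFI _ (htc c)).2
    rw [finsum_mem_eq_finite_toFinset_sum _ (hfinc c)] at h
    rw [h, coordDegree, finrank_congr_intermediateField (adjoin_sub_const x c)]
  have hFIi : ∑ v ∈ hfini.toFinset, v.ord x⁻¹ = (coordDegree k x : ℤ) := by
    have h : ∑ᶠ v ∈ placesInf (k := k) x, v.ord x⁻¹
        = (Module.finrank (IntermediateField.adjoin k {x⁻¹}) F : ℤ) := (hFI _ hti).2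
    rw [finsum_mem_eq_finite_toFinset_sum _ hfini] at h
    rw [h, coordDegree, finrank_congr_intermediateField (adjoin_inv x)]
  -- the big finite set
  set S : Finset (Place k F) := (B.biUnion fun c => (hfinc c).toFinset) ∪ hfini.toFinset with hS
  have hsupp : D'.support ⊆ S := by
    intro v hv
    rw [Finsupp.mem_support_iff, hD'v] at hv
    rw [hS, Finset.mem_union, Finset.mem_biUnion]
    by_cases hvx : 0 ≤ v.ord x
    · left
      obtain ⟨c, hc, -⟩ := huniq v hvx
      refine ⟨c, ?_, ?_⟩
      · by_contra hcB
        apply hv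
        rw [hfin v c hc, hunr c hcB v hc]; ring
      · rw [Set.Finite.mem_toFinset]; exact hc
    · right
      rw [Set.Finite.mem_toFinset]
      show 0 < v.ord x⁻¹
      rw [Place.ord_inv]; omega
  rw [degree_eq_sum_of_deg_one hdeg D' S hsupp]
  -- disjointness
  have hdisj1 : Disjoint (B.biUnion fun c => (hfinc c).toFinset) hfini.toFinset := by
    rw [Finset.disjoint_left]
    intro v hv1 hv2
    rw [Finset.mem_biUnion] at hv1
    obtain ⟨c, -, hc⟩ := hv1
    rw [Set.Finite.mem_toFinset] at hc hv2
    have h1 : 0 < v.ord (x - algebraMap k F c) := hc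
    have h2 : 0 < v.ord x⁻¹ := hv2
    rw [Place.ord_inv] at h2
    have := ord_nonneg_of_pos_sub v x c h1
    omega
  have hpair : (↑B : Set k).PairwiseDisjoint fun c => (hfinc c).toFinset := by
    intro c _ c' _ hcc'
    rw [Function.onFun, Finset.disjoint_left]
    intro v hv1 hv2
    rw [Set.Finite.mem_toFinset] at hv1 hv2
    have h1 : 0 < v.ord (x - algebraMap k F c) := hv1
    have h2 : 0 < v.ord (x - algebraMap k F c') := hv2
    have hx0 := ord_nonneg_of_pos_sub v x c h1
    exact hcc' ((huniq v hx0).unique h1 h2)
  rw [hS, Finset.sum_union hdisj1, Finset.sum_biUnion hpair]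
  have hsumc : ∀ c ∈ B, ∑ v ∈ (hfinc c).toFinset, D' v
      = (coordDegree k x : ℤ) - (Nat.card (placesOver (k := k) x c) : ℤ) := by
    intro c _
    have h1 : ∀ v ∈ (hfinc c).toFinset, D' v = v.ord (x - algebraMap k F c) - 1 := by
      intro v hv
      rw [Set.Finite.mem_toFinset] at hv
      rw [hD'v, hfin v c hv]
    rw [Finset.sum_congr rfl h1, Finset.sum_sub_distrib, hFIc c, Finset.sum_const,
      Nat.card_coe_set_eq, Set.ncard_eq_toFinset_card _ (hfinc c)]
    simp
  have hsumi : ∑ v ∈ hfini.toFinset, D' v
      = - (coordDegree k x : ℤ) - (Nat.card (placesInf (k := k) x) : ℤ) := by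
    have h1 : ∀ v ∈ hfini.toFinset, D' v = - v.ord x⁻¹ - 1 := by
      intro v hv
      rw [Set.Finite.mem_toFinset] at hv
      have hv' : 0 < v.ord x⁻¹ := hv
      rw [Place.ord_inv] at hv'
      rw [hD'v, hinf v (by omega), Place.ord_inv]; ring
    rw [Finset.sum_congr rfl h1, Finset.sum_sub_distrib, Finset.sum_neg_distrib, hFIi,
      Finset.sum_const, Nat.card_coe_set_eq, Set.ncard_eq_toFinset_card _ hfini]
    simp
  rw [Finset.sum_congr rfl hsumc, hsumi]
  ring

end RH

end Fermat.Agent.Lib.X0
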