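import Mathlib

/-!
# Project X0 (S24), slab (C): pointwise evaluation of formal Laurent series

Owner: helper9.  Mathlib-only.

`h9_LSum s w v` : the formal Laurent series `s : LaurentSeries ℂ`, evaluated at the complex
number `w`, converges (unconditionally) to `v`, i.e. `HasSum (fun n : ℤ => s.coeff n * w ^ n) v`.

Calculus: `h9_LSum_zero`, `h9_LSum_add`, `h9_LSum_neg`, `h9_LSum_sub`, `h9_LSum_single`,
`h9_LSum_C`, `h9_LSum_one`, `h9_LSum_mul` (`w ≠ 0`), `h9_LSum_pow`, `h9_LSum_sum`,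
`h9_LSum_ofPowerSeries_iff` (bridge to `ℕ`-indexed power series sums), `h9_LSum_val_unique`,
`h9_LSum_eval₂` (polynomials in several expansions), and the uniqueness theorems
`h9_LSum_eq_zero` / `h9_LSum_ext` (a Laurent series that sums to `0` on a punctured disc is `0`).
-/

set_option autoImplicit false

noncomputable section

namespace Fermat.Agent.Lib.X0

open HahnSeries

/-- The formal Laurent series `s`, evaluated at `w`, converges to `v`. -/
def h9_LSum (s : LaurentSeries ℂ) (w v : ℂ) : Prop :=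
  HasSum (fun n : ℤ => s.coeff n * w ^ n) v

theorem h9_LSum_iff (s : LaurentSeries ℂ) (w v : ℂ) :
    h9_LSum s w v ↔ HasSum (fun n : ℤ => s.coeff n * w ^ n) v := Iff.rfl

theorem h9_LSum_val_unique {s : LaurentSeries ℂ} {w v v' : ℂ} (h : h9_LSum s w v)
    (h' : h9_LSum s w v') : v = v' :=
  HasSum.unique h h'

theorem h9_LSum_zero (w : ℂ) : h9_LSum 0 w 0 := by
  unfold h9_LSum
  simp [hasSum_zero]

theorem h9_LSum_add {s₁ s₂ : LaurentSeries ℂ} {w v₁ v₂ : ℂ} (h₁ : h9_LSum s₁ w v₁)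
    (h₂ : h9_LSum s₂ w v₂) : h9_LSum (s₁ + s₂) w (v₁ + v₂) := by
  unfold h9_LSum at *
  have e : (fun n : ℤ => (s₁ + s₂).coeff n * w ^ n)
      = fun n => s₁.coeff n * w ^ n + s₂.coeff n * w ^ n := by
    funext n
    rw [HahnSeries.coeff_add, add_mul]
  rw [e]
  exact h₁.add h₂

theorem h9_LSum_neg {s : LaurentSeries ℂ} {w v : ℂ} (h : h9_LSum s w v) :
    h9_LSum (-s) w (-v) := by
  unfold h9_LSum at *
  have e : (fun n : ℤ => (-s).coeff n * w ^ n) = fun n => -(s.coeff n * w ^ n) := by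
    funext n
    rw [HahnSeries.coeff_neg, neg_mul]
  rw [e]
  exact h.neg

theorem h9_LSum_sub {s₁ s₂ : LaurentSeries ℂ} {w v₁ v₂ : ℂ} (h₁ : h9_LSum s₁ w v₁)
    (h₂ : h9_LSum s₂ w v₂) : h9_LSum (s₁ - s₂) w (v₁ - v₂) := by
  rw [sub_eq_add_neg, sub_eq_add_neg]
  exact h9_LSum_add h₁ (h9_LSum_neg h₂)

theorem h9_LSum_single (k : ℤ) (c w : ℂ) :
    h9_LSum (HahnSeries.single k c) w (c * w ^ k) := by
  unfold h9_LSum
  have h := hasSum_single
    (f := fun n : ℤ => ((HahnSeries.single k c : LaurentSeries ℂ)).coeff n * w ^ n) k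
    (fun n hn => by simp [HahnSeries.coeff_single_of_ne hn])
  simpa using h

theorem h9_LSum_C (c w : ℂ) : h9_LSum (HahnSeries.C c) w c := by
  have h := h9_LSum_single 0 c w
  simpa using h

theorem h9_LSum_one (w : ℂ) : h9_LSum 1 w 1 := by
  have h := h9_LSum_C 1 w
  simpa using h

/-! ### Products -/

theorem h9_hasSum_mul_aux1 {f₁ f₂ : ℤ → ℂ} {v₁ v₂ : ℂ} (h₁ : HasSum f₁ v₁)
    (h₂ : HasSum f₂ v₂) : HasSum (fun x : ℤ × ℤ => f₁ x.1 * f₂ x.2) (v₁ * v₂) := by
  have hn₁ : Summable fun n : ℤ => ‖f₁ n‖ := summable_norm_iff.mpr h₁.summable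
  have hn₂ : Summable fun n : ℤ => ‖f₂ n‖ := summable_norm_iff.mpr h₂.summable
  exact HasSum.mul h₁ h₂ (summable_mul_of_summable_norm hn₁ hn₂)

theorem h9_hasSum_mul_aux2 {f₁ f₂ : ℤ → ℂ} {v : ℂ}
    (h : HasSum (fun x : ℤ × ℤ => f₁ x.1 * f₂ x.2) v) :
    HasSum (fun x : ℤ × ℤ => f₁ x.2 * f₂ (x.1 - x.2)) v := by
  let e : ℤ × ℤ ≃ ℤ × ℤ :=
    { toFun := fun x => (x.2, x.1 - x.2)
      invFun := fun x => (x.1 + x.2, x.1)
      left_inv := fun x => by ext <;> simp
      right_inv := fun x => by ext <;> simp }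
  exact (e.hasSum_iff).mpr h

theorem h9_hasSum_mul_aux3 (s₁ s₂ : LaurentSeries ℂ) (n : ℤ) :
    HasSum (fun a : ℤ => s₁.coeff a * s₂.coeff (n - a)) ((s₁ * s₂).coeff n) := by
  set A := Finset.antidiagonal s₁.isPWO_support s₂.isPWO_support n with hA
  have hzero : ∀ a ∉ A.image Prod.fst, s₁.coeff a * s₂.coeff (n - a) = 0 := by
    intro a ha
    by_contra hne
    apply ha
    have h1 : s₁.coeff a ≠ 0 := fun h => hne (by rw [h, zero_mul])
    have h2 : s₂.coeff (n - a) ≠ 0 := fun h => hne (by rw [h, mul_zero])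
    refine Finset.mem_image.mpr ⟨(a, n - a), ?_, rfl⟩
    rw [hA, Finset.mem_antidiagonal]
    exact ⟨h1, h2, by simp⟩
  have hsum := hasSum_sum_of_ne_finset_zero (L := .unconditional ℤ) hzero
  have heq : (s₁ * s₂).coeff n = ∑ b ∈ A.image Prod.fst, s₁.coeff b * s₂.coeff (n - b) := by
    rw [HahnSeries.coeff_mul, Finset.sum_image]
    · refine Finset.sum_congr rfl (fun ij hij => ?_)
      rw [Finset.mem_antidiagonal] at hij
      have : ij.2 = n - ij.1 := by rw [← hij.2.2]; ring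
      rw [this]
    · intro x hx y hy hxy
      rw [Finset.mem_coe, Finset.mem_antidiagonal] at hx hy
      have h1 := hx.2.2
      have h2 := hy.2.2
      ext
      · exact hxy
      · omega
  rw [heq]
  exact hsum

theorem h9_LSum_mul {s₁ s₂ : LaurentSeries ℂ} {w v₁ v₂ : ℂ} (hw : w ≠ 0)
    (h₁ : h9_LSum s₁ w v₁) (h₂ : h9_LSum s₂ w v₂) : h9_LSum (s₁ * s₂) w (v₁ * v₂) := by
  unfold h9_LSum at *
  have hprod := h9_hasSum_mul_aux2 (h9_hasSum_mul_aux1 h₁ h₂)
  refine HasSum.prod_fiberwise hprod (fun n => ?_)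
  have h3 := (h9_hasSum_mul_aux3 s₁ s₂ n).mul_right (w ^ n)
  have e : (fun a : ℤ => s₁.coeff a * s₂.coeff (n - a) * w ^ n)
      = fun a : ℤ => (s₁.coeff a * w ^ a) * (s₂.coeff (n - a) * w ^ (n - a)) := by
    funext a
    have : w ^ n = w ^ a * w ^ (n - a) := by
      rw [← zpow_add₀ hw]; congr 1; ring
    rw [this]; ring
  rw [e] at h3
  exact h3

theorem h9_LSum_pow {s : LaurentSeries ℂ} {w v : ℂ} (hw : w ≠ 0) (h : h9_LSum s w v) (n : ℕ) :
    h9_LSum (s ^ n) w (v ^ n) := by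
  induction n with
  | zero => simpa using h9_LSum_one w
  | succ n ih => rw [pow_succ, pow_succ]; exact h9_LSum_mul hw ih h

theorem h9_LSum_sum {ι : Type*} (t : Finset ι) {s : ι → LaurentSeries ℂ} {w : ℂ} {v : ι → ℂ}
    (h : ∀ i ∈ t, h9_LSum (s i) w (v i)) : h9_LSum (∑ i ∈ t, s i) w (∑ i ∈ t, v i) := by
  classical
  induction t using Finset.induction_on with
  | empty => simpa using h9_LSum_zero w
  | insert a t ha ih =>
    rw [Finset.sum_insert ha, Finset.sum_insert ha]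
    exact h9_LSum_add (h a (Finset.mem_insert_self a t))
      (ih (fun i hi => h i (Finset.mem_insert_of_mem hi)))

/-! ### Bridge to power series -/

theorem h9_LSum_ofPowerSeries_iff (p : PowerSeries ℂ) (w v : ℂ) :
    h9_LSum (HahnSeries.ofPowerSeries ℤ ℂ p) w v
      ↔ HasSum (fun n : ℕ => PowerSeries.coeff n p * w ^ n) v := by
  unfold h9_LSum
  have hinj : Function.Injective (fun n : ℕ => (n : ℤ)) := Nat.cast_injective
  have h := Function.Injective.hasSum_iff hinj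
    (f := fun m : ℤ => (HahnSeries.ofPowerSeries ℤ ℂ p).coeff m * w ^ m) (a := v)
    (by
      intro m hm
      have hneg : (HahnSeries.ofPowerSeries ℤ ℂ p).coeff m = 0 := by
        rw [HahnSeries.ofPowerSeries_apply]
        refine HahnSeries.embDomain_of_notMem_range ?_
        rintro ⟨k, rfl⟩
        exact hm ⟨k, rfl⟩
      rw [hneg, zero_mul])
  rw [← h]
  have e : ((fun m : ℤ => (HahnSeries.ofPowerSeries ℤ ℂ p).coeff m * w ^ m) ∘ fun n : ℕ => (n : ℤ))
      = fun n : ℕ => PowerSeries.coeff n p * w ^ n := by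
    funext n
    simp only [Function.comp_apply]
    rw [HahnSeries.ofPowerSeries_apply_coeff, zpow_natCast]
  rw [e]

/-! ### Uniqueness -/

theorem h9_psum_coeff_zero {c : ℕ → ℂ} {r : ℝ} (hr : 0 < r)
    (h : ∀ w : ℂ, w ≠ 0 → ‖w‖ < r → HasSum (fun n : ℕ => c n * w ^ n) 0) : c 0 = 0 := by
  set P : FormalMultilinearSeries ℂ ℂ ℂ := FormalMultilinearSeries.ofScalars ℂ c with hP
  have hr2 : (0 : ℝ) < r / 2 := by positivity
  set ρ : NNReal := ⟨r / 2, hr2.le⟩ with hρ
  have hw0 : ((r / 2 : ℝ) : ℂ) ≠ 0 := by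
    exact_mod_cast hr2.ne'
  have hnw0 : ‖((r / 2 : ℝ) : ℂ)‖ < r := by
    rw [Complex.norm_real, Real.norm_of_nonneg hr2.le]; linarith
  have hsum : Summable fun n : ℕ => ‖P n‖ * (ρ : ℝ) ^ n := by
    have h0 := (summable_norm_iff.mpr (h _ hw0 hnw0).summable)
    refine h0.congr (fun n => ?_)
    rw [hP, FormalMultilinearSeries.ofScalars_norm, norm_mul, norm_pow, Complex.norm_real,
      Real.norm_of_nonneg hr2.le]
    rfl
  have hrad : (ρ : ENNReal) ≤ P.radius := P.le_radius_of_summable_norm hsum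
  have hρpos : (0 : ENNReal) < ρ := by
    rw [ENNReal.coe_pos]; exact hr2
  have hradpos : 0 < P.radius := lt_of_lt_of_le hρpos hrad
  have hball := P.hasFPowerSeriesOnBall hradpos
  have hcont : ContinuousAt P.sum 0 :=
    hball.continuousOn.continuousAt (Metric.eball_mem_nhds _ hradpos)
  have hsumval : ∀ w : ℂ, P.sum w = ∑' n : ℕ, c n * w ^ n := by
    intro w
    have := FormalMultilinearSeries.ofScalars_sum_eq (E := ℂ) c w
    simpa [FormalMultilinearSeries.ofScalarsSum, smul_eq_mul] using this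
  have hev : P.sum =ᶠ[nhdsWithin 0 {0}ᶜ] fun _ => (0 : ℂ) := by
    have hmem : {w : ℂ | ‖w‖ < r} ∈ nhds (0 : ℂ) := by
      have : Metric.ball (0 : ℂ) r ∈ nhds (0 : ℂ) := Metric.ball_mem_nhds _ hr
      convert this using 1
      ext w; simp
    filter_upwards [nhdsWithin_le_nhds hmem, self_mem_nhdsWithin] with w hw hw0
    rw [hsumval]
    exact (h w hw0 hw).tsum_eq
  have hlim : Filter.Tendsto P.sum (nhdsWithin 0 {0}ᶜ) (nhds (P.sum 0)) :=
    hcont.tendsto.mono_left nhdsWithin_le_nhds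
  have hlim0 : Filter.Tendsto P.sum (nhdsWithin 0 {0}ᶜ) (nhds 0) :=
    (tendsto_const_nhds).congr' hev.symm
  have h0 : P.sum 0 = 0 := tendsto_nhds_unique hlim hlim0
  rw [hsumval] at h0
  have : ∑' n : ℕ, c n * (0 : ℂ) ^ n = c 0 := by
    rw [tsum_eq_single 0]
    · simp
    · intro n hn
      simp [hn]
  rw [this] at h0
  exact h0

/-- **Uniqueness of convergent Laurent expansions**: a formal Laurent series which sums to `0`
at every point of a punctured disc is `0`. -/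
theorem h9_LSum_eq_zero {s : LaurentSeries ℂ} {r : ℝ} (hr : 0 < r)
    (h : ∀ w : ℂ, w ≠ 0 → ‖w‖ < r → h9_LSum s w 0) : s = 0 := by
  by_contra hs
  set o := s.order with ho
  have hc0 : s.coeff (o + (0 : ℕ)) ≠ 0 := by
    have h0 : s.coeff s.order ≠ 0 := (HahnSeries.coeff_order_eq_zero (x := s)).not.mpr hs
    rw [Nat.cast_zero, add_zero]
    exact h0
  apply hc0
  refine h9_psum_coeff_zero (c := fun n : ℕ => s.coeff (o + n)) hr (fun w hw hwr => ?_)
  have h1 := h w hw hwr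
  unfold h9_LSum at h1
  have hinj : Function.Injective (fun n : ℕ => o + (n : ℤ)) := by
    intro a b hab
    simpa using hab
  have h2 := (Function.Injective.hasSum_iff hinj (f := fun m : ℤ => s.coeff m * w ^ m) (a := 0)
    (by
      intro m hm
      have hlt : m < o := by
        by_contra hge
        push Not at hge
        apply hm
        refine ⟨(m - o).toNat, ?_⟩
        show o + ((m - o).toNat : ℤ) = m
        rw [Int.toNat_of_nonneg (by omega)]; ring
      rw [HahnSeries.coeff_eq_zero_of_lt_order hlt, zero_mul])).mpr h1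
  have h3 := h2.mul_right ((w ^ o)⁻¹)
  rw [zero_mul] at h3
  have e : (fun n : ℕ => s.coeff (o + n) * w ^ n)
      = ((fun m : ℤ => s.coeff m * w ^ m) ∘ fun n : ℕ => o + (n : ℤ)) * fun _ => (w ^ o)⁻¹ := by
    funext n
    simp only [Function.comp_apply, Pi.mul_apply]
    rw [zpow_add₀ hw, zpow_natCast]
    have hwo : w ^ o ≠ 0 := zpow_ne_zero _ hw
    field_simp
  rw [e]
  exact h3

/-- Two formal Laurent series with the same sums on a punctured disc are equal. -/
theorem h9_LSum_ext {s s' : LaurentSeries ℂ} {r : ℝ} (hr : 0 < r) (g : ℂ → ℂ)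
    (h : ∀ w : ℂ, w ≠ 0 → ‖w‖ < r → h9_LSum s w (g w))
    (h' : ∀ w : ℂ, w ≠ 0 → ‖w‖ < r → h9_LSum s' w (g w)) : s = s' := by
  rw [← sub_eq_zero]
  refine h9_LSum_eq_zero hr (fun w hw hwr => ?_)
  have := h9_LSum_sub (h w hw hwr) (h' w hw hwr)
  rwa [sub_self] at this

/-! ### Polynomials in several expansions -/

theorem h9_LSum_eval₂ {σ k : Type*} [CommRing k] (ι : k →+* ℂ) (s : σ → LaurentSeries ℂ)
    (g : σ → ℂ) {w : ℂ} (hw : w ≠ 0) (hs : ∀ i, h9_LSum (s i) w (g i)) (P : MvPolynomial σ k) :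
    h9_LSum (MvPolynomial.eval₂ ((HahnSeries.C : ℂ →+* LaurentSeries ℂ).comp ι) s P) w
      (MvPolynomial.eval₂ ι g P) := by
  induction P using MvPolynomial.induction_on with
  | C a =>
    rw [MvPolynomial.eval₂_C, MvPolynomial.eval₂_C]
    exact h9_LSum_C (ι a) w
  | add p q hp hq =>
    rw [MvPolynomial.eval₂_add, MvPolynomial.eval₂_add]
    exact h9_LSum_add hp hq
  | mul_X p i hp =>
    rw [MvPolynomial.eval₂_mul, MvPolynomial.eval₂_mul, MvPolynomial.eval₂_X,
      MvPolynomial.eval₂_X]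
    exact h9_LSum_mul hw hp (hs i)

end Fermat.Agent.Lib.X0
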