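import Mathlib
import Fermat.Agent.Lib.X0.Defs
import Fermat.Agent.Lib.X0.LSum

/-!
# Project X0 (S24), slab (C): definitions and internal contracts for the analytic embeddings

Owner: helper9.  Nothing deep is proved here; the file fixes the objects and the exact
statements (`def … : Prop`) exchanged inside the (C) team.

* `h9_DivN N` : index type of the generators `j(q^d)`, `d ∣ N`.
* `h9_dmul d τ = d τ`, `h9_Jd d τ = j(d τ)`, `h9_evAn N P` : analytic realisation of a polynomial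
  `P` in the generators, `h9_evF N P` : its formal realisation in `F_N`.
* `h9_ExpandsAt τ₀ h s` : `s` is the Laurent expansion of `h : ℍ → ℂ` at `τ₀` in `u = z - τ₀`,
  valid on the punctured disc of radius `im τ₀ / 2`.
* `h9_ExpandsInfty N h s` : `s` is the expansion of `h` in `q_N = exp (2 π i z / N)`, valid on `ℍ`.
-/

set_option autoImplicit false

noncomputable section

namespace Fermat.Agent.Lib.X0

open UpperHalfPlane ModularCurve
open scoped MatrixGroups Manifold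

/-! ## Generators -/

/-- Index type of the generators `j(q^d)`, `d ∣ N`, of `F_N`. -/
abbrev h9_DivN (N : ℕ) : Type := {d : ℕ // d ∣ N}

theorem h9_DivN_ne_zero (N : ℕ) [NeZero N] (d : h9_DivN N) : d.1 ≠ 0 :=
  ne_zero_of_dvd_ne_zero (NeZero.ne N) d.2

/-- `τ ↦ d τ` on the upper half plane (junk value `τ` for `d = 0`). -/
def h9_dmul (d : ℕ) (τ : ℍ) : ℍ :=
  if h : 0 < d then
    ⟨(d : ℂ) * (τ : ℂ), by
      have h1 : (0 : ℝ) < d := by exact_mod_cast h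
      have h2 := mul_pos h1 τ.im_pos
      simp only [Complex.mul_im, Complex.natCast_re, Complex.natCast_im, zero_mul, add_zero]
      exact h2⟩
  else τ

theorem h9_dmul_coe {d : ℕ} (hd : 0 < d) (τ : ℍ) : ((h9_dmul d τ : ℍ) : ℂ) = (d : ℂ) * (τ : ℂ) := by
  rw [h9_dmul, dif_pos hd]

/-- `J_d(τ) = j(d τ)`. -/
def h9_Jd (d : ℕ) (τ : ℍ) : ℂ := jFun (h9_dmul d τ)

/-- Analytic realisation of a polynomial in the generators: `X_d ↦ J_d`, constants through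
`iotaC`. -/
def h9_evAn (N : ℕ) (P : MvPolynomial (h9_DivN N) Kbar) (τ : ℍ) : ℂ :=
  MvPolynomial.eval₂ iotaC (fun d => h9_Jd d.1 τ) P

/-- The generator `j(q^d)` of `F_N`. -/
def h9_gen (N : ℕ) [NeZero N] (d : h9_DivN N) : FN N :=
  haveI : NeZero d.1 := ⟨h9_DivN_ne_zero N d⟩
  xJd N d.1 d.2

/-- Formal realisation of a polynomial in the generators, in `F_N`. -/
def h9_evF (N : ℕ) [NeZero N] : MvPolynomial (h9_DivN N) Kbar →+* FN N :=
  MvPolynomial.eval₂Hom (algebraMap Kbar (FN N)) (h9_gen N)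

/-- `ρ = e^{2 π i / 3} = -1/2 + (√3/2) i`, the fixed point of `U = S T`. -/
def h9_rho : ℍ :=
  ⟨(-1 / 2 : ℂ) + ((Real.sqrt 3 / 2 : ℝ) : ℂ) * Complex.I, by
    have h3 : (0 : ℝ) < Real.sqrt 3 / 2 := by positivity
    simp [h3]⟩

/-! ## Expansions -/

/-- `s` is the Laurent expansion at `τ₀` (in `u = z - τ₀`) of `h : ℍ → ℂ`, valid on the punctured
disc of radius `im τ₀ / 2`. -/
def h9_ExpandsAt (τ₀ : ℍ) (h : ℍ → ℂ) (s : LaurentSeries ℂ) : Prop :=
  ∀ z : ℍ, z ≠ τ₀ → dist (z : ℂ) (τ₀ : ℂ) < τ₀.im / 2 →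
    h9_LSum s ((z : ℂ) - (τ₀ : ℂ)) (h z)

/-- `s` is the expansion of `h : ℍ → ℂ` in `q_N = exp (2 π i z / N)`, valid on all of `ℍ`. -/
def h9_ExpandsInfty (N : ℕ) (h : ℍ → ℂ) (s : LaurentSeries ℂ) : Prop :=
  ∀ z : ℍ, h9_LSum s (Function.Periodic.qParam (N : ℝ) (z : ℂ)) (h z)

/-! ## Internal contracts of the (C) team -/

/-- (A1, helper1) the formal `jq` is the `q`-expansion of the analytic `j`. -/
def h9_A1Statement : Prop :=
  ∀ τ : ℍ, h9_LSum (coeffEmb ℂ jq) (Function.Periodic.qParam 1 (τ : ℂ)) (jFun τ)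

/-- (A2, helper3) level one: values, surjectivity and orders of `j`. -/
def h9_A2Statement : Prop :=
  jFun h9_rho = 0 ∧ jFun UpperHalfPlane.I = 1728 ∧ (∀ c : ℂ, ∃ τ : ℍ, jFun τ = c) ∧
  analyticOrderAt (fun z : ℂ => jFun (ofComplex z)) (h9_rho : ℂ) = 3 ∧
  analyticOrderAt (fun z : ℂ => jFun (ofComplex z) - 1728) (UpperHalfPlane.I : ℂ) = 2 ∧
  ∀ τ₀ : ℍ, jFun τ₀ ≠ 0 → jFun τ₀ ≠ 1728 →
    analyticOrderAt (fun z : ℂ => jFun (ofComplex z) - jFun τ₀) (τ₀ : ℂ) = 1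

/-- (C2a, helper2) Taylor expansions of holomorphic functions on `ℍ` exist, and the order of the
expansion is the analytic order. -/
def h9_TaylorStatement : Prop :=
  ∀ (τ₀ : ℍ) (h : ℍ → ℂ), MDiff h →
    (∃ s : LaurentSeries ℂ, h9_ExpandsAt τ₀ h s) ∧
    (∀ s : LaurentSeries ℂ, h9_ExpandsAt τ₀ h s → ∀ m : ℕ,
      analyticOrderAt (fun z : ℂ => h (ofComplex z)) (τ₀ : ℂ) = m → s.order = (m : ℤ))

/-- (C2b, helper2) the stabiliser of `τ₀` preserves orders at `τ₀`. -/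
def h9_StabStatement : Prop :=
  ∀ (τ₀ : ℍ) (γ : SL(2, ℤ)), γ • τ₀ = τ₀ → ∀ (h : ℍ → ℂ), MDiff h →
    ∀ s s' : LaurentSeries ℂ, h9_ExpandsAt τ₀ h s → h9_ExpandsAt τ₀ (fun z => h (γ • z)) s' →
      s'.order = s.order

/-- (C2c, helper2) functions invariant under an elliptic element have order divisible by its
order. -/
def h9_EllipticStatement : Prop :=
  (∀ (h : ℍ → ℂ), MDiff h → (∀ z : ℍ, h (matS • z) = h z) →
    ∀ s : LaurentSeries ℂ, h9_ExpandsAt UpperHalfPlane.I h s → (2 : ℤ) ∣ s.order) ∧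
  (∀ (h : ℍ → ℂ), MDiff h → (∀ z : ℍ, h (matU • z) = h z) →
    ∀ s : LaurentSeries ℂ, h9_ExpandsAt h9_rho h s → (3 : ℤ) ∣ s.order)

/-- (C3, helper5) `Γ₀(N)`-invariance of the `J_d`, `d ∣ N`, and existence of the `q_N`-expansions
of the `J_d ∘ g`. -/
def h9_InftyExpStatement (N : ℕ) : Prop :=
  (∀ d : ℕ, d ∣ N → ∀ δ : SL(2, ℤ), δ ∈ CongruenceSubgroup.Gamma0 N → ∀ z : ℍ,
    h9_Jd d (δ • z) = h9_Jd d z) ∧
  (∀ d : ℕ, d ∣ N → ∀ g : SL(2, ℤ), ∃ s : LaurentSeries ℂ,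
    h9_ExpandsInfty N (fun z => h9_Jd d (g • z)) s)

/-- (C4, helper5) translation acts on `q_N`-expansions by a twist: orders are preserved, and
periodic functions have sparse expansions. -/
def h9_InftyTwistStatement (N : ℕ) : Prop :=
  (∀ (h : ℍ → ℂ) (k : ℤ) (s s' : LaurentSeries ℂ), h9_ExpandsInfty N h s →
    h9_ExpandsInfty N (fun z => h (matT ^ k • z)) s' → s'.order = s.order) ∧
  (∀ (h : ℍ → ℂ) (m : ℕ), 0 < m → m ∣ N → (∀ z : ℍ, h (matT ^ m • z) = h z) →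
    ∀ s : LaurentSeries ℂ, h9_ExpandsInfty N h s → (((N / m : ℕ) : ℤ) ∣ s.order))

/-- (C4', helper5) distinct cosets give distinct functions `J_N ∘ g⁻¹`. -/
def h9_DistinctStatement (N : ℕ) : Prop :=
  ∀ g g' : SL(2, ℤ), (∀ z : ℍ, h9_Jd N (g⁻¹ • z) = h9_Jd N (g'⁻¹ • z)) →
    g⁻¹ * g' ∈ CongruenceSubgroup.Gamma0 N

end Fermat.Agent.Lib.X0
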