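import Mathlib

set_option autoImplicit false

namespace Fermat.Agent.Lib.X0

open Matrix MatrixGroups UpperHalfPlane

/-- Bezout in `SL(2,ℤ)`: a nonzero integer column can be moved to `(gcd, 0)ᵀ`. -/
theorem h5_sl2_col_reduce (x y : ℤ) (h : x ≠ 0 ∨ y ≠ 0) :
    ∃ g : SL(2, ℤ), g 0 0 * x + g 0 1 * y = (Int.gcd x y : ℤ) ∧ g 1 0 * x + g 1 1 * y = 0 := by
  have hc : (Int.gcd x y : ℤ) ≠ 0 := by
    intro h0
    have h0' : Int.gcd x y = 0 := by exact_mod_cast h0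
    rw [Int.gcd_eq_zero_iff] at h0'
    rcases h with h | h
    · exact h h0'.1
    · exact h h0'.2
  obtain ⟨x', hx'⟩ := Int.gcd_dvd_left x y
  obtain ⟨y', hy'⟩ := Int.gcd_dvd_right x y
  set c : ℤ := (Int.gcd x y : ℤ) with hcdef
  have hbez : x * Int.gcdA x y + y * Int.gcdB x y = c := (Int.gcd_eq_gcd_ab x y).symm
  have hbez' : x' * Int.gcdA x y + y' * Int.gcdB x y = 1 := by
    apply mul_left_cancel₀ hc
    calc c * (x' * Int.gcdA x y + y' * Int.gcdB x y)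
        = (c * x') * Int.gcdA x y + (c * y') * Int.gcdB x y := by ring
      _ = x * Int.gcdA x y + y * Int.gcdB x y := by rw [← hx', ← hy']
      _ = c * 1 := by rw [hbez, mul_one]
  refine ⟨⟨!![Int.gcdA x y, Int.gcdB x y; -y', x'], ?_⟩, ?_, ?_⟩
  · rw [Matrix.det_fin_two_of]; linarith
  · show Int.gcdA x y * x + Int.gcdB x y * y = c
    linarith
  · show -y' * x + x' * y = 0
    conv_lhs => rw [hx', hy']
    ring

/-- **Hermite decomposition** of `diag(d,1) * γ` for `γ ∈ SL(2,ℤ)`. -/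
theorem h5_hermite (d : ℕ) (hd : 0 < d) (γ : SL(2, ℤ)) :
    ∃ (g : SL(2, ℤ)) (a b e : ℕ), 0 < a ∧ 0 < e ∧ a * e = d ∧ b < e ∧
      (d : ℤ) * γ 0 0 = g 0 0 * a ∧ (d : ℤ) * γ 0 1 = g 0 0 * b + g 0 1 * e ∧
      γ 1 0 = g 1 0 * a ∧ γ 1 1 = g 1 0 * b + g 1 1 * e := by
  have hdet : γ 0 0 * γ 1 1 - γ 0 1 * γ 1 0 = 1 := by
    have := γ.2
    rw [Matrix.det_fin_two] at this
    exact this
  have hd0 : (d : ℤ) ≠ 0 := by exact_mod_cast hd.ne'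
  -- first column of `diag(d,1) γ` is nonzero
  have hcol : (d : ℤ) * γ 0 0 ≠ 0 ∨ γ 1 0 ≠ 0 := by
    by_contra hcon
    rw [not_or, not_not, not_not] at hcon
    have h00 : γ 0 0 = 0 := by
      rcases mul_eq_zero.mp hcon.1 with h | h
      · exact absurd h hd0
      · exact h
    rw [h00, hcon.2] at hdet
    simp at hdet
  obtain ⟨h, hh1, hh2⟩ := h5_sl2_col_reduce ((d : ℤ) * γ 0 0) (γ 1 0) hcol
  set a : ℕ := Int.gcd ((d : ℤ) * γ 0 0) (γ 1 0) with ha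
  have ha0 : 0 < a := by
    rw [ha]
    apply Nat.pos_of_ne_zero
    intro h0
    rw [Int.gcd_eq_zero_iff] at h0
    rcases hcol with h | h
    · exact h h0.1
    · exact h h0.2
  -- entries of `h * diag(d,1) * γ`
  set b₀ : ℤ := h 0 0 * ((d : ℤ) * γ 0 1) + h 0 1 * γ 1 1 with hb₀
  set e₀ : ℤ := h 1 0 * ((d : ℤ) * γ 0 1) + h 1 1 * γ 1 1 with he₀
  have hhdet : h 0 0 * h 1 1 - h 0 1 * h 1 0 = 1 := by
    have := h.2
    rw [Matrix.det_fin_two] at this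
    exact this
  have hae : (a : ℤ) * e₀ = d := by
    have : (a : ℤ) * e₀ - b₀ * 0 = d := by
      rw [← hh1, ← hh2, hb₀, he₀]
      linear_combination ((d : ℤ) * (h 0 0 * h 1 1 - h 0 1 * h 1 0)) * hdet + (d : ℤ) * hhdet
    linarith
  have he₀pos : 0 < e₀ := by
    have h1 : (0 : ℤ) < (a : ℤ) * e₀ := by rw [hae]; exact_mod_cast hd
    have h2 : (0 : ℤ) < a := by exact_mod_cast ha0
    by_contra hcon
    have hcon := not_lt.mp hcon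
    have : (a : ℤ) * e₀ ≤ 0 := mul_nonpos_of_nonneg_of_nonpos h2.le hcon
    linarith
  obtain ⟨e, he⟩ : ∃ e : ℕ, (e : ℤ) = e₀ := ⟨e₀.toNat, Int.toNat_of_nonneg he₀pos.le⟩
  have he0 : 0 < e := by
    have : (0 : ℤ) < (e : ℤ) := by rw [he]; exact he₀pos
    exact_mod_cast this
  -- reduce `b₀` modulo `e`
  set k : ℤ := b₀ / e₀ with hk
  set b' : ℤ := b₀ % e₀ with hb'
  have hb'0 : 0 ≤ b' := Int.emod_nonneg _ he₀pos.ne'
  have hb'lt : b' < e₀ := Int.emod_lt_of_pos _ he₀pos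
  obtain ⟨b, hb⟩ : ∃ b : ℕ, (b : ℤ) = b' := ⟨b'.toNat, Int.toNat_of_nonneg hb'0⟩
  have hbk : b₀ = b' + e₀ * k := by rw [hb', hk]; exact (Int.emod_add_mul_ediv b₀ e₀).symm
  -- `g = h⁻¹ * [1 k; 0 1]`, written out: h⁻¹ = [h11, -h01; -h10, h00]
  refine ⟨⟨!![h 1 1, h 1 1 * k - h 0 1; -h 1 0, -h 1 0 * k + h 0 0], ?_⟩, a, b, e, ha0, he0, ?_, ?_,
    ?_, ?_, ?_, ?_⟩
  · rw [Matrix.det_fin_two_of]; linear_combination hhdet
  · have : ((a * e : ℕ) : ℤ) = (d : ℤ) := by push_cast; rw [he]; exact hae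
    exact_mod_cast this
  · have : (b : ℤ) < (e : ℤ) := by rw [hb, he]; exact hb'lt
    exact_mod_cast this
  · show (d : ℤ) * γ 0 0 = h 1 1 * a
    have e1 : (a : ℤ) = h 0 0 * ((d : ℤ) * γ 0 0) + h 0 1 * γ 1 0 := hh1.symm
    rw [e1]
    linear_combination (-(d : ℤ) * γ 0 0) * hhdet - h 0 1 * hh2
  · show (d : ℤ) * γ 0 1 = h 1 1 * b + (h 1 1 * k - h 0 1) * e
    rw [hb, he]
    have : h 1 1 * b' + (h 1 1 * k - h 0 1) * e₀ = h 1 1 * b₀ - h 0 1 * e₀ := by rw [hbk]; ring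
    rw [this, hb₀, he₀]
    linear_combination (-(d : ℤ) * γ 0 1) * hhdet
  · show γ 1 0 = -h 1 0 * a
    have e1 : (a : ℤ) = h 0 0 * ((d : ℤ) * γ 0 0) + h 0 1 * γ 1 0 := hh1.symm
    rw [e1]
    linear_combination (-γ 1 0) * hhdet + h 0 0 * hh2
  · show γ 1 1 = -h 1 0 * b + (-h 1 0 * k + h 0 0) * e
    rw [hb, he]
    have : -h 1 0 * b' + (-h 1 0 * k + h 0 0) * e₀ = -h 1 0 * b₀ + h 0 0 * e₀ := by rw [hbk]; ring
    rw [this, hb₀, he₀]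
    linear_combination (-γ 1 1) * hhdet

/-- Hermite decomposition, as an identity between points of the upper half plane:
`d * (γ • τ) = g • ((a τ + b) / e)`. -/
theorem h5_hermite_smul (d : ℕ) (hd : 0 < d) (γ : SL(2, ℤ)) :
    ∃ (g : SL(2, ℤ)) (a b e : ℕ), 0 < a ∧ 0 < e ∧ a * e = d ∧ b < e ∧
      ((d : ℤ) * γ 0 0 = g 0 0 * a ∧ (d : ℤ) * γ 0 1 = g 0 0 * b + g 0 1 * e ∧
        γ 1 0 = g 1 0 * a ∧ γ 1 1 = g 1 0 * b + g 1 1 * e) ∧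
      ∀ τ : ℍ, ∃ τ' : ℍ, (τ' : ℂ) = ((a : ℂ) * τ + b) / e ∧
        (d : ℂ) * ((γ • τ : ℍ) : ℂ) = ((g • τ' : ℍ) : ℂ) := by
  obtain ⟨g, a, b, e, ha, he, hae, hbe, h1, h2, h3, h4⟩ := h5_hermite d hd γ
  refine ⟨g, a, b, e, ha, he, hae, hbe, ⟨h1, h2, h3, h4⟩, fun τ => ?_⟩
  have heC : (e : ℂ) ≠ 0 := by exact_mod_cast he.ne'
  have him : 0 < (((a : ℂ) * τ + b) / e).im := by
    have : (((a : ℂ) * τ + b) / e).im = (a : ℝ) * τ.im / e := by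
      have e1 : ((a : ℂ) * τ + b) / e = (((a : ℝ) * (τ : ℂ).re + b) / e : ℝ)
          + (((a : ℝ) * (τ : ℂ).im / e : ℝ) : ℂ) * Complex.I := by
        apply Complex.ext <;> simp [Complex.div_natCast_re, Complex.div_natCast_im]
      rw [e1]; simp
    rw [this]
    have ha' : (0 : ℝ) < a := by exact_mod_cast ha
    have he' : (0 : ℝ) < e := by exact_mod_cast he
    exact div_pos (mul_pos ha' τ.im_pos) he'
  refine ⟨⟨((a : ℂ) * τ + b) / e, him⟩, rfl, ?_⟩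
  rw [coe_specialLinearGroup_apply, coe_specialLinearGroup_apply]
  simp only [algebraMap_int_eq, eq_intCast, Complex.ofReal_intCast]
  have c1 : ((d : ℂ) * (γ 0 0 : ℂ)) = (g 0 0 : ℂ) * a := by exact_mod_cast h1
  have c2 : ((d : ℂ) * (γ 0 1 : ℂ)) = (g 0 0 : ℂ) * b + (g 0 1 : ℂ) * e := by exact_mod_cast h2
  have c3 : ((γ 1 0 : ℤ) : ℂ) = (g 1 0 : ℂ) * a := by exact_mod_cast h3
  have c4 : ((γ 1 1 : ℤ) : ℂ) = (g 1 0 : ℂ) * b + (g 1 1 : ℂ) * e := by exact_mod_cast h4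
  have hN : (g 0 0 : ℂ) * (((a : ℂ) * τ + b) / e) + (g 0 1 : ℂ)
      = ((d : ℂ) * ((γ 0 0 : ℂ) * τ + (γ 0 1 : ℂ))) / e := by
    field_simp
    linear_combination (-(τ : ℂ)) * c1 - c2
  have hD : (g 1 0 : ℂ) * (((a : ℂ) * τ + b) / e) + (g 1 1 : ℂ)
      = ((γ 1 0 : ℂ) * τ + (γ 1 1 : ℂ)) / e := by
    field_simp
    linear_combination (-(τ : ℂ)) * c3 - c4
  show (d : ℂ) * (((γ 0 0 : ℂ) * τ + (γ 0 1 : ℂ)) / ((γ 1 0 : ℂ) * τ + (γ 1 1 : ℂ)))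
    = ((g 0 0 : ℂ) * (((a : ℂ) * τ + b) / e) + (g 0 1 : ℂ))
      / ((g 1 0 : ℂ) * (((a : ℂ) * τ + b) / e) + (g 1 1 : ℂ))
  rw [hN, hD, div_div_div_cancel_right₀ heC, mul_div_assoc]

/-- If `diag(N,1) γ` and `diag(N,1) γ'` have the same Hermite form `[a b; 0 e]` (up to left
multiplication by `SL(2,ℤ)`), then `γ' γ⁻¹ ∈ Γ₀(N)`.  Only the bottom rows matter. -/
theorem h5_mem_Gamma0_of_hermite_eq (N : ℕ) (γ γ' g g' : SL(2, ℤ)) (a b e : ℤ)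
    (hae : a * e = N)
    (h3 : γ 1 0 = g 1 0 * a) (h4 : γ 1 1 = g 1 0 * b + g 1 1 * e)
    (h3' : γ' 1 0 = g' 1 0 * a) (h4' : γ' 1 1 = g' 1 0 * b + g' 1 1 * e) :
    γ' * γ⁻¹ ∈ CongruenceSubgroup.Gamma0 N := by
  rw [CongruenceSubgroup.Gamma0_mem]
  -- the (1,0) entry of γ' γ⁻¹
  have hentry : ((γ' * γ⁻¹ : SL(2, ℤ)) 1 0 : ℤ) = γ' 1 0 * γ 1 1 - γ' 1 1 * γ 1 0 := by
    rw [Matrix.SpecialLinearGroup.coe_mul, Matrix.SpecialLinearGroup.coe_inv,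
      Matrix.adjugate_fin_two, Matrix.mul_apply, Fin.sum_univ_two]
    simp
    ring
  rw [hentry]
  -- it equals N * (g' g⁻¹) 1 0
  have hkey : γ' 1 0 * γ 1 1 - γ' 1 1 * γ 1 0
      = (N : ℤ) * (g' 1 0 * g 1 1 - g' 1 1 * g 1 0) := by
    rw [h3, h4, h3', h4', ← hae]
    ring
  rw [hkey]
  push_cast
  simp

end Fermat.Agent.Lib.X0
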