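/-
X0 project (S24) (helper3): growth of `j` at `i∞` (`‖j τ‖ ≤ C exp(2π Im τ)`), decay of `Δ`, and
moderate growth of `J_d ∘ g`: `j(d (g τ)) Δ(τ)^d` is bounded at `i∞` (via helper5's Hermite
decomposition `d (g τ) = u ((a τ + b)/e)`).
-/
import Mathlib
import Fermat.Agent.Lib.X0.Defs
import Fermat.Agent.Lib.X0.JOrder
import Fermat.Agent.Lib.X0.EmbDefs
import Fermat.Agent.Lib.X0.Hermite

set_option autoImplicit false

open UpperHalfPlane hiding I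
open Complex ModularForm EisensteinSeries ModularGroup Filter Function Asymptotics
open scoped MatrixGroups ModularForm Manifold Topology Real

namespace Fermat.Agent.Lib.X0

local notation "Δ" => ModularForm.discriminant
local notation "𝕢" => Periodic.qParam

/-- `j(τ) = O(exp(2π Im τ))` at `i∞`. -/
theorem h3_jFun_isBigO : jFun =O[atImInfty] fun τ : ℍ => Real.exp (2 * π * τ.im) := by
  have h4 := h3_tendsto_modform E₄
  rw [E_qExpansion_coeff_zero _ ⟨2, rfl⟩] at h4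
  have h4' : (fun τ : ℍ => E₄ τ ^ 3) =O[atImInfty] (fun _ : ℍ => (1 : ℝ)) := by
    have := (h4.pow 3).isBigO_one ℝ
    exact this
  have hΔ : (fun τ : ℍ => Real.exp (-2 * π * τ.im)) =O[atImInfty] (Δ : ℍ → ℂ) :=
    exp_isBigO_discriminant
  obtain ⟨C₁, hC₁⟩ := h4'.bound
  obtain ⟨C₂, hC₂⟩ := hΔ.bound
  refine IsBigO.of_bound (C₁ * C₂) ?_
  filter_upwards [hC₁, hC₂] with τ h1 h2
  have hΔne : Δ τ ≠ 0 := discriminant_ne_zero τ
  have hpos : 0 < ‖Δ τ‖ := norm_pos_iff.mpr hΔne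
  simp only [norm_one, mul_one] at h1
  rw [Real.norm_of_nonneg (Real.exp_pos _).le] at h2 ⊢
  unfold jFun
  rw [norm_div, div_le_iff₀ hpos]
  have hC₁ : 0 ≤ C₁ := le_trans (norm_nonneg _) h1
  have e : Real.exp (2 * π * τ.im) * Real.exp (-2 * π * τ.im) = 1 := by
    rw [← Real.exp_add]; ring_nf; exact Real.exp_zero
  calc ‖E₄ τ ^ 3‖ ≤ C₁ := h1
    _ = C₁ * (Real.exp (2 * π * τ.im) * Real.exp (-2 * π * τ.im)) := by rw [e, mul_one]
    _ ≤ C₁ * (Real.exp (2 * π * τ.im) * (C₂ * ‖Δ τ‖)) := by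
        gcongr
    _ = C₁ * C₂ * Real.exp (2 * π * τ.im) * ‖Δ τ‖ := by ring

/-- Explicit form: `‖j(τ)‖ ≤ C exp(2π Im τ)` for `Im τ ≥ A`. -/
theorem h3_jFun_growth : ∃ C A : ℝ, 0 ≤ C ∧ ∀ τ : ℍ, A ≤ τ.im → ‖jFun τ‖ ≤ C * Real.exp (2 * π * τ.im) := by
  obtain ⟨C, hC⟩ := h3_jFun_isBigO.bound
  rw [Filter.Eventually, atImInfty_mem] at hC
  obtain ⟨A, hA⟩ := hC
  refine ⟨max C 0, A, le_max_right _ _, fun τ hτ => ?_⟩
  have := hA τ hτ
  simp only [Set.mem_ofPred_eq, Real.norm_of_nonneg (Real.exp_pos _).le] at this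
  exact this.trans (mul_le_mul_of_nonneg_right (le_max_left _ _) (Real.exp_pos _).le)

/-- Explicit decay of `Δ`: `‖Δ τ‖ ≤ C exp(-2π Im τ)` for `Im τ ≥ A`. -/
theorem h3_discriminant_decay : ∃ C A : ℝ, 0 ≤ C ∧
    ∀ τ : ℍ, A ≤ τ.im → ‖Δ τ‖ ≤ C * Real.exp (-2 * π * τ.im) := by
  have h2 : (Δ : ℍ → ℂ) =O[atImInfty] fun τ : ℍ => Real.exp (-2 * π * τ.im) := by
    have := CuspFormClass.exp_decay_atImInfty (h := 1) CuspForm.discriminant one_pos
      one_mem_strictPeriods_SL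
    simpa using this
  obtain ⟨C, hC⟩ := h2.bound
  rw [Filter.Eventually, atImInfty_mem] at hC
  obtain ⟨A, hA⟩ := hC
  refine ⟨max C 0, A, le_max_right _ _, fun τ hτ => ?_⟩
  have := hA τ hτ
  simp only [Set.mem_ofPred_eq, Real.norm_of_nonneg (Real.exp_pos _).le] at this
  exact this.trans (mul_le_mul_of_nonneg_right (le_max_left _ _) (Real.exp_pos _).le)

/-- **Moderate growth of `J_d ∘ g`**: `j(d (g τ)) Δ(τ)^d` is bounded at `i∞`. -/
theorem h3_growth_Jd_aux (d : ℕ) (hd : 0 < d) (g : SL(2, ℤ)) :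
    IsBoundedAtImInfty (fun τ : ℍ => h9_Jd d (g • τ) * Δ τ ^ d) := by
  obtain ⟨u, a, b, e, ha, he, hae, -, -, hτ⟩ := h5_hermite_smul d hd g
  obtain ⟨C₁, A₁, hC₁, hj⟩ := h3_jFun_growth
  obtain ⟨C₂, A₂, hC₂, hΔ⟩ := h3_discriminant_decay
  have ha' : (0 : ℝ) < a := by exact_mod_cast ha
  have he' : (0 : ℝ) < e := by exact_mod_cast he
  rw [IsBoundedAtImInfty, BoundedAtFilter]
  refine IsBigO.of_bound (C₁ * C₂ ^ d) ?_
  rw [Filter.Eventually, atImInfty_mem]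
  refine ⟨max (max (A₁ * e / a) A₂) 0, fun τ hτim => ?_⟩
  simp only [Set.mem_ofPred_eq, Pi.one_apply, norm_one, mul_one]
  have hτ1 : A₁ * e / a ≤ τ.im := le_trans (le_trans (le_max_left _ _) (le_max_left _ _)) hτim
  have hτ2 : A₂ ≤ τ.im := le_trans (le_trans (le_max_right _ _) (le_max_left _ _)) hτim
  obtain ⟨τ', hτ'coe, hτ'eq⟩ := hτ τ
  -- `d • (g • τ) = u • τ'`
  have hpt : h9_dmul d (g • τ) = u • τ' := by
    ext
    rw [h9_dmul_coe hd]
    exact hτ'eq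
  have hJ : h9_Jd d (g • τ) = jFun τ' := by
    unfold h9_Jd
    rw [hpt, h3_jFun_smul]
  -- imaginary part of `τ'`
  have him : τ'.im = (a : ℝ) * τ.im / e := by
    have h1 : τ'.im = ((τ' : ℂ)).im := rfl
    rw [h1, hτ'coe]
    have e1 : ((a : ℂ) * τ + b) / e = (((a : ℝ) * (τ : ℂ).re + b) / e : ℝ)
        + (((a : ℝ) * (τ : ℂ).im / e : ℝ) : ℂ) * Complex.I := by
      apply Complex.ext <;> simp [Complex.div_natCast_re, Complex.div_natCast_im]
    rw [e1]; simp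
  have hA₁ : A₁ ≤ τ'.im := by
    rw [him, le_div_iff₀ he']
    rw [div_le_iff₀ ha'] at hτ1
    linarith
  have hb1 := hj τ' hA₁
  have hb2 := hΔ τ hτ2
  rw [hJ, norm_mul, norm_pow]
  have hae' : (a : ℝ) / e ≤ d := by
    rw [div_le_iff₀ he']
    have : (d : ℝ) = a * e := by exact_mod_cast hae.symm
    rw [this]
    have he1 : (1 : ℝ) ≤ e := by exact_mod_cast he
    nlinarith
  have hexp : Real.exp (2 * π * τ'.im) * Real.exp (-2 * π * τ.im) ^ d ≤ 1 := by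
    rw [← Real.exp_nat_mul, ← Real.exp_add]
    apply Real.exp_le_one_iff.mpr
    rw [him]
    have hpi : 0 < π := Real.pi_pos
    have him_pos := τ.im_pos
    have : 2 * π * ((a : ℝ) * τ.im / e) + d * (-2 * π * τ.im) =
        2 * π * τ.im * ((a : ℝ) / e - d) := by ring
    rw [this]
    apply mul_nonpos_of_nonneg_of_nonpos
    · positivity
    · linarith
  calc ‖jFun τ'‖ * ‖Δ τ‖ ^ d
      ≤ (C₁ * Real.exp (2 * π * τ'.im)) * (C₂ * Real.exp (-2 * π * τ.im)) ^ d := by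
        gcongr
    _ = C₁ * C₂ ^ d * (Real.exp (2 * π * τ'.im) * Real.exp (-2 * π * τ.im) ^ d) := by
        rw [mul_pow]; ring
    _ ≤ C₁ * C₂ ^ d * 1 := by
        gcongr
    _ = C₁ * C₂ ^ d := mul_one _

theorem h3_growth_Jd (N : ℕ) [NeZero N] (d : ℕ) (hd : d ∣ N) (g : SL(2, ℤ)) :
    ∃ m : ℕ, IsBoundedAtImInfty (fun τ : ℍ => h9_Jd d (g • τ) * Δ τ ^ m) :=
  ⟨d, h3_growth_Jd_aux d (Nat.pos_of_ne_zero (ne_zero_of_dvd_ne_zero (NeZero.ne N) hd)) g⟩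

end Fermat.Agent.Lib.X0
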