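/-
X0 project (S24), piece (C2) (helper2): Taylor expansion at a point as a formal power series.

`h2_taylorPS f z₀ = ∑ (f⁽ⁿ⁾(z₀) / n!) Xⁿ`.  For functions analytic at `z₀` this is additive and
multiplicative, vanishes iff `f` vanishes near `z₀`, and its order is the analytic order of `f`.
-/
import Mathlib

set_option autoImplicit false

open Filter Topology

namespace Fermat.Agent.Lib.X0

/-- The Taylor series of `f` at `z₀` as a formal power series. -/
noncomputable def h2_taylorPS (f : ℂ → ℂ) (z₀ : ℂ) : PowerSeries ℂ :=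
  PowerSeries.mk fun n => (n.factorial : ℂ)⁻¹ * iteratedDeriv n f z₀

theorem h2_taylorPS_coeff (f : ℂ → ℂ) (z₀ : ℂ) (n : ℕ) :
    PowerSeries.coeff n (h2_taylorPS f z₀) = (n.factorial : ℂ)⁻¹ * iteratedDeriv n f z₀ := by
  simp [h2_taylorPS]

theorem h2_taylorPS_congr {f g : ℂ → ℂ} {z₀ : ℂ} (h : f =ᶠ[𝓝 z₀] g) :
    h2_taylorPS f z₀ = h2_taylorPS g z₀ := by
  ext n
  rw [h2_taylorPS_coeff, h2_taylorPS_coeff, h.iteratedDeriv_eq n]

theorem h2_taylorPS_add {f g : ℂ → ℂ} {z₀ : ℂ} (hf : AnalyticAt ℂ f z₀) (hg : AnalyticAt ℂ g z₀) :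
    h2_taylorPS (f + g) z₀ = h2_taylorPS f z₀ + h2_taylorPS g z₀ := by
  ext n
  simp [h2_taylorPS_coeff, iteratedDeriv_add hf.contDiffAt hg.contDiffAt, mul_add]

theorem h2_taylorPS_const (c z₀ : ℂ) : h2_taylorPS (fun _ => c) z₀ = PowerSeries.C c := by
  ext n
  rw [h2_taylorPS_coeff, PowerSeries.coeff_C]
  rcases n with _ | n
  · simp
  · simp [iteratedDeriv_succ']

theorem h2_taylorPS_smul {f : ℂ → ℂ} {z₀ : ℂ} (c : ℂ) :
    h2_taylorPS (c • f) z₀ = c • h2_taylorPS f z₀ := by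
  ext n
  simp [h2_taylorPS_coeff, iteratedDeriv_const_smul_field, mul_left_comm]

theorem h2_taylorPS_neg {f : ℂ → ℂ} {z₀ : ℂ} : h2_taylorPS (-f) z₀ = -h2_taylorPS f z₀ := by
  have := h2_taylorPS_smul (f := f) (z₀ := z₀) (-1)
  simpa using this

theorem h2_taylorPS_mul {f g : ℂ → ℂ} {z₀ : ℂ} (hf : AnalyticAt ℂ f z₀) (hg : AnalyticAt ℂ g z₀) :
    h2_taylorPS (f * g) z₀ = h2_taylorPS f z₀ * h2_taylorPS g z₀ := by
  ext n
  simp only [h2_taylorPS_coeff, iteratedDeriv_mul hf.contDiffAt hg.contDiffAt, Finset.mul_sum,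
    PowerSeries.coeff_mul, Finset.Nat.sum_antidiagonal_eq_sum_range_succ_mk, Nat.succ_eq_add_one]
  refine Finset.sum_congr rfl fun i hi ↦ ?_
  rw [Nat.cast_choose _ (by grind)]
  field_simp [Nat.factorial_ne_zero]

theorem h2_taylorPS_sub {f g : ℂ → ℂ} {z₀ : ℂ} (hf : AnalyticAt ℂ f z₀) (hg : AnalyticAt ℂ g z₀) :
    h2_taylorPS (f - g) z₀ = h2_taylorPS f z₀ - h2_taylorPS g z₀ := by
  rw [sub_eq_add_neg, h2_taylorPS_add hf hg.neg, h2_taylorPS_neg, ← sub_eq_add_neg]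

theorem h2_taylorPS_one (z₀ : ℂ) : h2_taylorPS (1 : ℂ → ℂ) z₀ = 1 := by
  have := h2_taylorPS_const 1 z₀
  rw [map_one] at this
  exact this

theorem h2_taylorPS_zero (z₀ : ℂ) : h2_taylorPS (0 : ℂ → ℂ) z₀ = 0 := by
  have := h2_taylorPS_const 0 z₀
  rw [map_zero] at this
  exact this

theorem h2_taylorPS_pow {f : ℂ → ℂ} {z₀ : ℂ} (hf : AnalyticAt ℂ f z₀) (n : ℕ) :
    h2_taylorPS (f ^ n) z₀ = h2_taylorPS f z₀ ^ n := by
  induction n with
  | zero => simpa using h2_taylorPS_one z₀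
  | succ n ih => rw [pow_succ, h2_taylorPS_mul (hf.pow n) hf, ih, pow_succ]

/-- The order of the Taylor series is the analytic order. -/
theorem h2_order_taylorPS {f : ℂ → ℂ} {z₀ : ℂ} (hf : AnalyticAt ℂ f z₀) :
    (h2_taylorPS f z₀).order = analyticOrderAt f z₀ := by
  have key : ∀ n : ℕ, (n : ℕ∞) ≤ (h2_taylorPS f z₀).order ↔ (n : ℕ∞) ≤ analyticOrderAt f z₀ := by
    intro n
    rw [natCast_le_analyticOrderAt_iff_iteratedDeriv_eq_zero hf]
    constructor
    · intro h i hi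
      have := PowerSeries.coeff_of_lt_order i (lt_of_lt_of_le (by exact_mod_cast hi) h)
      rw [h2_taylorPS_coeff] at this
      rcases mul_eq_zero.mp this with h0 | h0
      · exact absurd h0 (inv_ne_zero (Nat.cast_ne_zero.mpr (Nat.factorial_ne_zero i)))
      · exact h0
    · intro h
      apply PowerSeries.nat_le_order
      intro i hi
      rw [h2_taylorPS_coeff, h i hi, mul_zero]
  apply le_antisymm
  · apply ENat.forall_natCast_le_iff_le.mp
    intro n hn
    exact (key n).mp hn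
  · apply ENat.forall_natCast_le_iff_le.mp
    intro n hn
    exact (key n).mpr hn

/-- The Taylor series vanishes iff the function vanishes near the point. -/
theorem h2_taylorPS_eq_zero_iff {f : ℂ → ℂ} {z₀ : ℂ} (hf : AnalyticAt ℂ f z₀) :
    h2_taylorPS f z₀ = 0 ↔ ∀ᶠ z in 𝓝 z₀, f z = 0 := by
  rw [← PowerSeries.order_eq_top, h2_order_taylorPS hf, analyticOrderAt_eq_top]

/-- Composition with a local biholomorphism does not change the order. -/
theorem h2_order_taylorPS_comp {f g : ℂ → ℂ} {z₀ : ℂ} (hf : AnalyticAt ℂ f (g z₀))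
    (hg : AnalyticAt ℂ g z₀) (hg' : deriv g z₀ ≠ 0) :
    (h2_taylorPS (f ∘ g) z₀).order = (h2_taylorPS f (g z₀)).order := by
  rw [h2_order_taylorPS (hf.comp hg), h2_order_taylorPS hf,
    analyticOrderAt_comp_of_deriv_ne_zero hg hg']

/-- If `f` is invariant under a local biholomorphism `ε` fixing `z₀` with multiplier `ζ = ε'(z₀)`,
then `ζ ^ (ord f) = 1`. -/
theorem h2_pow_order_eq_one_of_invariant {f ε : ℂ → ℂ} {z₀ ζ : ℂ} (hf : AnalyticAt ℂ f z₀)
    (hε : AnalyticAt ℂ ε z₀) (hfix : ε z₀ = z₀) (hder : deriv ε z₀ = ζ) (hζ : ζ ≠ 0)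
    (hinv : f ∘ ε =ᶠ[𝓝 z₀] f) (hne : analyticOrderAt f z₀ ≠ ⊤) :
    ζ ^ analyticOrderNatAt f z₀ = 1 := by
  set m := analyticOrderNatAt f z₀ with hm
  have hm' : analyticOrderAt f z₀ = m := (ENat.natCast_toNat hne).symm
  obtain ⟨g, hga, hg0, hfg⟩ := hf.analyticOrderAt_eq_natCast.mp hm'
  -- factor `ε z - z₀ = (z - z₀) • k z`
  have hε1 : analyticOrderAt (fun z => ε z - ε z₀) z₀ = 1 :=
    hε.analyticOrderAt_sub_eq_one_of_deriv_ne_zero (by rw [hder]; exact hζ)
  have hεa : AnalyticAt ℂ (fun z => ε z - ε z₀) z₀ := hε.sub analyticAt_const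
  obtain ⟨k, hka, hk0, hεk⟩ := hεa.analyticOrderAt_eq_natCast.mp (by exact_mod_cast hε1)
  -- `k z₀ = ζ`
  have hkζ : k z₀ = ζ := by
    have h1 : deriv (fun z => ε z - ε z₀) z₀ = ζ := by
      rw [deriv_sub_const]; exact hder
    have h2 : deriv (fun z => ε z - ε z₀) z₀ = deriv (fun z => (z - z₀) ^ 1 • k z) z₀ :=
      Filter.EventuallyEq.deriv_eq hεk
    have h3 : deriv (fun z => (z - z₀) ^ 1 • k z) z₀ = k z₀ := by
      have hd : HasDerivAt (fun z => (z - z₀) ^ 1 • k z) (1 * k z₀ + (z₀ - z₀) * deriv k z₀) z₀ := by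
        have ha : HasDerivAt (fun z => z - z₀) 1 z₀ := (hasDerivAt_id z₀).sub_const z₀
        have hb : HasDerivAt k (deriv k z₀) z₀ := hka.differentiableAt.hasDerivAt
        have hab := ha.mul hb
        have e : (fun z => (z - z₀) ^ 1 • k z) = (fun z => z - z₀) * k := by
          funext z; simp [pow_one, smul_eq_mul]
        rw [e]
        convert hab using 1
      rw [hd.deriv]; simp
    rw [← h1, h2, h3]
  -- compare the two factorizations of `f ∘ ε` away from `z₀`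
  have hcont : Tendsto ε (𝓝 z₀) (𝓝 z₀) := by
    have := hε.continuousAt.tendsto
    rwa [hfix] at this
  have hfε : ∀ᶠ z in 𝓝 z₀, f (ε z) = (ε z - z₀) ^ m • g (ε z) := hcont.eventually hfg
  have hmain : ∀ᶠ z in 𝓝[≠] z₀, k z ^ m * g (ε z) = g z := by
    have hall : ∀ᶠ z in 𝓝 z₀, z ≠ z₀ → k z ^ m * g (ε z) = g z := by
      filter_upwards [hfε, hfg, hεk, hinv] with z h1 h2 h3 h4 hz
      have hz' : (z - z₀) ^ m ≠ 0 := pow_ne_zero m (sub_ne_zero.mpr hz)
      have e1 : f (ε z) = f z := h4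
      rw [h1, h2] at e1
      have e2 : ε z - z₀ = (z - z₀) * k z := by
        have := h3; simp only [hfix, pow_one, smul_eq_mul] at this; exact this
      rw [e2, smul_eq_mul, smul_eq_mul, mul_pow, mul_assoc] at e1
      exact mul_left_cancel₀ hz' e1
    exact eventually_nhdsWithin_of_eventually_nhds hall |>.mp
      (eventually_mem_nhdsWithin.mono fun z hz h => h hz)
  have hlim1 : Tendsto (fun z => k z ^ m * g (ε z)) (𝓝[≠] z₀) (𝓝 (k z₀ ^ m * g z₀)) := by
    have hc : ContinuousAt (fun z => k z ^ m * g (ε z)) z₀ := by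
      have hgε : ContinuousAt (fun z => g (ε z)) z₀ := by
        have : ContinuousAt g (ε z₀) := by rw [hfix]; exact hga.continuousAt
        exact this.comp hε.continuousAt
      exact (hka.continuousAt.pow m).mul hgε
    have := hc.tendsto
    simp only [hfix] at this
    exact this.mono_left nhdsWithin_le_nhds
  have hlim2 : Tendsto (fun z => k z ^ m * g (ε z)) (𝓝[≠] z₀) (𝓝 (g z₀)) :=
    (hga.continuousAt.tendsto.mono_left nhdsWithin_le_nhds).congr'
      (hmain.mono fun z hz => hz.symm)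
  have heq := tendsto_nhds_unique hlim1 hlim2
  rw [hkζ] at heq
  have : (ζ ^ m - 1) * g z₀ = 0 := by linear_combination heq
  rcases mul_eq_zero.mp this with h | h
  · exact sub_eq_zero.mp h
  · exact absurd h hg0

/-- If `f ≢ 0` is invariant under a local biholomorphism `ε` fixing `z₀` whose multiplier is a
primitive `e`-th root of unity, then `e` divides the order of `f` at `z₀`. -/
theorem h2_dvd_order_of_invariant {f ε : ℂ → ℂ} {z₀ ζ : ℂ} {e : ℕ} (hf : AnalyticAt ℂ f z₀)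
    (hε : AnalyticAt ℂ ε z₀) (hfix : ε z₀ = z₀) (hder : deriv ε z₀ = ζ) (hζ : IsPrimitiveRoot ζ e)
    (he : e ≠ 0) (hinv : f ∘ ε =ᶠ[𝓝 z₀] f) (hne : analyticOrderAt f z₀ ≠ ⊤) :
    e ∣ analyticOrderNatAt f z₀ :=
  (hζ.pow_eq_one_iff_dvd _).mp
    (h2_pow_order_eq_one_of_invariant hf hε hfix hder (hζ.ne_zero he) hinv hne)

/-- Same statement for the order of the Taylor series. -/
theorem h2_dvd_order_taylorPS_of_invariant {f ε : ℂ → ℂ} {z₀ ζ : ℂ} {e : ℕ}
    (hf : AnalyticAt ℂ f z₀) (hε : AnalyticAt ℂ ε z₀) (hfix : ε z₀ = z₀) (hder : deriv ε z₀ = ζ)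
    (hζ : IsPrimitiveRoot ζ e) (he : e ≠ 0) (hinv : f ∘ ε =ᶠ[𝓝 z₀] f)
    (hne : h2_taylorPS f z₀ ≠ 0) : e ∣ (h2_taylorPS f z₀).order.toNat := by
  have hne' : analyticOrderAt f z₀ ≠ ⊤ := by
    rw [← h2_order_taylorPS hf]; exact fun h => hne (PowerSeries.order_eq_top.mp h)
  rw [h2_order_taylorPS hf]
  exact h2_dvd_order_of_invariant hf hε hfix hder hζ he hinv hne'

section Moebius

/-- The Möbius transformation `z ↦ (a z + b) / (c z + d)` as a function on `ℂ`. -/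
noncomputable def h2_moebius (a b c d : ℂ) (z : ℂ) : ℂ := (a * z + b) / (c * z + d)

theorem h2_moebius_analyticAt (a b c d : ℂ) {z₀ : ℂ} (h : c * z₀ + d ≠ 0) :
    AnalyticAt ℂ (h2_moebius a b c d) z₀ := by
  unfold h2_moebius
  have h1 : AnalyticAt ℂ (fun z : ℂ => a * z + b) z₀ := by fun_prop
  have h2 : AnalyticAt ℂ (fun z : ℂ => c * z + d) z₀ := by fun_prop
  exact h1.div h2 h

theorem h2_moebius_hasDerivAt (a b c d : ℂ) {z₀ : ℂ} (h : c * z₀ + d ≠ 0) :
    HasDerivAt (h2_moebius a b c d) ((a * d - b * c) / (c * z₀ + d) ^ 2) z₀ := by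
  unfold h2_moebius
  have h1 : HasDerivAt (fun z : ℂ => a * z + b) a z₀ := by
    simpa using ((hasDerivAt_id z₀).const_mul a).add_const b
  have h2 : HasDerivAt (fun z : ℂ => c * z + d) c z₀ := by
    simpa using ((hasDerivAt_id z₀).const_mul c).add_const d
  have := h1.div h2 h
  rw [show a * (c * z₀ + d) - (a * z₀ + b) * c = a * d - b * c by ring] at this
  exact this

theorem h2_moebius_deriv (a b c d : ℂ) {z₀ : ℂ} (h : c * z₀ + d ≠ 0) :
    deriv (h2_moebius a b c d) z₀ = (a * d - b * c) / (c * z₀ + d) ^ 2 :=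
  (h2_moebius_hasDerivAt a b c d h).deriv

theorem h2_moebius_deriv_ne_zero (a b c d : ℂ) {z₀ : ℂ} (h : c * z₀ + d ≠ 0)
    (hdet : a * d - b * c ≠ 0) : deriv (h2_moebius a b c d) z₀ ≠ 0 := by
  rw [h2_moebius_deriv a b c d h]
  exact div_ne_zero hdet (pow_ne_zero 2 h)

end Moebius

end Fermat.Agent.Lib.X0
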