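/-
X0 project (S24), piece (C2) (helper2): Taylor expansions at a point `τ₀ ∈ ℍ` of holomorphic
functions on the upper half plane, and their behaviour under the action of `SL(2, ℤ)`.
-/
import Mathlib
import Fermat.Agent.Lib.X0.TaylorPS

set_option autoImplicit false

open Filter Topology UpperHalfPlane
open scoped Manifold MatrixGroups

namespace Fermat.Agent.Lib.X0

/-- The Taylor series at `τ₀ ∈ ℍ` of a function on the upper half plane. -/
noncomputable def h2_taylorH (f : ℍ → ℂ) (τ₀ : ℍ) : PowerSeries ℂ :=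
  h2_taylorPS (f ∘ ofComplex) (τ₀ : ℂ)

theorem h2_analyticAt_comp_ofComplex {f : ℍ → ℂ} (hf : MDiff f) (τ₀ : ℍ) :
    AnalyticAt ℂ (f ∘ ofComplex) (τ₀ : ℂ) := by
  rw [UpperHalfPlane.mdifferentiable_iff] at hf
  exact (hf.analyticOnNhd isOpen_upperHalfPlaneSet) _ τ₀.im_pos

theorem h2_taylorH_add {f g : ℍ → ℂ} (hf : MDiff f) (hg : MDiff g) (τ₀ : ℍ) :
    h2_taylorH (f + g) τ₀ = h2_taylorH f τ₀ + h2_taylorH g τ₀ :=
  h2_taylorPS_add (h2_analyticAt_comp_ofComplex hf τ₀) (h2_analyticAt_comp_ofComplex hg τ₀)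

theorem h2_taylorH_mul {f g : ℍ → ℂ} (hf : MDiff f) (hg : MDiff g) (τ₀ : ℍ) :
    h2_taylorH (f * g) τ₀ = h2_taylorH f τ₀ * h2_taylorH g τ₀ :=
  h2_taylorPS_mul (h2_analyticAt_comp_ofComplex hf τ₀) (h2_analyticAt_comp_ofComplex hg τ₀)

theorem h2_taylorH_const (c : ℂ) (τ₀ : ℍ) :
    h2_taylorH (fun _ => c) τ₀ = PowerSeries.C c :=
  h2_taylorPS_const c τ₀

theorem h2_taylorH_one (τ₀ : ℍ) : h2_taylorH (1 : ℍ → ℂ) τ₀ = 1 := h2_taylorPS_one τ₀

theorem h2_taylorH_zero (τ₀ : ℍ) : h2_taylorH (0 : ℍ → ℂ) τ₀ = 0 := h2_taylorPS_zero τ₀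

theorem h2_taylorH_neg (f : ℍ → ℂ) (τ₀ : ℍ) : h2_taylorH (-f) τ₀ = -h2_taylorH f τ₀ :=
  h2_taylorPS_neg

theorem h2_taylorH_sub {f g : ℍ → ℂ} (hf : MDiff f) (hg : MDiff g) (τ₀ : ℍ) :
    h2_taylorH (f - g) τ₀ = h2_taylorH f τ₀ - h2_taylorH g τ₀ :=
  h2_taylorPS_sub (h2_analyticAt_comp_ofComplex hf τ₀) (h2_analyticAt_comp_ofComplex hg τ₀)

/-- The constant coefficient is the value at the point. -/
theorem h2_taylorH_coeff_zero (f : ℍ → ℂ) (τ₀ : ℍ) :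
    PowerSeries.coeff 0 (h2_taylorH f τ₀) = f τ₀ := by
  simp [h2_taylorH, h2_taylorPS_coeff]

/-- Identity theorem: the Taylor series determines a holomorphic function on `ℍ`. -/
theorem h2_taylorH_eq_zero_iff {f : ℍ → ℂ} (hf : MDiff f) (τ₀ : ℍ) :
    h2_taylorH f τ₀ = 0 ↔ f = 0 := by
  constructor
  · intro h
    have h0 := (h2_taylorPS_eq_zero_iff (h2_analyticAt_comp_ofComplex hf τ₀)).mp h
    have hf' := UpperHalfPlane.mdifferentiable_iff.mp hf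
    have han := hf'.analyticOnNhd isOpen_upperHalfPlaneSet
    have hpre : IsPreconnected {z : ℂ | 0 < z.im} :=
      (Complex.isConnected_of_upperHalfPlane subset_rfl (by grind)).isPreconnected
    have := han.eqOn_zero_of_preconnected_of_eventuallyEq_zero hpre τ₀.im_pos h0
    ext w
    have hw := this w.im_pos
    simpa using hw
  · rintro rfl
    exact h2_taylorH_zero τ₀

theorem h2_taylorH_injective {f g : ℍ → ℂ} (hf : MDiff f) (hg : MDiff g) (τ₀ : ℍ)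
    (h : h2_taylorH f τ₀ = h2_taylorH g τ₀) : f = g := by
  have : h2_taylorH (f - g) τ₀ = 0 := by rw [h2_taylorH_sub hf hg, h, sub_self]
  exact sub_eq_zero.mp ((h2_taylorH_eq_zero_iff (hf.sub hg) τ₀).mp this)

/-! ## The action of `SL(2, ℤ)` -/

/-- The Möbius transformation of `ℂ` attached to `g ∈ SL(2, ℤ)`. -/
noncomputable def h2_moebSL (g : SL(2, ℤ)) : ℂ → ℂ :=
  h2_moebius (g 0 0 : ℂ) (g 0 1 : ℂ) (g 1 0 : ℂ) (g 1 1 : ℂ)

theorem h2_coe_smul_eq_moebSL (g : SL(2, ℤ)) (z : ℍ) : ((g • z : ℍ) : ℂ) = h2_moebSL g z := by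
  rw [UpperHalfPlane.coe_specialLinearGroup_apply]
  simp [h2_moebSL, h2_moebius]

theorem h2_moebSL_denom_ne_zero (g : SL(2, ℤ)) (z : ℍ) :
    ((g 1 0 : ℤ) : ℂ) * (z : ℂ) + ((g 1 1 : ℤ) : ℂ) ≠ 0 := by
  have := UpperHalfPlane.denom_ne_zero (g : GL (Fin 2) ℝ) z
  simpa [UpperHalfPlane.denom] using this

theorem h2_moebSL_analyticAt (g : SL(2, ℤ)) (z : ℍ) : AnalyticAt ℂ (h2_moebSL g) (z : ℂ) :=
  h2_moebius_analyticAt _ _ _ _ (h2_moebSL_denom_ne_zero g z)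

theorem h2_moebSL_deriv (g : SL(2, ℤ)) (z : ℍ) :
    deriv (h2_moebSL g) (z : ℂ) = 1 / (((g 1 0 : ℤ) : ℂ) * (z : ℂ) + ((g 1 1 : ℤ) : ℂ)) ^ 2 := by
  unfold h2_moebSL
  rw [h2_moebius_deriv _ _ _ _ (h2_moebSL_denom_ne_zero g z)]
  congr 1
  have h := Matrix.SpecialLinearGroup.det_coe g
  rw [Matrix.det_fin_two] at h
  have h' : ((g 0 0 * g 1 1 - g 0 1 * g 1 0 : ℤ) : ℂ) = 1 := by rw [h]; simp
  push_cast at h'
  exact h'

theorem h2_moebSL_deriv_ne_zero (g : SL(2, ℤ)) (z : ℍ) : deriv (h2_moebSL g) (z : ℂ) ≠ 0 := by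
  rw [h2_moebSL_deriv]
  exact one_div_ne_zero (pow_ne_zero 2 (h2_moebSL_denom_ne_zero g z))

/-- Near a point of `ℍ`, precomposition with the action of `g` is precomposition with the
Möbius transformation. -/
theorem h2_comp_smul_eventuallyEq (f : ℍ → ℂ) (g : SL(2, ℤ)) (τ₀ : ℍ) :
    (fun τ : ℍ => f (g • τ)) ∘ ofComplex =ᶠ[𝓝 (τ₀ : ℂ)] (f ∘ ofComplex) ∘ h2_moebSL g := by
  filter_upwards [isOpen_upperHalfPlaneSet.mem_nhds τ₀.im_pos] with z hz
  have hz' : 0 < z.im := hz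
  simp only [Function.comp_apply]
  rw [ofComplex_apply_of_im_pos hz']
  congr 1
  rw [← h2_coe_smul_eq_moebSL g ⟨z, hz'⟩, ofComplex_apply]

/-- The order of the Taylor series of `f ∘ g` at `τ₀` is the order of `f` at `g τ₀`. -/
theorem h2_order_taylorH_smul {f : ℍ → ℂ} (hf : MDiff f) (g : SL(2, ℤ)) (τ₀ : ℍ) :
    (h2_taylorH (fun τ : ℍ => f (g • τ)) τ₀).order = (h2_taylorH f (g • τ₀)).order := by
  unfold h2_taylorH
  rw [h2_taylorPS_congr (h2_comp_smul_eventuallyEq f g τ₀), h2_coe_smul_eq_moebSL]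
  refine h2_order_taylorPS_comp ?_ (h2_moebSL_analyticAt g τ₀) (h2_moebSL_deriv_ne_zero g τ₀)
  rw [← h2_coe_smul_eq_moebSL]
  exact h2_analyticAt_comp_ofComplex hf (g • τ₀)

theorem h2_mdiff_comp_smul {f : ℍ → ℂ} (hf : MDiff f) (g : SL(2, ℤ)) :
    MDiff (fun τ : ℍ => f (g • τ)) := by
  have hdet : 0 < (g : GL (Fin 2) ℝ).det.val := by simp
  exact hf.comp (UpperHalfPlane.mdifferentiable_smul hdet)

/-- Invariance under an elliptic element: if `F` is holomorphic on `ℍ`, invariant under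
`γ ∈ SL(2, ℤ)` which fixes `τ₀`, and the multiplier `(c τ₀ + d)⁻²` of `γ` at `τ₀` is a primitive
`e`-th root of unity, then `e` divides the order of `F` at `τ₀`. -/
theorem h2_dvd_order_taylorH_of_invariant {F : ℍ → ℂ} (hF : MDiff F) (γ : SL(2, ℤ)) (τ₀ : ℍ)
    (hfix : γ • τ₀ = τ₀) {e : ℕ} (he : e ≠ 0)
    (hζ : IsPrimitiveRoot (1 / (((γ 1 0 : ℤ) : ℂ) * (τ₀ : ℂ) + ((γ 1 1 : ℤ) : ℂ)) ^ 2) e)
    (hinv : ∀ τ, F (γ • τ) = F τ) (hne : F ≠ 0) :
    e ∣ (h2_taylorH F τ₀).order.toNat := by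
  have hfix' : h2_moebSL γ (τ₀ : ℂ) = (τ₀ : ℂ) := by
    rw [← h2_coe_smul_eq_moebSL, hfix]
  refine h2_dvd_order_taylorPS_of_invariant (ε := h2_moebSL γ)
    (h2_analyticAt_comp_ofComplex hF τ₀) (h2_moebSL_analyticAt γ τ₀) hfix'
    (h2_moebSL_deriv γ τ₀) hζ he ?_ ?_
  · have h1 := h2_comp_smul_eventuallyEq F γ τ₀
    refine h1.symm.trans ?_
    have : (fun τ : ℍ => F (γ • τ)) = F := funext hinv
    rw [this]
  · intro h
    exact hne ((h2_taylorH_eq_zero_iff hF τ₀).mp h)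

/-- A fixed point of `S` in `ℍ` is a square root of `-1`. -/
theorem h2_sq_of_S_fixed (τ₀ : ℍ) (hfix : ModularGroup.S • τ₀ = τ₀) : (τ₀ : ℂ) ^ 2 = -1 := by
  have h := h2_coe_smul_eq_moebSL ModularGroup.S τ₀
  rw [hfix] at h
  have hne : (τ₀ : ℂ) ≠ 0 := UpperHalfPlane.ne_zero τ₀
  simp [h2_moebSL, h2_moebius, ModularGroup.S] at h
  field_simp at h
  linear_combination h

theorem h2_matU_entries :
    ((ModularGroup.S * ModularGroup.T : SL(2, ℤ)) 0 0 = 0) ∧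
    ((ModularGroup.S * ModularGroup.T : SL(2, ℤ)) 0 1 = -1) ∧
    ((ModularGroup.S * ModularGroup.T : SL(2, ℤ)) 1 0 = 1) ∧
    ((ModularGroup.S * ModularGroup.T : SL(2, ℤ)) 1 1 = 1) := by
  decide

/-- A fixed point of `U = S T` in `ℍ` is a root of `X² + X + 1`. -/
theorem h2_sq_of_U_fixed (τ₀ : ℍ) (hfix : (ModularGroup.S * ModularGroup.T) • τ₀ = τ₀) :
    (τ₀ : ℂ) ^ 2 + (τ₀ : ℂ) + 1 = 0 := by
  have h := h2_coe_smul_eq_moebSL (ModularGroup.S * ModularGroup.T) τ₀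
  rw [hfix] at h
  have hne := h2_moebSL_denom_ne_zero (ModularGroup.S * ModularGroup.T) τ₀
  obtain ⟨h00, h01, h10, h11⟩ := h2_matU_entries
  unfold h2_moebSL h2_moebius at h
  rw [h00, h01, h10, h11] at h
  rw [h10, h11] at hne
  push_cast at h hne
  rw [eq_div_iff hne] at h
  linear_combination h

/-- A nonzero holomorphic function invariant under `S` vanishes to even order at a fixed point
of `S`. -/
theorem h2_two_dvd_order_of_S_invariant {F : ℍ → ℂ} (hF : MDiff F) (τ₀ : ℍ)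
    (hfix : ModularGroup.S • τ₀ = τ₀) (hinv : ∀ τ, F (ModularGroup.S • τ) = F τ) (hne : F ≠ 0) :
    2 ∣ (h2_taylorH F τ₀).order.toNat := by
  refine h2_dvd_order_taylorH_of_invariant hF ModularGroup.S τ₀ hfix two_ne_zero ?_ hinv hne
  have h10 : (ModularGroup.S : SL(2, ℤ)) 1 0 = 1 := by decide
  have h11 : (ModularGroup.S : SL(2, ℤ)) 1 1 = 0 := by decide
  rw [h10, h11]
  push_cast
  rw [one_mul, add_zero, h2_sq_of_S_fixed τ₀ hfix]
  have : (1 : ℂ) / -1 = -1 := by norm_num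
  rw [this]
  exact IsPrimitiveRoot.neg_one 0 (by norm_num)

/-- A nonzero holomorphic function invariant under `U = S T` vanishes to order divisible by `3`
at a fixed point of `U`. -/
theorem h2_three_dvd_order_of_U_invariant {F : ℍ → ℂ} (hF : MDiff F) (τ₀ : ℍ)
    (hfix : (ModularGroup.S * ModularGroup.T) • τ₀ = τ₀)
    (hinv : ∀ τ, F ((ModularGroup.S * ModularGroup.T) • τ) = F τ) (hne : F ≠ 0) :
    3 ∣ (h2_taylorH F τ₀).order.toNat := by
  refine h2_dvd_order_taylorH_of_invariant hF (ModularGroup.S * ModularGroup.T) τ₀ hfix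
    three_ne_zero ?_ hinv hne
  obtain ⟨-, -, h10, h11⟩ := h2_matU_entries
  rw [h10, h11]
  push_cast
  have hq := h2_sq_of_U_fixed τ₀ hfix
  have hne0 : (τ₀ : ℂ) ≠ 0 := UpperHalfPlane.ne_zero τ₀
  have hsq : (1 * (τ₀ : ℂ) + 1) ^ 2 = (τ₀ : ℂ) := by linear_combination hq
  rw [hsq]
  have hcube : (τ₀ : ℂ) ^ 3 = 1 := by linear_combination ((τ₀ : ℂ) - 1) * hq
  have hne1 : (τ₀ : ℂ) ≠ 1 := by
    intro h
    have := τ₀.im_pos
    rw [← UpperHalfPlane.coe_im, h] at this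
    simp at this
  have h3 : (1 / (τ₀ : ℂ)) ^ 3 = 1 := by rw [div_pow, hcube]; simp
  refine IsPrimitiveRoot.mk_of_lt _ (by norm_num) h3 ?_
  intro l hl hl3 h
  interval_cases l
  · apply hne1
    have : 1 / (τ₀ : ℂ) = 1 := by simpa using h
    field_simp at this
    exact this.symm
  · apply hne1
    have h2 : (1 / (τ₀ : ℂ)) ^ 2 = 1 := h
    have : 1 / (τ₀ : ℂ) = 1 := by
      calc 1 / (τ₀ : ℂ) = (1 / (τ₀ : ℂ)) ^ 3 / (1 / (τ₀ : ℂ)) ^ 2 := by
            field_simp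
        _ = 1 := by rw [h3, h2]; simp
    field_simp at this
    exact this.symm

end Fermat.Agent.Lib.X0
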