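/-
X0 project (S24), piece (C2) (helper2): bundled Taylor expansion homomorphisms on the ring of
holomorphic functions on the upper half plane, with values in power series / Laurent series.
-/
import Mathlib
import Fermat.Agent.Lib.X0.TaylorH

set_option autoImplicit false

open Filter Topology UpperHalfPlane
open scoped Manifold MatrixGroups

namespace Fermat.Agent.Lib.X0

/-- The order of a nonzero power series, viewed as a Laurent series. -/
theorem h2_order_ofPowerSeries {R : Type*} [Semiring R] (p : PowerSeries R) (hp : p ≠ 0) :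
    (HahnSeries.ofPowerSeries ℤ R p).order = (p.order.toNat : ℤ) := by
  have hne : HahnSeries.ofPowerSeries ℤ R p ≠ 0 := by
    intro h
    apply hp
    apply HahnSeries.ofPowerSeries_injective (Γ := ℤ)
    rw [h, map_zero]
  have htop : p.order ≠ ⊤ := fun h => hp (PowerSeries.order_eq_top.mp h)
  have hm : p.order = (p.order.toNat : ℕ∞) := (ENat.natCast_toNat htop).symm
  apply le_antisymm
  · apply HahnSeries.order_le_of_coeff_ne_zero
    rw [HahnSeries.ofPowerSeries_apply_coeff]
    exact PowerSeries.coeff_order hp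
  · rw [HahnSeries.le_order_iff_forall hne]
    intro j hj
    rcases lt_or_ge j 0 with hneg | hpos
    · rw [HahnSeries.ofPowerSeries_apply]
      refine HahnSeries.embDomain_of_notMem_range ?_
      rintro ⟨m, rfl⟩
      exact absurd hneg (not_lt.mpr (Int.natCast_nonneg m))
    · obtain ⟨n, rfl⟩ := Int.eq_ofNat_of_zero_le hpos
      rw [HahnSeries.ofPowerSeries_apply_coeff]
      apply PowerSeries.coeff_of_lt_order
      rw [hm]
      exact_mod_cast hj

/-- The subring of holomorphic functions on the upper half plane. -/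
def h2_holo : Subring (ℍ → ℂ) where
  carrier := {f | MDiff f}
  mul_mem' := fun hf hg => hf.mul hg
  one_mem' := mdifferentiable_const
  add_mem' := fun hf hg => hf.add hg
  zero_mem' := mdifferentiable_const
  neg_mem' := fun hf => hf.neg

theorem h2_mem_holo {f : ℍ → ℂ} : f ∈ h2_holo ↔ MDiff f := Iff.rfl

/-- The Taylor expansion at `τ₀`, as a ring homomorphism. -/
noncomputable def h2_taylorHom (τ₀ : ℍ) : h2_holo →+* PowerSeries ℂ where
  toFun f := h2_taylorH f.1 τ₀
  map_one' := h2_taylorH_one τ₀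
  map_mul' f g := h2_taylorH_mul f.2 g.2 τ₀
  map_zero' := h2_taylorH_zero τ₀
  map_add' f g := h2_taylorH_add f.2 g.2 τ₀

theorem h2_taylorHom_apply (τ₀ : ℍ) (f : h2_holo) : h2_taylorHom τ₀ f = h2_taylorH f.1 τ₀ := rfl

theorem h2_taylorHom_injective (τ₀ : ℍ) : Function.Injective (h2_taylorHom τ₀) := by
  intro f g h
  exact Subtype.ext (h2_taylorH_injective f.2 g.2 τ₀ h)

/-- The constant functions, as elements of `h2_holo`. -/
def h2_holoConst : ℂ →+* h2_holo where
  toFun c := ⟨fun _ => c, mdifferentiable_const⟩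
  map_one' := rfl
  map_mul' _ _ := rfl
  map_zero' := rfl
  map_add' _ _ := rfl

theorem h2_taylorHom_const (τ₀ : ℍ) (c : ℂ) :
    h2_taylorHom τ₀ (h2_holoConst c) = PowerSeries.C c :=
  h2_taylorH_const c τ₀

/-- Precomposition with the action of `g ∈ SL(2, ℤ)`, as a ring endomorphism of `h2_holo`.
Contravariant: `h2_holoSmul g (h2_holoSmul h f) = h2_holoSmul (h * g) f`. -/
noncomputable def h2_holoSmul (g : SL(2, ℤ)) : h2_holo →+* h2_holo where
  toFun f := ⟨fun τ => f.1 (g • τ), h2_mdiff_comp_smul f.2 g⟩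
  map_one' := rfl
  map_mul' _ _ := rfl
  map_zero' := rfl
  map_add' _ _ := rfl

theorem h2_holoSmul_apply (g : SL(2, ℤ)) (f : h2_holo) (τ : ℍ) :
    (h2_holoSmul g f).1 τ = f.1 (g • τ) := rfl

theorem h2_holoSmul_one (f : h2_holo) : h2_holoSmul 1 f = f := by
  apply Subtype.ext
  funext τ
  rw [h2_holoSmul_apply, one_smul]

theorem h2_holoSmul_mul (g h : SL(2, ℤ)) (f : h2_holo) :
    h2_holoSmul g (h2_holoSmul h f) = h2_holoSmul (h * g) f := by
  apply Subtype.ext
  funext τ
  rw [h2_holoSmul_apply, h2_holoSmul_apply, h2_holoSmul_apply, mul_smul]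

theorem h2_holoSmul_const (g : SL(2, ℤ)) (c : ℂ) : h2_holoSmul g (h2_holoConst c) = h2_holoConst c :=
  rfl

theorem h2_holoSmul_injective (g : SL(2, ℤ)) : Function.Injective (h2_holoSmul g) := by
  intro f₁ f₂ h
  have := congrArg (h2_holoSmul g⁻¹) h
  rwa [h2_holoSmul_mul, h2_holoSmul_mul, mul_inv_cancel, h2_holoSmul_one, h2_holoSmul_one] at this

/-- The Taylor expansion at `τ₀` with values in Laurent series. -/
noncomputable def h2_laurentHom (τ₀ : ℍ) : h2_holo →+* LaurentSeries ℂ :=
  (HahnSeries.ofPowerSeries ℤ ℂ).comp (h2_taylorHom τ₀)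

theorem h2_laurentHom_apply (τ₀ : ℍ) (f : h2_holo) :
    h2_laurentHom τ₀ f = HahnSeries.ofPowerSeries ℤ ℂ (h2_taylorH f.1 τ₀) := rfl

theorem h2_laurentHom_injective (τ₀ : ℍ) : Function.Injective (h2_laurentHom τ₀) :=
  (HahnSeries.ofPowerSeries_injective (Γ := ℤ)).comp (h2_taylorHom_injective τ₀)

theorem h2_laurentHom_const (τ₀ : ℍ) (c : ℂ) :
    h2_laurentHom τ₀ (h2_holoConst c) = HahnSeries.C c := by
  rw [h2_laurentHom, RingHom.comp_apply, h2_taylorHom_const, HahnSeries.ofPowerSeries_C]

/-- The order of the Laurent expansion is the (natural number) order of the Taylor series. -/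
theorem h2_order_laurentHom (τ₀ : ℍ) (f : h2_holo) (hf : f ≠ 0) :
    (h2_laurentHom τ₀ f).order = ((h2_taylorH f.1 τ₀).order.toNat : ℤ) := by
  rw [h2_laurentHom_apply]
  apply h2_order_ofPowerSeries
  intro h
  apply hf
  apply h2_taylorHom_injective τ₀
  rw [h2_taylorHom_apply, h, map_zero]

/-- Orders are unchanged by moving the base point with `g ∈ SL(2, ℤ)`. -/
theorem h2_order_laurentHom_smul (τ₀ : ℍ) (g : SL(2, ℤ)) (f : h2_holo) :
    (h2_laurentHom τ₀ (h2_holoSmul g f)).order = (h2_laurentHom (g • τ₀) f).order := by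
  by_cases hf : f = 0
  · subst hf; simp
  · have hf' : h2_holoSmul g f ≠ 0 := by
      intro h
      apply hf
      apply h2_holoSmul_injective g
      rw [h, map_zero]
    rw [h2_order_laurentHom _ _ hf, h2_order_laurentHom _ _ hf']
    have := h2_order_taylorH_smul f.2 g τ₀
    have h2 : (h2_holoSmul g f).1 = fun τ => f.1 (g • τ) := rfl
    rw [h2, this]

/-- Invariance under `S` at a fixed point of `S`. -/
theorem h2_two_dvd_order_laurentHom (τ₀ : ℍ) (hfix : ModularGroup.S • τ₀ = τ₀) (f : h2_holo)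
    (hinv : h2_holoSmul ModularGroup.S f = f) (hf : f ≠ 0) :
    (2 : ℤ) ∣ (h2_laurentHom τ₀ f).order := by
  rw [h2_order_laurentHom _ _ hf]
  have hinv' : ∀ τ, f.1 (ModularGroup.S • τ) = f.1 τ := fun τ => by
    have := congrArg (fun F : h2_holo => F.1 τ) hinv
    simpa [h2_holoSmul_apply] using this
  have hne : f.1 ≠ 0 := fun h => hf (Subtype.ext h)
  exact_mod_cast Int.natCast_dvd_natCast.mpr
    (h2_two_dvd_order_of_S_invariant f.2 τ₀ hfix hinv' hne)

/-- Invariance under `U = S T` at a fixed point of `U`. -/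
theorem h2_three_dvd_order_laurentHom (τ₀ : ℍ)
    (hfix : (ModularGroup.S * ModularGroup.T) • τ₀ = τ₀) (f : h2_holo)
    (hinv : h2_holoSmul (ModularGroup.S * ModularGroup.T) f = f) (hf : f ≠ 0) :
    (3 : ℤ) ∣ (h2_laurentHom τ₀ f).order := by
  rw [h2_order_laurentHom _ _ hf]
  have hinv' : ∀ τ, f.1 ((ModularGroup.S * ModularGroup.T) • τ) = f.1 τ := fun τ => by
    have := congrArg (fun F : h2_holo => F.1 τ) hinv
    simpa [h2_holoSmul_apply] using this
  have hne : f.1 ≠ 0 := fun h => hf (Subtype.ext h)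
  exact_mod_cast Int.natCast_dvd_natCast.mpr
    (h2_three_dvd_order_of_U_invariant f.2 τ₀ hfix hinv' hne)

end Fermat.Agent.Lib.X0
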