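/-
X0 project (S24), piece (C2) (helper2): the expansion homomorphisms at a finite point `τ₀ ∈ ℍ`
attached to the cosets `g Γ₀(N)`, on the ring of `Γ₀(N)`-invariant holomorphic functions.
-/
import Mathlib
import Fermat.Agent.Lib.X0.TaylorL

set_option autoImplicit false

open Filter Topology UpperHalfPlane
open scoped Manifold MatrixGroups

namespace Fermat.Agent.Lib.X0

/-- The subring of `Γ₀(N)`-invariant holomorphic functions on `ℍ`. -/
def h2_holoInv (N : ℕ) : Subring h2_holo where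
  carrier := {F | ∀ δ ∈ CongruenceSubgroup.Gamma0 N, h2_holoSmul δ F = F}
  mul_mem' := fun {F G} hF hG δ hδ => by rw [map_mul, hF δ hδ, hG δ hδ]
  one_mem' := fun δ _ => map_one _
  add_mem' := fun {F G} hF hG δ hδ => by rw [map_add, hF δ hδ, hG δ hδ]
  zero_mem' := fun δ _ => map_zero _
  neg_mem' := fun {F} hF δ hδ => by rw [map_neg, hF δ hδ]

theorem h2_mem_holoInv {N : ℕ} {F : h2_holo} :
    F ∈ h2_holoInv N ↔ ∀ δ ∈ CongruenceSubgroup.Gamma0 N, h2_holoSmul δ F = F := Iff.rfl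

theorem h2_const_mem_holoInv (N : ℕ) (c : ℂ) : h2_holoConst c ∈ h2_holoInv N :=
  fun δ _ => h2_holoSmul_const δ c

/-- The expansion at `τ₀` attached to `g ∈ SL(2, ℤ)`: the Laurent (Taylor) series at `τ₀` of
`F ∘ g⁻¹`. -/
noncomputable def h2_expG (τ₀ : ℍ) (g : SL(2, ℤ)) : h2_holo →+* LaurentSeries ℂ :=
  (h2_laurentHom τ₀).comp (h2_holoSmul g⁻¹)

theorem h2_expG_apply (τ₀ : ℍ) (g : SL(2, ℤ)) (F : h2_holo) :
    h2_expG τ₀ g F = h2_laurentHom τ₀ (h2_holoSmul g⁻¹ F) := rfl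

theorem h2_expG_injective (τ₀ : ℍ) (g : SL(2, ℤ)) : Function.Injective (h2_expG τ₀ g) :=
  (h2_laurentHom_injective τ₀).comp (h2_holoSmul_injective g⁻¹)

theorem h2_expG_const (τ₀ : ℍ) (g : SL(2, ℤ)) (c : ℂ) :
    h2_expG τ₀ g (h2_holoConst c) = HahnSeries.C c := by
  rw [h2_expG_apply, h2_holoSmul_const, h2_laurentHom_const]

/-- Two expansions of `F` agree iff the two translates of `F` agree. -/
theorem h2_expG_eq_iff (τ₀ : ℍ) (g g' : SL(2, ℤ)) (F : h2_holo) :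
    h2_expG τ₀ g F = h2_expG τ₀ g' F ↔ h2_holoSmul g⁻¹ F = h2_holoSmul g'⁻¹ F :=
  (h2_laurentHom_injective τ₀).eq_iff

/-- For `δ ∈ Γ₀(N)` and `F` invariant under `Γ₀(N)`, `g δ` and `g` give the same expansion. -/
theorem h2_expG_mul_right {N : ℕ} (τ₀ : ℍ) (g δ : SL(2, ℤ)) (hδ : δ ∈ CongruenceSubgroup.Gamma0 N)
    {F : h2_holo} (hF : F ∈ h2_holoInv N) : h2_expG τ₀ (g * δ) F = h2_expG τ₀ g F := by
  rw [h2_expG_apply, h2_expG_apply, mul_inv_rev, ← h2_holoSmul_mul,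
    hF δ⁻¹ (inv_mem hδ)]

/-- Left multiplication by `γ` moves the base point. -/
theorem h2_order_expG_mul_left (τ₀ : ℍ) (γ g : SL(2, ℤ)) (F : h2_holo) :
    (h2_expG τ₀ (γ * g) F).order = (h2_expG (γ⁻¹ • τ₀) g F).order := by
  rw [h2_expG_apply, h2_expG_apply, mul_inv_rev, ← h2_holoSmul_mul, h2_order_laurentHom_smul]

/-- If `γ` fixes `τ₀`, the orders of the expansions attached to `γ g` and `g` agree. -/
theorem h2_order_expG_mul_left_of_fixed (τ₀ : ℍ) (γ g : SL(2, ℤ)) (hfix : γ • τ₀ = τ₀)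
    (F : h2_holo) : (h2_expG τ₀ (γ * g) F).order = (h2_expG τ₀ g F).order := by
  have h : γ⁻¹ • τ₀ = τ₀ := by
    conv_lhs => rw [← hfix]
    rw [inv_smul_smul]
  rw [h2_order_expG_mul_left, h]

/-- If `g⁻¹ γ g ∈ Γ₀(N)` then the translate `F ∘ g⁻¹` of a `Γ₀(N)`-invariant function is
`γ`-invariant. -/
theorem h2_holoSmul_inv_invariant {N : ℕ} (γ g : SL(2, ℤ))
    (h : g⁻¹ * γ * g ∈ CongruenceSubgroup.Gamma0 N) {F : h2_holo} (hF : F ∈ h2_holoInv N) :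
    h2_holoSmul γ (h2_holoSmul g⁻¹ F) = h2_holoSmul g⁻¹ F := by
  have h1 := hF _ h
  have h2 : h2_holoSmul g⁻¹ (h2_holoSmul (g⁻¹ * γ * g) F) = h2_holoSmul g⁻¹ F := by rw [h1]
  rw [h2_holoSmul_mul] at h2
  rw [h2_holoSmul_mul]
  have : g⁻¹ * γ * g * g⁻¹ = g⁻¹ * γ := by group
  rw [this] at h2
  exact h2

theorem h2_two_dvd_order_expG {N : ℕ} (τ₀ : ℍ) (hfix : ModularGroup.S • τ₀ = τ₀) (g : SL(2, ℤ))
    (h : g⁻¹ * ModularGroup.S * g ∈ CongruenceSubgroup.Gamma0 N) {F : h2_holo}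
    (hF : F ∈ h2_holoInv N) (hne : F ≠ 0) : (2 : ℤ) ∣ (h2_expG τ₀ g F).order := by
  rw [h2_expG_apply]
  refine h2_two_dvd_order_laurentHom τ₀ hfix _ (h2_holoSmul_inv_invariant _ g h hF) ?_
  intro h0
  apply hne
  apply h2_holoSmul_injective g⁻¹
  rw [h0, map_zero]

theorem h2_three_dvd_order_expG {N : ℕ} (τ₀ : ℍ)
    (hfix : (ModularGroup.S * ModularGroup.T) • τ₀ = τ₀) (g : SL(2, ℤ))
    (h : g⁻¹ * (ModularGroup.S * ModularGroup.T) * g ∈ CongruenceSubgroup.Gamma0 N) {F : h2_holo}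
    (hF : F ∈ h2_holoInv N) (hne : F ≠ 0) : (3 : ℤ) ∣ (h2_expG τ₀ g F).order := by
  rw [h2_expG_apply]
  refine h2_three_dvd_order_laurentHom τ₀ hfix _ (h2_holoSmul_inv_invariant _ g h hF) ?_
  intro h0
  apply hne
  apply h2_holoSmul_injective g⁻¹
  rw [h0, map_zero]

/-- A function invariant under all of `SL(2, ℤ)` has the same expansion for all `g`. -/
theorem h2_expG_of_invariant (τ₀ : ℍ) (g : SL(2, ℤ)) {F : h2_holo}
    (hF : ∀ γ : SL(2, ℤ), h2_holoSmul γ F = F) : h2_expG τ₀ g F = h2_laurentHom τ₀ F := by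
  rw [h2_expG_apply, hF]

/-! ### Expansions indexed by cosets -/

/-- The expansion at `τ₀` attached to the coset `q = g Γ₀(N)`, on `Γ₀(N)`-invariant holomorphic
functions. -/
noncomputable def h2_finExp (N : ℕ) (τ₀ : ℍ) (q : SL(2, ℤ) ⧸ CongruenceSubgroup.Gamma0 N) :
    h2_holoInv N →+* LaurentSeries ℂ :=
  (h2_expG τ₀ q.out).comp (h2_holoInv N).subtype

theorem h2_finExp_mk (N : ℕ) (τ₀ : ℍ) (g : SL(2, ℤ)) (F : h2_holoInv N) :
    h2_finExp N τ₀ (g : SL(2, ℤ) ⧸ CongruenceSubgroup.Gamma0 N) F = h2_expG τ₀ g F.1 := by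
  have h : ((g : SL(2, ℤ) ⧸ CongruenceSubgroup.Gamma0 N).out)⁻¹ * g
      ∈ CongruenceSubgroup.Gamma0 N := by
    rw [← QuotientGroup.eq]
    exact QuotientGroup.out_eq' _
  have h2 := h2_expG_mul_right τ₀ (g : SL(2, ℤ) ⧸ CongruenceSubgroup.Gamma0 N).out _ h F.2
  rw [mul_inv_cancel_left] at h2
  exact h2.symm

theorem h2_finExp_injective (N : ℕ) (τ₀ : ℍ) (q : SL(2, ℤ) ⧸ CongruenceSubgroup.Gamma0 N) :
    Function.Injective (h2_finExp N τ₀ q) :=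
  (h2_expG_injective τ₀ q.out).comp Subtype.val_injective

theorem h2_finExp_const (N : ℕ) (τ₀ : ℍ) (q : SL(2, ℤ) ⧸ CongruenceSubgroup.Gamma0 N) (c : ℂ) :
    h2_finExp N τ₀ q ⟨h2_holoConst c, h2_const_mem_holoInv N c⟩ = HahnSeries.C c :=
  h2_expG_const τ₀ _ c

theorem h2_finExp_of_invariant (N : ℕ) (τ₀ : ℍ) (q : SL(2, ℤ) ⧸ CongruenceSubgroup.Gamma0 N)
    (F : h2_holoInv N) (hF : ∀ γ : SL(2, ℤ), h2_holoSmul γ F.1 = F.1) :
    h2_finExp N τ₀ q F = h2_laurentHom τ₀ F.1 :=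
  h2_expG_of_invariant τ₀ _ hF

/-- Orders are invariant under the action of an element fixing `τ₀`. -/
theorem h2_order_finExp_smul (N : ℕ) (τ₀ : ℍ) (γ : SL(2, ℤ)) (hfix : γ • τ₀ = τ₀)
    (q : SL(2, ℤ) ⧸ CongruenceSubgroup.Gamma0 N) (F : h2_holoInv N) :
    (h2_finExp N τ₀ (γ • q) F).order = (h2_finExp N τ₀ q F).order := by
  induction q using QuotientGroup.induction_on with
  | H g =>
    have : γ • (g : SL(2, ℤ) ⧸ CongruenceSubgroup.Gamma0 N)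
        = ((γ * g : SL(2, ℤ)) : SL(2, ℤ) ⧸ CongruenceSubgroup.Gamma0 N) := rfl
    rw [this, h2_finExp_mk, h2_finExp_mk, h2_order_expG_mul_left_of_fixed τ₀ γ g hfix]

theorem h2_mem_of_smul_eq {N : ℕ} (γ g : SL(2, ℤ))
    (h : γ • (g : SL(2, ℤ) ⧸ CongruenceSubgroup.Gamma0 N) = g) :
    g⁻¹ * γ * g ∈ CongruenceSubgroup.Gamma0 N := by
  have h1 : ((γ * g : SL(2, ℤ)) : SL(2, ℤ) ⧸ CongruenceSubgroup.Gamma0 N) = g := h
  rw [QuotientGroup.eq] at h1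
  have h2 := inv_mem h1
  have : ((γ * g)⁻¹ * g)⁻¹ = g⁻¹ * γ * g := by group
  rwa [this] at h2

theorem h2_two_dvd_order_finExp (N : ℕ) (τ₀ : ℍ) (hfix : ModularGroup.S • τ₀ = τ₀)
    (q : SL(2, ℤ) ⧸ CongruenceSubgroup.Gamma0 N) (hq : ModularGroup.S • q = q)
    (F : h2_holoInv N) (hne : F ≠ 0) : (2 : ℤ) ∣ (h2_finExp N τ₀ q F).order := by
  induction q using QuotientGroup.induction_on with
  | H g =>
    rw [h2_finExp_mk]
    exact h2_two_dvd_order_expG τ₀ hfix g (h2_mem_of_smul_eq _ g hq) F.2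
      (fun h => hne (Subtype.ext h))

theorem h2_three_dvd_order_finExp (N : ℕ) (τ₀ : ℍ)
    (hfix : (ModularGroup.S * ModularGroup.T) • τ₀ = τ₀)
    (q : SL(2, ℤ) ⧸ CongruenceSubgroup.Gamma0 N)
    (hq : (ModularGroup.S * ModularGroup.T) • q = q)
    (F : h2_holoInv N) (hne : F ≠ 0) : (3 : ℤ) ∣ (h2_finExp N τ₀ q F).order := by
  induction q using QuotientGroup.induction_on with
  | H g =>
    rw [h2_finExp_mk]
    exact h2_three_dvd_order_expG τ₀ hfix g (h2_mem_of_smul_eq _ g hq) F.2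
      (fun h => hne (Subtype.ext h))

/-- Distinctness criterion: if some invariant `F` separates the translates by `g⁻¹` and `g'⁻¹`,
the expansions attached to the two cosets differ. -/
theorem h2_finExp_ne_of_separates (N : ℕ) (τ₀ : ℍ) (g g' : SL(2, ℤ)) (F : h2_holoInv N)
    (h : h2_holoSmul g⁻¹ F.1 ≠ h2_holoSmul g'⁻¹ F.1) :
    h2_finExp N τ₀ (g : SL(2, ℤ) ⧸ CongruenceSubgroup.Gamma0 N)
      ≠ h2_finExp N τ₀ (g' : SL(2, ℤ) ⧸ CongruenceSubgroup.Gamma0 N) := by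
  intro heq
  apply h
  have := congrArg (fun φ : h2_holoInv N →+* LaurentSeries ℂ => φ F) heq
  simp only [h2_finExp_mk] at this
  exact (h2_expG_eq_iff τ₀ g g' F.1).mp this

end Fermat.Agent.Lib.X0
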