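/-
X0 project (S24), helper2: assembly of `CFiniteStatement N` (local embedding data over the finite
points `j = c`) from
* `h2_PsiData N`: a subalgebra `A` of `F_N` with `Frac A = F_N` and an injective ring hom
  `Ψ : A → (Γ₀(N)-invariant holomorphic functions on ℍ)` (the "analytic realisation"), and
* `h2_LevelOneData`: the level one facts about the `j`-function.
-/
import Mathlib
import Fermat.Agent.Lib.X0.Defs
import Fermat.Agent.Lib.X0.FinExp
import Fermat.Agent.Lib.X0.FracOrder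

set_option autoImplicit false

open Filter Topology UpperHalfPlane
open scoped Manifold MatrixGroups

namespace Fermat.Agent.Lib.X0

/-- Analytic realisation of (a subalgebra generating) the function field `F_N`. -/
structure h2_PsiData (N : ℕ) where
  A : Subalgebra Kbar (FN N)
  frac : IsFractionRing A (FN N)
  Ψ : A →+* h2_holoInv N
  inj : Function.Injective Ψ
  const : ∀ c : Kbar, Ψ (algebraMap Kbar A c) = ⟨h2_holoConst (iotaC c), h2_const_mem_holoInv N _⟩
  xJ_mem : xJ N ∈ A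
  Ψ_xJ : ((Ψ ⟨xJ N, xJ_mem⟩ : h2_holoInv N).1.1 : ℍ → ℂ) = jFun
  sep : ∀ g g' : SL(2, ℤ), g⁻¹ * g' ∉ CongruenceSubgroup.Gamma0 N →
    ∃ a : A, h2_holoSmul g⁻¹ (Ψ a).1 ≠ h2_holoSmul g'⁻¹ (Ψ a).1

/-- The level one facts about `j`. -/
structure h2_LevelOneData : Prop where
  jinv : ∀ (γ : SL(2, ℤ)) (τ : ℍ), jFun (γ • τ) = jFun τ
  jsurj : ∀ c : ℂ, ∃ τ : ℍ, jFun τ = c
  ord_generic : ∀ τ₀ : ℍ, jFun τ₀ ≠ 0 → jFun τ₀ ≠ 1728 →
    (h2_taylorH (fun τ => jFun τ - jFun τ₀) τ₀).order = 1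
  ord_rho : ∃ ρ : ℍ, matU • ρ = ρ ∧ jFun ρ = 0 ∧
    (h2_taylorH (fun τ => jFun τ - 0) ρ).order = 3
  ord_i : ∃ i : ℍ, matS • i = i ∧ jFun i = 1728 ∧
    (h2_taylorH (fun τ => jFun τ - 1728) i).order = 2

namespace h2_PsiData

variable {N : ℕ} (D : h2_PsiData N)

/-- The expansion of elements of `A` at `τ₀` attached to the coset `q`. -/
noncomputable def phi (τ₀ : ℍ) (q : QN N) : D.A →+* LaurentSeries ℂ :=
  (h2_finExp N τ₀ q).comp D.Ψ

theorem phi_injective (τ₀ : ℍ) (q : QN N) : Function.Injective (D.phi τ₀ q) :=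
  (h2_finExp_injective N τ₀ q).comp D.inj

/-- The embedding of `F_N` into `ℂ((u))` attached to `τ₀` and the coset `q`. -/
noncomputable def emb (τ₀ : ℍ) (q : QN N) : FN N →+* LaurentSeries ℂ :=
  haveI := D.frac
  IsFractionRing.lift (D.phi_injective τ₀ q)

theorem emb_algebraMap (τ₀ : ℍ) (q : QN N) (a : D.A) :
    D.emb τ₀ q (algebraMap D.A (FN N) a) = D.phi τ₀ q a := by
  have := D.frac
  exact IsFractionRing.lift_algebraMap (D.phi_injective τ₀ q) a

theorem emb_coe (τ₀ : ℍ) (q : QN N) (a : D.A) :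
    D.emb τ₀ q (a : FN N) = h2_finExp N τ₀ q (D.Ψ a) :=
  D.emb_algebraMap τ₀ q a

theorem emb_const (τ₀ : ℍ) (q : QN N) (c : Kbar) :
    D.emb τ₀ q (algebraMap Kbar (FN N) c) = HahnSeries.C (iotaC c) := by
  have h : algebraMap Kbar (FN N) c = ((algebraMap Kbar D.A c : D.A) : FN N) := rfl
  rw [h, emb_coe, D.const, h2_finExp_const]

theorem emb_injective_index (τ₀ : ℍ) : Function.Injective (D.emb τ₀) := by
  intro q q' h
  induction q using QuotientGroup.induction_on with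
  | H g =>
  induction q' using QuotientGroup.induction_on with
  | H g' =>
  by_contra hne
  have hmem : g⁻¹ * g' ∉ CongruenceSubgroup.Gamma0 N := by
    intro hm
    exact hne (QuotientGroup.eq.mpr hm)
  obtain ⟨a, ha⟩ := D.sep g g' hmem
  have h2 := congrArg (fun φ : FN N →+* LaurentSeries ℂ => φ (a : FN N)) h
  simp only [emb_coe, h2_finExp_mk] at h2
  exact ha ((h2_expG_eq_iff τ₀ g g' (D.Ψ a).1).mp h2)

/-- The element `x - c` of `A`. -/
noncomputable def xSub (c : Kbar) : D.A := ⟨xJ N, D.xJ_mem⟩ - algebraMap Kbar D.A c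

theorem coe_xSub (c : Kbar) : ((D.xSub c : D.A) : FN N) = xJ N - algebraMap Kbar (FN N) c := rfl

theorem Ψ_xSub_fun (c : Kbar) :
    ((D.Ψ (D.xSub c) : h2_holoInv N).1.1 : ℍ → ℂ) = fun τ => jFun τ - iotaC c := by
  unfold xSub
  rw [map_sub, D.const]
  funext τ
  have h := congrFun D.Ψ_xJ τ
  show (D.Ψ ⟨xJ N, D.xJ_mem⟩ : h2_holoInv N).1.1 τ - iotaC c = _
  rw [h]

theorem Ψ_xSub_invariant (L : h2_LevelOneData) (c : Kbar) (γ : SL(2, ℤ)) :
    h2_holoSmul γ (D.Ψ (D.xSub c)).1 = (D.Ψ (D.xSub c)).1 := by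
  apply Subtype.ext
  funext τ
  rw [h2_holoSmul_apply, D.Ψ_xSub_fun c]
  simp only
  rw [L.jinv]

theorem emb_xSub (L : h2_LevelOneData) (τ₀ : ℍ) (q : QN N) (c : Kbar) :
    D.emb τ₀ q (xJ N - algebraMap Kbar (FN N) c)
      = HahnSeries.ofPowerSeries ℤ ℂ (h2_taylorH (fun τ => jFun τ - iotaC c) τ₀) := by
  rw [← D.coe_xSub c, emb_coe, h2_finExp_of_invariant N τ₀ q _ (D.Ψ_xSub_invariant L c),
    h2_laurentHom_apply, D.Ψ_xSub_fun c]

theorem emb_xJ (L : h2_LevelOneData) (τ₀ : ℍ) (q : QN N) :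
    D.emb τ₀ q (xJ N)
      = HahnSeries.ofPowerSeries ℤ ℂ (h2_taylorH (fun τ => jFun τ - iotaC 0) τ₀) := by
  have := D.emb_xSub L τ₀ q 0
  rwa [map_zero, sub_zero] at this

/-- The local embedding data at `τ₀` over the point `j = c`. -/
noncomputable def localEmb (L : h2_LevelOneData) (c : Kbar) (τ₀ : ℍ) (M : ℕ) (hM : 0 < M)
    (hord : (h2_taylorH (fun τ => jFun τ - iotaC c) τ₀).order = M) :
    LocalEmb iotaC (xJ N) (xJ N - algebraMap Kbar (FN N) c) (QN N) M where
  τ := D.emb τ₀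
  inj := D.emb_injective_index τ₀
  const := fun q a => D.emb_const τ₀ q a
  agree := fun q q' => by rw [D.emb_xJ L, D.emb_xJ L]
  ord_t := fun q => by
    rw [D.emb_xSub L]
    have hne : h2_taylorH (fun τ => jFun τ - iotaC c) τ₀ ≠ 0 := by
      intro h
      rw [h, PowerSeries.order_zero] at hord
      exact ENat.top_ne_natCast M hord
    rw [h2_order_ofPowerSeries _ hne, hord]
    simp
  M_pos := hM

theorem localEmb_τ (L : h2_LevelOneData) (c : Kbar) (τ₀ : ℍ) (M : ℕ) (hM : 0 < M)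
    (hord : (h2_taylorH (fun τ => jFun τ - iotaC c) τ₀).order = M) (q : QN N) :
    (D.localEmb L c τ₀ M hM hord).τ q = D.emb τ₀ q := rfl

/-- Orders are invariant under an element of `SL(2, ℤ)` fixing `τ₀`. -/
theorem order_emb_smul (τ₀ : ℍ) (γ : SL(2, ℤ)) (hfix : γ • τ₀ = τ₀) (q : QN N) (f : FN N) :
    (D.emb τ₀ (γ • q) f).order = (D.emb τ₀ q f).order := by
  have := D.frac
  refine h2_order_eq_of_frac (A := D.A) _ _ (fun a => ?_) f
  have h : algebraMap D.A (FN N) a = (a : FN N) := rfl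
  rw [h, emb_coe, emb_coe, h2_order_finExp_smul N τ₀ γ hfix]

theorem Ψ_ne_zero {a : D.A} (ha : a ≠ 0) : D.Ψ a ≠ 0 := by
  intro h
  apply ha
  apply D.inj
  rw [h, map_zero]

theorem two_dvd_order_emb (τ₀ : ℍ) (hfix : matS • τ₀ = τ₀) (q : QN N) (hq : matS • q = q)
    (f : FN N) (hf : f ≠ 0) : (2 : ℤ) ∣ (D.emb τ₀ q f).order := by
  have := D.frac
  refine h2_dvd_order_of_frac (A := D.A) _ 2 (fun a ha => ?_) f hf
  have h : algebraMap D.A (FN N) a = (a : FN N) := rfl
  rw [h, emb_coe]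
  exact h2_two_dvd_order_finExp N τ₀ hfix q hq _ (D.Ψ_ne_zero ha)

theorem three_dvd_order_emb (τ₀ : ℍ) (hfix : matU • τ₀ = τ₀) (q : QN N) (hq : matU • q = q)
    (f : FN N) (hf : f ≠ 0) : (3 : ℤ) ∣ (D.emb τ₀ q f).order := by
  have := D.frac
  refine h2_dvd_order_of_frac (A := D.A) _ 3 (fun a ha => ?_) f hf
  have h : algebraMap D.A (FN N) a = (a : FN N) := rfl
  rw [h, emb_coe]
  exact h2_three_dvd_order_finExp N τ₀ hfix q hq _ (D.Ψ_ne_zero ha)

end h2_PsiData

/-- **CFiniteStatement** from the analytic realisation `Ψ` and the level one facts. -/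
theorem h2_cFinite (N : ℕ) (D : h2_PsiData N) (L : h2_LevelOneData) : CFiniteStatement N := by
  intro c
  by_cases h0 : c = 0
  · subst h0
    obtain ⟨ρ, hfix, -, hord⟩ := L.ord_rho
    have hord' : (h2_taylorH (fun τ => jFun τ - iotaC 0) ρ).order = ((3 : ℕ) : ℕ∞) := by
      rw [map_zero]; exact_mod_cast hord
    refine ⟨3, D.localEmb L 0 ρ 3 (by norm_num) hord', ?_, ?_, ?_⟩
    · intro h; exact absurd rfl h
    · intro _
      refine ⟨rfl, ?_, ?_⟩
      · intro q f
        exact D.order_emb_smul ρ matU hfix q f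
      · intro q hq f hf
        exact D.three_dvd_order_emb ρ hfix q hq f hf
    · intro h
      exact absurd h (by norm_num)
  by_cases h1 : c = 1728
  · subst h1
    obtain ⟨i, hfix, -, hord⟩ := L.ord_i
    have hord' : (h2_taylorH (fun τ => jFun τ - iotaC 1728) i).order = ((2 : ℕ) : ℕ∞) := by
      rw [map_ofNat]; exact_mod_cast hord
    refine ⟨2, D.localEmb L 1728 i 2 (by norm_num) hord', ?_, ?_, ?_⟩
    · intro _ h; exact absurd rfl h
    · intro h
      exact absurd h h0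
    · intro _
      refine ⟨rfl, ?_, ?_⟩
      · intro q f
        exact D.order_emb_smul i matS hfix q f
      · intro q hq f hf
        exact D.two_dvd_order_emb i hfix q hq f hf
  · obtain ⟨τ₀, hτ₀⟩ := L.jsurj (iotaC c)
    have hc0 : iotaC c ≠ 0 := fun h => h0 (by simpa using h)
    have hc1 : iotaC c ≠ 1728 := by
      intro h
      apply h1
      apply iotaC.injective
      rw [h, map_ofNat]
    have hord := L.ord_generic τ₀ (by rw [hτ₀]; exact hc0) (by rw [hτ₀]; exact hc1)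
    rw [hτ₀] at hord
    have hord' : (h2_taylorH (fun τ => jFun τ - iotaC c) τ₀).order = ((1 : ℕ) : ℕ∞) := by
      exact_mod_cast hord
    refine ⟨1, D.localEmb L c τ₀ 1 (by norm_num) hord', ?_, ?_, ?_⟩
    · intro _ _; rfl
    · intro h; exact absurd h h0
    · intro h; exact absurd h h1

end Fermat.Agent.Lib.X0
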