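/-
X0 project (S24), helper2: the family of expansion homomorphisms at a finite point `τ₀ ∈ ℍ` on the
global carrier `MvPolynomial (h9_DivN N) Kbar` (generators `J_d`, `d ∣ N`), and the level one data.
-/
import Mathlib
import Fermat.Agent.Lib.X0.EmbDefs
import Fermat.Agent.Lib.X0.JOrder
import Fermat.Agent.Lib.X0.CFinite

set_option autoImplicit false

open Filter Topology UpperHalfPlane
open scoped Manifold MatrixGroups

namespace Fermat.Agent.Lib.X0

/-! ## Level one data from helper3's results -/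

theorem h2_levelOneData : h2_LevelOneData where
  jinv := h3_jFun_smul
  jsurj := h3_jFun_surjective
  ord_generic := fun τ₀ h0 h1 => by
    have han : AnalyticAt ℂ ((fun τ => jFun τ - jFun τ₀) ∘ ofComplex) (τ₀ : ℂ) :=
      h2_analyticAt_comp_ofComplex (h3_jFun_mdiff.sub mdifferentiable_const) τ₀
    unfold h2_taylorH
    rw [h2_order_taylorPS han]
    exact h3_order_jFun_generic τ₀ h0 h1
  ord_rho := by
    refine ⟨h3_rho, h3_ST_smul_rho, h3_jFun_rho, ?_⟩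
    have han : AnalyticAt ℂ ((fun τ => jFun τ - 0) ∘ ofComplex) (h3_rho : ℂ) :=
      h2_analyticAt_comp_ofComplex (h3_jFun_mdiff.sub mdifferentiable_const) h3_rho
    unfold h2_taylorH
    rw [h2_order_taylorPS han]
    have h := h3_order_jFun_rho
    have e : ((fun τ => jFun τ - 0) ∘ ofComplex) = jFun ∘ ofComplex := by
      funext z; simp
    rw [e]; exact h
  ord_i := by
    refine ⟨UpperHalfPlane.I, h3_S_smul_I, h3_jFun_I, ?_⟩
    have han : AnalyticAt ℂ ((fun τ => jFun τ - 1728) ∘ ofComplex) ((UpperHalfPlane.I : ℍ) : ℂ) :=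
      h2_analyticAt_comp_ofComplex (h3_jFun_mdiff.sub mdifferentiable_const) UpperHalfPlane.I
    unfold h2_taylorH
    rw [h2_order_taylorPS han]
    exact h3_order_jFun_I

/-! ## Holomorphy of the generators -/

theorem h2_Jd_one : h9_Jd 1 = jFun := by
  funext τ
  unfold h9_Jd
  congr 1
  apply UpperHalfPlane.ext
  rw [h9_dmul_coe one_pos]
  simp

theorem h2_mdiff_Jd (d : ℕ) : MDiff (h9_Jd d) := by
  rcases Nat.eq_zero_or_pos d with rfl | hd
  · have : h9_Jd 0 = jFun := by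
      funext τ
      simp [h9_Jd, h9_dmul]
    rw [this]
    exact h3_jFun_mdiff
  · rw [UpperHalfPlane.mdifferentiable_iff]
    have hj := UpperHalfPlane.mdifferentiable_iff.mp h3_jFun_mdiff
    have hmap : Set.MapsTo (fun z : ℂ => (d : ℂ) * z) {z : ℂ | 0 < z.im} {z : ℂ | 0 < z.im} := by
      intro z hz
      have h1 : (0 : ℝ) < d := by exact_mod_cast hd
      simp only [Set.mem_ofPred_eq, Complex.mul_im, Complex.natCast_re, Complex.natCast_im,
        zero_mul, add_zero]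
      exact mul_pos h1 hz
    have hcomp : DifferentiableOn ℂ ((jFun ∘ ofComplex) ∘ fun z : ℂ => (d : ℂ) * z)
        {z : ℂ | 0 < z.im} :=
      hj.comp (by fun_prop) hmap
    refine hcomp.congr ?_
    intro z hz
    have hz' : 0 < z.im := hz
    simp only [Function.comp_apply, h9_Jd]
    congr 1
    apply UpperHalfPlane.ext
    rw [h9_dmul_coe hd, ofComplex_apply_of_im_pos hz', ofComplex_apply_of_im_pos (hmap hz)]

/-- The generator `J_d` as a holomorphic function. -/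
noncomputable def h2_JdHolo (d : ℕ) : h2_holo := ⟨h9_Jd d, h2_mdiff_Jd d⟩

/-- Analytic realisation of polynomials in the generators, as a ring hom to holomorphic
functions. -/
noncomputable def h2_evAnHom (N : ℕ) : MvPolynomial (h9_DivN N) Kbar →+* h2_holo :=
  MvPolynomial.eval₂Hom (h2_holoConst.comp iotaC) (fun d => h2_JdHolo d.1)

/-- Evaluation at a point, as a ring hom on holomorphic functions. -/
def h2_holoEval (τ : ℍ) : h2_holo →+* ℂ where
  toFun f := f.1 τ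
  map_one' := rfl
  map_mul' _ _ := rfl
  map_zero' := rfl
  map_add' _ _ := rfl

theorem h2_evAnHom_apply (N : ℕ) (P : MvPolynomial (h9_DivN N) Kbar) (τ : ℍ) :
    (h2_evAnHom N P).1 τ = h9_evAn N P τ := by
  have h := MvPolynomial.eval₂_comp_left (h2_holoEval τ) (h2_holoConst.comp iotaC)
    (fun d : h9_DivN N => h2_JdHolo d.1) P
  have e1 : (h2_holoEval τ).comp (h2_holoConst.comp iotaC) = iotaC := by
    ext a; rfl
  have e2 : (h2_holoEval τ) ∘ (fun d : h9_DivN N => h2_JdHolo d.1)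
      = fun d : h9_DivN N => h9_Jd d.1 τ := by
    funext d; rfl
  rw [e1, e2] at h
  exact h

theorem h2_evAnHom_fun (N : ℕ) (P : MvPolynomial (h9_DivN N) Kbar) :
    ((h2_evAnHom N P).1 : ℍ → ℂ) = h9_evAn N P :=
  funext (h2_evAnHom_apply N P)

theorem h2_mdiff_evAn (N : ℕ) (P : MvPolynomial (h9_DivN N) Kbar) : MDiff (h9_evAn N P) := by
  rw [← h2_evAnHom_fun]
  exact (h2_evAnHom N P).2

theorem h2_evAnHom_C (N : ℕ) (a : Kbar) :
    h2_evAnHom N (MvPolynomial.C a) = h2_holoConst (iotaC a) := by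
  simp [h2_evAnHom]

theorem h2_evAnHom_X (N : ℕ) (d : h9_DivN N) :
    h2_evAnHom N (MvPolynomial.X d) = h2_JdHolo d.1 := by
  simp [h2_evAnHom]

theorem h2_evAnHom_eq_zero_iff (N : ℕ) (P : MvPolynomial (h9_DivN N) Kbar) :
    h2_evAnHom N P = 0 ↔ ∀ τ : ℍ, h9_evAn N P τ = 0 := by
  constructor
  · intro h τ
    rw [← h2_evAnHom_apply, h]
    rfl
  · intro h
    apply Subtype.ext
    funext τ
    rw [h2_evAnHom_apply, h]
    rfl

/-- Invariance of the generators gives invariance of all polynomials in them. -/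
theorem h2_evAnHom_mem_holoInv (N : ℕ)
    (hinv : ∀ d : ℕ, d ∣ N → ∀ δ : SL(2, ℤ), δ ∈ CongruenceSubgroup.Gamma0 N → ∀ z : ℍ,
      h9_Jd d (δ • z) = h9_Jd d z)
    (P : MvPolynomial (h9_DivN N) Kbar) : h2_evAnHom N P ∈ h2_holoInv N := by
  induction P using MvPolynomial.induction_on with
  | C a =>
    rw [h2_evAnHom_C]
    exact h2_const_mem_holoInv N _
  | add p q hp hq =>
    rw [map_add]
    exact (h2_holoInv N).add_mem hp hq
  | mul_X p d hp =>
    rw [map_mul]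
    refine (h2_holoInv N).mul_mem hp ?_
    rw [h2_evAnHom_X]
    intro δ hδ
    apply Subtype.ext
    funext z
    rw [h2_holoSmul_apply]
    exact hinv d.1 d.2 δ hδ z

/-! ## The family -/

/-- The expansion at `τ₀` attached to `g`, on polynomials in the generators. -/
noncomputable def h2_psi (N : ℕ) (τ₀ : ℍ) (g : SL(2, ℤ)) :
    MvPolynomial (h9_DivN N) Kbar →+* LaurentSeries ℂ :=
  (h2_expG τ₀ g).comp (h2_evAnHom N)

theorem h2_psi_apply (N : ℕ) (τ₀ : ℍ) (g : SL(2, ℤ)) (P : MvPolynomial (h9_DivN N) Kbar) :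
    h2_psi N τ₀ g P = HahnSeries.ofPowerSeries ℤ ℂ
      (h2_taylorH (fun z => h9_evAn N P (g⁻¹ • z)) τ₀) := by
  rw [h2_psi, RingHom.comp_apply, h2_expG_apply, h2_laurentHom_apply]
  congr 2
  funext z
  rw [h2_holoSmul_apply, h2_evAnHom_apply]

theorem h2_psi_eq_zero_iff (N : ℕ) (τ₀ : ℍ) (g : SL(2, ℤ)) (P : MvPolynomial (h9_DivN N) Kbar) :
    h2_psi N τ₀ g P = 0 ↔ ∀ τ : ℍ, h9_evAn N P τ = 0 := by
  rw [← h2_evAnHom_eq_zero_iff, h2_psi, RingHom.comp_apply]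
  exact map_eq_zero_iff _ (h2_expG_injective τ₀ g)

theorem h2_psi_C (N : ℕ) (τ₀ : ℍ) (g : SL(2, ℤ)) (a : Kbar) :
    h2_psi N τ₀ g (MvPolynomial.C a) = HahnSeries.C (iotaC a) := by
  rw [h2_psi, RingHom.comp_apply, h2_evAnHom_C, h2_expG_const]

theorem h2_psi_coset (N : ℕ) (τ₀ : ℍ)
    (hinv : ∀ d : ℕ, d ∣ N → ∀ δ : SL(2, ℤ), δ ∈ CongruenceSubgroup.Gamma0 N → ∀ z : ℍ,
      h9_Jd d (δ • z) = h9_Jd d z)
    (g δ : SL(2, ℤ)) (hδ : δ ∈ CongruenceSubgroup.Gamma0 N) :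
    h2_psi N τ₀ (g * δ) = h2_psi N τ₀ g := by
  refine RingHom.ext fun P => ?_
  rw [h2_psi, h2_psi, RingHom.comp_apply, RingHom.comp_apply]
  exact h2_expG_mul_right τ₀ g δ hδ (h2_evAnHom_mem_holoInv N hinv P)

theorem h2_psi_distinct (N : ℕ) (τ₀ : ℍ)
    (hdist : ∀ g g' : SL(2, ℤ), (∀ z : ℍ, h9_Jd N (g⁻¹ • z) = h9_Jd N (g'⁻¹ • z)) →
      g⁻¹ * g' ∈ CongruenceSubgroup.Gamma0 N)
    (g g' : SL(2, ℤ)) (h : h2_psi N τ₀ g = h2_psi N τ₀ g') :
    g⁻¹ * g' ∈ CongruenceSubgroup.Gamma0 N := by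
  apply hdist
  intro z
  have h1 := congrArg (fun φ : MvPolynomial (h9_DivN N) Kbar →+* LaurentSeries ℂ =>
    φ (MvPolynomial.X ⟨N, dvd_rfl⟩)) h
  simp only [h2_psi, RingHom.comp_apply, h2_evAnHom_X] at h1
  have h2 := (h2_expG_eq_iff τ₀ g g' _).mp h1
  have h3 := congrArg (fun F : h2_holo => F.1 z) h2
  simpa [h2_holoSmul_apply, h2_JdHolo] using h3

theorem h2_JdHolo_one_invariant (γ : SL(2, ℤ)) : h2_holoSmul γ (h2_JdHolo 1) = h2_JdHolo 1 := by
  apply Subtype.ext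
  funext z
  rw [h2_holoSmul_apply]
  show h9_Jd 1 (γ • z) = h9_Jd 1 z
  rw [h2_Jd_one, h3_jFun_smul]

theorem h2_psi_agree (N : ℕ) (τ₀ : ℍ) (g g' : SL(2, ℤ)) :
    h2_psi N τ₀ g (MvPolynomial.X ⟨1, one_dvd N⟩)
      = h2_psi N τ₀ g' (MvPolynomial.X ⟨1, one_dvd N⟩) := by
  simp only [h2_psi, RingHom.comp_apply, h2_evAnHom_X]
  rw [h2_expG_of_invariant τ₀ g h2_JdHolo_one_invariant,
    h2_expG_of_invariant τ₀ g' h2_JdHolo_one_invariant]

/-- (d) the order of `x - c` under the expansion at `τ₀`, when `j(τ₀) = c`. -/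
theorem h2_psi_order_X_sub_C (N : ℕ) (τ₀ : ℍ) (g : SL(2, ℤ)) (c : Kbar) (m : ℕ)
    (hc : jFun τ₀ = iotaC c)
    (hm : analyticOrderAt (fun z => (jFun ∘ ofComplex) z - jFun τ₀) (τ₀ : ℂ) = m) :
    (h2_psi N τ₀ g (MvPolynomial.X ⟨1, one_dvd N⟩ - MvPolynomial.C c)).order = m := by
  have hinv : ∀ γ : SL(2, ℤ), h2_holoSmul γ (h2_JdHolo 1 - h2_holoConst (iotaC c))
      = h2_JdHolo 1 - h2_holoConst (iotaC c) := by
    intro γ
    rw [map_sub, h2_JdHolo_one_invariant, h2_holoSmul_const]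
  rw [h2_psi, RingHom.comp_apply, map_sub, h2_evAnHom_X, h2_evAnHom_C,
    h2_expG_of_invariant τ₀ g hinv, h2_laurentHom_apply]
  have hfun : ((h2_JdHolo 1 - h2_holoConst (iotaC c) : h2_holo).1 : ℍ → ℂ)
      = fun τ => jFun τ - jFun τ₀ := by
    funext τ
    show h9_Jd 1 τ - iotaC c = _
    rw [h2_Jd_one, hc]
  rw [hfun]
  have han : AnalyticAt ℂ ((fun τ => jFun τ - jFun τ₀) ∘ ofComplex) (τ₀ : ℂ) :=
    h2_analyticAt_comp_ofComplex (h3_jFun_mdiff.sub mdifferentiable_const) τ₀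
  have hord : (h2_taylorH (fun τ => jFun τ - jFun τ₀) τ₀).order = m := by
    unfold h2_taylorH
    rw [h2_order_taylorPS han]
    exact hm
  have hne : h2_taylorH (fun τ => jFun τ - jFun τ₀) τ₀ ≠ 0 := by
    intro h
    rw [h, PowerSeries.order_zero] at hord
    exact ENat.top_ne_natCast m hord
  rw [h2_order_ofPowerSeries _ hne, hord]
  simp

/-- (e) the stabiliser of `τ₀` preserves orders. -/
theorem h2_psi_order_stab (N : ℕ) (τ₀ : ℍ) (γ : SL(2, ℤ)) (hfix : γ • τ₀ = τ₀) (g : SL(2, ℤ))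
    (P : MvPolynomial (h9_DivN N) Kbar) :
    (h2_psi N τ₀ (γ * g) P).order = (h2_psi N τ₀ g P).order := by
  rw [h2_psi, h2_psi, RingHom.comp_apply, RingHom.comp_apply]
  exact h2_order_expG_mul_left_of_fixed τ₀ γ g hfix _

/-- (f) at `i`: cosets fixed by `S` have even orders. -/
theorem h2_psi_two_dvd (N : ℕ)
    (hinv : ∀ d : ℕ, d ∣ N → ∀ δ : SL(2, ℤ), δ ∈ CongruenceSubgroup.Gamma0 N → ∀ z : ℍ,
      h9_Jd d (δ • z) = h9_Jd d z)
    (g : SL(2, ℤ)) (hg : g⁻¹ * matS * g ∈ CongruenceSubgroup.Gamma0 N)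
    (P : MvPolynomial (h9_DivN N) Kbar) :
    (2 : ℤ) ∣ (h2_psi N UpperHalfPlane.I g P).order := by
  by_cases hP : h2_evAnHom N P = 0
  · rw [h2_psi, RingHom.comp_apply, hP, map_zero, HahnSeries.order_zero]
    exact dvd_zero _
  · rw [h2_psi, RingHom.comp_apply]
    exact h2_two_dvd_order_expG UpperHalfPlane.I h3_S_smul_I g hg
      (h2_evAnHom_mem_holoInv N hinv P) hP

/-- (f) at `ρ`: cosets fixed by `U = S T` have orders divisible by `3`. -/
theorem h2_psi_three_dvd (N : ℕ)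
    (hinv : ∀ d : ℕ, d ∣ N → ∀ δ : SL(2, ℤ), δ ∈ CongruenceSubgroup.Gamma0 N → ∀ z : ℍ,
      h9_Jd d (δ • z) = h9_Jd d z)
    (g : SL(2, ℤ)) (hg : g⁻¹ * matU * g ∈ CongruenceSubgroup.Gamma0 N)
    (P : MvPolynomial (h9_DivN N) Kbar) :
    (3 : ℤ) ∣ (h2_psi N h3_rho g P).order := by
  by_cases hP : h2_evAnHom N P = 0
  · rw [h2_psi, RingHom.comp_apply, hP, map_zero, HahnSeries.order_zero]
    exact dvd_zero _
  · rw [h2_psi, RingHom.comp_apply]
    exact h2_three_dvd_order_expG h3_rho h3_ST_smul_rho g hg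
      (h2_evAnHom_mem_holoInv N hinv P) hP

end Fermat.Agent.Lib.X0
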