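/-
X0 project (S24), slab (A3), helper6: level-one polynomiality.
A holomorphic `SL(2,ℤ)`-invariant function `f` on `ℍ` with `f Δ^m` bounded at `i∞` is a polynomial
of degree `≤ m` in `jFun = E₄³/Δ`.
-/
import Mathlib
import Fermat.Agent.Lib.X0.Defs

set_option autoImplicit false

open UpperHalfPlane ModularForm EisensteinSeries CongruenceSubgroup
open scoped MatrixGroups Manifold Topology

noncomputable section

namespace Fermat.Agent.Lib.X0

local notation "Δ" => ModularForm.discriminant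

theorem h6_jFun_mul_disc (τ : ℍ) : jFun τ * Δ τ = E₄ τ ^ 3 := by
  unfold jFun
  exact div_mul_cancel₀ _ (discriminant_ne_zero τ)

theorem h6_E4_qExpansion_coeff_zero : (qExpansion 1 E₄).coeff 0 = 1 :=
  EisensteinSeries.E_qExpansion_coeff_zero (by norm_num) ⟨2, rfl⟩

/-- **Level one modular forms of weight `12 m` are `p(j) Δ^m`, `deg p ≤ m`.** -/
theorem h6_mf_poly : ∀ (m : ℕ) (k : ℤ), k = 12 * (m : ℤ) → ∀ F : ModularForm 𝒮ℒ k,
    ∃ p : Polynomial ℂ, p.natDegree ≤ m ∧ ∀ τ : ℍ, F τ = p.eval (jFun τ) * Δ τ ^ m := by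
  intro m
  induction m with
  | zero =>
    intro k hk F
    have hk0 : k = 0 := by simpa using hk
    subst hk0
    obtain ⟨c, hc⟩ := ModularFormClass.levelOne_weight_zero_const F
    refine ⟨Polynomial.C c, by simp, fun τ => ?_⟩
    have : F τ = c := by rw [hc]; rfl
    simp [this]
  | succ m ih =>
    intro k hk F
    -- the form `E₄^(3(m+1))` of weight `k`
    have hwt : ((3 * (m + 1) : ℕ) : ℤ) * 4 = k := by rw [hk]; push_cast; ring
    let g0 : ModularForm 𝒮ℒ k := ModularForm.mcast hwt (E₄.pow (3 * (m + 1)))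
    have hg0 : (qExpansion 1 g0).coeff 0 = 1 := by
      have h1 : qExpansion 1 g0 = (qExpansion 1 E₄) ^ (3 * (m + 1)) := by
        show qExpansion 1 (ModularForm.mcast hwt (E₄.pow (3 * (m + 1)))) = _
        rw [ModularForm.qExpansion_mcast]
        exact ModularForm.qExpansion_pow one_pos one_mem_strictPeriods_SL E₄ _
      rw [h1, PowerSeries.coeff_zero_eq_constantCoeff, map_pow,
        ← PowerSeries.coeff_zero_eq_constantCoeff, h6_E4_qExpansion_coeff_zero, one_pow]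
    have hg0apply : ∀ τ, g0 τ = E₄ τ ^ (3 * (m + 1)) := by
      intro τ
      show (E₄.pow (3 * (m + 1))) τ = _
      rw [ModularForm.coe_pow]; rfl
    set c : ℂ := (qExpansion 1 F).coeff 0 with hc
    obtain ⟨G, hG⟩ := ModularForm.sub_smul_isCuspForm F g0 hg0
    -- `G : CuspForm 𝒮ℒ k`, with `G = F - c • g0`
    have hGapply : ∀ τ, G τ = F τ - c * g0 τ := by
      intro τ
      have := congrArg (fun H : ModularForm 𝒮ℒ k => H τ) hG
      rw [hc, PowerSeries.coeff_zero_eq_constantCoeff]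
      simpa using this
    let H : ModularForm 𝒮ℒ (k - 12) := CuspForm.discriminantEquiv G
    have hH : ∀ τ, Δ τ * H τ = G τ := fun τ => discriminant_mul_discriminantEquiv_apply G τ
    obtain ⟨pH, hpH, hpHeq⟩ := ih (k - 12) (by rw [hk]; push_cast; ring) H
    refine ⟨Polynomial.C c * Polynomial.X ^ (m + 1) + pH, ?_, fun τ => ?_⟩
    · refine (Polynomial.natDegree_add_le _ _).trans (max_le ?_ (hpH.trans (Nat.le_succ m)))
      exact Polynomial.natDegree_C_mul_X_pow_le c (m + 1)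
    · have h1 : F τ = c * g0 τ + Δ τ * H τ := by rw [hH, hGapply]; ring
      rw [h1, hg0apply, hpHeq]
      simp only [Polynomial.eval_add, Polynomial.eval_mul, Polynomial.eval_C, Polynomial.eval_pow,
        Polynomial.eval_X]
      have hj := h6_jFun_mul_disc τ
      have : E₄ τ ^ (3 * (m + 1)) = (jFun τ * Δ τ) ^ (m + 1) := by
        rw [hj, ← pow_mul]
      rw [this]
      ring

theorem h6_disc_smul (γ : SL(2, ℤ)) (τ : ℍ) : Δ (γ • τ) = denom γ τ ^ (12 : ℤ) * Δ τ := by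
  have hγ : (γ : GL (Fin 2) ℝ) ∈ 𝒮ℒ := ⟨γ, rfl⟩
  exact SlashInvariantForm.slash_action_eqn'' CuspForm.discriminant hγ τ

theorem h6_slash_inv (f : ℍ → ℂ) (hinv : ∀ (γ : SL(2, ℤ)) (τ : ℍ), f (γ • τ) = f τ)
    (m : ℕ) (γ : SL(2, ℤ)) :
    ((fun τ => f τ * Δ τ ^ m) ∣[12 * (m : ℤ)] γ) = fun τ => f τ * Δ τ ^ m := by
  ext τ
  rw [SL_slash_apply, hinv, h6_disc_smul]
  have hd : denom γ τ ≠ 0 := denom_ne_zero _ _
  rw [mul_pow, ← zpow_natCast (denom γ τ ^ (12 : ℤ)) m, ← zpow_mul, zpow_neg]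
  field_simp

/-- The modular form `f Δ^m` attached to an invariant holomorphic `f` with `f Δ^m` bounded. -/
def h6_mkForm (f : ℍ → ℂ) (hf : MDiff f) (hinv : ∀ (γ : SL(2, ℤ)) (τ : ℍ), f (γ • τ) = f τ)
    (m : ℕ) (hbd : IsBoundedAtImInfty (fun τ => f τ * Δ τ ^ m)) :
    ModularForm 𝒮ℒ (12 * (m : ℤ)) where
  toFun := fun τ => f τ * Δ τ ^ m
  slash_action_eq' := by
    rintro γ ⟨γ', rfl⟩
    exact h6_slash_inv f hinv m γ'
  holo' := hf.mul (CuspForm.discriminant.holo'.pow m)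
  bdd_at_cusps' := by
    intro c hc
    rw [Subgroup.IsArithmetic.isCusp_iff_isCusp_SL2Z] at hc
    rw [OnePoint.isBoundedAt_iff_forall_SL2Z hc]
    intro γ _
    rw [h6_slash_inv f hinv m γ]
    exact hbd

/-- **Level-one polynomiality.** -/
theorem h6_levelOne_poly (f : ℍ → ℂ) (hf : MDiff f)
    (hinv : ∀ (γ : SL(2, ℤ)) (τ : ℍ), f (γ • τ) = f τ)
    (m : ℕ) (hbd : IsBoundedAtImInfty (fun τ => f τ * Δ τ ^ m)) :
    ∃ p : Polynomial ℂ, p.natDegree ≤ m ∧ ∀ τ : ℍ, f τ = p.eval (jFun τ) := by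
  obtain ⟨p, hp, hpe⟩ := h6_mf_poly m (12 * (m : ℤ)) rfl (h6_mkForm f hf hinv m hbd)
  refine ⟨p, hp, fun τ => ?_⟩
  have h1 : f τ * Δ τ ^ m = p.eval (jFun τ) * Δ τ ^ m := hpe τ
  exact mul_right_cancel₀ (pow_ne_zero m (discriminant_ne_zero τ)) h1

end Fermat.Agent.Lib.X0
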