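/-
X0 project (S24), helper2: CoordStatement step (iii): every `Γ₀(N)`-invariant holomorphic function
`θ` on `ℍ` all of whose translates have moderate growth at `i∞` is a root of a monic polynomial of
degree `[SL₂(ℤ) : Γ₀(N)]` with coefficients in `ℂ[j]`.
-/
import Mathlib
import Fermat.Agent.Lib.X0.Defs
import Fermat.Agent.Lib.X0.FinExp

set_option autoImplicit false

open Filter Topology UpperHalfPlane Polynomial
open scoped Manifold MatrixGroups

namespace Fermat.Agent.Lib.X0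

/-- Moderate growth at `i∞`: `f Δ^m` is bounded at `i∞` for some `m`. -/
def h2_ModGrowth (f : ℍ → ℂ) : Prop :=
  ∃ m : ℕ, IsBoundedAtImInfty (fun τ : ℍ => f τ * ModularForm.discriminant τ ^ m)

theorem h2_discriminant_bounded : IsBoundedAtImInfty (fun τ : ℍ => ModularForm.discriminant τ) :=
  ModularForm.discriminant_isZeroAtImInfty.isBoundedAtImInfty

theorem h2_discriminant_pow_bounded (k : ℕ) :
    IsBoundedAtImInfty (fun τ : ℍ => ModularForm.discriminant τ ^ k) := by
  induction k with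
  | zero =>
    simp only [pow_zero]
    exact Filter.const_boundedAtFilter _ (1 : ℂ)
  | succ k ih =>
    have := ih.mul h2_discriminant_bounded
    have e : (fun τ : ℍ => ModularForm.discriminant τ ^ (k + 1))
        = (fun τ : ℍ => ModularForm.discriminant τ ^ k) *
          (fun τ : ℍ => ModularForm.discriminant τ) := by
      funext τ
      simp [pow_succ]
    rw [e]
    exact this

theorem h2_ModGrowth.mono {f : ℍ → ℂ} {m : ℕ}
    (h : IsBoundedAtImInfty (fun τ : ℍ => f τ * ModularForm.discriminant τ ^ m)) (k : ℕ)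
    (hk : m ≤ k) : IsBoundedAtImInfty (fun τ : ℍ => f τ * ModularForm.discriminant τ ^ k) := by
  obtain ⟨j, rfl⟩ := Nat.exists_eq_add_of_le hk
  have := h.mul (h2_discriminant_pow_bounded j)
  have e : (fun τ : ℍ => f τ * ModularForm.discriminant τ ^ (m + j))
      = (fun τ : ℍ => f τ * ModularForm.discriminant τ ^ m) *
        (fun τ : ℍ => ModularForm.discriminant τ ^ j) := by
    funext τ
    simp [pow_add, mul_assoc]
  rw [e]
  exact this

theorem h2_ModGrowth.add {f g : ℍ → ℂ} (hf : h2_ModGrowth f) (hg : h2_ModGrowth g) :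
    h2_ModGrowth (f + g) := by
  obtain ⟨m, hm⟩ := hf
  obtain ⟨k, hk⟩ := hg
  refine ⟨max m k, ?_⟩
  have h1 := h2_ModGrowth.mono hm (max m k) (le_max_left _ _)
  have h2 := h2_ModGrowth.mono hk (max m k) (le_max_right _ _)
  have e : (fun τ : ℍ => (f + g) τ * ModularForm.discriminant τ ^ (max m k))
      = (fun τ : ℍ => f τ * ModularForm.discriminant τ ^ (max m k)) +
        (fun τ : ℍ => g τ * ModularForm.discriminant τ ^ (max m k)) := by
    funext τ
    simp [add_mul]
  rw [e]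
  exact h1.add h2

theorem h2_ModGrowth.mul {f g : ℍ → ℂ} (hf : h2_ModGrowth f) (hg : h2_ModGrowth g) :
    h2_ModGrowth (f * g) := by
  obtain ⟨m, hm⟩ := hf
  obtain ⟨k, hk⟩ := hg
  refine ⟨m + k, ?_⟩
  have e : (fun τ : ℍ => (f * g) τ * ModularForm.discriminant τ ^ (m + k))
      = (fun τ : ℍ => f τ * ModularForm.discriminant τ ^ m) *
        (fun τ : ℍ => g τ * ModularForm.discriminant τ ^ k) := by
    funext τ
    simp only [Pi.mul_apply, pow_add]
    ring
  rw [e]
  exact hm.mul hk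

theorem h2_ModGrowth.neg {f : ℍ → ℂ} (hf : h2_ModGrowth f) : h2_ModGrowth (-f) := by
  obtain ⟨m, hm⟩ := hf
  refine ⟨m, ?_⟩
  have e : (fun τ : ℍ => (-f) τ * ModularForm.discriminant τ ^ m)
      = -(fun τ : ℍ => f τ * ModularForm.discriminant τ ^ m) := by
    funext τ
    simp
  rw [e]
  exact hm.neg

theorem h2_ModGrowth.const (c : ℂ) : h2_ModGrowth (fun _ : ℍ => c) :=
  ⟨0, by
    simp only [pow_zero, mul_one]
    exact Filter.const_boundedAtFilter _ c⟩

/-- The subring of holomorphic functions of moderate growth at `i∞`. -/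
def h2_holoGrowth : Subring h2_holo where
  carrier := {f | h2_ModGrowth f.1}
  mul_mem' := fun hf hg => hf.mul hg
  one_mem' := h2_ModGrowth.const 1
  add_mem' := fun hf hg => hf.add hg
  zero_mem' := h2_ModGrowth.const 0
  neg_mem' := fun hf => hf.neg

/-- Evaluation at a point, as a ring hom on holomorphic functions. -/
def h2_holoEval' (τ : ℍ) : h2_holo →+* ℂ where
  toFun f := f.1 τ
  map_one' := rfl
  map_mul' _ _ := rfl
  map_zero' := rfl
  map_add' _ _ := rfl

/-- The conjugates of `θ`: `θ ∘ g_q⁻¹`. -/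
noncomputable def h2_conj (N : ℕ) (θ : h2_holoInv N)
    (q : SL(2, ℤ) ⧸ CongruenceSubgroup.Gamma0 N) : h2_holo :=
  h2_holoSmul (q.out)⁻¹ θ.1

theorem h2_conj_mk (N : ℕ) (θ : h2_holoInv N) (g : SL(2, ℤ)) :
    h2_conj N θ (g : SL(2, ℤ) ⧸ CongruenceSubgroup.Gamma0 N) = h2_holoSmul g⁻¹ θ.1 := by
  have h : ((g : SL(2, ℤ) ⧸ CongruenceSubgroup.Gamma0 N).out)⁻¹ * g
      ∈ CongruenceSubgroup.Gamma0 N := by
    rw [← QuotientGroup.eq]
    exact QuotientGroup.out_eq' _
  set o := (g : SL(2, ℤ) ⧸ CongruenceSubgroup.Gamma0 N).out with ho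
  have h1 : g⁻¹ = (o⁻¹ * g)⁻¹ * o⁻¹ := by group
  unfold h2_conj
  rw [← ho, h1, ← h2_holoSmul_mul, θ.2 _ (inv_mem h)]

theorem h2_holoSmul_conj (N : ℕ) (θ : h2_holoInv N) (γ : SL(2, ℤ))
    (q : SL(2, ℤ) ⧸ CongruenceSubgroup.Gamma0 N) :
    h2_holoSmul γ (h2_conj N θ q) = h2_conj N θ (γ⁻¹ • q) := by
  induction q using QuotientGroup.induction_on with
  | H g =>
    have : γ⁻¹ • (g : SL(2, ℤ) ⧸ CongruenceSubgroup.Gamma0 N)
        = ((γ⁻¹ * g : SL(2, ℤ)) : SL(2, ℤ) ⧸ CongruenceSubgroup.Gamma0 N) := rfl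
    rw [this, h2_conj_mk, h2_conj_mk, h2_holoSmul_mul]
    congr 1
    group

theorem h2_conj_one (N : ℕ) (θ : h2_holoInv N) :
    h2_conj N θ ((1 : SL(2, ℤ)) : SL(2, ℤ) ⧸ CongruenceSubgroup.Gamma0 N) = θ.1 := by
  rw [h2_conj_mk, inv_one, h2_holoSmul_one]

section

variable (N : ℕ) [NeZero N]

noncomputable instance h2_fintypeQN : Fintype (SL(2, ℤ) ⧸ CongruenceSubgroup.Gamma0 N) :=
  Fintype.ofFinite _

/-- The norm polynomial `∏_q (X - θ ∘ g_q⁻¹)`. -/
noncomputable def h2_normPolyH (θ : h2_holoInv N) : Polynomial h2_holo :=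
  ∏ q : SL(2, ℤ) ⧸ CongruenceSubgroup.Gamma0 N, (X - C (h2_conj N θ q))

theorem h2_normPolyH_monic (θ : h2_holoInv N) : (h2_normPolyH N θ).Monic :=
  monic_prod_X_sub_C _ _

theorem h2_normPolyH_natDegree (θ : h2_holoInv N) :
    (h2_normPolyH N θ).natDegree = Nat.card (SL(2, ℤ) ⧸ CongruenceSubgroup.Gamma0 N) := by
  have : Nontrivial h2_holo := ⟨⟨0, 1, fun h => by
    have := congrArg (fun F : h2_holo => F.1 UpperHalfPlane.I) h
    exact zero_ne_one this⟩⟩
  rw [h2_normPolyH, natDegree_finsetProd_X_sub_C_eq_card, Finset.card_univ,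
    Nat.card_eq_fintype_card]

theorem h2_normPolyH_map_smul (θ : h2_holoInv N) (γ : SL(2, ℤ)) :
    (h2_normPolyH N θ).map (h2_holoSmul γ) = h2_normPolyH N θ := by
  unfold h2_normPolyH
  rw [Polynomial.map_prod]
  simp only [Polynomial.map_sub, Polynomial.map_X, Polynomial.map_C, h2_holoSmul_conj]
  exact Fintype.prod_equiv (MulAction.toPerm γ⁻¹) _ _ (fun q => rfl)

theorem h2_normPolyH_coeff_invariant (θ : h2_holoInv N) (k : ℕ) (γ : SL(2, ℤ)) :
    h2_holoSmul γ ((h2_normPolyH N θ).coeff k) = (h2_normPolyH N θ).coeff k := by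
  conv_rhs => rw [← h2_normPolyH_map_smul N θ γ]
  rw [Polynomial.coeff_map]

theorem h2_normPolyH_coeff_growth (θ : h2_holoInv N)
    (hgrowth : ∀ g : SL(2, ℤ), h2_ModGrowth (fun τ : ℍ => θ.1.1 (g • τ))) (k : ℕ) :
    h2_ModGrowth ((h2_normPolyH N θ).coeff k).1 := by
  have hmem : ∀ q, h2_conj N θ q ∈ h2_holoGrowth := fun q => hgrowth (q.out)⁻¹
  let P' : Polynomial h2_holoGrowth :=
    ∏ q : SL(2, ℤ) ⧸ CongruenceSubgroup.Gamma0 N, (X - C ⟨h2_conj N θ q, hmem q⟩)
  have hP : h2_normPolyH N θ = P'.map h2_holoGrowth.subtype := by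
    unfold h2_normPolyH
    rw [Polynomial.map_prod]
    simp only [Polynomial.map_sub, Polynomial.map_X, Polynomial.map_C]
    rfl
  rw [hP, Polynomial.coeff_map]
  exact (P'.coeff k).2

theorem h2_normPolyH_eval (θ : h2_holoInv N) (τ : ℍ) :
    ((h2_normPolyH N θ).map (h2_holoEval' τ)).eval (θ.1.1 τ) = 0 := by
  unfold h2_normPolyH
  rw [Polynomial.map_prod, Polynomial.eval_prod]
  refine Finset.prod_eq_zero
    (Finset.mem_univ ((1 : SL(2, ℤ)) : SL(2, ℤ) ⧸ CongruenceSubgroup.Gamma0 N)) ?_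
  rw [h2_conj_one]
  simp [h2_holoEval']

/-- The statement of level one polynomiality (proved in `LevelOnePoly.lean`). -/
def h2_LevelOnePolyStatement : Prop :=
  ∀ (f : ℍ → ℂ), MDiff f → (∀ (γ : SL(2, ℤ)) (τ : ℍ), f (γ • τ) = f τ) →
    ∀ m : ℕ, IsBoundedAtImInfty (fun τ => f τ * ModularForm.discriminant τ ^ m) →
    ∃ p : Polynomial ℂ, p.natDegree ≤ m ∧ ∀ τ : ℍ, f τ = p.eval (jFun τ)

/-- **Step (iii)**: `θ` is a root of a monic polynomial of degree `[SL₂(ℤ) : Γ₀(N)]` over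
`ℂ[j]`. -/
theorem h2_normPoly_of (hpoly : h2_LevelOnePolyStatement) (θ : h2_holoInv N)
    (hgrowth : ∀ g : SL(2, ℤ), ∃ m : ℕ,
      IsBoundedAtImInfty (fun τ : ℍ => θ.1.1 (g • τ) * ModularForm.discriminant τ ^ m)) :
    ∃ p : Polynomial (Polynomial ℂ), p.Monic ∧ p.natDegree = Nat.card (QN N) ∧
      ∀ τ : ℍ, (p.map (Polynomial.evalRingHom (jFun τ))).eval (θ.1.1 τ) = 0 := by
  set P := h2_normPolyH N θ with hP
  set n := Nat.card (QN N) with hn
  have hdeg : P.natDegree = n := h2_normPolyH_natDegree N θ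
  have hex : ∀ k : ℕ, ∃ pk : Polynomial ℂ, ∀ τ : ℍ, (P.coeff k).1 τ = pk.eval (jFun τ) := by
    intro k
    obtain ⟨m, hm⟩ := h2_normPolyH_coeff_growth N θ hgrowth k
    obtain ⟨pk, -, hpk⟩ := hpoly (P.coeff k).1 (P.coeff k).2
      (fun γ τ => by
        have := congrArg (fun F : h2_holo => F.1 τ) (h2_normPolyH_coeff_invariant N θ k γ)
        simpa [h2_holoSmul_apply] using this) m hm
    exact ⟨pk, hpk⟩
  choose pk hpk using hex
  let low : Polynomial (Polynomial ℂ) := ∑ k ∈ Finset.range n, C (pk k) * X ^ k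
  have hlow : low.degree < n := by
    rw [Polynomial.degree_lt_iff_coeff_zero]
    intro m hm
    simp only [low, Polynomial.finsetSum_coeff, Polynomial.coeff_C_mul_X_pow]
    refine Finset.sum_eq_zero fun k hk => ?_
    rw [if_neg]
    have := Finset.mem_range.mp hk
    omega
  refine ⟨X ^ n + low, Polynomial.monic_X_pow_add hlow, ?_, ?_⟩
  · have h1 : (X ^ n + low : Polynomial (Polynomial ℂ)).degree = n := by
      rw [Polynomial.degree_add_eq_left_of_degree_lt, Polynomial.degree_X_pow]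
      rw [Polynomial.degree_X_pow]
      exact hlow
    exact Polynomial.natDegree_eq_of_degree_eq_some h1
  · intro τ
    have h0 := h2_normPolyH_eval N θ τ
    have hmonic : P.Monic := h2_normPolyH_monic N θ
    have h0' : ((X ^ n + ∑ i ∈ Finset.range n, C (P.coeff i) * X ^ i :
        Polynomial h2_holo).map (h2_holoEval' τ)).eval (θ.1.1 τ) = 0 := by
      rw [← hdeg, ← hmonic.as_sum]
      exact h0
    rw [← h0']
    simp only [Polynomial.map_add, Polynomial.map_pow, Polynomial.map_X, Polynomial.map_sum,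
      Polynomial.map_mul, Polynomial.map_C, Polynomial.eval_add, Polynomial.eval_pow,
      Polynomial.eval_X, Polynomial.eval_finsetSum, Polynomial.eval_mul, Polynomial.eval_C,
      low]
    congr 1
    refine Finset.sum_congr rfl fun k _ => ?_
    congr 1
    exact (hpk k τ).symm

end

end Fermat.Agent.Lib.X0
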