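/-
X0 project (S24), helper2: CoordStatement step (iii), final form: every polynomial in the
generators `J_d` (`d ∣ N`) is, as a function on `ℍ`, a root of a monic polynomial of degree
`[SL₂(ℤ) : Γ₀(N)]` over `ℂ[j]` (given `Γ₀(N)`-invariance and moderate growth of the generators).
-/
import Mathlib
import Fermat.Agent.Lib.X0.NormPoly
import Fermat.Agent.Lib.X0.FinFamily
import Fermat.Agent.Lib.X0.LevelOnePoly

set_option autoImplicit false

open Filter Topology UpperHalfPlane Polynomial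
open scoped Manifold MatrixGroups

namespace Fermat.Agent.Lib.X0

theorem h2_levelOnePolyStatement : h2_LevelOnePolyStatement :=
  fun f hf hinv m hbd => h6_levelOne_poly f hf hinv m hbd

/-- **Step (iii)** for `Γ₀(N)`-invariant holomorphic functions with moderate growth. -/
theorem h2_normPoly (N : ℕ) [NeZero N] (θ : h2_holoInv N)
    (hgrowth : ∀ g : SL(2, ℤ), ∃ m : ℕ,
      IsBoundedAtImInfty (fun τ : ℍ => θ.1.1 (g • τ) * ModularForm.discriminant τ ^ m)) :
    ∃ p : Polynomial (Polynomial ℂ), p.Monic ∧ p.natDegree = Nat.card (QN N) ∧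
      ∀ τ : ℍ, (p.map (Polynomial.evalRingHom (jFun τ))).eval (θ.1.1 τ) = 0 :=
  h2_normPoly_of N h2_levelOnePolyStatement θ hgrowth

/-- The subring of holomorphic functions all of whose `SL(2, ℤ)`-translates have moderate
growth. -/
noncomputable def h2_holoGrowthAll : Subring h2_holo :=
  ⨅ g : SL(2, ℤ), h2_holoGrowth.comap (h2_holoSmul g)

theorem h2_mem_holoGrowthAll {F : h2_holo} :
    F ∈ h2_holoGrowthAll ↔ ∀ g : SL(2, ℤ), h2_ModGrowth (fun τ : ℍ => F.1 (g • τ)) := by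
  unfold h2_holoGrowthAll
  rw [Subring.mem_iInf]
  rfl

theorem h2_evAnHom_mem_growthAll (N : ℕ)
    (hgrowthJ : ∀ d : ℕ, d ∣ N → ∀ g : SL(2, ℤ),
      h2_ModGrowth (fun τ : ℍ => h9_Jd d (g • τ)))
    (P : MvPolynomial (h9_DivN N) Kbar) : h2_evAnHom N P ∈ h2_holoGrowthAll := by
  induction P using MvPolynomial.induction_on with
  | C a =>
    rw [h2_evAnHom_C, h2_mem_holoGrowthAll]
    intro g
    exact h2_ModGrowth.const _
  | add p q hp hq =>
    rw [map_add]
    exact h2_holoGrowthAll.add_mem hp hq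
  | mul_X p d hp =>
    rw [map_mul]
    refine h2_holoGrowthAll.mul_mem hp ?_
    rw [h2_evAnHom_X, h2_mem_holoGrowthAll]
    intro g
    exact hgrowthJ d.1 d.2 g

/-- **Step (iii)** for the analytic realisation of a polynomial in the generators. -/
theorem h2_normPoly_evAn (N : ℕ) [NeZero N]
    (hinv : ∀ d : ℕ, d ∣ N → ∀ δ : SL(2, ℤ), δ ∈ CongruenceSubgroup.Gamma0 N → ∀ z : ℍ,
      h9_Jd d (δ • z) = h9_Jd d z)
    (hgrowthJ : ∀ d : ℕ, d ∣ N → ∀ g : SL(2, ℤ), ∃ m : ℕ,
      IsBoundedAtImInfty (fun τ : ℍ => h9_Jd d (g • τ) * ModularForm.discriminant τ ^ m))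
    (P : MvPolynomial (h9_DivN N) Kbar) :
    ∃ p : Polynomial (Polynomial ℂ), p.Monic ∧ p.natDegree = Nat.card (QN N) ∧
      ∀ τ : ℍ, (p.map (Polynomial.evalRingHom (jFun τ))).eval (h9_evAn N P τ) = 0 := by
  have h := h2_normPoly N ⟨h2_evAnHom N P, h2_evAnHom_mem_holoInv N hinv P⟩
    (fun g => (h2_mem_holoGrowthAll.mp (h2_evAnHom_mem_growthAll N hgrowthJ P)) g)
  obtain ⟨p, hp1, hp2, hp3⟩ := h
  refine ⟨p, hp1, hp2, fun τ => ?_⟩
  have := hp3 τ
  rwa [h2_evAnHom_apply] at this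

end Fermat.Agent.Lib.X0
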