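/-
X0 project (S24) (helper3): distinctness of the embeddings attached to distinct cosets.
If `J_N ∘ g⁻¹ = J_N ∘ g'⁻¹` (with `J_N(τ) = j(N τ)`) then `g⁻¹ g' ∈ Γ₀(N)`.  Growth argument:
`j q → 1` at `i∞`, Hermite decomposition `N (β τ) = u ((a τ + b)/e)`, and comparison of
`‖j((a τ + b)/e)‖ ~ exp(2π (a/e) Im τ)` with `‖j(N τ)‖ ~ exp(2π N Im τ)` along `τ = i t`.
-/
import Mathlib
import Fermat.Agent.Lib.X0.Defs
import Fermat.Agent.Lib.X0.JOrder
import Fermat.Agent.Lib.X0.EmbDefs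
import Fermat.Agent.Lib.X0.Hermite

set_option autoImplicit false

open UpperHalfPlane hiding I
open Complex ModularForm EisensteinSeries ModularGroup Filter Function Asymptotics
open scoped MatrixGroups ModularForm Manifold Topology Real

namespace Fermat.Agent.Lib.X0

local notation "Δ" => ModularForm.discriminant
local notation "𝕢" => Periodic.qParam

/-- `j(τ) q(τ) → 1` at `i∞`. -/
theorem h3_tendsto_jFun_mul_q :
    Tendsto (fun τ : ℍ => jFun τ * 𝕢 1 τ) atImInfty (𝓝 1) := by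
  have h4 := h3_tendsto_modform E₄
  rw [E_qExpansion_coeff_zero _ ⟨2, rfl⟩] at h4
  have hΔ := h3_tendsto_discriminant_div_q
  have := (h4.pow 3).div hΔ one_ne_zero
  simp only [one_pow, div_one] at this
  refine this.congr fun τ => ?_
  unfold jFun
  have hq : 𝕢 1 (τ : ℂ) ≠ 0 := Periodic.qParam_ne_zero (h := 1) (τ : ℂ)
  have hΔne : Δ τ ≠ 0 := discriminant_ne_zero τ
  simp only [Pi.div_apply]
  field_simp

/-- The point `(a (i t) + b) / e` of the upper half plane, for `t > 0`. -/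
noncomputable def h3_pathPt (a b e : ℕ) (ha : 0 < a) (he : 0 < e) (t : ℝ) (ht : 0 < t) : ℍ :=
  ⟨((a : ℂ) * ((t : ℂ) * Complex.I) + b) / e, by
    have e1 : ((a : ℂ) * ((t : ℂ) * Complex.I) + b) / e = ((b / e : ℝ) : ℂ)
        + (((a : ℝ) * t / e : ℝ) : ℂ) * Complex.I := by
      have he' : (e : ℂ) ≠ 0 := by exact_mod_cast he.ne'
      push_cast
      field_simp
      ring
    rw [e1]
    simp only [Complex.add_im, Complex.ofReal_im, Complex.mul_im, Complex.ofReal_re, Complex.I_im,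
      Complex.I_re, mul_zero, mul_one, zero_add, add_zero]
    have ha' : (0 : ℝ) < a := by exact_mod_cast ha
    have he' : (0 : ℝ) < e := by exact_mod_cast he
    positivity⟩

theorem h3_pathPt_im (a b e : ℕ) (ha : 0 < a) (he : 0 < e) (t : ℝ) (ht : 0 < t) :
    (h3_pathPt a b e ha he t ht).im = (a : ℝ) * t / e := by
  have e1 : ((a : ℂ) * ((t : ℂ) * Complex.I) + b) / e = ((b / e : ℝ) : ℂ)
      + (((a : ℝ) * t / e : ℝ) : ℂ) * Complex.I := by
    have he' : (e : ℂ) ≠ 0 := by exact_mod_cast he.ne'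
    push_cast
    field_simp
    ring
  show (((a : ℂ) * ((t : ℂ) * Complex.I) + b) / e).im = _
  rw [e1]
  simp

theorem h3_norm_qParam (τ : ℍ) : ‖𝕢 1 (τ : ℂ)‖ = Real.exp (-2 * π * τ.im) := by
  rw [Periodic.norm_qParam]
  simp

theorem h3_tendsto_pathPt (a b e : ℕ) (ha : 0 < a) (he : 0 < e) :
    Tendsto (fun n : ℕ => h3_pathPt a b e ha he ((n : ℝ) + 1) (by positivity)) atTop
      atImInfty := by
  rw [atImInfty, tendsto_comap_iff]
  have : (UpperHalfPlane.im ∘ fun n : ℕ => h3_pathPt a b e ha he ((n : ℝ) + 1) (by positivity)) =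
      fun n : ℕ => (a : ℝ) / e * ((n : ℝ) + 1) := by
    funext n
    simp only [Function.comp_apply, h3_pathPt_im]
    ring
  rw [this]
  have ha' : (0 : ℝ) < a := by exact_mod_cast ha
  have he' : (0 : ℝ) < e := by exact_mod_cast he
  apply Tendsto.const_mul_atTop (div_pos ha' he')
  exact tendsto_atTop_add_const_right _ _ tendsto_natCast_atTop_atTop

/-- Rigidity: if `j((a τ + b)/e) = j(N τ)` along `τ = i t` and `a e = N` then `e = 1`. -/
theorem h3_hermite_rigid (N a b e : ℕ) (hN : 0 < N) (ha : 0 < a) (he : 0 < e) (hae : a * e = N)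
    (hj : ∀ (t : ℝ) (ht : 0 < t), jFun (h3_pathPt a b e ha he t ht) =
      jFun (h3_pathPt N 0 1 hN one_pos t ht)) : e = 1 := by
  by_contra hne
  have he2 : 2 ≤ e := by omega
  set L : ℍ → ℂ := fun τ => jFun τ * 𝕢 1 τ with hL
  have hLP := (h3_tendsto_jFun_mul_q.comp (h3_tendsto_pathPt a b e ha he)).norm
  have hLQ := (h3_tendsto_jFun_mul_q.comp (h3_tendsto_pathPt N 0 1 hN one_pos)).norm
  rw [norm_one] at hLP hLQ
  have ha' : (0 : ℝ) < a := by exact_mod_cast ha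
  have he' : (0 : ℝ) < e := by exact_mod_cast he
  -- `c = N - a/e > 0`
  set c : ℝ := (N : ℝ) - (a : ℝ) / e with hc
  have hcpos : 0 < c := by
    have hNae : (N : ℝ) = a * e := by exact_mod_cast hae.symm
    have he2' : (2 : ℝ) ≤ e := by exact_mod_cast he2
    rw [hc, hNae, sub_pos, div_lt_iff₀ he']
    nlinarith
  -- the exact relation between the two norms
  have hrel : ∀ n : ℕ, ‖L (h3_pathPt a b e ha he ((n : ℝ) + 1) (by positivity))‖ =
      ‖L (h3_pathPt N 0 1 hN one_pos ((n : ℝ) + 1) (by positivity))‖ *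
        Real.exp (2 * π * c * ((n : ℝ) + 1)) := by
    intro n
    simp only [hL, norm_mul, h3_norm_qParam, h3_pathPt_im]
    rw [hj ((n : ℝ) + 1) (by positivity)]
    have hx : -2 * π * ((a : ℝ) * ((n : ℝ) + 1) / e) =
        -2 * π * ((N : ℝ) * ((n : ℝ) + 1) / ((1 : ℕ) : ℝ)) + 2 * π * c * ((n : ℝ) + 1) := by
      rw [hc]
      push_cast
      field_simp
      ring
    rw [hx, Real.exp_add]
    ring
  -- eventually `‖L(Q n)‖ ≥ 1/2` and `‖L(P n)‖ ≤ 2`
  have h1 : ∀ᶠ n : ℕ in atTop, (1 / 2 : ℝ) <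
      ‖L (h3_pathPt N 0 1 hN one_pos ((n : ℝ) + 1) (by positivity))‖ :=
    hLQ.eventually (lt_mem_nhds (by norm_num))
  have h2 : ∀ᶠ n : ℕ in atTop,
      ‖L (h3_pathPt a b e ha he ((n : ℝ) + 1) (by positivity))‖ < 2 :=
    hLP.eventually (gt_mem_nhds (by norm_num))
  have h3 : Tendsto (fun n : ℕ => Real.exp (2 * π * c * ((n : ℝ) + 1))) atTop atTop := by
    apply Real.tendsto_exp_atTop.comp
    apply Tendsto.const_mul_atTop (by positivity)
    exact tendsto_atTop_add_const_right _ _ tendsto_natCast_atTop_atTop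
  have h4 : ∀ᶠ n : ℕ in atTop, (4 : ℝ) < Real.exp (2 * π * c * ((n : ℝ) + 1)) :=
    h3.eventually (eventually_gt_atTop 4)
  obtain ⟨n, hn1, hn2, hn4⟩ := (h1.and (h2.and h4)).exists
  have := hrel n
  have hpos : 0 < Real.exp (2 * π * c * ((n : ℝ) + 1)) := Real.exp_pos _
  nlinarith

/-- If `J_N ∘ β = J_N` for `β ∈ SL(2,ℤ)` then `β ∈ Γ₀(N)`. -/
theorem h3_mem_Gamma0_of_Jd_invariant (N : ℕ) [NeZero N] (β : SL(2, ℤ))
    (hβ : ∀ w : ℍ, h9_Jd N (β • w) = h9_Jd N w) : β ∈ CongruenceSubgroup.Gamma0 N := by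
  have hN : 0 < N := Nat.pos_of_ne_zero (NeZero.ne N)
  obtain ⟨u, a, b, e, ha, he, hae, hbe, ⟨-, -, h3, -⟩, hτ⟩ := h5_hermite_smul N hN β
  have he1 : e = 1 := by
    apply h3_hermite_rigid N a b e hN ha he hae
    intro t ht
    set τ : ℍ := h3_pathPt 1 0 1 one_pos one_pos t ht with hτdef
    have hτcoe : (τ : ℂ) = (t : ℂ) * Complex.I := by
      show (((1 : ℕ) : ℂ) * ((t : ℂ) * Complex.I) + ((0 : ℕ) : ℂ)) / ((1 : ℕ) : ℂ) = _
      simp
    obtain ⟨τ', hτ'coe, hτ'eq⟩ := hτ τ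
    have hpt : h9_dmul N (β • τ) = u • τ' := by
      ext
      rw [h9_dmul_coe hN]
      exact hτ'eq
    have hτ'pt : τ' = h3_pathPt a b e ha he t ht := by
      ext
      rw [hτ'coe, hτcoe]
      rfl
    have hNpt : h9_dmul N τ = h3_pathPt N 0 1 hN one_pos t ht := by
      ext
      rw [h9_dmul_coe hN, hτcoe]
      show (N : ℂ) * ((t : ℂ) * Complex.I) =
        ((N : ℂ) * ((t : ℂ) * Complex.I) + ((0 : ℕ) : ℂ)) / ((1 : ℕ) : ℂ)
      simp
    have := hβ τ
    unfold h9_Jd at this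
    rw [hpt, h3_jFun_smul, hτ'pt, hNpt] at this
    exact this
  have haN : a = N := by rw [← hae, he1, mul_one]
  rw [CongruenceSubgroup.Gamma0_mem, h3, haN]
  simp

/-- **Distinctness**: if `J_N ∘ g⁻¹ = J_N ∘ g'⁻¹` then `g⁻¹ g' ∈ Γ₀(N)`. -/
theorem h3_distinct (N : ℕ) [NeZero N] (g g' : SL(2, ℤ))
    (h : ∀ z : ℍ, h9_Jd N (g⁻¹ • z) = h9_Jd N (g'⁻¹ • z)) :
    g⁻¹ * g' ∈ CongruenceSubgroup.Gamma0 N := by
  apply h3_mem_Gamma0_of_Jd_invariant
  intro w
  have := h (g' • w)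
  rw [inv_smul_smul, ← mul_smul] at this
  exact this

end Fermat.Agent.Lib.X0
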