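import Mathlib
import Fermat.Agent.Lib.X0.EmbDefs
import Fermat.Agent.Lib.X0.JOrder

set_option autoImplicit false

noncomputable section

namespace Fermat.Agent.Lib.X0

open Matrix MatrixGroups UpperHalfPlane ModularCurve

/-- For `δ ∈ Γ₀(N)` and `d ∣ N`: `diag(d,1) δ = δ' diag(d,1)` with `δ' ∈ SL(2,ℤ)`. -/
theorem h5_dmul_smul_Gamma0 (N d : ℕ) (hd : d ∣ N) (hd0 : 0 < d) (δ : SL(2, ℤ))
    (hδ : δ ∈ CongruenceSubgroup.Gamma0 N) :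
    ∃ δ' : SL(2, ℤ), ∀ z : ℍ, h9_dmul d (δ • z) = δ' • h9_dmul d z := by
  rw [CongruenceSubgroup.Gamma0_mem] at hδ
  have hdvd : (d : ℤ) ∣ δ 1 0 := by
    have h1 : (N : ℤ) ∣ δ 1 0 := (ZMod.intCast_zmod_eq_zero_iff_dvd _ _).mp hδ
    exact (Int.natCast_dvd_natCast.mpr hd).trans h1
  obtain ⟨c', hc'⟩ := hdvd
  have hdet : δ 0 0 * δ 1 1 - δ 0 1 * δ 1 0 = 1 := by
    have := δ.2
    rw [Matrix.det_fin_two] at this
    exact this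
  have hdet' : (!![δ 0 0, (d : ℤ) * δ 0 1; c', δ 1 1] : Matrix (Fin 2) (Fin 2) ℤ).det = 1 := by
    rw [Matrix.det_fin_two_of]
    rw [hc'] at hdet
    linear_combination hdet
  let δ' : SL(2, ℤ) := ⟨!![δ 0 0, (d : ℤ) * δ 0 1; c', δ 1 1], hdet'⟩
  have e00 : δ' 0 0 = δ 0 0 := rfl
  have e01 : δ' 0 1 = (d : ℤ) * δ 0 1 := rfl
  have e10 : δ' 1 0 = c' := rfl
  have e11 : δ' 1 1 = δ 1 1 := rfl
  refine ⟨δ', fun z => ?_⟩
  apply UpperHalfPlane.ext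
  rw [h9_dmul_coe hd0, coe_specialLinearGroup_apply, coe_specialLinearGroup_apply,
    h9_dmul_coe hd0, e00, e01, e10, e11]
  simp only [algebraMap_int_eq, eq_intCast, Complex.ofReal_intCast]
  have hc'C : ((δ 1 0 : ℤ) : ℂ) = (d : ℂ) * (c' : ℂ) := by exact_mod_cast hc'
  rw [hc'C]
  push_cast
  rw [mul_div_assoc']
  congr 1 <;> ring

/-- **(C3.1)** `J_d = j(d ·)` is `Γ₀(N)`-invariant for `d ∣ N`. -/
theorem h5_Jd_invariant (N d : ℕ) (hd : d ∣ N) (δ : SL(2, ℤ))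
    (hδ : δ ∈ CongruenceSubgroup.Gamma0 N) (z : ℍ) : h9_Jd d (δ • z) = h9_Jd d z := by
  rcases Nat.eq_zero_or_pos d with hd0 | hd0
  · subst hd0
    have : ∀ w : ℍ, h9_dmul 0 w = w := fun w => by rw [h9_dmul, dif_neg (lt_irrefl 0)]
    rw [h9_Jd, h9_Jd, this, this, h3_jFun_smul]
  · obtain ⟨δ', hδ'⟩ := h5_dmul_smul_Gamma0 N d hd hd0 δ hδ
    rw [h9_Jd, h9_Jd, hδ', h3_jFun_smul]

end Fermat.Agent.Lib.X0
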