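/-
X0 project (S24), piece (C5, algebra of the upper bound) (helper8):
if `F = k(x)(S)` with `S` finite and every element of the `k`-algebra generated by `x` and `S`
satisfies a nonzero polynomial of degree `≤ n` over `k[x]`, then `[F : k(x)] ≤ n`.
Mathlib + Defs (only for the final `IsCoord` packaging).
-/
import Mathlib
import Fermat.Agent.Lib.X0.Defs

set_option autoImplicit false

namespace Fermat.Agent.Lib.X0

open IntermediateField Polynomial

section Upper

variable {k F : Type*} [Field k] [Field F] [Algebra k F]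

/-- every element of `k(x)` is a quotient `u(x)/v(x)`. -/
theorem h8_exists_frac_of_mem_adjoin (x : F) (hx : Transcendental k x) (c : F)
    (hc : c ∈ adjoin k ({x} : Set F)) :
    ∃ u v : k[X], v ≠ 0 ∧ c * aeval x v = aeval x u := by
  have hne : ∀ v : k[X], v ≠ 0 → aeval x v ≠ 0 := fun v hv h0 =>
    hv ((transcendental_iff.mp hx) v h0)
  induction hc using adjoin_induction with
  | mem y hy =>
    rw [Set.mem_singleton_iff] at hy
    exact ⟨X, 1, one_ne_zero, by rw [hy]; simp⟩
  | algebraMap a => exact ⟨C a, 1, one_ne_zero, by simp⟩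
  | add y z _ _ hy hz =>
    obtain ⟨u₁, v₁, hv₁, h₁⟩ := hy
    obtain ⟨u₂, v₂, hv₂, h₂⟩ := hz
    refine ⟨u₁ * v₂ + u₂ * v₁, v₁ * v₂, mul_ne_zero hv₁ hv₂, ?_⟩
    simp only [map_add, map_mul]
    rw [← h₁, ← h₂]; ring
  | inv y _ hy =>
    obtain ⟨u, v, hv, h⟩ := hy
    by_cases hu : u = 0
    · have hy0 : y = 0 := by
        rw [hu, map_zero] at h
        exact (mul_eq_zero.mp h).resolve_right (hne v hv)
      exact ⟨0, 1, one_ne_zero, by rw [hy0]; simp⟩
    · refine ⟨v, u, hu, ?_⟩
      have hy0 : y ≠ 0 := by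
        rintro rfl
        rw [zero_mul] at h
        exact hne u hu h.symm
      rw [← h]
      field_simp
  | mul y z _ _ hy hz =>
    obtain ⟨u₁, v₁, hv₁, h₁⟩ := hy
    obtain ⟨u₂, v₂, hv₂, h₂⟩ := hz
    refine ⟨u₁ * u₂, v₁ * v₂, mul_ne_zero hv₁ hv₂, ?_⟩
    simp only [map_mul]
    rw [← h₁, ← h₂]; ring

/-- a nonzero relation of degree `≤ n` over `k[x]` bounds the degree of the minimal polynomial
over `k(x)`. -/
theorem h8_minpoly_natDegree_le (x : F) (hx : Transcendental k x) (n : ℕ) (θ : F)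
    (b : Fin (n + 1) → k[X]) (hb : b ≠ 0)
    (hrel : ∑ i, aeval x (b i) * θ ^ (i : ℕ) = 0) :
    IsIntegral (adjoin k ({x} : Set F)) θ ∧
      (minpoly (adjoin k ({x} : Set F)) θ).natDegree ≤ n := by
  set K := adjoin k ({x} : Set F) with hK
  have hxK : x ∈ K := subset_adjoin k _ (Set.mem_singleton x)
  -- coefficients in K
  let c : Fin (n + 1) → K := fun i => aeval (⟨x, hxK⟩ : K) (b i)
  have hc : ∀ i, ((c i : K) : F) = aeval x (b i) := by
    intro i
    show algebraMap K F (aeval (⟨x, hxK⟩ : K) (b i)) = _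
    rw [← aeval_algebraMap_apply]
    rfl
  let B : K[X] := ∑ i : Fin (n + 1), C (c i) * X ^ (i : ℕ)
  have hBdeg : B.natDegree ≤ n := by
    refine natDegree_sum_le_of_forall_le _ _ fun i _ => ?_
    refine (natDegree_C_mul_X_pow_le _ _).trans ?_
    have := i.2; omega
  have hBcoeff : ∀ i : Fin (n + 1), B.coeff i = c i := by
    intro i
    simp only [B, finsetSum_coeff, coeff_C_mul, coeff_X_pow]
    rw [Finset.sum_eq_single i]
    · simp
    · intro j _ hji
      rw [if_neg (fun h => hji (Fin.ext h.symm)), mul_zero]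
    · intro h; exact absurd (Finset.mem_univ i) h
  have hBne : B ≠ 0 := by
    intro hB0
    apply hb
    funext i
    have h1 : c i = 0 := by rw [← hBcoeff i, hB0, coeff_zero]
    have h2 : aeval x (b i) = 0 := by rw [← hc i, h1]; rfl
    exact (transcendental_iff.mp hx) (b i) h2
  have hBroot : aeval θ B = 0 := by
    simp only [B, map_sum, map_mul, aeval_C, map_pow, aeval_X]
    rw [← hrel]
    refine Finset.sum_congr rfl fun i _ => ?_
    rw [← hc i]; rfl
  have hint : IsIntegral K θ := (isAlgebraic_iff_isIntegral).mp ⟨B, hBne, hBroot⟩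
  refine ⟨hint, ?_⟩
  exact (natDegree_le_of_dvd (minpoly.dvd K θ hBroot) hBne).trans hBdeg


/-- bridge from the output shape of `h8_descent` (scalar coefficients indexed by
`Fin (n+1) × Fin (D+1)`) to a relation with coefficients in `k[X]`. -/
theorem h8_rel_of_coeffs (x θ : F) (n D : ℕ) (c : Fin (n + 1) × Fin (D + 1) → k) (hc : c ≠ 0)
    (h : ∑ p, algebraMap k F (c p) * (x ^ (p.2 : ℕ) * θ ^ (p.1 : ℕ)) = 0) :
    ∃ b : Fin (n + 1) → k[X], b ≠ 0 ∧ ∑ i, aeval x (b i) * θ ^ (i : ℕ) = 0 := by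
  refine ⟨fun i => ∑ a : Fin (D + 1), C (c (i, a)) * X ^ (a : ℕ), ?_, ?_⟩
  · intro hb
    apply hc
    funext p
    obtain ⟨i, a⟩ := p
    have h1 := congrFun hb i
    simp only [Pi.zero_apply] at h1
    have h2 := congrArg (fun q : k[X] => q.coeff (a : ℕ)) h1
    simp only [finsetSum_coeff, coeff_C_mul, coeff_X_pow, coeff_zero] at h2
    rw [Finset.sum_eq_single a] at h2
    · simpa using h2
    · intro j _ hja
      rw [if_neg (fun h => hja (Fin.ext h.symm)), mul_zero]
    · intro h; exact absurd (Finset.mem_univ a) h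
  · rw [← h, Fintype.sum_prod_type]
    refine Finset.sum_congr rfl fun i _ => ?_
    simp only [map_sum, map_mul, aeval_C, map_pow, aeval_X]
    rw [Finset.sum_mul]
    refine Finset.sum_congr rfl fun a _ => ?_
    ring

/-- **Upper bound for the degree**: if `F = k(x)(S)` with `S` finite and every element of the
`k`-algebra generated by `x` and `S` satisfies a nonzero relation of degree `≤ n` over `k[x]`,
then `F` is finite over `k(x)` of degree `≤ n`. -/
theorem h8_finrank_le [CharZero k] (x : F)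
    (hx : Transcendental k x) (n : ℕ) (S : Finset F)
    (hgen : IntermediateField.adjoin k (insert x (↑S : Set F)) = ⊤)
    (hdeg : ∀ θ ∈ Algebra.adjoin k (insert x (↑S : Set F)),
      ∃ b : Fin (n + 1) → Polynomial k, b ≠ 0 ∧ ∑ i, aeval x (b i) * θ ^ (i : ℕ) = 0) :
    FiniteDimensional (adjoin k ({x} : Set F)) F ∧
      Module.finrank (adjoin k ({x} : Set F)) F ≤ n := by
  set K := adjoin k ({x} : Set F) with hK
  have hxK : x ∈ K := subset_adjoin k _ (Set.mem_singleton x)
  have hne : ∀ v : k[X], v ≠ 0 → aeval x v ≠ 0 := fun v hv h0 =>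
    hv ((transcendental_iff.mp hx) v h0)
  have hxR : ∀ p : k[X], aeval x p ∈ Algebra.adjoin k (insert x (↑S : Set F)) := fun p =>
    Algebra.adjoin_mono (Set.singleton_subset_iff.mpr (Set.mem_insert _ _))
      (aeval_mem_adjoin_singleton k x)
  -- every element of the k-algebra is integral of degree ≤ n
  have hR : ∀ θ ∈ Algebra.adjoin k (insert x (↑S : Set F)),
      IsIntegral K θ ∧ (minpoly K θ).natDegree ≤ n := by
    intro θ hθ
    obtain ⟨b, hb, hrel⟩ := hdeg θ hθ
    exact h8_minpoly_natDegree_le x hx n θ b hb hrel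
  have hSint : ∀ s ∈ (↑S : Set F), IsIntegral K s := fun s hs =>
    (hR s (Algebra.subset_adjoin (Set.mem_insert_of_mem _ hs))).1
  -- K(S) = ⊤
  have htop : adjoin K (↑S : Set F) = ⊤ := by
    apply restrictScalars_injective k
    rw [adjoin_adjoin_left, restrictScalars_top, ← hgen, Set.singleton_union]
  have hfin : FiniteDimensional K F := by
    have h1 : FiniteDimensional K (adjoin K (↑S : Set F)) :=
      finiteDimensional_adjoin hSint
    rw [htop] at h1
    exact (topEquiv (F := K) (E := F)).toLinearEquiv.finiteDimensional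
  refine ⟨hfin, ?_⟩
  -- F = K[S]
  have halg : Algebra.adjoin K (↑S : Set F) = ⊤ := by
    rw [← adjoin_toSubalgebra_of_isAlgebraic (fun s hs => (hSint s hs).isAlgebraic), htop]
    rfl
  -- clearing denominators
  have hclear : ∀ z : F, ∃ θ ∈ Algebra.adjoin k (insert x (↑S : Set F)), ∃ p : k[X], p ≠ 0 ∧
      z * aeval x p = θ := by
    intro z
    have hz : z ∈ Algebra.adjoin K (↑S : Set F) := by rw [halg]; trivial
    induction hz using Algebra.adjoin_induction with
    | mem s hs =>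
      exact ⟨s, Algebra.subset_adjoin (Set.mem_insert_of_mem _ hs), 1, one_ne_zero, by simp⟩
    | algebraMap c =>
      obtain ⟨u, v, hv, h⟩ := h8_exists_frac_of_mem_adjoin x hx (c : F) c.2
      exact ⟨aeval x u, hxR u, v, hv, h⟩
    | add y z _ _ hy hz =>
      obtain ⟨θ₁, hθ₁, p₁, hp₁, h₁⟩ := hy
      obtain ⟨θ₂, hθ₂, p₂, hp₂, h₂⟩ := hz
      refine ⟨θ₁ * aeval x p₂ + θ₂ * aeval x p₁,
        add_mem (mul_mem hθ₁ (hxR p₂)) (mul_mem hθ₂ (hxR p₁)), p₁ * p₂, mul_ne_zero hp₁ hp₂, ?_⟩
      rw [← h₁, ← h₂, map_mul]; ring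
    | mul y z _ _ hy hz =>
      obtain ⟨θ₁, hθ₁, p₁, hp₁, h₁⟩ := hy
      obtain ⟨θ₂, hθ₂, p₂, hp₂, h₂⟩ := hz
      refine ⟨θ₁ * θ₂, mul_mem hθ₁ hθ₂, p₁ * p₂, mul_ne_zero hp₁ hp₂, ?_⟩
      rw [← h₁, ← h₂, map_mul]; ring
  -- primitive element
  have : CharZero K := charZero_of_injective_algebraMap (algebraMap k K).injective
  obtain ⟨α, hα⟩ := Field.exists_primitive_element K F
  obtain ⟨θ, hθ, p, hp, hαθ⟩ := hclear α
  have hθtop : K⟮θ⟯ = ⊤ := by
    rw [eq_top_iff, ← hα, adjoin_le_iff, Set.singleton_subset_iff]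
    have hs : aeval x p ∈ K⟮θ⟯ := by
      have h1 : ((aeval (⟨x, hxK⟩ : K) p : K) : F) = aeval x p := by
        show algebraMap K F (aeval (⟨x, hxK⟩ : K) p) = _
        rw [← aeval_algebraMap_apply]
        rfl
      rw [← h1]
      exact IntermediateField.algebraMap_mem K⟮θ⟯ (aeval (⟨x, hxK⟩ : K) p)
    have hθm : θ ∈ K⟮θ⟯ := mem_adjoin_simple_self K θ
    have : α = θ / aeval x p := by
      rw [← hαθ]; field_simp [hne p hp]
    rw [this]
    exact div_mem hθm hs
  obtain ⟨hint, hle⟩ := hR θ hθ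
  calc Module.finrank K F = Module.finrank K (⊤ : IntermediateField K F) := finrank_top'.symm
    _ = Module.finrank K K⟮θ⟯ := by rw [hθtop]
    _ = (minpoly K θ).natDegree := adjoin.finrank hint
    _ ≤ n := hle

end Upper

/-- `IsCoord` packaging of `h8_finrank_le`. -/
theorem h8_isCoord_of_relations {k F : Type} [Field k] [CharZero k] [Field F] [Algebra k F]
    (x : F) (hx : Transcendental k x) (n : ℕ) (S : Finset F)
    (hgen : IntermediateField.adjoin k (insert x (↑S : Set F)) = ⊤)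
    (hdeg : ∀ θ ∈ Algebra.adjoin k (insert x (↑S : Set F)),
      ∃ b : Fin (n + 1) → Polynomial k, b ≠ 0 ∧ ∑ i, aeval x (b i) * θ ^ (i : ℕ) = 0) :
    IsCoord k x ∧ coordDegree k x ≤ n :=
  ⟨⟨hx, (h8_finrank_le x hx n S hgen hdeg).1⟩, (h8_finrank_le x hx n S hgen hdeg).2⟩

end Fermat.Agent.Lib.X0
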