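/-
Degree bound without finite generation (helper8): if `F = Frac R` for a `k`-subalgebra `R ∋ x`
all of whose elements satisfy a nonzero relation of degree `≤ n` over `k[x]`, then
`[F : k(x)] ≤ n`.  Used for the function field `M_N` over `ℂ` (project S20).
-/
import Fermat.Agent.Lib.X0.DegreeUpper

set_option autoImplicit false

namespace Fermat.Agent.Lib.X0

open IntermediateField Polynomial

section Bounded

variable {k F : Type*} [Field k] [Field F] [Algebra k F]

/-- from a nonzero relation over `k[x]` for `b ≠ 0`: `p(x) / b ∈ R` for some `p ≠ 0`. -/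
theorem h8_inv_of_relation (x : F) (R : Subalgebra k F) (hxR : x ∈ R) (b : F) (hbR : b ∈ R)
    (hb : b ≠ 0) :
    ∀ (n : ℕ) (β : Fin (n + 1) → k[X]), β ≠ 0 →
      ∑ i, aeval x (β i) * b ^ (i : ℕ) = 0 →
      ∃ p : k[X], p ≠ 0 ∧ ∃ θ ∈ R, aeval x p = b * θ := by
  have hxR' : ∀ p : k[X], aeval x p ∈ R := fun p => by
    have : aeval x p = ((aeval (⟨x, hxR⟩ : R) p : R) : F) := by
      rw [← Subalgebra.coe_val, ← aeval_algHom_apply]; rfl
    rw [this]; exact Subtype.property _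
  intro n
  induction n with
  | zero =>
    intro β hβ hrel
    refine ⟨β 0, ?_, 0, zero_mem _, ?_⟩
    · intro h0
      apply hβ
      funext i
      rw [Fin.fin_one_eq_zero i, h0]; rfl
    · simpa using hrel
  | succ n ih =>
    intro β hβ hrel
    rw [Fin.sum_univ_succ] at hrel
    simp only [Fin.val_zero, pow_zero, mul_one, Fin.val_succ] at hrel
    by_cases h0 : β 0 = 0
    · have hrel' : b * ∑ j : Fin (n + 1), aeval x (β j.succ) * b ^ (j : ℕ) = 0 := by
        rw [h0, map_zero, zero_add] at hrel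
        rw [Finset.mul_sum, ← hrel]
        refine Finset.sum_congr rfl fun j _ => ?_
        ring
      have hrel'' := (mul_eq_zero.mp hrel').resolve_left hb
      refine ih (fun j => β j.succ) ?_ hrel''
      intro hz
      apply hβ
      funext i
      refine Fin.cases ?_ (fun j => ?_) i
      · exact h0
      · exact congrFun hz j
    · refine ⟨β 0, h0, -∑ j : Fin (n + 1), aeval x (β j.succ) * b ^ (j : ℕ), ?_, ?_⟩
      · refine neg_mem (sum_mem fun j _ => mul_mem (hxR' _) (pow_mem hbR _))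
      · rw [mul_neg, Finset.mul_sum, eq_neg_iff_add_eq_zero, ← hrel]
        congr 1
        refine Finset.sum_congr rfl fun j _ => ?_
        ring

/-- **Degree bound without finite generation.** -/
theorem h8_finrank_le_of_bounded [CharZero k] (x : F) (hx : Transcendental k x) (n : ℕ)
    (R : Subalgebra k F) (hxR : x ∈ R)
    (hfrac : ∀ f : F, ∃ a ∈ R, ∃ b ∈ R, b ≠ 0 ∧ f = a / b)
    (hdeg : ∀ a ∈ R, ∃ b : Fin (n + 1) → k[X], b ≠ 0 ∧
      ∑ i, aeval x (b i) * a ^ (i : ℕ) = 0) :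
    FiniteDimensional (adjoin k ({x} : Set F)) F ∧
      Module.finrank (adjoin k ({x} : Set F)) F ≤ n := by
  classical
  set K := adjoin k ({x} : Set F) with hK
  have hxK : x ∈ K := subset_adjoin k _ (Set.mem_singleton x)
  have hne : ∀ v : k[X], v ≠ 0 → aeval x v ≠ 0 := fun v hv h0 =>
    hv ((transcendental_iff.mp hx) v h0)
  have hxR' : ∀ p : k[X], aeval x p ∈ R := fun p => by
    have : aeval x p = ((aeval (⟨x, hxR⟩ : R) p : R) : F) := by
      rw [← Subalgebra.coe_val, ← aeval_algHom_apply]; rfl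
    rw [this]; exact Subtype.property _
  have hxK' : ∀ p : k[X], aeval x p ∈ K := fun p => by
    have h1 : ((aeval (⟨x, hxK⟩ : K) p : K) : F) = aeval x p := by
      show algebraMap K F (aeval (⟨x, hxK⟩ : K) p) = _
      rw [← aeval_algebraMap_apply]
      rfl
    rw [← h1]; exact Subtype.property _
  -- Step 1
  have hR : ∀ θ ∈ R, IsIntegral K θ ∧ (minpoly K θ).natDegree ≤ n := by
    intro θ hθ
    obtain ⟨b, hb, hrel⟩ := hdeg θ hθ
    exact h8_minpoly_natDegree_le x hx n θ b hb hrel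
  -- Step 2
  have hclear : ∀ f : F, ∃ θ ∈ R, ∃ p : k[X], p ≠ 0 ∧ f * aeval x p = θ := by
    intro f
    obtain ⟨a, ha, b, hb, hb0, rfl⟩ := hfrac f
    obtain ⟨β, hβ, hrel⟩ := hdeg b hb
    obtain ⟨p, hp, θ, hθ, hpθ⟩ := h8_inv_of_relation x R hxR b hb hb0 n β hβ hrel
    refine ⟨a * θ, mul_mem ha hθ, p, hp, ?_⟩
    rw [hpθ]; field_simp
  -- Step 3
  have hint : ∀ f : F, IsIntegral K f := by
    intro f
    obtain ⟨θ, hθ, p, hp, hfp⟩ := hclear f
    have hs : aeval x p ≠ 0 := hne p hp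
    have : f = θ * (aeval x p)⁻¹ := by rw [← hfp]; field_simp
    rw [this]
    refine (hR θ hθ).1.mul ?_
    have hmem : (aeval x p)⁻¹ ∈ K := inv_mem (hxK' p)
    exact isIntegral_algebraMap (R := K) (A := F) (x := ⟨_, hmem⟩)
  haveI : Algebra.IsIntegral K F := ⟨hint⟩
  haveI : CharZero K := charZero_of_injective_algebraMap (algebraMap k K).injective
  haveI : Algebra.IsSeparable K F := Algebra.IsAlgebraic.isSeparable_of_perfectField
  -- Step 4: element of maximal degree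
  let P : ℕ → Prop := fun d => ∃ θ ∈ R, (minpoly K θ).natDegree = d
  have hP0 : P (minpoly K (0 : F)).natDegree := ⟨0, zero_mem _, rfl⟩
  have hP0le : (minpoly K (0 : F)).natDegree ≤ n := (hR 0 (zero_mem _)).2
  obtain ⟨θ₀, hθ₀R, hθ₀d⟩ : P (Nat.findGreatest P n) := Nat.findGreatest_spec hP0le hP0
  have hmax : ∀ θ ∈ R, (minpoly K θ).natDegree ≤ (minpoly K θ₀).natDegree := by
    intro θ hθ
    rw [hθ₀d]
    exact Nat.le_findGreatest (hR θ hθ).2 ⟨θ, hθ, rfl⟩
  have htop : K⟮θ₀⟯ = ⊤ := by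
    rw [eq_top_iff]
    intro α _
    obtain ⟨γ, hγ⟩ := Field.primitive_element_inf_aux K θ₀ α
    obtain ⟨θ₁, hθ₁R, p, hp, hγθ₁⟩ := hclear γ
    have hs : aeval x p ≠ 0 := hne p hp
    -- K⟮γ⟯ = K⟮θ₁⟯
    have hsK : aeval x p ∈ K⟮θ₁⟯ := by
      have h1 : ((aeval (⟨x, hxK⟩ : K) p : K) : F) = aeval x p := by
        show algebraMap K F (aeval (⟨x, hxK⟩ : K) p) = _
        rw [← aeval_algebraMap_apply]
        rfl
      rw [← h1]
      exact IntermediateField.algebraMap_mem K⟮θ₁⟯ (aeval (⟨x, hxK⟩ : K) p)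
    have hγmem : γ ∈ K⟮θ₁⟯ := by
      have : γ = θ₁ / aeval x p := by rw [← hγθ₁]; field_simp
      rw [this]
      exact div_mem (mem_adjoin_simple_self K θ₁) hsK
    have hle1 : K⟮θ₀, α⟯ ≤ K⟮θ₁⟯ := by
      rw [hγ, adjoin_le_iff, Set.singleton_subset_iff]; exact hγmem
    have hθ₀mem : θ₀ ∈ K⟮θ₁⟯ :=
      hle1 (subset_adjoin K _ (Set.mem_insert θ₀ _))
    have hαmem : α ∈ K⟮θ₁⟯ :=
      hle1 (subset_adjoin K _ (Set.mem_insert_of_mem _ (Set.mem_singleton α)))
    have hle2 : K⟮θ₀⟯ ≤ K⟮θ₁⟯ := by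
      rw [adjoin_le_iff, Set.singleton_subset_iff]; exact hθ₀mem
    haveI : FiniteDimensional K K⟮θ₁⟯ := adjoin.finiteDimensional (hR θ₁ hθ₁R).1
    have hfr : Module.finrank K K⟮θ₁⟯ ≤ Module.finrank K K⟮θ₀⟯ := by
      rw [adjoin.finrank (hR θ₁ hθ₁R).1, adjoin.finrank (hR θ₀ hθ₀R).1]
      exact hmax θ₁ hθ₁R
    have heq : K⟮θ₀⟯ = K⟮θ₁⟯ := eq_of_le_of_finrank_le hle2 hfr
    rw [heq]; exact hαmem
  have hfin : FiniteDimensional K F := by
    have h1 : FiniteDimensional K K⟮θ₀⟯ := adjoin.finiteDimensional (hR θ₀ hθ₀R).1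
    rw [htop] at h1
    exact (topEquiv (F := K) (E := F)).toLinearEquiv.finiteDimensional
  refine ⟨hfin, ?_⟩
  calc Module.finrank K F = Module.finrank K (⊤ : IntermediateField K F) := finrank_top'.symm
    _ = Module.finrank K K⟮θ₀⟯ := by rw [htop]
    _ = (minpoly K θ₀).natDegree := adjoin.finrank (hR θ₀ hθ₀R).1
    _ ≤ n := (hR θ₀ hθ₀R).2

end Bounded

/-- `IsCoord` packaging. -/
theorem h8_isCoord_of_bounded {k F : Type} [Field k] [CharZero k] [Field F] [Algebra k F]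
    (x : F) (hx : Transcendental k x) (n : ℕ) (R : Subalgebra k F) (hxR : x ∈ R)
    (hfrac : ∀ f : F, ∃ a ∈ R, ∃ b ∈ R, b ≠ 0 ∧ f = a / b)
    (hdeg : ∀ a ∈ R, ∃ b : Fin (n + 1) → Polynomial k, b ≠ 0 ∧
      ∑ i, aeval x (b i) * a ^ (i : ℕ) = 0) :
    IsCoord k x ∧ coordDegree k x ≤ n :=
  ⟨⟨hx, (h8_finrank_le_of_bounded x hx n R hxR hfrac hdeg).1⟩,
    (h8_finrank_le_of_bounded x hx n R hxR hfrac hdeg).2⟩

end Fermat.Agent.Lib.X0
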