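/-
X0 project (S24), piece (C5-v) (helper8): the lower bound `card Q ≤ [F : k(x)]` from a family of
pairwise distinct local embeddings agreeing on `x` and on the constants.
-/
import Mathlib
import Fermat.Agent.Lib.X0.Defs

set_option autoImplicit false

namespace Fermat.Agent.Lib.X0

open IntermediateField

section Lower

variable {k F K' : Type} [Field k] [Field F] [Algebra k F] [Field K']

/-- two ring homs out of `F` that agree on `x` and on the constants agree on `k(x)`. -/
theorem h8_agree_on_adjoin {L : Type*} [Field L] (φ ψ : F →+* L) (x : F)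
    (hc : ∀ a : k, φ (algebraMap k F a) = ψ (algebraMap k F a)) (hx : φ x = ψ x)
    (z : F) (hz : z ∈ adjoin k ({x} : Set F)) : φ z = ψ z := by
  induction hz using adjoin_induction with
  | mem y hy =>
    rw [Set.mem_singleton_iff] at hy
    rw [hy]; exact hx
  | algebraMap a => exact hc a
  | add y z _ _ hy hz => rw [map_add, map_add, hy, hz]
  | inv y _ hy => rw [map_inv₀, map_inv₀, hy]
  | mul y z _ _ hy hz => rw [map_mul, map_mul, hy, hz]

/-- **(C5-v)** `card Q ≤ [F : k(x)]` for any family of local embeddings. -/
theorem h8_card_le_coordDegree (ι : k →+* K') (x t : F) (hx : IsCoord k x)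
    (Q : Type) [Fintype Q] (M : ℕ) (E : LocalEmb ι x t Q M) :
    Fintype.card Q ≤ coordDegree k x := by
  classical
  rcases isEmpty_or_nonempty Q with hQ | ⟨⟨q₀⟩⟩
  · rw [Fintype.card_eq_zero]; exact Nat.zero_le _
  haveI : FiniteDimensional (adjoin k ({x} : Set F)) F := hx.finite
  -- the structure of `k(x)`-algebra on the Laurent series, through `τ q₀`
  letI alg : Algebra (adjoin k ({x} : Set F)) (LaurentSeries K') :=
    ((E.τ q₀).comp (algebraMap (adjoin k ({x} : Set F)) F)).toAlgebra
  have hagree : ∀ q (z : adjoin k ({x} : Set F)), E.τ q (z : F) = E.τ q₀ (z : F) := by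
    intro q z
    refine h8_agree_on_adjoin (k := k) (E.τ q) (E.τ q₀) x ?_ (E.agree q q₀) z z.2
    intro a
    rw [E.const, E.const]
  -- each `τ q` is an algebra hom
  let f : Q → (F →ₐ[adjoin k ({x} : Set F)] LaurentSeries K') := fun q =>
    { (E.τ q) with
      commutes' := fun z => hagree q z }
  have hf : Function.Injective f := by
    intro q q' h
    apply E.inj
    ext1 y
    exact congrArg (fun g : F →ₐ[adjoin k ({x} : Set F)] LaurentSeries K' => g y) h
  have h1 : Nat.card Q ≤ Nat.card (F →ₐ[adjoin k ({x} : Set F)] LaurentSeries K') :=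
    Nat.card_le_card_of_injective f hf
  have h2 := card_algHom_le_finrank (adjoin k ({x} : Set F)) F (LaurentSeries K')
  rw [Nat.card_eq_fintype_card] at h1
  exact h1.trans h2

end Lower

end Fermat.Agent.Lib.X0
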