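import Fermat.Agent.Lib.X0.RH

/-!
# Project X0: differentials of a function field (G3) (owner: lead)

`DifferentialStatement` from the places dictionary.
-/

set_option autoImplicit false

noncomputable section

namespace Fermat.Agent.Lib.X0

open AlgebraicCurve KaehlerDifferential TensorProduct Polynomial

/-- Every valuation ring of a place is a localisation of a finitely generated `k`-algebra
(to be supplied by the places dictionary (G1)). -/
def DictFGStatement : Prop :=
  ∀ {k F : Type} [Field k] [IsAlgClosed k] [CharZero k] [Field F] [Algebra k F]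
    (x : F) (_ : IsCoord k x) (v : AlgebraicCurve.Place k F),
    ∃ B : Subalgebra k F, B.FG ∧ (∀ b ∈ B, b ∈ v.toValuationSubring) ∧
      (∀ z ∈ v.toValuationSubring, ∃ b ∈ B, ∃ s ∈ B, v.ord s = 0 ∧ s ≠ 0 ∧ z * s = b)

/-- Any transcendental element is a coordinate (to be supplied by (G1)). -/
def CoordTransferStatement : Prop :=
  ∀ {k F : Type} [Field k] [IsAlgClosed k] [CharZero k] [Field F] [Algebra k F]
    (x t : F), IsCoord k x → Transcendental k t → IsCoord k t

section Kaehler

variable {k F : Type} [Field k] [CharZero k] [Field F] [Algebra k F]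

/-- For a coordinate `x`, `Ω[F/k]` is free of rank one on `dx`. -/
theorem kaehler_equiv (x : F) (hx : IsCoord k x) :
    ∃ Ψ : Ω[F⁄k] ≃ₗ[F] F, Ψ (D k F x) = 1 := by
  haveI := hx.finite
  let K := IntermediateField.adjoin k {x}
  letI algF : Algebra k[X] F := (aeval x).toAlgebra
  letI algK : Algebra k[X] K := (aeval (IntermediateField.AdjoinSimple.gen k x)).toAlgebra
  haveI t1 : IsScalarTower k k[X] F := IsScalarTower.of_algebraMap_eq fun a => by
    show algebraMap k F a = aeval x (C a)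
    simp
  haveI t2 : IsScalarTower k[X] K F := IsScalarTower.of_algebraMap_eq fun p => by
    show aeval x p = algebraMap K F (aeval (IntermediateField.AdjoinSimple.gen k x) p)
    rw [← aeval_algebraMap_apply]
    simp
  have hinj : Function.Injective (algebraMap k[X] K) := by
    intro p q hpq
    have h1 : algebraMap K F (algebraMap k[X] K p) = algebraMap K F (algebraMap k[X] K q) := by
      rw [hpq]
    rw [← IsScalarTower.algebraMap_apply, ← IsScalarTower.algebraMap_apply] at h1
    exact (transcendental_iff_injective.1 hx.transc) h1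
  haveI : FaithfulSMul k[X] K := (faithfulSMul_iff_algebraMap_injective _ _).2 hinj
  haveI : IsFractionRing k[X] K := by
    refine IsFractionRing.of_field _ _ ?_
    intro z
    obtain ⟨r, s, hrs⟩ := (IntermediateField.mem_adjoin_simple_iff k z.1).1 z.2
    refine ⟨r, s, Subtype.ext ?_⟩
    rw [hrs]
    show aeval x r / aeval x s = ((algebraMap k[X] K r / algebraMap k[X] K s : K) : F)
    push_cast
    show _ = algebraMap K F (algebraMap k[X] K r) / algebraMap K F (algebraMap k[X] K s)
    rw [← IsScalarTower.algebraMap_apply, ← IsScalarTower.algebraMap_apply]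
    rfl
  haveI : Algebra.FormallyEtale k[X] K := .of_isLocalization (nonZeroDivisors k[X])
  haveI : Algebra.FormallyEtale K F := Algebra.FormallyEtale.of_isSeparable K F
  haveI : Algebra.FormallyEtale k[X] F := .comp k[X] K F
  let e1 := tensorKaehlerEquivOfFormallyEtale k k[X] F
  let e2 : F ⊗[k[X]] Ω[k[X]⁄k] ≃ₗ[F] F ⊗[k[X]] k[X] :=
    TensorProduct.AlgebraTensorModule.congr (LinearEquiv.refl F F) (polynomialEquiv k)
  let e3 : F ⊗[k[X]] k[X] ≃ₗ[F] F := TensorProduct.AlgebraTensorModule.rid k[X] F F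
  refine ⟨e1.symm ≪≫ₗ e2 ≪≫ₗ e3, ?_⟩
  have hx' : x = algebraMap k[X] F X := by
    show x = aeval x X
    simp
  rw [LinearEquiv.trans_apply, LinearEquiv.trans_apply]
  conv_lhs => rw [hx']
  rw [tensorKaehlerEquivOfFormallyEtale_symm_D_algebraMap]
  simp [e2, e3, polynomialEquiv_D]

theorem span_D_coord (x : F) (hx : IsCoord k x) :
    Submodule.span F {D k F x} = ⊤ := by
  obtain ⟨Ψ, hΨ⟩ := kaehler_equiv x hx
  rw [eq_top_iff]
  intro ω _
  rw [Submodule.mem_span_singleton]
  refine ⟨Ψ ω, Ψ.injective ?_⟩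
  rw [map_smul, hΨ, smul_eq_mul, mul_one]

theorem D_coord_ne_zero (x : F) (hx : IsCoord k x) : D k F x ≠ 0 := by
  obtain ⟨Ψ, hΨ⟩ := kaehler_equiv x hx
  intro h
  rw [h, map_zero] at hΨ
  exact zero_ne_one hΨ

end Kaehler

section PlaceLemmas

variable {k F : Type} [Field k] [Field F] [Algebra k F]

theorem dCoord_eq (v : Place k F) :
    ∃ π : v.toValuationSubring, Irreducible π ∧ v.dCoord = D k F (π : F) :=
  ⟨_, (IsDiscreteValuationRing.exists_irreducible v.toValuationSubring).choose_spec, rfl⟩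

theorem mem_valuationSubring_iff (v : Place k F) {f : F} (hf : f ≠ 0) :
    f ∈ v.toValuationSubring ↔ 0 ≤ v.ord f := by
  obtain ⟨π, hπ⟩ := IsDiscreteValuationRing.exists_irreducible v.toValuationSubring
  obtain ⟨u, hu⟩ := v.exists_unit_mul_zpow hf hπ
  have hπ0 : (π : F) ≠ 0 := by
    simpa [ne_eq, ZeroMemClass.coe_eq_zero] using hπ.ne_zero
  constructor
  · intro hmem
    by_contra hneg
    rw [not_le] at hneg
    obtain ⟨m, hm⟩ : ∃ m : ℕ, v.ord f = -(m + 1 : ℕ) := by
      refine ⟨(-(v.ord f) - 1).toNat, ?_⟩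
      have : 0 ≤ -(v.ord f) - 1 := by omega
      push_cast
      rw [Int.toNat_of_nonneg this]; ring
    -- f * π^(m+1) = u
    have h1 : f * (π : F) ^ (m + 1) = ((u : v.toValuationSubring) : F) := by
      rw [hu, hm, zpow_neg, zpow_natCast]
      field_simp
    have h2 : (⟨f, hmem⟩ : v.toValuationSubring) * π ^ (m + 1) = (u : v.toValuationSubring) := by
      ext; push_cast; exact h1
    have h3 : IsUnit (π ^ (m + 1)) := isUnit_of_mul_isUnit_right (h2 ▸ u.isUnit)
    exact hπ.not_isUnit ((isUnit_pow_iff (Nat.succ_ne_zero m)).1 h3)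
  · intro hn
    rw [hu]
    obtain ⟨m, hm⟩ := Int.eq_ofNat_of_zero_le hn
    rw [hm, zpow_natCast]
    exact mul_mem u.1.2 (pow_mem π.2 m)

theorem exists_const_add_mul (v : Place k F) (hdeg : v.deg = 1) {π : v.toValuationSubring}
    (hπ : Irreducible π) (z : v.toValuationSubring) :
    ∃ (a : k) (z₁ : v.toValuationSubring), (z : F) = algebraMap k F a + (π : F) * (z₁ : F) := by
  have h1 : (1 : v.ResidueField) ≠ 0 := one_ne_zero
  obtain ⟨a, ha⟩ := (finrank_eq_one_iff_of_nonzero' (1 : v.ResidueField) h1).1 hdeg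
    (IsLocalRing.residue _ z)
  have h2 : IsLocalRing.residue v.toValuationSubring (z - algebraMap k v.toValuationSubring a)
      = 0 := by
    rw [map_sub, ← ha, Algebra.smul_def, mul_one]
    exact sub_eq_zero.2 rfl
  rw [IsLocalRing.residue_eq_zero_iff, hπ.maximalIdeal_eq, Ideal.mem_span_singleton'] at h2
  obtain ⟨z₁, hz₁⟩ := h2
  refine ⟨a, z₁, ?_⟩
  have := congrArg (Subtype.val) hz₁
  push_cast at this
  rw [v.coe_algebraMap] at this
  rw [mul_comm, this]; ring

theorem exists_pow_mul_mem (v : Place k F) {π : v.toValuationSubring} (hπ : Irreducible π)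
    (f : F) : ∃ j : ℕ, (π : F) ^ j * f ∈ v.toValuationSubring := by
  rcases eq_or_ne f 0 with rfl | hf
  · exact ⟨0, by simp⟩
  have hπ0 : (π : F) ≠ 0 := by
    simpa [ne_eq, ZeroMemClass.coe_eq_zero] using hπ.ne_zero
  refine ⟨(-(v.ord f)).toNat, ?_⟩
  rw [mem_valuationSubring_iff v (mul_ne_zero (pow_ne_zero _ hπ0) hf),
    v.ord_mul (pow_ne_zero _ hπ0) hf, ← zpow_natCast, v.ord_zpow, v.ord_coe_irreducible hπ]
  have := Int.self_le_toNat (-(v.ord f))
  omega

theorem deriv_mem (hFG : DictFGStatement) [IsAlgClosed k] [CharZero k] (x : F) (hx : IsCoord k x)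
    (v : Place k F) (hdeg : v.deg = 1) {π : v.toValuationSubring} (hπ : Irreducible π)
    (Ψ : Ω[F⁄k] ≃ₗ[F] F) (hΨ : Ψ (D k F (π : F)) = 1) :
    ∀ z ∈ v.toValuationSubring, Ψ (D k F z) ∈ v.toValuationSubring := by
  classical
  set δ : F → F := fun z => Ψ (D k F z) with hδ
  have δ_add : ∀ z w, δ (z + w) = δ z + δ w := fun z w => by simp [hδ]
  have δ_mul : ∀ z w, δ (z * w) = z * δ w + w * δ z := fun z w => by
    simp [hδ, Derivation.leibniz]
  have δ_alg : ∀ a : k, δ (algebraMap k F a) = 0 := fun a => by simp [hδ]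
  have δ_π : δ (π : F) = 1 := hΨ
  let O := v.toValuationSubring
  -- Claim 1
  have claim1 : ∃ j : ℕ, ∀ z ∈ O, (π : F) ^ j * δ z ∈ O := by
    obtain ⟨B, ⟨s, hs⟩, hBsub, hBloc⟩ := hFG x hx v
    choose jb hjb using fun b : F => exists_pow_mul_mem v hπ (δ b)
    let j := s.sup jb
    have hB : ∀ b ∈ B, (π : F) ^ j * δ b ∈ O ∧ b ∈ O := by
      intro b hb
      rw [← hs] at hb
      induction hb using Algebra.adjoin_induction with
      | mem b hb =>
        refine ⟨?_, hBsub b (hs ▸ Algebra.subset_adjoin hb)⟩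
        have hle : jb b ≤ j := Finset.le_sup (f := jb) hb
        obtain ⟨d, hd⟩ := Nat.exists_eq_add_of_le hle
        rw [hd, pow_add, mul_comm ((π : F) ^ jb b), mul_assoc]
        exact mul_mem (pow_mem π.2 d) (hjb b)
      | algebraMap a =>
        refine ⟨?_, v.algebraMap_mem' a⟩
        rw [δ_alg, mul_zero]; exact zero_mem _
      | add b b' _ _ h1 h2 =>
        refine ⟨?_, add_mem h1.2 h2.2⟩
        rw [δ_add, mul_add]; exact add_mem h1.1 h2.1
      | mul b b' _ _ h1 h2 =>
        refine ⟨?_, mul_mem h1.2 h2.2⟩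
        rw [δ_mul, mul_add]
        refine add_mem ?_ ?_
        · rw [← mul_assoc, mul_comm _ b, mul_assoc]; exact mul_mem h1.2 h2.1
        · rw [← mul_assoc, mul_comm _ b', mul_assoc]; exact mul_mem h2.2 h1.1
    refine ⟨j, fun z hz => ?_⟩
    obtain ⟨b, hb, s', hs', hord, hs0, hzs⟩ := hBloc z hz
    have hsinv : s'⁻¹ ∈ O := by
      rw [mem_valuationSubring_iff v (inv_ne_zero hs0), v.ord_inv, hord]; simp
    have h1 : δ b = z * δ s' + s' * δ z := by rw [← hzs, δ_mul]
    have h2 : (π : F) ^ j * δ z = s'⁻¹ * ((π : F) ^ j * δ b - z * ((π : F) ^ j * δ s')) := by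
      rw [h1]; field_simp; ring
    rw [h2]
    exact mul_mem hsinv (sub_mem (hB b hb).1 (mul_mem hz (hB s' hs').1))
  -- Claim 2
  obtain ⟨j, hj⟩ := claim1
  have claim2 : ∀ j : ℕ, (∀ z ∈ O, (π : F) ^ (j + 1) * δ z ∈ O) → ∀ z ∈ O, (π : F) ^ j * δ z ∈ O := by
    intro j hj z hz
    obtain ⟨a, z₁, hz₁⟩ := exists_const_add_mul v hdeg hπ ⟨z, hz⟩
    have hz' : z = algebraMap k F a + (π : F) * (z₁ : F) := hz₁
    have h1 : δ z = (z₁ : F) + (π : F) * δ (z₁ : F) := by
      rw [hz', δ_add, δ_alg, δ_mul, δ_π]; ring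
    rw [h1, mul_add]
    refine add_mem (mul_mem (pow_mem π.2 j) z₁.2) ?_
    rw [← mul_assoc, ← pow_succ]
    exact hj _ z₁.2
  have : ∀ z ∈ O, (π : F) ^ 0 * δ z ∈ O := by
    induction j with
    | zero => exact hj
    | succ j ih => exact ih (claim2 j hj)
  intro z hz
  simpa using this z hz

theorem ord_neg (v : Place k F) (a : F) : v.ord (-a) = v.ord a := by
  unfold Place.ord; rw [Valuation.map_neg]

theorem ord_add_eq_of_lt (v : Place k F) {a b : F} (hb : b ≠ 0)
    (h : a = 0 ∨ v.ord b < v.ord a) : v.ord (a + b) = v.ord b := by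
  rcases eq_or_ne a 0 with rfl | ha
  · rw [zero_add]
  have h : v.ord b < v.ord a := h.resolve_left ha
  have hab : a + b ≠ 0 := by
    intro h0
    have : b = -a := by rw [← sub_eq_zero, sub_neg_eq_add, add_comm]; exact h0
    rw [this, ord_neg] at h
    exact lt_irrefl _ h
  have h1 := ord_add_ge v ha hb hab
  have hna : -a ≠ 0 := neg_ne_zero.2 ha
  have hsum : (a + b) + -a ≠ 0 := by rwa [add_neg_cancel_comm]
  have h2 := ord_add_ge v hab hna hsum
  rw [add_neg_cancel_comm, ord_neg] at h2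
  rcases le_total (v.ord a) (v.ord b) with h3 | h3
  · omega
  · rw [min_eq_right h3] at h1
    rcases le_total (v.ord (a + b)) (v.ord a) with h4 | h4
    · rw [min_eq_left h4] at h2; omega
    · rw [min_eq_right h4] at h2; omega

theorem ord_deriv_pos [CharZero k] (v : Place k F) {π : v.toValuationSubring} (hπ : Irreducible π)
    (δ : F → F) (δ_mul : ∀ z w, δ (z * w) = z * δ w + w * δ z)
    (δ_π : δ (π : F) = 1) (δ_mem : ∀ z ∈ v.toValuationSubring, δ z ∈ v.toValuationSubring)
    (f : F) (hf : f ≠ 0) (n : ℕ) (hn : v.ord f = (n : ℤ) + 1) : v.ord (δ f) = n := by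
  haveI : CharZero F := charZero_of_injective_algebraMap (algebraMap k F).injective
  have hπ0 : (π : F) ≠ 0 := by
    simpa [ne_eq, ZeroMemClass.coe_eq_zero] using hπ.ne_zero
  have hpow : ∀ n : ℕ, δ ((π : F) ^ (n + 1)) = ((n + 1 : ℕ) : F) * (π : F) ^ n := by
    intro n
    induction n with
    | zero => simp [δ_π]
    | succ n ih =>
      rw [pow_succ, δ_mul, ih, δ_π]; push_cast; ring
  obtain ⟨u, hu⟩ := v.exists_unit_mul_zpow hf hπ
  rw [hn] at hu
  have hu' : f = ((u : v.toValuationSubring) : F) * (π : F) ^ (n + 1) := by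
    rw [hu]; congr 1
    have : ((n : ℤ) + 1) = ((n + 1 : ℕ) : ℤ) := by push_cast; ring
    rw [this, zpow_natCast]
  have hu0 : ((u : v.toValuationSubring) : F) ≠ 0 := by
    simp [ne_eq, ZeroMemClass.coe_eq_zero]
  have h1 : δ f = (π : F) ^ (n + 1) * δ ((u : v.toValuationSubring) : F)
      + ((u : v.toValuationSubring) : F) * (((n + 1 : ℕ) : F) * (π : F) ^ n) := by
    rw [hu', δ_mul, hpow]; ring
  have hcast : v.ord (((n + 1 : ℕ) : F)) = 0 := by
    have : (((n + 1 : ℕ) : F)) = algebraMap k F ((n + 1 : ℕ) : k) := by simp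
    rw [this, ord_algebraMap]
  have hcast0 : (((n + 1 : ℕ) : F)) ≠ 0 := Nat.cast_ne_zero.2 (Nat.succ_ne_zero n)
  have hb0 : ((u : v.toValuationSubring) : F) * (((n + 1 : ℕ) : F) * (π : F) ^ n) ≠ 0 :=
    mul_ne_zero hu0 (mul_ne_zero hcast0 (pow_ne_zero _ hπ0))
  have hordb : v.ord (((u : v.toValuationSubring) : F) * (((n + 1 : ℕ) : F) * (π : F) ^ n)) = n := by
    rw [v.ord_mul hu0 (mul_ne_zero hcast0 (pow_ne_zero _ hπ0)), v.ord_coe_unit,
      v.ord_mul hcast0 (pow_ne_zero _ hπ0), hcast, ← zpow_natCast, v.ord_zpow,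
      v.ord_coe_irreducible hπ]
    ring
  rw [h1, ord_add_eq_of_lt v hb0, hordb]
  by_cases hδu : δ ((u : v.toValuationSubring) : F) = 0
  · left; rw [hδu, mul_zero]
  · right
    rw [hordb, v.ord_mul (pow_ne_zero _ hπ0) hδu, ← zpow_natCast, v.ord_zpow,
      v.ord_coe_irreducible hπ]
    have := (mem_valuationSubring_iff v hδu).1 (δ_mem _ u.1.2)
    push_cast
    omega


theorem add_ne_zero_of_lt (v : Place k F) {a b : F} (hb : b ≠ 0)
    (h : a = 0 ∨ v.ord b < v.ord a) : a + b ≠ 0 := by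
  rcases eq_or_ne a 0 with rfl | ha
  · rwa [zero_add]
  have h : v.ord b < v.ord a := h.resolve_left ha
  intro h0
  have : b = -a := by rw [← sub_eq_zero, sub_neg_eq_add, add_comm]; exact h0
  rw [this, ord_neg] at h
  exact lt_irrefl _ h

theorem mem_range_of_isAlgebraic [IsAlgClosed k] {f : F} (hf : IsAlgebraic k f) :
    ∃ a : k, algebraMap k F a = f := by
  have hint : IsIntegral k f := hf.isIntegral
  have hirr := minpoly.irreducible hint
  have hdeg := IsAlgClosed.degree_eq_one_of_irreducible k hirr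
  exact minpoly.mem_range_of_degree_eq_one k f hdeg

theorem transcendental_of_ord_ne_zero [IsAlgClosed k] (v : Place k F) {f : F}
    (hf : v.ord f ≠ 0) : Transcendental k f := by
  intro halg
  obtain ⟨a, rfl⟩ := mem_range_of_isAlgebraic halg
  exact hf (ord_algebraMap v a)

/-- The key computation: for a derivation-like `δ` preserving the valuation ring with `δ π = 1`,
`ord (δ f) = ord f - 1` whenever `ord f ≠ 0`. -/
theorem ord_deriv [CharZero k] (v : Place k F) {π : v.toValuationSubring} (hπ : Irreducible π)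
    (δ : F → F) (δ_mul : ∀ z w, δ (z * w) = z * δ w + w * δ z) (δ_one : δ 1 = 0)
    (δ_π : δ (π : F) = 1) (δ_mem : ∀ z ∈ v.toValuationSubring, δ z ∈ v.toValuationSubring)
    (f : F) (hf : f ≠ 0) (hm : v.ord f ≠ 0) : v.ord (δ f) = v.ord f - 1 := by
  rcases lt_or_gt_of_ne hm with hneg | hpos
  · -- negative order: pass to the inverse
    have hg0 : f⁻¹ ≠ 0 := inv_ne_zero hf
    obtain ⟨n, hn⟩ : ∃ n : ℕ, v.ord f⁻¹ = (n : ℤ) + 1 := by
      refine ⟨(-(v.ord f) - 1).toNat, ?_⟩
      have : 0 ≤ -(v.ord f) - 1 := by omega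
      rw [Int.toNat_of_nonneg this, v.ord_inv]; ring
    have h1 := ord_deriv_pos v hπ δ δ_mul δ_π δ_mem f⁻¹ hg0 n hn
    have h2 : f * δ f⁻¹ + f⁻¹ * δ f = 0 := by
      rw [← δ_mul, mul_inv_cancel₀ hf, δ_one]
    have h3 : δ f = -(f * f * δ f⁻¹) := by
      have : f⁻¹ * δ f = -(f * δ f⁻¹) := by
        rw [eq_neg_iff_add_eq_zero, add_comm]; exact h2
      calc δ f = f * (f⁻¹ * δ f) := by rw [← mul_assoc, mul_inv_cancel₀ hf, one_mul]
        _ = -(f * f * δ f⁻¹) := by rw [this]; ring
    have hδg0 : δ f⁻¹ ≠ 0 := by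
      intro h0
      -- then δ f = 0 and f⁻¹ would have δ = 0; but ord (δ f⁻¹) = n forces, via the proof of the
      -- positive case, a nonzero value: redo with the sum description
      rw [h0, Place.ord_zero] at h1
      -- n = 0, so ord f⁻¹ = 1; then f⁻¹ = u π and δ f⁻¹ = π δ u + u ≠ 0
      have hn0 : n = 0 := by exact_mod_cast h1.symm
      subst hn0
      obtain ⟨u, hu⟩ := v.exists_unit_mul_zpow hg0 hπ
      rw [hn] at hu
      simp only [Nat.cast_zero, zero_add, zpow_one] at hu
      have hu0 : ((u : v.toValuationSubring) : F) ≠ 0 := by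
        simp [ne_eq, ZeroMemClass.coe_eq_zero]
      have hπ0 : (π : F) ≠ 0 := by
        simpa [ne_eq, ZeroMemClass.coe_eq_zero] using hπ.ne_zero
      have h4 : δ f⁻¹ = (π : F) * δ ((u : v.toValuationSubring) : F)
          + ((u : v.toValuationSubring) : F) := by
        rw [hu, δ_mul, δ_π]; ring
      have h5 : (π : F) * δ ((u : v.toValuationSubring) : F)
          + ((u : v.toValuationSubring) : F) ≠ 0 := by
        apply add_ne_zero_of_lt v hu0
        by_cases hδu : δ ((u : v.toValuationSubring) : F) = 0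
        · left; rw [hδu, mul_zero]
        · right
          rw [v.ord_coe_unit, v.ord_mul hπ0 hδu, v.ord_coe_irreducible hπ]
          have := (mem_valuationSubring_iff v hδu).1 (δ_mem _ u.1.2)
          omega
      exact h5 (h4 ▸ h0)
    rw [h3, ord_neg, v.ord_mul (mul_ne_zero hf hf) hδg0, v.ord_mul hf hf, h1]
    rw [v.ord_inv] at hn
    omega
  · obtain ⟨n, hn⟩ : ∃ n : ℕ, v.ord f = (n : ℤ) + 1 := by
      refine ⟨(v.ord f - 1).toNat, ?_⟩
      have : 0 ≤ v.ord f - 1 := by omega
      rw [Int.toNat_of_nonneg this]; ring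
    rw [ord_deriv_pos v hπ δ δ_mul δ_π δ_mem f hf n hn, hn]; ring

end PlaceLemmas

section Final

variable {k F : Type} [Field k] [IsAlgClosed k] [CharZero k] [Field F] [Algebra k F]

/-- For every place `v` and every `f` with `ord_v f ≠ 0`: `ord_v (df) = ord_v f - 1`, together
with the generation property of `d(uniformizer)`. -/
theorem ordDifferential_D (hG1 : PlacesStatement) (hFG : DictFGStatement)
    (hCT : CoordTransferStatement) (x : F) (hx : IsCoord k x) (v : Place k F) :
    v.DCoordGenerates ∧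
    ∀ f : F, f ≠ 0 → v.ord f ≠ 0 → v.ordDifferential (D k F f) = v.ord f - 1 := by
  obtain ⟨π, hπ, hd⟩ := dCoord_eq v
  have hπord : v.ord (π : F) = 1 := v.ord_coe_irreducible hπ
  have hπtr : Transcendental k (π : F) :=
    transcendental_of_ord_ne_zero v (by rw [hπord]; exact one_ne_zero)
  have hcπ : IsCoord k (π : F) := hCT x π hx hπtr
  obtain ⟨Ψ, hΨ⟩ := kaehler_equiv (π : F) hcπ
  have hgen : v.DCoordGenerates := ⟨by rw [hd]; exact span_D_coord _ hcπ⟩
  refine ⟨hgen, fun f hf hm => ?_⟩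
  haveI := hgen
  haveI : Nontrivial Ω[F⁄k] := ⟨⟨D k F (π : F), 0, D_coord_ne_zero _ hcπ⟩⟩
  have hdeg : v.deg = 1 := (hG1 x hx).1 v
  set δ : F → F := fun z => Ψ (D k F z) with hδ
  have δ_mul : ∀ z w, δ (z * w) = z * δ w + w * δ z := fun z w => by
    simp [hδ, Derivation.leibniz]
  have δ_one : δ 1 = 0 := by simp [hδ]
  have δ_mem := deriv_mem hFG x hx v hdeg hπ Ψ hΨ
  have hcoef : v.differentialCoeff (D k F f) = δ f := by
    apply v.differentialCoeff_unique
    rw [hd]
    apply Ψ.injective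
    rw [map_smul, hΨ, smul_eq_mul, mul_one]
  unfold Place.ordDifferential
  rw [hcoef]
  exact ord_deriv v hπ δ δ_mul δ_one hΨ δ_mem f hf hm

/-- **(G3)** from the dictionary inputs. -/
theorem differentialStatement_of_dict (hG1 : PlacesStatement) (hFG : DictFGStatement)
    (hCT : CoordTransferStatement) : DifferentialStatement := by
  intro k F _ _ _ _ _ x hx
  refine ⟨span_D_coord x hx, D_coord_ne_zero x hx,
    fun v => (ordDifferential_D hG1 hFG hCT x hx v).1, ?_, ?_⟩
  · intro v c hc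
    have h1 : D k F x = D k F (x - algebraMap k F c) := by
      rw [map_sub, Derivation.map_algebraMap, sub_zero]
    have hne : x - algebraMap k F c ≠ 0 := by
      intro h0; rw [h0, Place.ord_zero] at hc; exact lt_irrefl _ hc
    rw [h1]
    exact (ordDifferential_D hG1 hFG hCT x hx v).2 _ hne hc.ne'
  · intro v hv
    have hne : x ≠ 0 := by
      intro h0; rw [h0, Place.ord_zero] at hv; exact lt_irrefl _ hv
    exact (ordDifferential_D hG1 hFG hCT x hx v).2 _ hne hv.ne

end Final

end Fermat.Agent.Lib.X0
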