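/-
X0 project (S24), piece (G1): two more exports for the differential statement (G3):
`h4_coordTransfer : CoordTransferStatement` and `h4_dictFG : DictFGStatement`.
-/
import Fermat.Agent.Lib.X0.PlacesProof
import Fermat.Agent.Lib.X0.Differential

set_option autoImplicit false
set_option linter.deprecated false

open AlgebraicCurve IsDedekindDomain WithZero IntermediateField
open scoped IntermediateField.algebraAdjoinAdjoin

namespace Fermat.Agent.Lib.X0

/-- Every transcendental element of a function field of one variable is a coordinate. -/
theorem h4_coordTransfer : CoordTransferStatement := by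
  intro k F _ _ _ _ _ x t hx ht
  exact ⟨ht, h4_finiteDimensional_of_transcendental hx.finite ht⟩

section

variable {k F : Type} [Field k] [IsAlgClosed k] [CharZero k] [Field F] [Algebra k F]

omit [IsAlgClosed k] in
theorem h4_dictFG_aux (t : F) (ht : Transcendental k t) [FiniteDimensional k⟮t⟯ F]
    (v : Place k F) (hv : 0 ≤ v.ord t) :
    ∃ B : Subalgebra k F, B.FG ∧ (∀ b ∈ B, b ∈ v.toValuationSubring) ∧
      (∀ z ∈ v.toValuationSubring, ∃ b ∈ B, ∃ s ∈ B, v.ord s = 0 ∧ s ≠ 0 ∧ z * s = b) := by
  have : Fact (Transcendental k t) := ⟨ht⟩
  have hvmem : t ∈ v.toValuationSubring := h4_mem_of_ord_nonneg v hv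
  obtain ⟨P, rfl⟩ := h4_exists_prime_of_mem t v hvmem
  refine ⟨(h4B k t).restrictScalars k, ?_, ?_, ?_⟩
  · rw [Subalgebra.fg_iff_finiteType]
    have h1 : Algebra.FiniteType k (h4A k t) := by
      rw [← Subalgebra.fg_iff_finiteType]
      have := Subalgebra.fg_adjoin_finset (R := k) ({t} : Finset F)
      simpa using this
    have h2 : Algebra.FiniteType (h4A k t) (h4B k t) := Module.Finite.finiteType _
    have h3 : Algebra.FiniteType k (h4B k t) := Algebra.FiniteType.trans h1 h2
    exact h3
  · intro b hb
    exact h4_B_le_place _ hvmem ⟨b, hb⟩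
  · intro z hz
    have hz' : P.valuation F z ≤ 1 := (h4_mem_placeOfPrime_iff P z).mp hz
    obtain ⟨n, ⟨d, hd⟩, hnd⟩ := P.exists_primeCompl_mul_eq_of_integer z hz'
    refine ⟨n, n.2, d, d.2, ?_, ?_, hnd⟩
    · rw [h4_placeOfPrime_ord]
      have h1 : P.valuation F (d : F) = 1 := by
        have : P.valuation F (algebraMap (h4B k t) F d) = 1 := by
          rw [HeightOneSpectrum.valuation_of_algebraMap]
          exact (P.intValuation_eq_one_iff_mem_primeCompl d).mpr hd
        exact this
      rw [h1]
      simp
    · intro h0
      apply hd
      have : d = 0 := Subtype.ext h0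
      rw [this]
      exact zero_mem _

/-- The valuation ring of every place is a localisation of a finitely generated `k`-algebra. -/
theorem h4_dictFG : DictFGStatement := by
  intro k F _ _ _ _ _ x hx v
  by_cases hv : 0 ≤ v.ord x
  · have := hx.finite
    exact h4_dictFG_aux x hx.transc v hv
  · have htr : Transcendental k x⁻¹ := by
      intro h
      apply hx.transc
      have := h.inv
      rwa [inv_inv] at this
    have := h4_finiteDimensional_of_transcendental hx.finite htr
    refine h4_dictFG_aux x⁻¹ htr v ?_
    rw [v.ord_inv]
    omega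

end

/-- (G3) closed: the differential statement. -/
theorem h4_differential : DifferentialStatement :=
  differentialStatement_of_dict h4_places h4_dictFG h4_coordTransfer

end Fermat.Agent.Lib.X0
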