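import Mathlib

/-!
# Project X0 (S24), slab (G2): embedding count -- part A (orders along embeddings into Laurent
series, primes cut out by embeddings, norm as a product of conjugates).  Owner: helper7.
-/

set_option autoImplicit false

namespace Fermat.Agent.Lib.X0

open scoped LaurentSeries
open WithZero IsDedekindDomain



section ordE

variable {F C : Type*} [Field F] [Field C]

/-- The `u`-adic order of the image of `f` under an embedding into Laurent series. -/
noncomputable def h7_ordE (σ : F →+* LaurentSeries C) (f : F) : ℤ := (σ f).order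

theorem h7_map_ne_zero (σ : F →+* LaurentSeries C) {f : F} (hf : f ≠ 0) : σ f ≠ 0 :=
  (map_ne_zero σ).mpr hf

theorem h7_ordE_mul (σ : F →+* LaurentSeries C) {f g : F} (hf : f ≠ 0) (hg : g ≠ 0) :
    h7_ordE σ (f * g) = h7_ordE σ f + h7_ordE σ g := by
  unfold h7_ordE
  rw [map_mul]
  exact HahnSeries.order_mul (h7_map_ne_zero σ hf) (h7_map_ne_zero σ hg)

theorem h7_ordE_one (σ : F →+* LaurentSeries C) : h7_ordE σ 1 = 0 := by
  unfold h7_ordE
  rw [map_one]
  exact HahnSeries.order_one

theorem h7_ordE_inv (σ : F →+* LaurentSeries C) {f : F} (hf : f ≠ 0) :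
    h7_ordE σ f⁻¹ = -h7_ordE σ f := by
  have h := h7_ordE_mul σ hf (inv_ne_zero hf)
  rw [mul_inv_cancel₀ hf, h7_ordE_one] at h
  omega

theorem h7_ordE_pow (σ : F →+* LaurentSeries C) {f : F} (hf : f ≠ 0) (n : ℕ) :
    h7_ordE σ (f ^ n) = n * h7_ordE σ f := by
  induction n with
  | zero => simp [h7_ordE_one]
  | succ k ih =>
    rw [pow_succ, h7_ordE_mul σ (pow_ne_zero k hf) hf, ih]
    push_cast; ring

theorem h7_ordE_zpow (σ : F →+* LaurentSeries C) {f : F} (hf : f ≠ 0) (n : ℤ) :
    h7_ordE σ (f ^ n) = n * h7_ordE σ f := by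
  cases n with
  | ofNat k => simpa using h7_ordE_pow σ hf k
  | negSucc k =>
    rw [zpow_negSucc, h7_ordE_inv σ (pow_ne_zero _ hf), h7_ordE_pow σ hf, Int.negSucc_eq]
    push_cast; ring

theorem h7_ordE_add (σ : F →+* LaurentSeries C) {f g : F} (hfg : f + g ≠ 0) :
    min (h7_ordE σ f) (h7_ordE σ g) ≤ h7_ordE σ (f + g) := by
  unfold h7_ordE
  rw [map_add]
  apply HahnSeries.min_order_le_order_add
  rw [← map_add]
  exact h7_map_ne_zero σ hfg

theorem h7_ordE_prod (σ : F →+* LaurentSeries C) {ι : Type*} (s : Finset ι) (f : ι → F)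
    (hf : ∀ i ∈ s, f i ≠ 0) : h7_ordE σ (∏ i ∈ s, f i) = ∑ i ∈ s, h7_ordE σ (f i) := by
  classical
  induction s using Finset.induction_on with
  | empty => simp [h7_ordE_one]
  | insert a s ha ih =>
    rw [Finset.prod_insert ha, Finset.sum_insert ha,
      h7_ordE_mul σ (hf a (Finset.mem_insert_self a s))
        (Finset.prod_ne_zero_iff.mpr fun i hi => hf i (Finset.mem_insert_of_mem hi)),
      ih fun i hi => hf i (Finset.mem_insert_of_mem hi)]

/-- order of a product of Laurent series -/
theorem h7_order_prod {ι : Type*} (s : Finset ι) (y : ι → LaurentSeries C)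
    (hy : ∀ i ∈ s, y i ≠ 0) : (∏ i ∈ s, y i).order = ∑ i ∈ s, (y i).order := by
  classical
  induction s using Finset.induction_on with
  | empty => simp [HahnSeries.order_one]
  | insert a s ha ih =>
    rw [Finset.prod_insert ha, Finset.sum_insert ha,
      HahnSeries.order_mul (hy a (Finset.mem_insert_self a s))
        (Finset.prod_ne_zero_iff.mpr fun i hi => hy i (Finset.mem_insert_of_mem hi)),
      ih fun i hi => hy i (Finset.mem_insert_of_mem hi)]

/-- The valuation on `F` induced by an embedding into Laurent series. -/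
noncomputable def h7_val (σ : F →+* LaurentSeries C) : Valuation F ℤᵐ⁰ :=
  (Valued.v : Valuation (LaurentSeries C) ℤᵐ⁰).comap σ

theorem h7_val_le_one_iff (σ : F →+* LaurentSeries C) {f : F} (hf : f ≠ 0) :
    h7_val σ f ≤ 1 ↔ 0 ≤ h7_ordE σ f := by
  unfold h7_val h7_ordE
  rw [Valuation.comap_apply]
  have h0 : (1 : ℤᵐ⁰) = exp (-(0 : ℤ)) := by simp
  rw [h0, LaurentSeries.valuation_le_iff_coeff_lt_eq_zero]
  constructor
  · intro h
    by_contra hcon
    rw [not_le] at hcon
    exact (h7_map_ne_zero σ hf) (HahnSeries.coeff_order_eq_zero.mp (h _ hcon))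
  · intro h n hn
    exact HahnSeries.coeff_eq_zero_of_lt_order (lt_of_lt_of_le hn h)

end ordE






section integral

variable {A F C : Type*} [CommRing A] [Field F] [Algebra A F] [Field C]

/-- An element integral over a ring on which the order is nonnegative has nonnegative order. -/
theorem h7_ordE_nonneg_of_isIntegral (σ : F →+* LaurentSeries C)
    (hA : ∀ a : A, algebraMap A F a ≠ 0 → 0 ≤ h7_ordE σ (algebraMap A F a))
    {b : F} (hb : IsIntegral A b) (hb0 : b ≠ 0) : 0 ≤ h7_ordE σ b := by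
  have hA' : ∀ a : A, algebraMap A F a ∈ (h7_val σ).integer := by
    intro a
    by_cases h0 : algebraMap A F a = 0
    · rw [h0]; exact Subring.zero_mem _
    · exact (h7_val_le_one_iff σ h0).mpr (hA a h0)
  let φ : A →+* (h7_val σ).integer := (algebraMap A F).codRestrict _ hA'
  have hint : IsIntegral (h7_val σ).integer b := by
    have := IsIntegral.map_of_comp_eq φ (RingHom.id F) (by ext; rfl) hb
    simpa using this
  have hmem : b ∈ (h7_val σ).integer :=
    (Valuation.integer.integers (h7_val σ)).mem_of_integral hint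
  exact (h7_val_le_one_iff σ hb0).mp hmem

end integral

section prime

variable {B F C : Type*} [CommRing B] [IsDedekindDomain B] [Field F] [Algebra B F]
  [IsFractionRing B F] [Field C]

/-- The additive valuation at a height one prime. -/
noncomputable def h7_ordB (w : HeightOneSpectrum B) (f : F) : ℤ := -(log (w.valuation F f))

theorem h7_ordB_mul (w : HeightOneSpectrum B) {f g : F} (hf : f ≠ 0) (hg : g ≠ 0) :
    h7_ordB w (f * g) = h7_ordB w f + h7_ordB w g := by
  unfold h7_ordB
  rw [map_mul, log_mul ((Valuation.ne_zero_iff _).mpr hf) ((Valuation.ne_zero_iff _).mpr hg)]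
  ring

theorem h7_ordB_zpow (w : HeightOneSpectrum B) (f : F) (n : ℤ) :
    h7_ordB w (f ^ n) = n * h7_ordB w f := by
  unfold h7_ordB
  rw [map_zpow₀, log_zpow]
  simp

theorem h7_val_eq_exp (w : HeightOneSpectrum B) {f : F} (hf : f ≠ 0) :
    w.valuation F f = exp (-h7_ordB w f) := by
  unfold h7_ordB
  rw [neg_neg, exp_log ((Valuation.ne_zero_iff _).mpr hf)]

theorem h7_ordB_nonneg_iff (w : HeightOneSpectrum B) {f : F} (hf : f ≠ 0) :
    0 ≤ h7_ordB w f ↔ w.valuation F f ≤ 1 := by
  rw [h7_val_eq_exp w hf, ← exp_zero, exp_le_exp]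
  omega

theorem h7_ordB_pos_iff (w : HeightOneSpectrum B) {f : F} (hf : f ≠ 0) :
    0 < h7_ordB w f ↔ w.valuation F f < 1 := by
  rw [h7_val_eq_exp w hf, ← exp_zero, exp_lt_exp]
  omega

theorem h7_ordB_algebraMap_pos_iff (w : HeightOneSpectrum B) {b : B} (hb : b ≠ 0) :
    0 < h7_ordB w (algebraMap B F b) ↔ b ∈ w.asIdeal := by
  have hb' : algebraMap B F b ≠ 0 := by
    rwa [Ne, IsFractionRing.to_map_eq_zero_iff]
  rw [h7_ordB_pos_iff w hb', HeightOneSpectrum.valuation_lt_one_iff_mem]

theorem h7_ordB_algebraMap_nonneg (w : HeightOneSpectrum B) (b : B) :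
    0 ≤ h7_ordB w (algebraMap B F b) := by
  by_cases hb : algebraMap B F b = 0
  · rw [hb]; simp [h7_ordB]
  · rw [h7_ordB_nonneg_iff w hb]
    exact w.valuation_le_one b

/-- The prime of `B` cut out by an embedding `σ` whose order is nonnegative on `B`. -/
def h7_primeIdeal (σ : F →+* LaurentSeries C)
    (hB : ∀ b : B, algebraMap B F b ≠ 0 → 0 ≤ h7_ordE σ (algebraMap B F b)) : Ideal B where
  carrier := {b | algebraMap B F b = 0 ∨ 0 < h7_ordE σ (algebraMap B F b)}
  zero_mem' := Or.inl (map_zero _)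
  add_mem' := by
    intro x y hx hy
    by_cases hxy : algebraMap B F (x + y) = 0
    · exact Or.inl hxy
    right
    rcases hx with hx | hx
    · rw [map_add, hx, zero_add] at hxy ⊢
      exact hy.resolve_left hxy
    rcases hy with hy | hy
    · rw [map_add, hy, add_zero] at hxy ⊢
      exact hx
    rw [map_add] at hxy ⊢
    exact lt_of_lt_of_le (lt_min hx hy) (h7_ordE_add σ hxy)
  smul_mem' := by
    intro c x hx
    by_cases hcx : algebraMap B F (c • x) = 0
    · exact Or.inl hcx
    right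
    rw [smul_eq_mul, map_mul] at hcx ⊢
    have hc0 : algebraMap B F c ≠ 0 := left_ne_zero_of_mul hcx
    have hx0 : algebraMap B F x ≠ 0 := right_ne_zero_of_mul hcx
    rw [h7_ordE_mul σ hc0 hx0]
    have h1 := hB c hc0
    have h2 := hx.resolve_left hx0
    omega

omit [IsDedekindDomain B] in
theorem h7_mem_primeIdeal (σ : F →+* LaurentSeries C)
    (hB : ∀ b : B, algebraMap B F b ≠ 0 → 0 ≤ h7_ordE σ (algebraMap B F b)) {b : B}
    (hb : b ≠ 0) : b ∈ h7_primeIdeal σ hB ↔ 0 < h7_ordE σ (algebraMap B F b) := by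
  have hb' : algebraMap B F b ≠ 0 := by
    rwa [Ne, IsFractionRing.to_map_eq_zero_iff]
  constructor
  · intro h
    exact h.resolve_left hb'
  · intro h
    exact Or.inr h

theorem h7_primeIdeal_isPrime (σ : F →+* LaurentSeries C)
    (hB : ∀ b : B, algebraMap B F b ≠ 0 → 0 ≤ h7_ordE σ (algebraMap B F b)) :
    (h7_primeIdeal σ hB).IsPrime := by
  rw [Ideal.isPrime_iff]
  constructor
  · intro htop
    have h1 : (1 : B) ∈ h7_primeIdeal σ hB := by rw [htop]; trivial
    have := (h7_mem_primeIdeal σ hB one_ne_zero).mp h1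
    rw [map_one, h7_ordE_one] at this
    exact lt_irrefl _ this
  · intro x y hxy
    by_cases hx : x = 0
    · left; rw [hx]; exact Ideal.zero_mem _
    by_cases hy : y = 0
    · right; rw [hy]; exact Ideal.zero_mem _
    have hx' : algebraMap B F x ≠ 0 := by rwa [Ne, IsFractionRing.to_map_eq_zero_iff]
    have hy' : algebraMap B F y ≠ 0 := by rwa [Ne, IsFractionRing.to_map_eq_zero_iff]
    have h := (h7_mem_primeIdeal σ hB (mul_ne_zero hx hy)).mp hxy
    rw [map_mul, h7_ordE_mul σ hx' hy'] at h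
    have h1 := hB x hx'
    have h2 := hB y hy'
    by_cases hpos : 0 < h7_ordE σ (algebraMap B F x)
    · left; exact (h7_mem_primeIdeal σ hB hx).mpr hpos
    · right
      apply (h7_mem_primeIdeal σ hB hy).mpr
      omega

end prime






section relation

variable {B F C : Type*} [CommRing B] [IsDedekindDomain B] [Field F] [Algebra B F]
  [IsFractionRing B F] [Field C]

/-- Compatibility of an embedding `σ` with a height one prime `w`: the order is nonnegative on
`B` and positive exactly on `w`. -/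
structure h7_Compat (σ : F →+* LaurentSeries C) (w : HeightOneSpectrum B) : Prop where
  nonneg : ∀ b : B, b ≠ 0 → 0 ≤ h7_ordE σ (algebraMap B F b)
  pos_iff : ∀ b : B, b ≠ 0 → (0 < h7_ordE σ (algebraMap B F b) ↔ b ∈ w.asIdeal)

theorem h7_ordB_uniformizer (w : HeightOneSpectrum B) :
    ∃ π : B, π ≠ 0 ∧ π ∈ w.asIdeal ∧ h7_ordB w (algebraMap B F π) = 1 := by
  obtain ⟨π, hπ⟩ := w.valuation_exists_uniformizer' F
  have hπ' : w.valuation F (algebraMap B F π) = exp (-1 : ℤ) := hπ
  have hπ0 : π ≠ 0 := by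
    intro h
    rw [h, map_zero, map_zero] at hπ'
    exact exp_ne_zero hπ'.symm
  have h1 : h7_ordB w (algebraMap B F π) = 1 := by
    unfold h7_ordB
    rw [hπ', log_exp]; ring
  refine ⟨π, hπ0, ?_, h1⟩
  rw [← h7_ordB_algebraMap_pos_iff (F := F) w hπ0, h1]
  exact one_pos

theorem h7_ordE_eq_zero_of_ordB_eq_zero {σ : F →+* LaurentSeries C} {w : HeightOneSpectrum B}
    (hc : h7_Compat σ w) {f : F} (hf : f ≠ 0) (h0 : h7_ordB w f = 0) : h7_ordE σ f = 0 := by
  have hle : w.valuation F f ≤ 1 := (h7_ordB_nonneg_iff w hf).mp (le_of_eq h0.symm)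
  obtain ⟨n, d, hnd⟩ := w.exists_primeCompl_mul_eq_of_integer f hle
  have hd0 : (d : B) ≠ 0 := by
    intro h
    exact d.2 (h ▸ Ideal.zero_mem _)
  have hd0' : algebraMap B F d ≠ 0 := by rwa [Ne, IsFractionRing.to_map_eq_zero_iff]
  have hn0' : algebraMap B F n ≠ 0 := by rw [← hnd]; exact mul_ne_zero hf hd0'
  have hn0 : n ≠ 0 := by
    intro h; rw [h, map_zero] at hn0'; exact hn0' rfl
  -- ordB of d is 0
  have hdB : h7_ordB w (algebraMap B F (d : B)) = 0 := by
    have h1 := h7_ordB_algebraMap_nonneg (F := F) w (d : B)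
    have h2 : ¬ 0 < h7_ordB w (algebraMap B F (d : B)) := by
      rw [h7_ordB_algebraMap_pos_iff w hd0]; exact d.2
    omega
  have hnB : h7_ordB w (algebraMap B F n) = 0 := by
    rw [← hnd, h7_ordB_mul w hf hd0', h0, hdB]; ring
  have hn_not : n ∉ w.asIdeal := by
    rw [← h7_ordB_algebraMap_pos_iff (F := F) w hn0, hnB]; exact lt_irrefl _
  -- ordE of d and n are 0
  have hdE : h7_ordE σ (algebraMap B F (d : B)) = 0 := by
    have h1 := hc.nonneg d hd0
    have h2 : ¬ 0 < h7_ordE σ (algebraMap B F (d : B)) := by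
      rw [hc.pos_iff d hd0]; exact d.2
    omega
  have hnE : h7_ordE σ (algebraMap B F n) = 0 := by
    have h1 := hc.nonneg n hn0
    have h2 : ¬ 0 < h7_ordE σ (algebraMap B F n) := by
      rw [hc.pos_iff n hn0]; exact hn_not
    omega
  have := h7_ordE_mul σ hf hd0'
  rw [hnd, hnE, hdE] at this
  omega

/-- The order along `σ` is a positive multiple of the `w`-adic order. -/
theorem h7_ordE_eq_mul_ordB {σ : F →+* LaurentSeries C} {w : HeightOneSpectrum B}
    (hc : h7_Compat σ w) :
    ∃ m : ℤ, 0 < m ∧ ∀ f : F, f ≠ 0 → h7_ordE σ f = m * h7_ordB w f := by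
  obtain ⟨π, hπ0, hπw, hπ1⟩ := h7_ordB_uniformizer (F := F) w
  have hπ0' : algebraMap B F π ≠ 0 := by rwa [Ne, IsFractionRing.to_map_eq_zero_iff]
  refine ⟨h7_ordE σ (algebraMap B F π), (hc.pos_iff π hπ0).mpr hπw, ?_⟩
  intro f hf
  set n := h7_ordB w f with hn
  have hg0 : f * (algebraMap B F π) ^ (-n) ≠ 0 := mul_ne_zero hf (zpow_ne_zero _ hπ0')
  have hgB : h7_ordB w (f * (algebraMap B F π) ^ (-n)) = 0 := by
    rw [h7_ordB_mul w hf (zpow_ne_zero _ hπ0'), h7_ordB_zpow, hπ1, ← hn]; ring
  have hgE := h7_ordE_eq_zero_of_ordB_eq_zero hc hg0 hgB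
  rw [h7_ordE_mul σ hf (zpow_ne_zero _ hπ0'), h7_ordE_zpow σ hπ0'] at hgE
  linarith

end relation



section norm

variable {K F E : Type*} [Field K] [Field F] [Algebra K F] [FiniteDimensional K F]
  [Algebra.IsSeparable K F] [Field E]

/-- If `τ q`, `q : Q`, are `[F : K]` pairwise distinct embeddings of `F` into a field `E`, all
restricting to `τ₀` on `K`, then the norm is the product of the conjugates. -/
theorem h7_norm_eq_prod {Q : Type*} [Fintype Q] (τ₀ : K →+* E) (τ : Q → F →+* E)
    (hinj : Function.Injective τ) (hτ : ∀ q, (τ q).comp (algebraMap K F) = τ₀)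
    (hcard : Fintype.card Q = Module.finrank K F) (f : F) :
    τ₀ (Algebra.norm K f) = ∏ q, τ q f := by
  classical
  let Ebar := AlgebraicClosure E
  letI : Algebra K Ebar := ((algebraMap E Ebar).comp τ₀).toAlgebra
  let τ' : Q → (F →ₐ[K] Ebar) := fun q =>
    { toRingHom := (algebraMap E Ebar).comp (τ q)
      commutes' := by
        intro r
        show (algebraMap E Ebar) ((τ q) (algebraMap K F r)) = (algebraMap E Ebar) (τ₀ r)
        rw [← hτ q]; rfl }
  have hτ'inj : Function.Injective τ' := by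
    intro q q' h
    apply hinj
    ext x
    have := congrArg (fun σ : F →ₐ[K] Ebar => σ x) h
    exact (algebraMap E Ebar).injective this
  have hcard' : Fintype.card Q = Fintype.card (F →ₐ[K] Ebar) := by
    rw [hcard, AlgHom.card K F Ebar]
  have hbij : Function.Bijective τ' :=
    (Fintype.bijective_iff_injective_and_card τ').mpr ⟨hτ'inj, hcard'⟩
  have h1 := Algebra.norm_eq_prod_embeddings K Ebar f
  have h2 : ∏ σ : F →ₐ[K] Ebar, σ f = ∏ q, τ' q f :=
    (Fintype.prod_bijective τ' hbij _ _ (fun _ => rfl)).symm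
  rw [h2] at h1
  have h3 : ∏ q, τ' q f = algebraMap E Ebar (∏ q, τ q f) := by
    rw [map_prod]; rfl
  rw [h3] at h1
  exact (algebraMap E Ebar).injective h1

end norm


end Fermat.Agent.Lib.X0
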