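import Mathlib
import Fermat.Agent.Lib.X0.EmbCountA

/-!
# Project X0 (S24), slab (G2): embedding count -- part B (abstract AKLB core: the primes attached
to the embeddings, surjectivity by prime avoidance + norms, divisibility of the fibre cardinality
by the ramification index, equality via the fundamental identity).  Owner: helper7.
-/

set_option autoImplicit false
set_option linter.unusedSectionVars false
set_option linter.style.haveILetI false
set_option linter.deprecated false

namespace Fermat.Agent.Lib.X0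

open scoped LaurentSeries
open WithZero IsDedekindDomain

theorem h7_avoid {B : Type*} [CommRing B] [IsDedekindDomain B] {Q : Type*} [Fintype Q]
    (P : Q → HeightOneSpectrum B) (w : HeightOneSpectrum B) :
    ∃ b : B, b ∈ w.asIdeal ∧ b ∉ w.asIdeal ^ 2 ∧ ∀ q, P q ≠ w → b ∉ (P q).asIdeal := by
  classical
  let f : Option Q → Ideal B := fun o => match o with
    | none => w.asIdeal ^ 2
    | some q => (P q).asIdeal
  let s : Finset (Option Q) :=
    insert none ((Finset.univ.filter (fun q => P q ≠ w)).image some)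
  have hp : ∀ i ∈ s, i ≠ none → i ≠ none → (f i).IsPrime := by
    intro i _ hi _
    cases i with
    | none => exact absurd rfl hi
    | some q => exact (P q).isPrime
  have hnot : ¬ ((w.asIdeal : Set B) ⊆ ⋃ i ∈ (↑s : Set (Option Q)), f i) := by
    rw [Ideal.subset_union_prime none none hp]
    rintro ⟨i, his, hi⟩
    cases i with
    | none =>
      have h1 : w.asIdeal ^ 2 < w.asIdeal := by
        have := Ideal.pow_succ_lt_pow (P := w.asIdeal) w.ne_bot 1
        simpa using this
      exact absurd (lt_of_lt_of_le h1 hi) (lt_irrefl _)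
    | some q =>
      have hq : P q ≠ w := by
        simp only [s, Finset.mem_insert, Finset.mem_image, Finset.mem_filter, Finset.mem_univ,
          true_and] at his
        rcases his with his | ⟨q', hq', hqq⟩
        · exact absurd his (by simp)
        · cases hqq; exact hq'
      apply hq
      apply HeightOneSpectrum.ext
      exact (w.isMaximal.eq_of_le (P q).isPrime.ne_top hi).symm
  rw [Set.not_subset] at hnot
  obtain ⟨b, hbw, hb⟩ := hnot
  refine ⟨b, hbw, ?_, ?_⟩
  · intro h2
    apply hb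
    refine Set.mem_biUnion (x := none) ?_ h2
    simp [s]
  · intro q hq hbq
    apply hb
    refine Set.mem_biUnion (x := some q) ?_ hbq
    simp [s, hq]

theorem h7_le_ordB_iff {B F : Type*} [CommRing B] [IsDedekindDomain B] [Field F] [Algebra B F]
    [IsFractionRing B F] (w : HeightOneSpectrum B) {b : B} (hb : b ≠ 0) (n : ℕ) :
    (n : ℤ) ≤ h7_ordB w (algebraMap B F b) ↔ b ∈ w.asIdeal ^ n := by
  have hb' : algebraMap B F b ≠ 0 := by rwa [Ne, IsFractionRing.to_map_eq_zero_iff]
  rw [← HeightOneSpectrum.intValuation_le_pow_iff_mem, ← HeightOneSpectrum.valuation_of_algebraMap (K := F),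
    h7_val_eq_exp w hb', exp_le_exp]
  omega

theorem h7_ordB_eq_one {B F : Type*} [CommRing B] [IsDedekindDomain B] [Field F] [Algebra B F]
    [IsFractionRing B F] (w : HeightOneSpectrum B) {b : B} (hb : b ∈ w.asIdeal)
    (hb2 : b ∉ w.asIdeal ^ 2) : h7_ordB w (algebraMap B F b) = 1 := by
  have hb0 : b ≠ 0 := by rintro rfl; exact hb2 (Ideal.zero_mem _)
  have h1 : ((1 : ℕ) : ℤ) ≤ h7_ordB w (algebraMap B F b) := by
    rw [h7_le_ordB_iff w hb0, pow_one]; exact hb
  have h2 : ¬ ((2 : ℕ) : ℤ) ≤ h7_ordB w (algebraMap B F b) := by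
    rw [h7_le_ordB_iff w hb0]; exact hb2
  push_cast at h1 h2
  omega


/-- ramification index in terms of the additive valuation -/
theorem h7_ramificationIdx_eq {A B F : Type*} [CommRing A] [CommRing B] [IsDedekindDomain B]
    [Algebra A B] [Field F] [Algebra B F] [IsFractionRing B F] (w : HeightOneSpectrum B) (t : A)
    (ht : algebraMap A B t ≠ 0) :
    (Ideal.ramificationIdx' (Ideal.span {t}) w.asIdeal : ℤ) =
      h7_ordB w (algebraMap B F (algebraMap A B t)) := by
  have h0 := h7_ordB_algebraMap_nonneg (F := F) w (algebraMap A B t)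
  obtain ⟨n, hn⟩ := Int.eq_ofNat_of_zero_le h0
  rw [hn]
  congr 1
  apply Ideal.ramificationIdx'_spec
  · rw [Ideal.map_span, Set.image_singleton, Ideal.span_singleton_le_iff_mem,
      ← h7_le_ordB_iff (F := F) w ht, hn]
  · rw [Ideal.map_span, Set.image_singleton, Ideal.span_singleton_le_iff_mem,
      ← h7_le_ordB_iff (F := F) w ht, hn]
    push_cast
    omega


/-- Residue fields over an algebraically closed residue field are trivial. -/
theorem h7_inertiaDeg_eq_one {k A B : Type} [Field k] [IsAlgClosed k] [CommRing A] [CommRing B]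
    [Algebra k A] [Algebra A B] [Algebra.IsIntegral A B]
    (p : Ideal A) [hp : p.IsMaximal] (P : Ideal B) [P.IsPrime] [P.LiesOver p]
    (hres : ∀ a : A, ∃ c : k, a - algebraMap k A c ∈ p) :
    Ideal.inertiaDeg' p P = 1 := by
  letI := Ideal.Quotient.field p
  have hinj : Function.Injective ((Ideal.Quotient.mk p).comp (algebraMap k A)) :=
    RingHom.injective _
  have hsurj : Function.Surjective ((Ideal.Quotient.mk p).comp (algebraMap k A)) := by
    intro x
    obtain ⟨a, rfl⟩ := Ideal.Quotient.mk_surjective x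
    obtain ⟨c, hc⟩ := hres a
    refine ⟨c, ?_⟩
    rw [RingHom.comp_apply]
    exact (Ideal.Quotient.eq.mpr hc).symm
  let e : k ≃+* (A ⧸ p) := RingEquiv.ofBijective _ ⟨hinj, hsurj⟩
  haveI : IsAlgClosed (A ⧸ p) := IsAlgClosed.of_ringEquiv (k := k) (A ⧸ p) e
  rw [Ideal.inertiaDeg'_algebraMap]
  have hs : Function.Surjective (algebraMap (A ⧸ p) (B ⧸ P)) :=
    (IsAlgClosed.algebraMap_bijective_of_isIntegral (k := A ⧸ p) (K := B ⧸ P)).2
  haveI : Nontrivial (B ⧸ P) := Ideal.Quotient.nontrivial_of_liesOver_of_isPrime P p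
  rw [finrank_eq_one_iff_of_nonzero' (1 : B ⧸ P) one_ne_zero]
  intro y
  obtain ⟨c, rfl⟩ := hs y
  exact ⟨c, by rw [Algebra.smul_def, mul_one]⟩


section core

variable {A K F B C : Type*} [CommRing A] [IsDedekindDomain A] [Field K] [Algebra A K]
  [IsFractionRing A K] [Field F] [Algebra K F] [Algebra A F] [IsScalarTower A K F]
  [FiniteDimensional K F] [Algebra.IsSeparable K F]
  [CommRing B] [IsDedekindDomain B] [Algebra A B] [Algebra B F] [IsScalarTower A B F]
  [IsFractionRing B F] [IsIntegralClosure B A F] [Algebra.IsIntegral A B]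
  [Module.IsTorsionFree A B] [Module.Finite A B] [Field C]

/-- The hypotheses of the abstract embedding count: `[F : K]` pairwise distinct embeddings
`τ q : F → C((u))` extending `τ₀ : K → C((u))`, such that on `A` the order of `τ₀` is
nonnegative, divisible by `M`, and positive exactly on the multiples of `t`. -/
structure h7_Core (t : A) (M : ℕ) {Q : Type*} [Fintype Q] (τ₀ : K →+* LaurentSeries C)
    (τ : Q → F →+* LaurentSeries C) : Prop where
  M_pos : 0 < M
  inj : Function.Injective τ
  restr : ∀ q, (τ q).comp (algebraMap K F) = τ₀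
  card : Fintype.card Q = Module.finrank K F
  nonneg : ∀ a : A, a ≠ 0 → 0 ≤ h7_ordE τ₀ (algebraMap A K a)
  dvd : ∀ a : A, a ≠ 0 → (M : ℤ) ∣ h7_ordE τ₀ (algebraMap A K a)
  pos_iff : ∀ a : A, a ≠ 0 → (0 < h7_ordE τ₀ (algebraMap A K a) ↔ t ∣ a)
  ord_t : h7_ordE τ₀ (algebraMap A K t) = M

variable {t : A} {M : ℕ} {Q : Type*} [Fintype Q] {τ₀ : K →+* LaurentSeries C}
  {τ : Q → F →+* LaurentSeries C}

theorem h7_Core.apply_algebraMap (hc : h7_Core (A := A) t M τ₀ τ) (q : Q) (y : K) :
    τ q (algebraMap K F y) = τ₀ y := by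
  rw [← hc.restr q]; rfl

theorem h7_Core.ordE_algebraMap (hc : h7_Core (A := A) t M τ₀ τ) (q : Q) (a : A) :
    h7_ordE (τ q) (algebraMap A F a) = h7_ordE τ₀ (algebraMap A K a) := by
  unfold h7_ordE
  rw [IsScalarTower.algebraMap_apply A K F, hc.apply_algebraMap]

theorem h7_Core.t_ne_zero (hc : h7_Core (A := A) t M τ₀ τ) : t ≠ 0 := by
  intro h
  have h1 := hc.ord_t
  rw [h, map_zero] at h1
  unfold h7_ordE at h1
  rw [map_zero, HahnSeries.order_zero] at h1
  have := hc.M_pos
  omega

theorem h7_Core.algebraMap_AF_ne_zero (_hc : h7_Core (A := A) t M τ₀ τ) (a : A) (ha : a ≠ 0) :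
    algebraMap A F a ≠ 0 := by
  rw [IsScalarTower.algebraMap_apply A K F]
  intro h
  have h1 := (map_eq_zero (algebraMap K F)).mp h
  exact ha ((IsFractionRing.to_map_eq_zero_iff (K := K)).mp h1)

theorem h7_Core.algebraMap_AB_ne_zero (hc : h7_Core (A := A) t M τ₀ τ) (a : A) (ha : a ≠ 0) :
    algebraMap A B a ≠ 0 := by
  intro h
  apply hc.algebraMap_AF_ne_zero a ha
  rw [IsScalarTower.algebraMap_apply A B F, h, map_zero]

theorem h7_Core.nonneg_B (hc : h7_Core (A := A) t M τ₀ τ) (q : Q) (b : B)
    (hb : algebraMap B F b ≠ 0) : 0 ≤ h7_ordE (τ q) (algebraMap B F b) := by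
  apply h7_ordE_nonneg_of_isIntegral (A := A) (τ q) _ _ hb
  · intro a ha
    rw [hc.ordE_algebraMap]
    apply hc.nonneg
    intro h
    rw [h, map_zero] at ha
    exact ha rfl
  · exact IsIntegral.map (IsScalarTower.toAlgHom A B F) (IsIntegralClosure.isIntegral A F b)

/-- The height one prime of `B` attached to the embedding `τ q`. -/
noncomputable def h7_Core.prime (hc : h7_Core (A := A) t M τ₀ τ) (q : Q) : HeightOneSpectrum B where
  asIdeal := h7_primeIdeal (B := B) (τ q) (hc.nonneg_B q)
  isPrime := h7_primeIdeal_isPrime (τ q) (hc.nonneg_B q)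
  ne_bot := by
    intro h
    have h1 : algebraMap A B t ∈ h7_primeIdeal (B := B) (τ q) (hc.nonneg_B q) := by
      rw [h7_mem_primeIdeal (τ q) (hc.nonneg_B q) (hc.algebraMap_AB_ne_zero t hc.t_ne_zero),
        ← IsScalarTower.algebraMap_apply A B F, hc.ordE_algebraMap, hc.ord_t]
      exact_mod_cast hc.M_pos
    rw [h] at h1
    exact hc.algebraMap_AB_ne_zero t hc.t_ne_zero ((Submodule.mem_bot B).mp h1)

theorem h7_Core.compat (hc : h7_Core (A := A) t M τ₀ τ) (q : Q) :
    h7_Compat (B := B) (τ q) (hc.prime q) where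
  nonneg := fun b hb => hc.nonneg_B q b (by rwa [Ne, IsFractionRing.to_map_eq_zero_iff])
  pos_iff := fun b hb => (h7_mem_primeIdeal (τ q) (hc.nonneg_B q) hb).symm

theorem h7_Core.t_mem_prime (hc : h7_Core (A := A) t M τ₀ τ) (q : Q) :
    algebraMap A B t ∈ (hc.prime (B := B) q).asIdeal := by
  rw [← (hc.compat q).pos_iff _ (hc.algebraMap_AB_ne_zero t hc.t_ne_zero),
    ← IsScalarTower.algebraMap_apply A B F, hc.ordE_algebraMap, hc.ord_t]
  exact_mod_cast hc.M_pos

/-- The relation between the order along `τ q` and the order at the prime of `q`. -/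
theorem h7_Core.relation (hc : h7_Core (A := A) t M τ₀ τ) (q : Q) :
    ∃ m : ℤ, 0 < m ∧ (M : ℤ) = m * h7_ordB (hc.prime (B := B) q) (algebraMap A F t) ∧
      ∀ f : F, f ≠ 0 → h7_ordE (τ q) f = m * h7_ordB (hc.prime (B := B) q) f := by
  obtain ⟨m, hm, h⟩ := h7_ordE_eq_mul_ordB (hc.compat (B := B) q)
  refine ⟨m, hm, ?_, h⟩
  rw [← h _ (hc.algebraMap_AF_ne_zero t hc.t_ne_zero), hc.ordE_algebraMap, hc.ord_t]

/-- The order of the norm. -/
theorem h7_Core.ordE_intNorm (hc : h7_Core (A := A) t M τ₀ τ) (b : B) (hb : b ≠ 0) :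
    h7_ordE τ₀ (algebraMap A K (Algebra.intNorm A B b)) =
      ∑ q, h7_ordE (τ q) (algebraMap B F b) := by
  have hb' : algebraMap B F b ≠ 0 := by rwa [Ne, IsFractionRing.to_map_eq_zero_iff]
  rw [Algebra.algebraMap_intNorm (L := F)]
  unfold h7_ordE
  rw [h7_norm_eq_prod τ₀ τ hc.inj hc.restr hc.card, h7_order_prod]
  intro q _
  exact h7_map_ne_zero (τ q) hb'

/-- `t` is a prime element of `A`. -/
theorem h7_Core.prime_t (hc : h7_Core (A := A) t M τ₀ τ) : Prime t := by
  refine ⟨hc.t_ne_zero, ?_, ?_⟩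
  · intro hu
    have h1 : t ∣ (1 : A) := hu.dvd
    have h2 := (hc.pos_iff 1 one_ne_zero).mpr h1
    rw [map_one, h7_ordE_one] at h2
    exact lt_irrefl _ h2
  · intro a b hab
    by_cases ha : a = 0
    · left; rw [ha]; exact dvd_zero t
    by_cases hb : b = 0
    · right; rw [hb]; exact dvd_zero t
    have ha' : algebraMap A K a ≠ 0 := by rwa [Ne, IsFractionRing.to_map_eq_zero_iff]
    have hb' : algebraMap A K b ≠ 0 := by rwa [Ne, IsFractionRing.to_map_eq_zero_iff]
    have h1 := (hc.pos_iff (a * b) (mul_ne_zero ha hb)).mpr hab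
    rw [map_mul, h7_ordE_mul τ₀ ha' hb'] at h1
    have h2 := hc.nonneg a ha
    have h3 := hc.nonneg b hb
    by_cases h4 : 0 < h7_ordE τ₀ (algebraMap A K a)
    · left; exact (hc.pos_iff a ha).mp h4
    · right; apply (hc.pos_iff b hb).mp; omega

theorem h7_Core.span_t_isMaximal (hc : h7_Core (A := A) t M τ₀ τ) :
    (Ideal.span {t}).IsMaximal := by
  have hp : (Ideal.span {t}).IsPrime := (Ideal.span_singleton_prime hc.t_ne_zero).mpr hc.prime_t
  apply hp.isMaximal
  rw [Ne, Ideal.span_singleton_eq_bot]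
  exact hc.t_ne_zero

/-- elements of `A` lying in a prime of `B` over `t` are divisible by `t`. -/
theorem h7_Core.dvd_of_mem (hc : h7_Core (A := A) t M τ₀ τ) (w : HeightOneSpectrum B)
    (hw : algebraMap A B t ∈ w.asIdeal) (a : A) (ha : algebraMap A B a ∈ w.asIdeal) : t ∣ a := by
  have hle : Ideal.span {t} ≤ Ideal.comap (algebraMap A B) w.asIdeal := by
    rw [Ideal.span_singleton_le_iff_mem]; exact hw
  have hne : Ideal.comap (algebraMap A B) w.asIdeal ≠ ⊤ :=
    (Ideal.comap_isPrime (algebraMap A B) w.asIdeal).ne_top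
  have heq := hc.span_t_isMaximal.eq_of_le hne hle
  have : a ∈ Ideal.span {t} := by rw [heq]; exact ha
  exact Ideal.mem_span_singleton.mp this

/-- Every prime of `B` containing `t` is the prime of some embedding. -/
theorem h7_Core.surj (hc : h7_Core (A := A) t M τ₀ τ) (w : HeightOneSpectrum B)
    (hw : algebraMap A B t ∈ w.asIdeal) : ∃ q, hc.prime (B := B) q = w := by
  by_contra hne
  have hne' : ∀ q, hc.prime (B := B) q ≠ w := fun q h => hne ⟨q, h⟩
  obtain ⟨b, hbw, hb2, hbq⟩ := h7_avoid (fun q => hc.prime (B := B) q) w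
  have hb0 : b ≠ 0 := by rintro rfl; exact hb2 (Ideal.zero_mem _)
  have h0 : ∀ q, h7_ordE (τ q) (algebraMap B F b) = 0 := by
    intro q
    have h1 := (hc.compat (B := B) q).nonneg b hb0
    have h2 : ¬ 0 < h7_ordE (τ q) (algebraMap B F b) := by
      rw [(hc.compat q).pos_iff b hb0]; exact hbq q (hne' q)
    omega
  have hN := hc.ordE_intNorm b hb0
  rw [Finset.sum_eq_zero (fun q _ => h0 q)] at hN
  have ha0 : Algebra.intNorm A B b ≠ 0 := Algebra.intNorm_ne_zero.mpr hb0
  have hdvd : t ∣ Algebra.intNorm A B b :=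
    hc.dvd_of_mem w hw _ (Ideal.mem_of_dvd _ (Algebra.dvd_algebraMap_intNorm_self A B b) hbw)
  have := (hc.pos_iff _ ha0).mpr hdvd
  omega

/-- The ramification index divides the number of embeddings over the prime. -/
theorem h7_Core.dvd_card (hc : h7_Core (A := A) t M τ₀ τ) (w : HeightOneSpectrum B)
    [DecidablePred fun q => hc.prime (B := B) q = w] :
    h7_ordB w (algebraMap A F t) ∣
      ((Finset.univ.filter fun q => hc.prime (B := B) q = w).card : ℤ) := by
  obtain ⟨b, hbw, hb2, hbq⟩ := h7_avoid (fun q => hc.prime (B := B) q) w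
  have hb0 : b ≠ 0 := by rintro rfl; exact hb2 (Ideal.zero_mem _)
  have hb0' : algebraMap B F b ≠ 0 := by rwa [Ne, IsFractionRing.to_map_eq_zero_iff]
  have hb1 := h7_ordB_eq_one (F := F) w hbw hb2
  set e := h7_ordB w (algebraMap A F t) with he
  -- orders along each embedding, multiplied by e
  have h0 : ∀ q, h7_ordE (τ q) (algebraMap B F b) * e =
      if hc.prime (B := B) q = w then (M : ℤ) else 0 := by
    intro q
    split_ifs with hq
    · obtain ⟨m, _, hM, hm⟩ := hc.relation (B := B) q
      rw [hm _ hb0', hq, hb1, hM, hq]; ring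
    · have h1 := (hc.compat (B := B) q).nonneg b hb0
      have h2 : ¬ 0 < h7_ordE (τ q) (algebraMap B F b) := by
        rw [(hc.compat q).pos_iff b hb0]; exact hbq q hq
      have : h7_ordE (τ q) (algebraMap B F b) = 0 := by omega
      rw [this, zero_mul]
  have hN := hc.ordE_intNorm b hb0
  have ha0 : Algebra.intNorm A B b ≠ 0 := Algebra.intNorm_ne_zero.mpr hb0
  obtain ⟨c, hc'⟩ := hc.dvd _ ha0
  have hsum : (∑ q, h7_ordE (τ q) (algebraMap B F b)) * e =
      ((Finset.univ.filter fun q => hc.prime (B := B) q = w).card : ℤ) * M := by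
    rw [Finset.sum_mul, Finset.sum_congr rfl (fun q _ => h0 q), Finset.sum_ite, Finset.sum_const,
      Finset.sum_const_zero, add_zero, nsmul_eq_mul]
  rw [← hN, hc'] at hsum
  have hM0 : (M : ℤ) ≠ 0 := by exact_mod_cast hc.M_pos.ne'
  refine ⟨c, ?_⟩
  have : (M : ℤ) * (c * e) = (M : ℤ) * ((Finset.univ.filter fun q => hc.prime (B := B) q = w).card : ℤ) := by
    linarith
  have := mul_left_cancel₀ hM0 this
  linarith

theorem h7_Core.liesOver (hc : h7_Core (A := A) t M τ₀ τ) (w : HeightOneSpectrum B)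
    (hw : algebraMap A B t ∈ w.asIdeal) : w.asIdeal.LiesOver (Ideal.span {t}) := by
  constructor
  have hle : Ideal.span {t} ≤ Ideal.comap (algebraMap A B) w.asIdeal := by
    rw [Ideal.span_singleton_le_iff_mem]; exact hw
  have hne : Ideal.comap (algebraMap A B) w.asIdeal ≠ ⊤ :=
    (Ideal.comap_isPrime (algebraMap A B) w.asIdeal).ne_top
  exact hc.span_t_isMaximal.eq_of_le hne hle

/-- The fundamental identity forces the number of embeddings over a prime to be its
ramification index. -/
theorem h7_Core.card_eq (hc : h7_Core (A := A) t M τ₀ τ)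
    (hdeg : ∀ w : HeightOneSpectrum B, algebraMap A B t ∈ w.asIdeal →
      Ideal.inertiaDeg' (Ideal.span {t}) w.asIdeal = 1)
    (w : HeightOneSpectrum B) (hw : algebraMap A B t ∈ w.asIdeal)
    [DecidablePred fun q => hc.prime (B := B) q = w] :
    ((Finset.univ.filter fun q => hc.prime (B := B) q = w).card : ℤ) =
      h7_ordB w (algebraMap A F t) := by
  classical
  haveI := hc.span_t_isMaximal
  have hp0 : Ideal.span {t} ≠ ⊥ := by
    rw [Ne, Ideal.span_singleton_eq_bot]; exact hc.t_ne_zero
  have hfund := Ideal.sum_ramification_inertia B K F hp0 (p := Ideal.span {t})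
  let S : Finset (HeightOneSpectrum B) := Finset.univ.image (fun q => hc.prime (B := B) q)
  have hmemS : ∀ w' : HeightOneSpectrum B, w' ∈ S ↔ algebraMap A B t ∈ w'.asIdeal := by
    intro w'
    simp only [S, Finset.mem_image, Finset.mem_univ, true_and]
    constructor
    · rintro ⟨q, rfl⟩; exact hc.t_mem_prime q
    · intro h; exact hc.surj w' h
  have hS : IsDedekindDomain.primesOverFinset (Ideal.span {t}) B =
      S.image (fun w => w.asIdeal) := by
    ext P
    rw [IsDedekindDomain.mem_primesOverFinset_iff hp0 B]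
    constructor
    · rintro ⟨hP, hPo⟩
      have hne : P ≠ ⊥ := Ideal.ne_bot_of_liesOver_of_ne_bot hp0 P
      let w' : HeightOneSpectrum B := ⟨P, hP, hne⟩
      have : algebraMap A B t ∈ w'.asIdeal := by
        show algebraMap A B t ∈ P
        rw [← Ideal.mem_of_liesOver P (Ideal.span {t})]
        exact Ideal.mem_span_singleton_self t
      rw [Finset.mem_image]
      exact ⟨w', (hmemS w').mpr this, rfl⟩
    · intro h
      rw [Finset.mem_image] at h
      obtain ⟨w', hw', rfl⟩ := h
      exact ⟨w'.isPrime, hc.liesOver w' ((hmemS w').mp hw')⟩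
  rw [hS, Finset.sum_image (fun x _ y _ h => HeightOneSpectrum.ext h)] at hfund
  -- rewrite each term
  have hterm : ∀ w' ∈ S, ((Ideal.ramificationIdx' (Ideal.span {t}) w'.asIdeal *
      Ideal.inertiaDeg' (Ideal.span {t}) w'.asIdeal : ℕ) : ℤ) =
      h7_ordB w' (algebraMap A F t) := by
    intro w' hw'
    rw [hdeg w' ((hmemS w').mp hw'), mul_one,
      h7_ramificationIdx_eq (F := F) w' t (hc.algebraMap_AB_ne_zero t hc.t_ne_zero),
      ← IsScalarTower.algebraMap_apply A B F]
  have hfund' : ∑ w' ∈ S, h7_ordB w' (algebraMap A F t) = (Module.finrank K F : ℤ) := by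
    rw [← hfund]
    push_cast
    exact (Finset.sum_congr rfl hterm).symm
  -- the fibres
  have hfib : ∑ w' ∈ S, ((Finset.univ.filter fun q => hc.prime (B := B) q = w').card : ℤ) =
      (Module.finrank K F : ℤ) := by
    rw [← hc.card, ← Finset.card_univ, Finset.card_eq_sum_card_image (fun q => hc.prime (B := B) q)]
    push_cast
    rfl
  have hle : ∀ w' ∈ S, h7_ordB w' (algebraMap A F t) ≤
      ((Finset.univ.filter fun q => hc.prime (B := B) q = w').card : ℤ) := by
    intro w' hw'
    apply Int.le_of_dvd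
    · rw [Finset.mem_image] at hw'
      obtain ⟨q, _, hq⟩ := hw'
      have : 0 < (Finset.univ.filter fun q => hc.prime (B := B) q = w').card :=
        Finset.card_pos.mpr ⟨q, by simp [hq]⟩
      exact_mod_cast this
    · exact hc.dvd_card w'
  have := (Finset.sum_eq_sum_iff_of_le hle).mp (hfund'.trans hfib.symm) w ((hmemS w).mpr hw)
  convert this.symm

end core

end Fermat.Agent.Lib.X0
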