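import Mathlib
import Fermat.Agent.Lib.X0.EmbCountB
import Fermat.Agent.Lib.X0.PlacesOver
import Fermat.Agent.Lib.X0.Defs

/-!
# Project X0 (S24), slab (G2): embedding count -- part C (the model `A = k[t]`, `B` = integral
closure of `A` in `F` from helper4's dictionary; verification of the abstract hypotheses for
local embedding data; `h7_embCount : EmbCountStatement`).  Owner: helper7.
-/

set_option autoImplicit false
set_option linter.unusedSectionVars false
set_option linter.style.haveILetI false
set_option linter.unusedVariables false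

namespace Fermat.Agent.Lib.X0

open scoped LaurentSeries
open WithZero IsDedekindDomain AlgebraicCurve IntermediateField
open scoped IntermediateField.algebraAdjoinAdjoin

section transport

variable {k F : Type} [Field k] [Field F] [Algebra k F]

theorem h7_adjoin_eq (x t : F) (ht : (∃ c : k, t = x - algebraMap k F c) ∨ t = x⁻¹) :
    k⟮t⟯ = k⟮x⟯ := by
  apply le_antisymm
  · rw [adjoin_simple_le_iff]
    rcases ht with ⟨c, rfl⟩ | rfl
    · exact sub_mem (mem_adjoin_simple_self k x) (IntermediateField.algebraMap_mem _ c)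
    · exact inv_mem (mem_adjoin_simple_self k x)
  · rw [adjoin_simple_le_iff]
    rcases ht with ⟨c, hc⟩ | hc
    · have h : x = t + algebraMap k F c := by rw [hc]; ring
      rw [h]
      exact add_mem (mem_adjoin_simple_self k t) (IntermediateField.algebraMap_mem _ c)
    · have h : x = t⁻¹ := by rw [hc, inv_inv]
      rw [h]
      exact inv_mem (mem_adjoin_simple_self k t)

theorem h7_transcendental (x t : F) (ht : (∃ c : k, t = x - algebraMap k F c) ∨ t = x⁻¹)
    (hx : Transcendental k x) : Transcendental k t := by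
  intro halg
  apply hx
  rcases ht with ⟨c, hc⟩ | hc
  · have h : x = t + algebraMap k F c := by rw [hc]; ring
    rw [h]
    exact halg.add (isAlgebraic_algebraMap c)
  · have h : x = t⁻¹ := by rw [hc, inv_inv]
    rw [h]
    exact halg.inv

theorem h7_finiteDimensional (x t : F) (ht : (∃ c : k, t = x - algebraMap k F c) ∨ t = x⁻¹)
    (hx : IsCoord k x) : FiniteDimensional k⟮t⟯ F := by
  rw [h7_adjoin_eq x t ht]
  exact hx.finite

theorem h7_finrank_eq (x t : F) (ht : (∃ c : k, t = x - algebraMap k F c) ∨ t = x⁻¹) :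
    Module.finrank k⟮t⟯ F = coordDegree k x := by
  unfold coordDegree
  rw [h7_adjoin_eq x t ht]

end transport


section poly

variable {k F C : Type*} [Field k] [Field F] [Algebra k F] [Field C]

theorem h7_ordE_neg (σ : F →+* LaurentSeries C) (f : F) : h7_ordE σ (-f) = h7_ordE σ f := by
  unfold h7_ordE
  rw [map_neg, HahnSeries.order_neg]

/-- Hypotheses on an embedding `σ` relative to `k` and `t`: constants go to constants and `t`
has positive order `M`. -/
structure h7_Local (ι : k →+* C) (t : F) (M : ℕ) (σ : F →+* LaurentSeries C) : Prop where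
  const : ∀ a : k, σ (algebraMap k F a) = HahnSeries.C (ι a)
  ord_t : h7_ordE σ t = M
  M_pos : 0 < M

variable {ι : k →+* C} {t : F} {M : ℕ} {σ : F →+* LaurentSeries C}

theorem h7_Local.ordE_const (h : h7_Local ι t M σ) {c : k} (hc : c ≠ 0) :
    h7_ordE σ (algebraMap k F c) = 0 := by
  unfold h7_ordE
  rw [h.const]
  exact HahnSeries.order_C

theorem h7_Local.t_ne_zero (h : h7_Local ι t M σ) : t ≠ 0 := by
  intro h0
  have h1 := h.ord_t
  rw [h0] at h1
  unfold h7_ordE at h1
  rw [map_zero, HahnSeries.order_zero] at h1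
  have := h.M_pos
  omega

/-- The valuation integers of `σ`, as a `k`-subalgebra. -/
noncomputable def h7_Local.integers (h : h7_Local ι t M σ) : Subalgebra k F :=
  { (h7_val σ).integer.toSubsemiring with
    algebraMap_mem' := by
      intro c
      show h7_val σ (algebraMap k F c) ≤ 1
      by_cases hc : c = 0
      · rw [hc, map_zero, map_zero]; exact zero_le_one
      · have hc' : algebraMap k F c ≠ 0 := by
          rwa [Ne, map_eq_zero]
        rw [h7_val_le_one_iff σ hc', h.ordE_const hc] }

theorem h7_Local.nonneg (h : h7_Local ι t M σ) {a : F} (ha : a ∈ Algebra.adjoin k {t})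
    (ha0 : a ≠ 0) : 0 ≤ h7_ordE σ a := by
  have hle : Algebra.adjoin k {t} ≤ h.integers := by
    apply Algebra.adjoin_le
    intro y hy
    rw [Set.mem_singleton_iff] at hy
    rw [hy]
    show h7_val σ t ≤ 1
    rw [h7_val_le_one_iff σ h.t_ne_zero, h.ord_t]
    exact Int.natCast_nonneg M
  have : h7_val σ a ≤ 1 := hle ha
  exact (h7_val_le_one_iff σ ha0).mp this

/-- Every element of `k[t]` is a constant plus a multiple of `t`. -/
theorem h7_adjoin_decomp {t : F} {a : F} (ha : a ∈ Algebra.adjoin k {t}) :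
    ∃ c : k, ∃ a' ∈ Algebra.adjoin k {t}, a = algebraMap k F c + t * a' := by
  induction ha using Algebra.adjoin_induction with
  | mem x hx =>
    rw [Set.mem_singleton_iff] at hx
    subst hx
    exact ⟨0, 1, Subalgebra.one_mem _, by simp⟩
  | algebraMap c => exact ⟨c, 0, Subalgebra.zero_mem _, by simp⟩
  | add x y hx hy hx' hy' =>
    obtain ⟨c, a', ha', rfl⟩ := hx'
    obtain ⟨d, b', hb', rfl⟩ := hy'
    exact ⟨c + d, a' + b', Subalgebra.add_mem _ ha' hb', by rw [map_add]; ring⟩
  | mul x y hx hy hx' hy' =>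
    obtain ⟨c, a', ha', rfl⟩ := hx'
    obtain ⟨d, b', hb', rfl⟩ := hy'
    refine ⟨c * d, algebraMap k F c * b' + algebraMap k F d * a' + t * a' * b', ?_, ?_⟩
    · have ht : t ∈ Algebra.adjoin k {t} := Algebra.self_mem_adjoin_singleton k t
      exact Subalgebra.add_mem _ (Subalgebra.add_mem _
        (Subalgebra.mul_mem _ (Subalgebra.algebraMap_mem _ c) hb')
        (Subalgebra.mul_mem _ (Subalgebra.algebraMap_mem _ d) ha'))
        (Subalgebra.mul_mem _ (Subalgebra.mul_mem _ ht ha') hb')
    · rw [map_mul]; ring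

theorem h7_Local.pos_of_mul (h : h7_Local ι t M σ) {a' : F} (ha' : a' ∈ Algebra.adjoin k {t})
    (ha0 : a' ≠ 0) : 0 < h7_ordE σ (t * a') := by
  rw [h7_ordE_mul σ h.t_ne_zero ha0, h.ord_t]
  have h1 := h.nonneg ha' ha0
  have h2 : (0 : ℤ) < M := by exact_mod_cast h.M_pos
  omega

theorem h7_Local.dvd_of_pos (h : h7_Local ι t M σ) {a : F} (ha : a ∈ Algebra.adjoin k {t})
    (ha0 : a ≠ 0) (hpos : 0 < h7_ordE σ a) : ∃ a' ∈ Algebra.adjoin k {t}, a = t * a' := by
  obtain ⟨c, a', ha', hdec⟩ := h7_adjoin_decomp ha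
  by_cases hc : c = 0
  · rw [hc, map_zero, zero_add] at hdec
    exact ⟨a', ha', hdec⟩
  exfalso
  have hc' : algebraMap k F c ≠ 0 := by rwa [Ne, map_eq_zero]
  have hceq : algebraMap k F c = a + -(t * a') := by rw [hdec]; ring
  by_cases ha'0 : a' = 0
  · rw [ha'0, mul_zero, add_zero] at hdec
    rw [hdec, h.ordE_const hc] at hpos
    exact lt_irrefl _ hpos
  have h1 : 0 < h7_ordE σ (-(t * a')) := by
    rw [h7_ordE_neg]; exact h.pos_of_mul ha' ha'0
  have h2 := h7_ordE_add σ (f := a) (g := -(t * a')) (by rw [← hceq]; exact hc')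
  rw [← hceq, h.ordE_const hc] at h2
  have := lt_min hpos h1
  omega

theorem h7_Local.dvd_ordE (h : h7_Local ι t M σ) {a : F} (ha : a ∈ Algebra.adjoin k {t})
    (ha0 : a ≠ 0) : (M : ℤ) ∣ h7_ordE σ a := by
  have hn : ∀ n : ℕ, ∀ a : F, a ∈ Algebra.adjoin k {t} → a ≠ 0 → h7_ordE σ a = n →
      (M : ℤ) ∣ h7_ordE σ a := by
    intro n
    induction n using Nat.strong_induction_on with
    | _ n ih =>
      intro a ha ha0 hn
      by_cases hpos : 0 < h7_ordE σ a
      · obtain ⟨a', ha', rfl⟩ := h.dvd_of_pos ha ha0 hpos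
        have ha'0 : a' ≠ 0 := right_ne_zero_of_mul ha0
        have h1 := h.nonneg ha' ha'0
        have h2 : (0 : ℤ) < M := by exact_mod_cast h.M_pos
        have h3 : h7_ordE σ (t * a') = M + h7_ordE σ a' := by
          rw [h7_ordE_mul σ h.t_ne_zero ha'0, h.ord_t]
        obtain ⟨n', hn'⟩ := Int.eq_ofNat_of_zero_le h1
        have hlt : n' < n := by
          have : (n' : ℤ) < n := by rw [← hn', ← hn, h3]; omega
          exact_mod_cast this
        have := ih n' hlt a' ha' ha'0 hn'
        rw [h3]
        exact dvd_add (dvd_refl _) this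
      · have h1 := h.nonneg ha ha0
        have : h7_ordE σ a = 0 := by omega
        rw [this]
        exact dvd_zero _
  obtain ⟨n, hn'⟩ := Int.eq_ofNat_of_zero_le (h.nonneg ha ha0)
  exact hn n a ha ha0 hn'

end poly


section concrete

variable {k F K' : Type} [Field k] [Field F] [Algebra k F] [Field K']

/-- Two ring homomorphisms that agree on `k` and at `x` agree on `k(x)`. -/
theorem h7_agree_on_adjoin {L : Type*} [Field L] (σ σ' : F →+* L) (x : F)
    (hk : ∀ a : k, σ (algebraMap k F a) = σ' (algebraMap k F a)) (hx : σ x = σ' x) :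
    ∀ y ∈ k⟮x⟯, σ y = σ' y := by
  let S : IntermediateField k F := Subfield.toIntermediateField (RingHom.eqLocusField σ σ') hk
  have hle : k⟮x⟯ ≤ S := by
    rw [adjoin_simple_le_iff]; exact hx
  intro y hy
  exact hle hy

instance h7_isScalarTower_ABF (t : F) : IsScalarTower (h4A k t) (h4B k t) F :=
  IsScalarTower.of_algebraMap_eq fun _ => rfl

theorem h7_local_of_localEmb {ι : k →+* K'} {x t : F} {Q : Type} {M : ℕ}
    (E : LocalEmb ι x t Q M) (q : Q) : h7_Local ι t M (E.τ q) where
  const := E.const q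
  ord_t := E.ord_t q
  M_pos := E.M_pos

variable [IsAlgClosed k] [CharZero k]

/-- The abstract hypotheses hold for local embedding data. -/
theorem h7_core_of_localEmb (ι : k →+* K') (x : F) (t : F)
    (ht : (∃ c : k, t = x - algebraMap k F c) ∨ t = x⁻¹) (Q : Type) [Fintype Q]
    (hQ : Fintype.card Q = coordDegree k x) (M : ℕ) (E : LocalEmb ι x t Q M)
    [Fact (Transcendental k t)] [FiniteDimensional k⟮t⟯ F] (q₀ : Q) :
    h7_Core (A := h4A k t) (K := k⟮t⟯) (F := F) (h4t k t) M
      ((E.τ q₀).comp (algebraMap k⟮t⟯ F)) E.τ where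
  M_pos := E.M_pos
  inj := E.inj
  restr := by
    intro q
    apply RingHom.ext
    intro y
    have hy : (y : F) ∈ k⟮x⟯ := by
      rw [← h7_adjoin_eq x t ht]; exact y.2
    exact h7_agree_on_adjoin (k := k) (E.τ q) (E.τ q₀) x
      (fun a => by rw [E.const, E.const]) (E.agree q q₀) y hy
  card := hQ.trans (h7_finrank_eq x t ht).symm
  nonneg := by
    intro a ha
    have ha0 : (a : F) ≠ 0 := by
      intro h; exact ha (Subtype.ext h)
    exact (h7_local_of_localEmb E q₀).nonneg a.2 ha0
  dvd := by
    intro a ha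
    have ha0 : (a : F) ≠ 0 := by
      intro h; exact ha (Subtype.ext h)
    exact (h7_local_of_localEmb E q₀).dvd_ordE a.2 ha0
  pos_iff := by
    intro a ha
    have ha0 : (a : F) ≠ 0 := by
      intro h; exact ha (Subtype.ext h)
    constructor
    · intro hpos
      obtain ⟨a', ha', h⟩ := (h7_local_of_localEmb E q₀).dvd_of_pos a.2 ha0 hpos
      exact ⟨⟨a', ha'⟩, Subtype.ext h⟩
    · rintro ⟨b, rfl⟩
      have hb0 : (b : F) ≠ 0 := by
        intro h
        apply ha
        rw [show b = 0 from Subtype.ext h, mul_zero]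
      exact (h7_local_of_localEmb E q₀).pos_of_mul b.2 hb0
  ord_t := E.ord_t q₀

/-- (G2) **Embedding count theorem**. -/
theorem h7_embCount : EmbCountStatement := by
  intro k F K' _ _ _ _ _ _ ι x hx t ht Q _ hQ M E
  classical
  haveI : Fact (Transcendental k t) := ⟨h7_transcendental x t ht hx.transc⟩
  haveI : FiniteDimensional k⟮t⟯ F := h7_finiteDimensional x t ht hx
  have hpos : 0 < Fintype.card Q := by
    rw [hQ, ← h7_finrank_eq x t ht]; exact Module.finrank_pos
  obtain ⟨q₀⟩ : Nonempty Q := Fintype.card_pos_iff.mp hpos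
  have hc := h7_core_of_localEmb ι x t ht Q hQ M E q₀
  have hdeg : ∀ w : HeightOneSpectrum (h4B k t),
      algebraMap (h4A k t) (h4B k t) (h4t k t) ∈ w.asIdeal →
      Ideal.inertiaDeg' (Ideal.span {h4t k t}) w.asIdeal = 1 :=
    fun w hw => h4_inertiaDeg_eq_one t w hw
  refine ⟨fun q => h4_placeOfPrime (k := k) (F := F) (hc.prime (B := h4B k t) q), ?_, ?_, ?_, ?_⟩
  · intro q
    exact (h4_mem_prime_iff_ord_pos t _).mp (hc.t_mem_prime q)
  · intro v hv
    obtain ⟨w, rfl⟩ := h4_exists_prime_of_mem t v (h4_mem_of_ord_nonneg v hv.le)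
    have hw := (h4_mem_prime_iff_ord_pos t w).mpr hv
    obtain ⟨q, hq⟩ := hc.surj w hw
    exact ⟨q, congrArg (h4_placeOfPrime (k := k) (F := F)) hq⟩
  · intro v hv
    obtain ⟨w, rfl⟩ := h4_exists_prime_of_mem t v (h4_mem_of_ord_nonneg v hv.le)
    have hw := (h4_mem_prime_iff_ord_pos t w).mpr hv
    have h1 := hc.card_eq hdeg w hw
    rw [h4_placeOfPrime_ord]
    have h2 : Nat.card {q // h4_placeOfPrime (k := k) (F := F) (hc.prime (B := h4B k t) q) =
        h4_placeOfPrime w} =
        (Finset.univ.filter fun q => hc.prime (B := h4B k t) q = w).card := by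
      rw [Nat.card_eq_fintype_card, Fintype.card_subtype]
      congr 1
      ext q
      simp only [Finset.mem_filter, Finset.mem_univ, true_and]
      exact ⟨fun h => h4_placeOfPrime_injective h, fun h => by rw [h]⟩
    rw [h2, h1]
    rfl
  · intro q f hf
    obtain ⟨m, _, hM, hm⟩ := hc.relation (B := h4B k t) q
    rw [h4_placeOfPrime_ord, h4_placeOfPrime_ord]
    have h3 := hm f hf
    unfold h7_ordE at h3
    unfold h7_ordB at h3 hM
    rw [h3, hM]
    have : (algebraMap (h4A k t) F) (h4t k t) = t := rfl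
    rw [this]
    ring

end concrete


end Fermat.Agent.Lib.X0
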