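import Mathlib

/-!
# Project X0 (S24), slab (C): extending a ring hom from a generating subring to the field

Owner: helper9.  Mathlib-only, pure algebra.

* `h9_fracSubfield Ψ` : the subfield of fractions `Ψ a / Ψ b` of a ring hom `Ψ : A →+* L` into a
  field.
* `h9_lift φ ψ hker hgen` : if `φ : A →+* F` and `ψ : A →+* K'` have the same kernel and every
  element of `F` is a fraction `φ a / φ b`, there is a (unique) ring hom `τ : F →+* K'` with
  `τ (φ a) = ψ a`.
-/

set_option autoImplicit false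

noncomputable section

namespace Fermat.Agent.Lib.X0

/-- The subfield of fractions of the image of a ring hom into a field. -/
def h9_fracSubfield {A L : Type*} [CommRing A] [Field L] (Ψ : A →+* L) : Subfield L where
  carrier := {f | ∃ a b, Ψ b ≠ 0 ∧ f = Ψ a / Ψ b}
  mul_mem' := by
    rintro f f' ⟨a, b, hb, rfl⟩ ⟨a', b', hb', rfl⟩
    refine ⟨a * a', b * b', ?_, ?_⟩
    · rw [map_mul]; exact mul_ne_zero hb hb'
    · rw [map_mul, map_mul, div_mul_div_comm]
  one_mem' := ⟨1, 1, by rw [map_one]; exact one_ne_zero, by rw [map_one, div_one]⟩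
  add_mem' := by
    rintro f f' ⟨a, b, hb, rfl⟩ ⟨a', b', hb', rfl⟩
    refine ⟨a * b' + a' * b, b * b', ?_, ?_⟩
    · rw [map_mul]; exact mul_ne_zero hb hb'
    · rw [map_add, map_mul, map_mul, map_mul]
      field_simp
  zero_mem' := ⟨0, 1, by rw [map_one]; exact one_ne_zero, by rw [map_zero, zero_div]⟩
  neg_mem' := by
    rintro f ⟨a, b, hb, rfl⟩
    exact ⟨-a, b, hb, by rw [map_neg, neg_div]⟩
  inv_mem' := by
    rintro f ⟨a, b, hb, rfl⟩
    by_cases ha : Ψ a = 0
    · refine ⟨0, 1, by rw [map_one]; exact one_ne_zero, ?_⟩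
      rw [ha, zero_div, inv_zero, map_zero, zero_div]
    · exact ⟨b, a, ha, by rw [inv_div]⟩

theorem h9_mem_fracSubfield {A L : Type*} [CommRing A] [Field L] (Ψ : A →+* L) (f : L) :
    f ∈ h9_fracSubfield Ψ ↔ ∃ a b, Ψ b ≠ 0 ∧ f = Ψ a / Ψ b := Iff.rfl

theorem h9_map_mem_fracSubfield {A L : Type*} [CommRing A] [Field L] (Ψ : A →+* L) (a : A) :
    Ψ a ∈ h9_fracSubfield Ψ :=
  ⟨a, 1, by rw [map_one]; exact one_ne_zero, by rw [map_one, div_one]⟩

section Lift

variable {A F K' : Type*} [CommRing A] [Field F] [Field K']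

theorem h9_lift_wd (φ : A →+* F) (ψ : A →+* K') (hker : ∀ a, ψ a = 0 ↔ φ a = 0)
    {a b a' b' : A} (hb : φ b ≠ 0) (hb' : φ b' ≠ 0) (h : φ a / φ b = φ a' / φ b') :
    ψ a / ψ b = ψ a' / ψ b' := by
  have hψb : ψ b ≠ 0 := fun h0 => hb ((hker b).mp h0)
  have hψb' : ψ b' ≠ 0 := fun h0 => hb' ((hker b').mp h0)
  rw [div_eq_div_iff hb hb'] at h
  rw [div_eq_div_iff hψb hψb']
  have h0 : φ (a * b' - a' * b) = 0 := by
    rw [map_sub, map_mul, map_mul, h, sub_self]
  have h1 := (hker _).mpr h0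
  rw [map_sub, map_mul, map_mul, sub_eq_zero] at h1
  exact h1

/-- **Extension to the field of fractions.** -/
theorem h9_lift (φ : A →+* F) (ψ : A →+* K') (hker : ∀ a, ψ a = 0 ↔ φ a = 0)
    (hgen : ∀ f : F, ∃ a b, φ b ≠ 0 ∧ f = φ a / φ b) :
    ∃ τ : F →+* K', ∀ a, τ (φ a) = ψ a := by
  classical
  choose num den hden hfrac using hgen
  have hψ : ∀ b, φ b ≠ 0 → ψ b ≠ 0 := fun b hb h0 => hb ((hker b).mp h0)
  have spec : ∀ a b, φ b ≠ 0 → ψ (num (φ a / φ b)) / ψ (den (φ a / φ b)) = ψ a / ψ b := by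
    intro a b hb
    exact h9_lift_wd φ ψ hker (hden _) hb (hfrac (φ a / φ b)).symm
  have h1 : φ (1 : A) ≠ 0 := by rw [map_one]; exact one_ne_zero
  let τfun : F → K' := fun f => ψ (num f) / ψ (den f)
  have τspec : ∀ a b, φ b ≠ 0 → τfun (φ a / φ b) = ψ a / ψ b := spec
  have τfrac : ∀ f : F, ∃ a b, φ b ≠ 0 ∧ f = φ a / φ b := fun f => ⟨num f, den f, hden f, hfrac f⟩
  refine ⟨{ toFun := τfun
            map_one' := ?_
            map_mul' := ?_
            map_zero' := ?_
            map_add' := ?_ }, ?_⟩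
  · have := τspec 1 1 h1
    rw [map_one, div_one] at this
    rw [this, map_one, div_one]
  · intro f f'
    obtain ⟨a, b, hb, rfl⟩ := τfrac f
    obtain ⟨a', b', hb', rfl⟩ := τfrac f'
    have hbb : φ (b * b') ≠ 0 := by rw [map_mul]; exact mul_ne_zero hb hb'
    have e : φ a / φ b * (φ a' / φ b') = φ (a * a') / φ (b * b') := by
      rw [map_mul, map_mul, div_mul_div_comm]
    rw [e, τspec _ _ hbb, τspec _ _ hb, τspec _ _ hb', map_mul, map_mul, div_mul_div_comm]
  · have := τspec 0 1 h1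
    rw [map_zero, zero_div] at this
    rw [this, map_zero, zero_div]
  · intro f f'
    obtain ⟨a, b, hb, rfl⟩ := τfrac f
    obtain ⟨a', b', hb', rfl⟩ := τfrac f'
    have hbb : φ (b * b') ≠ 0 := by rw [map_mul]; exact mul_ne_zero hb hb'
    have e : φ a / φ b + φ a' / φ b' = φ (a * b' + a' * b) / φ (b * b') := by
      rw [map_add, map_mul, map_mul, map_mul]
      field_simp
    rw [e, τspec _ _ hbb, τspec _ _ hb, τspec _ _ hb', map_add, map_mul, map_mul, map_mul]
    have h2 := hψ b hb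
    have h3 := hψ b' hb'
    field_simp
  · intro a
    show τfun (φ a) = ψ a
    have := τspec a 1 h1
    rw [map_one, div_one] at this
    rw [this, map_one, div_one]

/-- Uniqueness of the extension. -/
theorem h9_lift_unique (φ : A →+* F) (hgen : ∀ f : F, ∃ a b, φ b ≠ 0 ∧ f = φ a / φ b)
    (τ τ' : F →+* K') (h : ∀ a, τ (φ a) = τ' (φ a)) : τ = τ' := by
  ext f
  obtain ⟨a, b, _, rfl⟩ := hgen f
  rw [map_div₀, map_div₀, h a, h b]

end Lift

end Fermat.Agent.Lib.X0
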