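import Mathlib

set_option autoImplicit false

namespace Fermat.Agent.Lib.X0

open HahnSeries

section

variable {R : Type*} [CommRing R]

/-- The substitution `X ↦ ζ X` on Laurent series (as Hahn series over `ℤ`), `ζ` a unit. -/
noncomputable def h5_twistFun (ζ : Rˣ) (φ : HahnSeries ℤ R) : HahnSeries ℤ R where
  coeff n := ((ζ ^ n : Rˣ) : R) * φ.coeff n
  isPWO_support' := φ.isPWO_support.mono (by
    intro n hn
    simp only [Function.mem_support, ne_eq] at hn
    simp only [HahnSeries.mem_support, ne_eq]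
    exact fun h => hn (by rw [h, mul_zero]))

@[simp] theorem h5_twistFun_coeff (ζ : Rˣ) (φ : HahnSeries ℤ R) (n : ℤ) :
    (h5_twistFun ζ φ).coeff n = ((ζ ^ n : Rˣ) : R) * φ.coeff n := rfl

theorem h5_twistFun_support (ζ : Rˣ) (φ : HahnSeries ℤ R) :
    (h5_twistFun ζ φ).support = φ.support := by
  ext n
  simp only [HahnSeries.mem_support, h5_twistFun_coeff, ne_eq]
  constructor
  · exact fun h h0 => h (by rw [h0, mul_zero])
  · intro h h0
    apply h
    have := congrArg (fun x => ((ζ ^ n)⁻¹ : Rˣ).val * x) h0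
    simpa [← mul_assoc] using this

theorem h5_twistFun_mul (ζ : Rˣ) (φ ψ : HahnSeries ℤ R) :
    h5_twistFun ζ (φ * ψ) = h5_twistFun ζ φ * h5_twistFun ζ ψ := by
  ext n
  rw [h5_twistFun_coeff, HahnSeries.coeff_mul, HahnSeries.coeff_mul, Finset.mul_sum]
  have hset : Finset.antidiagonal (h5_twistFun ζ φ).isPWO_support
      (h5_twistFun ζ ψ).isPWO_support n
      = Finset.antidiagonal φ.isPWO_support ψ.isPWO_support n := by
    ext ij
    simp only [Finset.mem_antidiagonal, h5_twistFun_support]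
  rw [hset]
  refine Finset.sum_congr rfl fun ij hij => ?_
  have hsum : ij.1 + ij.2 = n := (Finset.mem_antidiagonal.mp hij).2.2
  rw [h5_twistFun_coeff, h5_twistFun_coeff, ← hsum, zpow_add, Units.val_mul]
  ring

theorem h5_twistFun_add (ζ : Rˣ) (φ ψ : HahnSeries ℤ R) :
    h5_twistFun ζ (φ + ψ) = h5_twistFun ζ φ + h5_twistFun ζ ψ := by
  ext n
  simp [mul_add]

theorem h5_twistFun_one (ζ : Rˣ) : h5_twistFun ζ (1 : HahnSeries ℤ R) = 1 := by
  ext n
  rw [h5_twistFun_coeff, HahnSeries.coeff_one]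
  by_cases h : n = 0
  · subst h; simp
  · simp [h]

theorem h5_twistFun_zero (ζ : Rˣ) : h5_twistFun ζ (0 : HahnSeries ℤ R) = 0 := by
  ext n
  simp

/-- The substitution `X ↦ ζ X` as a ring homomorphism. -/
noncomputable def h5_twist (ζ : Rˣ) : HahnSeries ℤ R →+* HahnSeries ℤ R where
  toFun := h5_twistFun ζ
  map_one' := h5_twistFun_one ζ
  map_mul' := h5_twistFun_mul ζ
  map_zero' := h5_twistFun_zero ζ
  map_add' := h5_twistFun_add ζ

@[simp] theorem h5_twist_coeff (ζ : Rˣ) (φ : HahnSeries ℤ R) (n : ℤ) :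
    (h5_twist ζ φ).coeff n = ((ζ ^ n : Rˣ) : R) * φ.coeff n := rfl

theorem h5_twist_support (ζ : Rˣ) (φ : HahnSeries ℤ R) :
    (h5_twist ζ φ).support = φ.support := h5_twistFun_support ζ φ

theorem h5_twist_C (ζ : Rˣ) (c : R) : h5_twist ζ (HahnSeries.C c) = HahnSeries.C c := by
  ext n
  rw [h5_twist_coeff, HahnSeries.C_apply, HahnSeries.coeff_single]
  by_cases h : n = 0
  · subst h; simp
  · simp [h]

theorem h5_twist_mul_apply (ζ ξ : Rˣ) (φ : HahnSeries ℤ R) :
    h5_twist ζ (h5_twist ξ φ) = h5_twist (ζ * ξ) φ := by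
  ext n
  simp only [h5_twist_coeff, mul_zpow, Units.val_mul, mul_assoc]

theorem h5_twist_one_apply (φ : HahnSeries ℤ R) : h5_twist (1 : Rˣ) φ = φ := by
  ext n
  simp

theorem h5_twist_pow_apply (ζ : Rˣ) (k : ℕ) (φ : HahnSeries ℤ R) :
    (h5_twist ζ)^[k] φ = h5_twist (ζ ^ k) φ := by
  induction k with
  | zero => simp [h5_twist_one_apply]
  | succ k ih =>
    rw [Function.iterate_succ_apply', ih, h5_twist_mul_apply, pow_succ']

theorem h5_twist_eq_zero_iff (ζ : Rˣ) (φ : HahnSeries ℤ R) : h5_twist ζ φ = 0 ↔ φ = 0 := by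
  rw [← HahnSeries.support_eq_empty_iff, h5_twist_support, HahnSeries.support_eq_empty_iff]

theorem h5_twist_injective (ζ : Rˣ) : Function.Injective (h5_twist (R := R) ζ) := by
  intro φ ψ h
  have := h5_twist_mul_apply ζ⁻¹ ζ φ
  rw [h, h5_twist_mul_apply, inv_mul_cancel, h5_twist_one_apply, h5_twist_one_apply] at this
  exact this.symm

theorem h5_twist_order (ζ : Rˣ) (φ : HahnSeries ℤ R) : (h5_twist ζ φ).order = φ.order := by
  by_cases h : φ = 0
  · rw [h, map_zero]
  · have h' : h5_twist ζ φ ≠ 0 := fun h0 => h ((h5_twist_eq_zero_iff ζ φ).mp h0)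
    rw [HahnSeries.order_of_ne h, HahnSeries.order_of_ne h']
    congr 1
    exact h5_twist_support ζ φ

theorem h5_twist_orderTop (ζ : Rˣ) (φ : HahnSeries ℤ R) :
    (h5_twist ζ φ).orderTop = φ.orderTop := by
  by_cases h : φ = 0
  · rw [h, map_zero]
  · have h' : h5_twist ζ φ ≠ 0 := fun h0 => h ((h5_twist_eq_zero_iff ζ φ).mp h0)
    rw [← HahnSeries.order_eq_orderTop_of_ne_zero h, ← HahnSeries.order_eq_orderTop_of_ne_zero h',
      h5_twist_order]

/-- A nonzero series fixed by `X ↦ ζ X` has `ζ ^ order = 1`. -/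
theorem h5_zpow_order_eq_one_of_twist_eq [IsDomain R] (ζ : Rˣ) (φ : HahnSeries ℤ R) (hφ : φ ≠ 0)
    (h : h5_twist ζ φ = φ) : ζ ^ φ.order = 1 := by
  have hc : φ.coeff φ.order ≠ 0 := fun h0 => hφ (HahnSeries.coeff_order_eq_zero.mp h0)
  have := congrArg (fun ψ => ψ.coeff φ.order) h
  simp only [h5_twist_coeff] at this
  have h2 : (((ζ ^ φ.order : Rˣ) : R) - 1) * φ.coeff φ.order = 0 := by
    rw [sub_mul, this, one_mul, sub_self]
  rcases mul_eq_zero.mp h2 with h3 | h3
  · exact Units.ext (by simpa using sub_eq_zero.mp h3)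
  · exact absurd h3 hc

/-- If `ζ` is a primitive `m`-th root of unity and `φ ≠ 0` is fixed by `X ↦ ζ X`, then `m ∣ order φ`.
More generally all exponents in the support are divisible by `m`. -/
theorem h5_dvd_of_mem_support_of_twist_eq [IsDomain R] (ζ : Rˣ) {m : ℕ} (hζ : IsPrimitiveRoot ζ m)
    (φ : HahnSeries ℤ R) (h : h5_twist ζ φ = φ) {n : ℤ} (hn : φ.coeff n ≠ 0) : (m : ℤ) ∣ n := by
  have := congrArg (fun ψ => ψ.coeff n) h
  simp only [h5_twist_coeff] at this
  have h2 : (((ζ ^ n : Rˣ) : R) - 1) * φ.coeff n = 0 := by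
    rw [sub_mul, this, one_mul, sub_self]
  rcases mul_eq_zero.mp h2 with h3 | h3
  · have h4 : ζ ^ n = 1 := Units.ext (by simpa using sub_eq_zero.mp h3)
    exact (hζ.zpow_eq_one_iff_dvd n).mp h4
  · exact absurd h3 hn

theorem h5_dvd_order_of_twist_eq [IsDomain R] (ζ : Rˣ) {m : ℕ} (hζ : IsPrimitiveRoot ζ m)
    (φ : HahnSeries ℤ R) (hφ : φ ≠ 0) (h : h5_twist ζ φ = φ) : (m : ℤ) ∣ φ.order :=
  h5_dvd_of_mem_support_of_twist_eq ζ hζ φ h
    (fun h0 => hφ (HahnSeries.coeff_order_eq_zero.mp h0))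

end

end Fermat.Agent.Lib.X0
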