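import Fermat.Agent.Lib.X0.Defs
import Fermat.Agent.Lib.X0.Twist

set_option autoImplicit false

noncomputable section

namespace Fermat.Agent.Lib.X0

open ModularCurve HahnSeries

/-- The formal `j`-series with complex coefficients. -/
def h5_jqC : LaurentSeries ℂ := coeffMap (algebraMap ℚ ℂ) jq

@[simp] theorem h5_jqC_coeff (k : ℤ) : h5_jqC.coeff k = ((jq.coeff k : ℚ) : ℂ) := rfl

theorem h5_jqC_coeff_neg_one : h5_jqC.coeff (-1) = 1 := by
  rw [h5_jqC_coeff, coeff_jq_neg_one]; simp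

theorem h5_jqC_coeff_of_lt {k : ℤ} (hk : k < -1) : h5_jqC.coeff k = 0 := by
  rw [h5_jqC_coeff, coeff_jq_of_lt hk]; simp

/-- The formal series `j(ζ X^s)`: the `q_N`-expansion of `j((aτ+b)/e)` for `s = N a / e`,
`ζ = exp(2πi b/e)`. -/
def h5_cuspSeries (s : ℕ) [NeZero s] (ζ : ℂˣ) : LaurentSeries ℂ :=
  qExpand ℂ s (h5_twist ζ h5_jqC)

variable (s : ℕ) [NeZero s] (ζ : ℂˣ)

theorem h5_cuspSeries_coeff_mul (n : ℤ) :
    (h5_cuspSeries s ζ).coeff ((s : ℤ) * n) = ((ζ ^ n : ℂˣ) : ℂ) * ((jq.coeff n : ℚ) : ℂ) := by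
  rw [h5_cuspSeries, qExpand_coeff_mul, h5_twist_coeff, h5_jqC_coeff]

theorem h5_cuspSeries_coeff_of_not_dvd {k : ℤ} (hk : ¬ (s : ℤ) ∣ k) :
    (h5_cuspSeries s ζ).coeff k = 0 := by
  rw [h5_cuspSeries]; exact qExpand_coeff_of_not_dvd s _ hk

theorem h5_cuspSeries_coeff_neg : (h5_cuspSeries s ζ).coeff (-(s : ℤ)) = ((ζ⁻¹ : ℂˣ) : ℂ) := by
  have := h5_cuspSeries_coeff_mul s ζ (-1)
  rw [mul_neg_one] at this
  rw [this, coeff_jq_neg_one]
  simp

theorem h5_cuspSeries_coeff_of_lt {k : ℤ} (hk : k < -(s : ℤ)) : (h5_cuspSeries s ζ).coeff k = 0 := by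
  by_cases hd : (s : ℤ) ∣ k
  · obtain ⟨n, rfl⟩ := hd
    rw [h5_cuspSeries_coeff_mul]
    have hs : (0 : ℤ) < s := by exact_mod_cast Nat.pos_of_ne_zero (NeZero.ne s)
    have hn : n < -1 := by
      by_contra hcon
      have hcon := not_lt.mp hcon
      have : (s : ℤ) * (-1) ≤ s * n := mul_le_mul_of_nonneg_left hcon hs.le
      linarith
    rw [coeff_jq_of_lt hn]
    simp
  · exact h5_cuspSeries_coeff_of_not_dvd s ζ hd

theorem h5_cuspSeries_ne_zero : h5_cuspSeries s ζ ≠ 0 := by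
  intro h
  have := h5_cuspSeries_coeff_neg s ζ
  rw [h, HahnSeries.coeff_zero] at this
  exact Units.ne_zero _ this.symm

theorem h5_cuspSeries_order : (h5_cuspSeries s ζ).order = -(s : ℤ) := by
  apply le_antisymm
  · apply HahnSeries.order_le_of_coeff_ne_zero
    rw [h5_cuspSeries_coeff_neg]
    exact Units.ne_zero _
  · by_contra hcon
    have hcon := not_le.mp hcon
    have h0 := h5_cuspSeries_coeff_of_lt s ζ hcon
    exact h5_cuspSeries_ne_zero s ζ (HahnSeries.coeff_order_eq_zero.mp h0)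

/-- `X ↦ ξ X` applied to `j(ζ X^s)` gives `j(ζ ξ^s X^s)`. -/
theorem h5_twist_cuspSeries (ξ : ℂˣ) :
    h5_twist ξ (h5_cuspSeries s ζ) = h5_cuspSeries s (ζ * ξ ^ s) := by
  ext k
  rw [h5_twist_coeff]
  by_cases hd : (s : ℤ) ∣ k
  · obtain ⟨n, rfl⟩ := hd
    rw [h5_cuspSeries_coeff_mul, h5_cuspSeries_coeff_mul, ← mul_assoc, ← Units.val_mul]
    congr 2
    rw [mul_zpow, zpow_mul, zpow_natCast, mul_comm]
  · rw [h5_cuspSeries_coeff_of_not_dvd s _ hd, h5_cuspSeries_coeff_of_not_dvd s _ hd, mul_zero]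

/-- The series `j(ζ X^s)` determines `s` and `ζ`. -/
theorem h5_cuspSeries_inj {s s' : ℕ} [NeZero s] [NeZero s'] {ζ ζ' : ℂˣ}
    (h : h5_cuspSeries s ζ = h5_cuspSeries s' ζ') : s = s' ∧ ζ = ζ' := by
  have ho := congrArg HahnSeries.order h
  rw [h5_cuspSeries_order, h5_cuspSeries_order] at ho
  have hs : s = s' := by
    have : (s : ℤ) = s' := by linarith
    exact_mod_cast this
  subst hs
  refine ⟨rfl, ?_⟩
  have hc := congrArg (fun φ => φ.coeff (-(s : ℤ))) h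
  simp only [h5_cuspSeries_coeff_neg] at hc
  have : ζ⁻¹ = ζ'⁻¹ := Units.ext hc
  exact inv_injective this

end Fermat.Agent.Lib.X0
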