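/-
(A1) of the S24 / X0 project (helper1): bridge between the Prelude's FORMAL `jq`
(`ModularCurve.jNum = eisenstein4 ^ 3 * (etaProd ^ 24)⁻¹` in `ℤ⟦X⟧`) and the ANALYTIC
`E₄ ^ 3 / Δ` of Mathlib: convergent `q`-expansion (HasSum form).
-/
import Mathlib
import Fermat.Prelude.Def_ModularCurve_X0

set_option autoImplicit false

noncomputable section

namespace Fermat.Agent.Lib.X0

open Complex Filter Topology

/-! ### A small calculus of power series converging on the open unit disc -/

/-- On the open unit disc `f` is the sum of the power series `A`. -/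
def h1_IsTaylor (f : ℂ → ℂ) (A : PowerSeries ℂ) : Prop :=
  ∀ q : ℂ, ‖q‖ < 1 → HasSum (fun n : ℕ => PowerSeries.coeff n A * q ^ n) (f q)

theorem h1_IsTaylor.summable_norm {f : ℂ → ℂ} {A : PowerSeries ℂ} (h : h1_IsTaylor f A)
    {q : ℂ} (hq : ‖q‖ < 1) : Summable (fun n : ℕ => ‖PowerSeries.coeff n A * q ^ n‖) := by
  obtain ⟨r, hqr, hr1⟩ := exists_between hq
  have hr0 : 0 < r := lt_of_le_of_lt (norm_nonneg q) hqr
  have hsum := (h (r : ℂ) (by simpa [abs_of_pos hr0] using hr1)).summable
  have htend := hsum.tendsto_atTop_zero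
  obtain ⟨C, hC⟩ : ∃ C : ℝ, ∀ n, ‖PowerSeries.coeff n A * (r : ℂ) ^ n‖ ≤ C := by
    have hb := (Metric.isBounded_range_of_tendsto _ htend)
    obtain ⟨C, hC⟩ := hb.exists_norm_le
    exact ⟨C, fun n => hC _ ⟨n, rfl⟩⟩
  have hgeom : Summable (fun n : ℕ => C * (‖q‖ / r) ^ n) :=
    (summable_geometric_of_lt_one (by positivity) (by rw [div_lt_one hr0]; exact hqr)).mul_left C
  refine Summable.of_nonneg_of_le (fun _ => norm_nonneg _) (fun n => ?_) hgeom
  have h1 := hC n
  rw [norm_mul, norm_pow, Complex.norm_real, Real.norm_of_nonneg hr0.le] at h1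
  rw [norm_mul, norm_pow, div_pow]
  have hrn : 0 < r ^ n := pow_pos hr0 n
  calc ‖PowerSeries.coeff n A‖ * ‖q‖ ^ n
      = (‖PowerSeries.coeff n A‖ * r ^ n) * (‖q‖ ^ n / r ^ n) := by
        field_simp
    _ ≤ C * (‖q‖ ^ n / r ^ n) := by
        apply mul_le_mul_of_nonneg_right h1
        positivity

theorem h1_IsTaylor.mul {f g : ℂ → ℂ} {A B : PowerSeries ℂ} (hf : h1_IsTaylor f A)
    (hg : h1_IsTaylor g B) : h1_IsTaylor (fun q => f q * g q) (A * B) := by
  intro q hq
  have h1 := hf q hq
  have h2 := hg q hq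
  have hn1 := hf.summable_norm hq
  have hn2 := hg.summable_norm hq
  have hsum := summable_norm_sum_mul_antidiagonal_of_summable_norm hn1 hn2
  have hprod := tsum_mul_tsum_eq_tsum_sum_antidiagonal_of_summable_norm hn1 hn2
  rw [h1.tsum_eq, h2.tsum_eq] at hprod
  have hcongr : (fun n : ℕ => PowerSeries.coeff n (A * B) * q ^ n) =
      fun n => ∑ kl ∈ Finset.HasAntidiagonal.antidiagonal n,
        (PowerSeries.coeff kl.1 A * q ^ kl.1) * (PowerSeries.coeff kl.2 B * q ^ kl.2) := by
    funext n
    rw [PowerSeries.coeff_mul, Finset.sum_mul]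
    refine Finset.sum_congr rfl fun kl hkl => ?_
    rw [← Finset.HasAntidiagonal.mem_antidiagonal.mp hkl, pow_add]
    ring
  rw [hcongr]
  show HasSum _ (f q * g q)
  rw [hprod]
  exact (hsum.of_norm).hasSum

theorem h1_IsTaylor.one : h1_IsTaylor (fun _ => 1) 1 := by
  intro q _
  have : (fun n : ℕ => PowerSeries.coeff n (1 : PowerSeries ℂ) * q ^ n) =
      fun n => if n = 0 then 1 else 0 := by
    funext n
    rw [PowerSeries.coeff_one]
    split_ifs with h
    · subst h; simp
    · simp
  rw [this]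
  exact hasSum_ite_eq 0 1

theorem h1_IsTaylor.pow {f : ℂ → ℂ} {A : PowerSeries ℂ} (hf : h1_IsTaylor f A) (k : ℕ) :
    h1_IsTaylor (fun q => f q ^ k) (A ^ k) := by
  induction k with
  | zero => simpa using h1_IsTaylor.one
  | succ k ih =>
    have := ih.mul hf
    simpa [pow_succ] using this

theorem h1_IsTaylor.congr {f g : ℂ → ℂ} {A : PowerSeries ℂ} (hf : h1_IsTaylor f A)
    (hfg : ∀ q : ℂ, ‖q‖ < 1 → f q = g q) : h1_IsTaylor g A := by
  intro q hq
  rw [← hfg q hq]
  exact hf q hq

/-- Existence: a function holomorphic on the open unit disc is the sum of its Taylor series. -/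
theorem h1_isTaylor_of_differentiableOn {f : ℂ → ℂ}
    (hf : DifferentiableOn ℂ f (Metric.ball 0 1)) :
    h1_IsTaylor f (PowerSeries.mk fun n => ((n.factorial : ℂ))⁻¹ * iteratedDeriv n f 0) := by
  intro q hq
  have hz : q ∈ Metric.ball (0 : ℂ) 1 := by simpa using hq
  have h := Complex.hasSum_taylorSeries_on_ball hf hz
  have heq : (fun n : ℕ => PowerSeries.coeff n
      (PowerSeries.mk fun n => ((n.factorial : ℂ))⁻¹ * iteratedDeriv n f 0) * q ^ n) =
      fun n : ℕ => ((n.factorial : ℂ))⁻¹ • (q - 0) ^ n • iteratedDeriv n f 0 := by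
    funext n
    simp only [PowerSeries.coeff_mk, sub_zero, smul_eq_mul]
    ring
  rw [heq]
  exact h

theorem h1_IsTaylor.hasFPowerSeriesOnBall {f : ℂ → ℂ} {A : PowerSeries ℂ}
    (h : h1_IsTaylor f A) :
    HasFPowerSeriesOnBall f (.ofScalars ℂ fun n => PowerSeries.coeff n A) 0 1 := by
  constructor
  · refine le_of_forall_lt_imp_le_of_dense fun r hr ↦ ?_
    lift r to NNReal using hr.ne_top
    apply FormalMultilinearSeries.le_radius_of_summable
    have hr1 : ‖((r : ℝ) : ℂ)‖ < 1 := by
      rw [Complex.norm_real, Real.norm_of_nonneg r.coe_nonneg]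
      exact_mod_cast hr
    have := h.summable_norm hr1
    refine this.congr fun n => ?_
    rw [norm_mul, norm_pow, Complex.norm_real, Real.norm_of_nonneg r.coe_nonneg]
    congr 1
    rw [← (ContinuousMultilinearMap.piFieldEquiv ℂ (Fin n) ℂ).symm.norm_map]
    simp
  · simp
  · intro y hy
    rw [← ENNReal.coe_one, Metric.eball_coe, NNReal.coe_one, mem_ball_zero_iff] at hy
    simpa [mul_comm] using h y hy

/-- Uniqueness of the power series. -/
theorem h1_IsTaylor.unique {f : ℂ → ℂ} {A B : PowerSeries ℂ} (hA : h1_IsTaylor f A)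
    (hB : h1_IsTaylor f B) : A = B := by
  have h := hA.hasFPowerSeriesOnBall.hasFPowerSeriesAt.eq_formalMultilinearSeries
    hB.hasFPowerSeriesOnBall.hasFPowerSeriesAt
  ext n
  have := congrArg (fun p => FormalMultilinearSeries.coeff p n) h
  simpa [FormalMultilinearSeries.coeff_ofScalars] using this

/-- Inverse: if `f` has no zero on the disc and `A * B = 1` then `1 / f` has series `B`. -/
theorem h1_IsTaylor.inv {f : ℂ → ℂ} {A B : PowerSeries ℂ} (hf : h1_IsTaylor f A)
    (hdiff : DifferentiableOn ℂ f (Metric.ball 0 1))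
    (hne : ∀ q : ℂ, ‖q‖ < 1 → f q ≠ 0) (hAB : A * B = 1) :
    h1_IsTaylor (fun q => (f q)⁻¹) B := by
  have hdiff' : DifferentiableOn ℂ (fun q => (f q)⁻¹) (Metric.ball 0 1) :=
    hdiff.inv fun q hq => hne q (by simpa using hq)
  have hB' := h1_isTaylor_of_differentiableOn hdiff'
  set B' := PowerSeries.mk fun n => ((n.factorial : ℂ))⁻¹ *
    iteratedDeriv n (fun q => (f q)⁻¹) 0 with hB'def
  have hprod : h1_IsTaylor (fun _ => 1) (A * B') :=
    (hf.mul hB').congr fun q hq => mul_inv_cancel₀ (hne q hq)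
  have h1 : A * B' = 1 := hprod.unique h1_IsTaylor.one
  have : B' = B := by
    calc B' = (A * B) * B' := by rw [hAB, one_mul]
      _ = (A * B') * B := by ring
      _ = B := by rw [h1, one_mul]
  rwa [this] at hB'


/-- A polynomial is the sum of its own (finite) power series. -/
theorem h1_isTaylor_polynomial (p : Polynomial ℂ) :
    h1_IsTaylor (fun q => p.eval q) (p : PowerSeries ℂ) := by
  intro q _
  have h : ∀ n ∉ p.support, PowerSeries.coeff n (p : PowerSeries ℂ) * q ^ n = 0 := by
    intro n hn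
    rw [Polynomial.coeff_coe, Polynomial.notMem_support_iff.mp hn, zero_mul]
  have := hasSum_sum_of_ne_finset_zero (L := SummationFilter.unconditional ℕ) (f := fun n : ℕ =>
    PowerSeries.coeff n (p : PowerSeries ℂ) * q ^ n) (s := p.support) h
  convert this using 1
  show Polynomial.eval q p = _
  rw [Polynomial.eval_eq_sum, Polynomial.sum_def]
  refine Finset.sum_congr rfl fun n _ => ?_
  rw [Polynomial.coeff_coe]

/-! ### Weierstrass: Taylor coefficients of a locally uniform limit -/

theorem h1_tendstoLocallyUniformlyOn_comp_tendsto {ι κ : Type*} {F : ι → ℂ → ℂ} {f : ℂ → ℂ}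
    {p : Filter ι} {q : Filter κ} {U : Set ℂ} (h : TendstoLocallyUniformlyOn F f p U)
    {g : κ → ι} (hg : Tendsto g q p) : TendstoLocallyUniformlyOn (fun n => F (g n)) f q U := by
  intro u hu x hx
  obtain ⟨t, ht, hev⟩ := h u hu x hx
  exact ⟨t, ht, hg.eventually hev⟩

theorem h1_tendsto_iteratedDeriv {F : ℕ → ℂ → ℂ} {f : ℂ → ℂ} {U : Set ℂ} (hU : IsOpen U)
    (hF : ∀ N, DifferentiableOn ℂ (F N) U) (hlim : TendstoLocallyUniformlyOn F f atTop U)
    (k : ℕ) :
    TendstoLocallyUniformlyOn (fun N => iteratedDeriv k (F N)) (iteratedDeriv k f) atTop U ∧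
      ∀ N, DifferentiableOn ℂ (iteratedDeriv k (F N)) U := by
  induction k with
  | zero =>
    simp only [iteratedDeriv_zero]
    exact ⟨hlim, hF⟩
  | succ k ih =>
    obtain ⟨h1, h2⟩ := ih
    constructor
    · have := h1.deriv (Eventually.of_forall h2) hU
      simpa only [iteratedDeriv_succ, Function.comp_def] using this
    · intro N
      rw [iteratedDeriv_succ]
      exact (h2 N).deriv hU

/-! ### The formal `etaProd` of the Prelude versus the analytic infinite product -/

open scoped PowerSeries.WithPiTopology in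
/-- The `N`-th partial product of `etaProd`, as an integer polynomial. -/
def h1_etaPartial (N : ℕ) : Polynomial ℤ :=
  ∏ n ∈ Finset.range N, (1 - Polynomial.X ^ (n + 1))

theorem h1_coe_etaPartial (N : ℕ) :
    ((h1_etaPartial N : Polynomial ℤ) : PowerSeries ℤ) =
      ∏ n ∈ Finset.range N, (1 - PowerSeries.X ^ (n + 1)) := by
  unfold h1_etaPartial
  induction N with
  | zero => simp
  | succ N ih =>
    rw [Finset.prod_range_succ, Finset.prod_range_succ, Polynomial.coe_mul, ih]
    simp

open scoped PowerSeries.WithPiTopology in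
theorem h1_tendsto_coeff_etaPartial (k : ℕ) :
    Tendsto (fun N => (h1_etaPartial N).coeff k) atTop
      (𝓝 (PowerSeries.coeff k ModularCurve.etaProd)) := by
  have h1 : HasProd (fun n : ℕ => (1 - PowerSeries.X ^ (n + 1) : PowerSeries ℤ))
      ModularCurve.etaProd :=
    (PowerSeries.WithPiTopology.multipliable_one_sub_X_pow ℤ).hasProd
  have h2 := h1.tendsto_prod_nat
  have h3 := ((PowerSeries.WithPiTopology.continuous_coeff ℤ k).tendsto _).comp h2
  refine h3.congr fun N => ?_
  simp only [Function.comp_apply]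
  rw [← Polynomial.coeff_coe, h1_coe_etaPartial]


/-- The analytic infinite product `∏ (1 - q^(n+1))`. -/
def h1_etaFun (q : ℂ) : ℂ := ∏' n : ℕ, (1 - q ^ (n + 1))

theorem h1_differentiableOn_etaFun : DifferentiableOn ℂ h1_etaFun (Metric.ball 0 1) :=
  ModularForm.differentiableOn_tprod_one_sub_pow

theorem h1_eval_etaPartial (N : ℕ) (q : ℂ) :
    ((h1_etaPartial N).map (Int.castRingHom ℂ)).eval q =
      ∏ n ∈ Finset.range N, (1 - q ^ (n + 1)) := by
  unfold h1_etaPartial
  rw [Polynomial.map_prod, Polynomial.eval_prod]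
  refine Finset.prod_congr rfl fun n _ => ?_
  simp

theorem h1_tendstoLocallyUniformlyOn_etaPartial :
    TendstoLocallyUniformlyOn
      (fun N q => ((h1_etaPartial N).map (Int.castRingHom ℂ)).eval q) h1_etaFun atTop
      (Metric.ball 0 1) := by
  have h1 := ModularForm.multipliableLocallyUniformlyOn_one_sub_pow.hasProdLocallyUniformlyOn
  rw [hasProdLocallyUniformlyOn_iff_tendstoLocallyUniformlyOn] at h1
  have h2 := h1_tendstoLocallyUniformlyOn_comp_tendsto h1 tendsto_finset_range
  refine h2.congr fun N q _ => ?_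
  rw [h1_eval_etaPartial]

theorem h1_iteratedDeriv_polynomial (p : Polynomial ℂ) (k : ℕ) :
    ((k.factorial : ℂ))⁻¹ * iteratedDeriv k (fun q => p.eval q) 0 = p.coeff k := by
  have h1 := h1_isTaylor_polynomial p
  have h2 := h1_isTaylor_of_differentiableOn
    (f := fun q => p.eval q) (p.differentiable.differentiableOn)
  have := congrArg (PowerSeries.coeff k) (h2.unique h1)
  simpa [Polynomial.coeff_coe] using this

theorem h1_iteratedDeriv_etaFun (k : ℕ) :
    ((k.factorial : ℂ))⁻¹ * iteratedDeriv k h1_etaFun 0 =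
      ((PowerSeries.coeff k ModularCurve.etaProd : ℤ) : ℂ) := by
  have hW := (h1_tendsto_iteratedDeriv Metric.isOpen_ball
    (fun N => (((h1_etaPartial N).map (Int.castRingHom ℂ)).differentiable.differentiableOn))
    h1_tendstoLocallyUniformlyOn_etaPartial k).1
  have h0 : (0 : ℂ) ∈ Metric.ball (0 : ℂ) 1 := Metric.mem_ball_self one_pos
  have h1 := (hW.tendsto_at h0).const_mul ((k.factorial : ℂ))⁻¹
  have h2 : Tendsto (fun N => (((h1_etaPartial N).coeff k : ℤ) : ℂ)) atTop
      (𝓝 ((PowerSeries.coeff k ModularCurve.etaProd : ℤ) : ℂ)) :=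
    ((continuous_of_discreteTopology (f := fun n : ℤ => (n : ℂ))).tendsto _).comp
      (h1_tendsto_coeff_etaPartial k)
  refine tendsto_nhds_unique h1 (h2.congr fun N => ?_)
  rw [h1_iteratedDeriv_polynomial, Polynomial.coeff_map]
  simp

theorem h1_isTaylor_etaFun :
    h1_IsTaylor h1_etaFun (ModularCurve.etaProd.map (Int.castRingHom ℂ)) := by
  have h := h1_isTaylor_of_differentiableOn h1_differentiableOn_etaFun
  convert h using 1
  ext k
  rw [PowerSeries.coeff_map, PowerSeries.coeff_mk, h1_iteratedDeriv_etaFun]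
  simp


theorem h1_etaFun_ne_zero {q : ℂ} (hq : ‖q‖ < 1) : h1_etaFun q ≠ 0 := by
  unfold h1_etaFun
  have h := tprod_one_add_ne_zero_of_summable (f := fun n : ℕ => -q ^ (n + 1)) ?_ ?_
  · simpa [sub_eq_add_neg] using h
  · intro n h0
    have h1 : q ^ (n + 1) = 1 := by linear_combination -h0
    have h2 : ‖q‖ ^ (n + 1) = 1 := by rw [← norm_pow, h1, norm_one]
    have h3 : ‖q‖ ^ (n + 1) < 1 := pow_lt_one₀ (norm_nonneg q) hq (Nat.succ_ne_zero n)
    linarith
  · simpa using (summable_nat_add_iff 1).mpr (summable_geometric_of_lt_one (norm_nonneg _) hq)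

/-! ### `E₄` -/

open ModularForm UpperHalfPlane

theorem h1_qExpansion_E4 :
    qExpansion 1 E₄ = ModularCurve.eisenstein4.map (Int.castRingHom ℂ) := by
  ext m
  rw [EisensteinSeries.E_qExpansion_coeff _ ⟨2, rfl⟩, PowerSeries.coeff_map]
  simp only [ModularCurve.eisenstein4, PowerSeries.coeff_mk]
  split_ifs with h
  · simp
  · rw [show bernoulli 4 = -1 / 30 by decide +kernel, ArithmeticFunction.sigma_apply]
    push_cast
    ring_nf
    simp [mul_comm]

theorem h1_isTaylor_E4 :
    h1_IsTaylor (cuspFunction 1 E₄) (ModularCurve.eisenstein4.map (Int.castRingHom ℂ)) := by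
  intro q hq
  have := UpperHalfPlane.hasSum_qExpansion_of_norm_lt (h := 1) (f := E₄) one_pos
    (SlashInvariantFormClass.periodic_comp_ofComplex E₄ _root_.one_mem_strictPeriods_SL)
    (ModularFormClass.holo E₄) (ModularFormClass.bdd_at_infty E₄) hq
  rw [h1_qExpansion_E4] at this
  simpa only [smul_eq_mul] using this

/-! ### The main bridge -/

theorem h1_isTaylor_jNum :
    h1_IsTaylor (fun q => cuspFunction 1 E₄ q ^ 3 * (h1_etaFun q ^ 24)⁻¹)
      (ModularCurve.jNum.map (Int.castRingHom ℂ)) := by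
  have hE := h1_isTaylor_E4.pow 3
  have hη := h1_isTaylor_etaFun.pow 24
  have hinv : h1_IsTaylor (fun q => (h1_etaFun q ^ 24)⁻¹)
      (ModularCurve.dedekindEtaUnitInv.map (Int.castRingHom ℂ)) := by
    refine hη.inv (h1_differentiableOn_etaFun.pow 24)
      (fun q hq => pow_ne_zero _ (h1_etaFun_ne_zero hq)) ?_
    rw [← map_pow, ← map_mul]
    show PowerSeries.map _ (ModularCurve.dedekindEtaUnit * ModularCurve.dedekindEtaUnitInv) = 1
    rw [ModularCurve.dedekindEtaUnit_mul_inv, map_one]
  have := hE.mul hinv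
  convert this using 1
  rw [ModularCurve.jNum, map_mul, map_pow]

/-- **(A1)** For `τ ∈ ℍ` and `q = exp (2πiτ)`:
`q * E₄(τ)^3 / Δ(τ) = ∑ₙ (jNum.coeff n) qⁿ` (convergent). -/
theorem h1_hasSum_jNum (τ : ℍ) :
    HasSum (fun n : ℕ => ((PowerSeries.coeff n ModularCurve.jNum : ℤ) : ℂ) *
        Function.Periodic.qParam 1 τ ^ n)
      (Function.Periodic.qParam 1 τ * E₄ τ ^ 3 / ModularForm.discriminant τ) := by
  have hq : ‖Function.Periodic.qParam 1 (τ : ℂ)‖ < 1 :=
    Function.Periodic.norm_qParam_lt_one one_pos τ.im_pos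
  have h := h1_isTaylor_jNum _ hq
  have hE : cuspFunction 1 E₄ (Function.Periodic.qParam 1 τ) = E₄ τ :=
    SlashInvariantFormClass.eq_cuspFunction E₄ τ _root_.one_mem_strictPeriods_SL
      one_ne_zero
  have hΔ : ModularForm.discriminant τ =
      Function.Periodic.qParam 1 τ * h1_etaFun (Function.Periodic.qParam 1 τ) ^ 24 := by
    rw [ModularForm.discriminant_eq_q_prod, h1_etaFun,
      ← (ModularForm.multipliable_one_sub_pow hq).tprod_pow]
  have hq0 : Function.Periodic.qParam 1 (τ : ℂ) ≠ 0 := Function.Periodic.qParam_ne_zero _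
  have hη0 := pow_ne_zero 24 (h1_etaFun_ne_zero hq)
  convert h using 1
  · funext n
    rw [PowerSeries.coeff_map]
    simp
  · simp only [hE, hΔ]
    field_simp

end Fermat.Agent.Lib.X0
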