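import Mathlib
import Fermat.Agent.Lib.X0.EmbDefs
import Fermat.Agent.Lib.X0.JOrder
import Fermat.Agent.Lib.X0.JBridge
import Fermat.Agent.Lib.X0.Hermite
import Fermat.Agent.Lib.X0.CuspSeries
import Fermat.Agent.Lib.X0.JdInv

set_option autoImplicit false

noncomputable section

namespace Fermat.Agent.Lib.X0

open Matrix MatrixGroups ModularCurve HahnSeries
open UpperHalfPlane hiding I
open Complex

local notation "𝕢" => Function.Periodic.qParam

/-! ### (A1) in `h9_LSum` form -/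

theorem h5_coeffMap_ofPowerSeries {R S : Type*} [CommRing R] [CommRing S] (f : R →+* S)
    (p : PowerSeries R) :
    coeffMap f (HahnSeries.ofPowerSeries ℤ R p) = HahnSeries.ofPowerSeries ℤ S (p.map f) := by
  ext k
  rw [coeffMap_coeff]
  by_cases hk : k ∈ Set.range (fun n : ℕ => (n : ℤ))
  · obtain ⟨n, rfl⟩ := hk
    rw [HahnSeries.ofPowerSeries_apply_coeff, HahnSeries.ofPowerSeries_apply_coeff,
      PowerSeries.coeff_map]
  · have h1 : (HahnSeries.ofPowerSeries ℤ R p).coeff k = 0 := by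
      rw [HahnSeries.ofPowerSeries_apply]
      refine HahnSeries.embDomain_of_notMem_range ?_
      rintro ⟨n, rfl⟩
      exact hk ⟨n, rfl⟩
    have h2 : (HahnSeries.ofPowerSeries ℤ S (p.map f)).coeff k = 0 := by
      rw [HahnSeries.ofPowerSeries_apply]
      refine HahnSeries.embDomain_of_notMem_range ?_
      rintro ⟨n, rfl⟩
      exact hk ⟨n, rfl⟩
    rw [h1, h2, map_zero]

theorem h5_jqC_eq : h5_jqC = HahnSeries.single (-1 : ℤ) (1 : ℂ)
    * HahnSeries.ofPowerSeries ℤ ℂ (jNum.map (Int.castRingHom ℂ)) := by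
  rw [h5_jqC, jq, map_mul, coeffMap_single, map_one, h5_coeffMap_ofPowerSeries]
  congr 2

/-- **(A1)**: the formal `jq` sums to the analytic `j` at `q = exp (2 π i τ)`. -/
theorem h5_LSum_jqC (τ : ℍ) : h9_LSum h5_jqC (𝕢 1 (τ : ℂ)) (jFun τ) := by
  have hq0 : 𝕢 1 (τ : ℂ) ≠ 0 := Function.Periodic.qParam_ne_zero _
  have h1 := h9_LSum_single (-1) 1 (𝕢 1 (τ : ℂ))
  have h2 : h9_LSum (HahnSeries.ofPowerSeries ℤ ℂ (jNum.map (Int.castRingHom ℂ))) (𝕢 1 (τ : ℂ))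
      (𝕢 1 (τ : ℂ) * ModularForm.E₄ τ ^ 3 / ModularForm.discriminant τ) := by
    rw [h9_LSum_ofPowerSeries_iff]
    have := h1_hasSum_jNum τ
    convert this using 2 with n
    rw [PowerSeries.coeff_map]
    simp
  have h3 := h9_LSum_mul hq0 h1 h2
  rw [← h5_jqC_eq] at h3
  convert h3 using 1
  rw [jFun, _root_.zpow_neg_one]
  have hΔ : ModularForm.discriminant τ ≠ 0 := ModularForm.discriminant_ne_zero τ
  field_simp

/-! ### Substitutions `w ↦ ξ w` and `w ↦ w ^ s` in `h9_LSum` -/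

theorem h5_LSum_twist_iff (ξ : ℂˣ) (S : LaurentSeries ℂ) (w v : ℂ) :
    h9_LSum (h5_twist ξ S) w v ↔ h9_LSum S ((ξ : ℂ) * w) v := by
  unfold h9_LSum
  have e : (fun n : ℤ => (h5_twist ξ S).coeff n * w ^ n)
      = fun n : ℤ => S.coeff n * ((ξ : ℂ) * w) ^ n := by
    funext n
    rw [h5_twist_coeff, mul_zpow, Units.val_zpow_eq_zpow_val]
    ring
  rw [e]

theorem h5_LSum_qExpand_iff (s : ℕ) [NeZero s] (S : LaurentSeries ℂ) (w v : ℂ) :
    h9_LSum (qExpand ℂ s S) w v ↔ h9_LSum S (w ^ s) v := by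
  unfold h9_LSum
  have hs0 : (s : ℤ) ≠ 0 := by exact_mod_cast NeZero.ne s
  have hinj : Function.Injective (fun n : ℤ => (s : ℤ) * n) := mul_right_injective₀ hs0
  have h := Function.Injective.hasSum_iff hinj
    (f := fun m : ℤ => (qExpand ℂ s S).coeff m * w ^ m) (a := v)
    (by
      intro m hm
      have hnd : ¬ (s : ℤ) ∣ m := by
        rintro ⟨k, rfl⟩
        exact hm ⟨k, rfl⟩
      rw [qExpand_coeff_of_not_dvd s _ hnd, zero_mul])
  rw [← h]
  have e : ((fun m : ℤ => (qExpand ℂ s S).coeff m * w ^ m) ∘ fun n : ℤ => (s : ℤ) * n)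
      = fun n : ℤ => S.coeff n * (w ^ s) ^ n := by
    funext n
    simp only [Function.comp_apply]
    rw [qExpand_coeff_mul, _root_.zpow_mul, zpow_natCast]
  rw [e]

/-- The series `h5_cuspSeries s ζ` evaluated at `w` is `jq` evaluated at `ζ w ^ s`. -/
theorem h5_LSum_cuspSeries_iff (s : ℕ) [NeZero s] (ζ : ℂˣ) (w v : ℂ) :
    h9_LSum (h5_cuspSeries s ζ) w v ↔ h9_LSum h5_jqC ((ζ : ℂ) * w ^ s) v := by
  rw [h5_cuspSeries, h5_LSum_qExpand_iff, h5_LSum_twist_iff]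

/-! ### `q_N` is onto the punctured unit disc; uniqueness of expansions at `∞` -/

theorem h5_qParam_surj (N : ℕ) [NeZero N] {w : ℂ} (hw : w ≠ 0) (hw1 : ‖w‖ < 1) :
    ∃ z : ℍ, 𝕢 (N : ℝ) (z : ℂ) = w := by
  have hN : (0 : ℝ) < N := by exact_mod_cast Nat.pos_of_ne_zero (NeZero.ne N)
  refine ⟨⟨Function.Periodic.invQParam (N : ℝ) w,
    Function.Periodic.im_invQParam_pos_of_norm_lt_one hN hw1 hw⟩, ?_⟩
  exact Function.Periodic.qParam_right_inv hN.ne' hw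

theorem h5_expandsInfty_unique (N : ℕ) [NeZero N] {h : ℍ → ℂ} {s s' : LaurentSeries ℂ}
    (hs : h9_ExpandsInfty N h s) (hs' : h9_ExpandsInfty N h s') : s = s' := by
  classical
  refine h9_LSum_ext one_pos
    (fun w => if hw : w ≠ 0 ∧ ‖w‖ < 1 then h (Classical.choose (h5_qParam_surj N hw.1 hw.2)) else 0)
    (fun w hw hw1 => ?_) (fun w hw hw1 => ?_)
  · rw [dif_pos ⟨hw, hw1⟩]
    have hz := Classical.choose_spec (h5_qParam_surj N hw hw1)
    have := hs (Classical.choose (h5_qParam_surj N hw hw1))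
    rwa [hz] at this
  · rw [dif_pos ⟨hw, hw1⟩]
    have hz := Classical.choose_spec (h5_qParam_surj N hw hw1)
    have := hs' (Classical.choose (h5_qParam_surj N hw hw1))
    rwa [hz] at this

theorem h5_expandsInfty_congr {N : ℕ} {h h' : ℍ → ℂ} {s : LaurentSeries ℂ}
    (hh : ∀ z, h z = h' z) (hs : h9_ExpandsInfty N h s) : h9_ExpandsInfty N h' s := by
  intro z
  rw [← hh z]
  exact hs z

theorem h5_expandsInfty_eq_zero_iff (N : ℕ) [NeZero N] {h : ℍ → ℂ} {s : LaurentSeries ℂ}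
    (hs : h9_ExpandsInfty N h s) : s = 0 ↔ ∀ z, h z = 0 := by
  constructor
  · intro h0 z
    have h1 := hs z
    rw [h0] at h1
    exact h9_LSum_val_unique h1 (h9_LSum_zero _)
  · intro h0
    refine h5_expandsInfty_unique N hs (fun z => ?_)
    rw [h0 z]
    exact h9_LSum_zero _

/-! ### Roots of unity -/

/-- `ζ_e = exp (2 π i / e)` as a unit of `ℂ`. -/
def h5_zeta (e : ℕ) : ℂˣ := Units.mk0 (Complex.exp (2 * Real.pi * Complex.I / e)) (Complex.exp_ne_zero _)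

theorem h5_zeta_coe (e : ℕ) : ((h5_zeta e : ℂˣ) : ℂ) = Complex.exp (2 * Real.pi * Complex.I / e) := rfl

theorem h5_zeta_isPrimitiveRoot (e : ℕ) (he : e ≠ 0) : IsPrimitiveRoot (h5_zeta e) e := by
  rw [← IsPrimitiveRoot.coe_units_iff, h5_zeta_coe]
  exact Complex.isPrimitiveRoot_exp e he

theorem h5_zeta_pow_coe (e b : ℕ) :
    ((h5_zeta e ^ b : ℂˣ) : ℂ) = Complex.exp (2 * Real.pi * Complex.I * b / e) := by
  rw [Units.val_pow_eq_pow_val, h5_zeta_coe, ← Complex.exp_nat_mul]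
  congr 1
  ring

theorem h5_zeta_zpow_coe (e : ℕ) (k : ℤ) :
    ((h5_zeta e ^ k : ℂˣ) : ℂ) = Complex.exp (2 * Real.pi * Complex.I * k / e) := by
  rw [Units.val_zpow_eq_zpow_val, h5_zeta_coe, ← Complex.exp_int_mul]
  congr 1
  ring

/-- `q_1((a z + b)/e) = ζ_e^b q_N(z)^s` where `s e = a N`. -/
theorem h5_qParam_hermite (N a b e s : ℕ) (hN : 0 < N) (he : 0 < e) (hs : s * e = a * N)
    (z τ' : ℍ) (hτ' : (τ' : ℂ) = ((a : ℂ) * z + b) / e) :
    𝕢 1 (τ' : ℂ) = ((h5_zeta e ^ b : ℂˣ) : ℂ) * 𝕢 (N : ℝ) (z : ℂ) ^ s := by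
  have hNC : (N : ℂ) ≠ 0 := by exact_mod_cast hN.ne'
  have heC : (e : ℂ) ≠ 0 := by exact_mod_cast he.ne'
  have hsC : (s : ℂ) * e = a * N := by exact_mod_cast hs
  rw [h5_zeta_pow_coe, Function.Periodic.qParam, Function.Periodic.qParam, ← Complex.exp_nat_mul,
    ← Complex.exp_add, hτ']
  congr 1
  push_cast
  field_simp
  linear_combination (-(z : ℂ)) * hsC

/-! ### The expansion of `J_d ∘ γ` at `∞` -/

theorem h5_expands_Jd_of_hermite (N d : ℕ) (hN : 0 < N) (hd0 : 0 < d) (γ g : SL(2, ℤ))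
    (a b e s : ℕ) [NeZero s] (he : 0 < e) (hs : s * e = a * N)
    (hτ : ∀ τ : ℍ, ∃ τ' : ℍ, (τ' : ℂ) = ((a : ℂ) * τ + b) / e ∧
        (d : ℂ) * ((γ • τ : ℍ) : ℂ) = ((g • τ' : ℍ) : ℂ)) :
    h9_ExpandsInfty N (fun z => h9_Jd d (γ • z)) (h5_cuspSeries s (h5_zeta e ^ b)) := by
  intro z
  obtain ⟨τ', hτ', hg⟩ := hτ z
  have h1 : h9_dmul d (γ • z) = g • τ' := by
    apply UpperHalfPlane.ext
    rw [h9_dmul_coe hd0, hg]
  have h2 : h9_Jd d (γ • z) = jFun τ' := by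
    rw [h9_Jd, h1, h3_jFun_smul]
  show h9_LSum _ _ (h9_Jd d (γ • z))
  rw [h2, h5_LSum_cuspSeries_iff, ← h5_qParam_hermite N a b e s hN he hs z τ' hτ']
  exact h5_LSum_jqC τ'

/-- Existence of the expansion of `J_d ∘ γ` at `∞`, with its explicit shape. -/
theorem h5_exists_cuspSeries (N d : ℕ) [NeZero N] (hd : d ∣ N) (γ : SL(2, ℤ)) :
    ∃ (g : SL(2, ℤ)) (a b e s : ℕ) (_ : NeZero s), 0 < a ∧ 0 < e ∧ a * e = d ∧ b < e ∧
      s * e = a * N ∧ (γ 1 0 = g 1 0 * a ∧ γ 1 1 = g 1 0 * b + g 1 1 * e) ∧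
      h9_ExpandsInfty N (fun z => h9_Jd d (γ • z)) (h5_cuspSeries s (h5_zeta e ^ b)) := by
  have hN : 0 < N := Nat.pos_of_ne_zero (NeZero.ne N)
  have hd0 : 0 < d := Nat.pos_of_dvd_of_pos hd hN
  obtain ⟨g, a, b, e, ha, he, hae, hbe, ⟨-, -, h3, h4⟩, hτ⟩ := h5_hermite_smul d hd0 γ
  have heN : e ∣ N := (Dvd.intro_left a hae).trans hd
  have hs : a * (N / e) * e = a * N := by rw [mul_assoc, Nat.div_mul_cancel heN]
  have hs0 : a * (N / e) ≠ 0 :=
    Nat.mul_ne_zero ha.ne' (Nat.div_pos (Nat.le_of_dvd hN heN) he).ne'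
  have : NeZero (a * (N / e)) := ⟨hs0⟩
  exact ⟨g, a, b, e, a * (N / e), inferInstance, ha, he, hae, hbe, hs, ⟨h3, h4⟩,
    h5_expands_Jd_of_hermite N d hN hd0 γ g a b e (a * (N / e)) he hs hτ⟩

/-- **(C3.2)** existence of the `q_N`-expansions of the `J_d ∘ g`. -/
theorem h5_exists_expandsInfty_Jd (N d : ℕ) [NeZero N] (hd : d ∣ N) (γ : SL(2, ℤ)) :
    ∃ S : LaurentSeries ℂ, h9_ExpandsInfty N (fun z => h9_Jd d (γ • z)) S := by
  obtain ⟨g, a, b, e, s, hs0, -, -, -, -, -, -, h⟩ := h5_exists_cuspSeries N d hd γ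
  exact ⟨_, h⟩

/-! ### (C4') distinct cosets give distinct functions -/

theorem h5_distinct_aux (N : ℕ) [NeZero N] (γ γ' : SL(2, ℤ))
    (h : ∀ z : ℍ, h9_Jd N (γ • z) = h9_Jd N (γ' • z)) :
    γ' * γ⁻¹ ∈ CongruenceSubgroup.Gamma0 N := by
  have hN : 0 < N := Nat.pos_of_ne_zero (NeZero.ne N)
  obtain ⟨g, a, b, e, s, hs0, ha, he, hae, hbe, hs, ⟨h3, h4⟩, hS⟩ :=
    h5_exists_cuspSeries N N dvd_rfl γ
  obtain ⟨g', a', b', e', s', hs0', ha', he', hae', hbe', hs', ⟨h3', h4'⟩, hS'⟩ :=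
    h5_exists_cuspSeries N N dvd_rfl γ'
  have heq := h5_expandsInfty_unique N (h5_expandsInfty_congr h hS) hS'
  obtain ⟨hss, hζ⟩ := h5_cuspSeries_inj heq
  -- `s = a²`, `s' = a'²`
  have h1 : s = a * a := by
    have : s * e = a * a * e := by rw [hs, ← hae]; ring
    exact Nat.eq_of_mul_eq_mul_right he this
  have h1' : s' = a' * a' := by
    have : s' * e' = a' * a' * e' := by rw [hs', ← hae']; ring
    exact Nat.eq_of_mul_eq_mul_right he' this
  have haa : a = a' := by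
    have : a * a = a' * a' := by rw [← h1, ← h1', hss]
    exact (Nat.mul_self_inj).mp this
  subst haa
  have hee : e = e' := by
    have : a * e = a * e' := by rw [hae, hae']
    exact Nat.eq_of_mul_eq_mul_left ha this
  subst hee
  have hbb : b = b' := (h5_zeta_isPrimitiveRoot e he.ne').pow_inj hbe hbe' hζ
  subst hbb
  exact h5_mem_Gamma0_of_hermite_eq N γ γ' g g' a b e (by exact_mod_cast hae) h3 h4 h3' h4'

/-- **(C4')** `J_N ∘ g⁻¹ = J_N ∘ g'⁻¹` implies `g Γ₀(N) = g' Γ₀(N)`. -/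
theorem h5_distinct (N : ℕ) [NeZero N] (g g' : SL(2, ℤ))
    (h : ∀ z : ℍ, h9_Jd N (g⁻¹ • z) = h9_Jd N (g'⁻¹ • z)) :
    g⁻¹ * g' ∈ CongruenceSubgroup.Gamma0 N := by
  have h1 := h5_distinct_aux N g⁻¹ g'⁻¹ h
  have h2 := inv_mem h1
  rwa [_root_.mul_inv_rev, inv_inv, inv_inv] at h2

end Fermat.Agent.Lib.X0
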