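import Mathlib
import Fermat.Agent.Lib.X0.EmbDefs
import Fermat.Agent.Lib.X0.Lift

/-!
# Project X0 (S24), slab (C): from a family of local expansions to `LocalEmb`

Owner: helper9.

* `h9_hgen N` : every element of `F_N` is a fraction `evF P / evF Q` of polynomials in the
  generators `j(q^d)`, `d ∣ N`.
* `h9_EmbFamily N` : a family `ψ g : MvPolynomial (h9_DivN N) Kbar →+* LaurentSeries ℂ`
  (`g : SL(2,ℤ)`; `ψ g P` = local expansion of the function `P ∘ g⁻¹`) with kernel `ker (evF)`,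
  constant on cosets `g Γ₀(N)`, distinct on distinct cosets.
* `h9_EmbFamily.lift g : F_N →+* LaurentSeries ℂ` with `lift g (evF P) = ψ g P`;
  `h9_EmbFamily.tau : QN N → (F_N →+* LaurentSeries ℂ)`, `tau_mk : tau (g : QN N) = lift g`;
  `h9_EmbFamily.localEmb` : the `LocalEmb`; `order_lift_div`, `order_tau_smul`,
  `dvd_order_tau_of_fixed` : transfer of the order statements.
-/

set_option autoImplicit false

noncomputable section

namespace Fermat.Agent.Lib.X0

open UpperHalfPlane ModularCurve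
open scoped MatrixGroups Manifold

/-- The formal realisation, viewed in `ℚ̄((q))`. -/
def h9_evL (N : ℕ) [NeZero N] : MvPolynomial (h9_DivN N) Kbar →+* LaurentSeries Kbar :=
  (algebraMap (FN N) (LaurentSeries Kbar)).comp (h9_evF N)

theorem h9_evL_apply (N : ℕ) [NeZero N] (P : MvPolynomial (h9_DivN N) Kbar) :
    h9_evL N P = ((h9_evF N P : FN N) : LaurentSeries Kbar) := rfl

theorem h9_evF_C (N : ℕ) [NeZero N] (a : Kbar) :
    h9_evF N (MvPolynomial.C a) = algebraMap Kbar (FN N) a := by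
  rw [h9_evF, MvPolynomial.coe_eval₂Hom, MvPolynomial.eval₂_C]

theorem h9_evF_X (N : ℕ) [NeZero N] (d : h9_DivN N) :
    h9_evF N (MvPolynomial.X d) = h9_gen N d := by
  rw [h9_evF, MvPolynomial.coe_eval₂Hom, MvPolynomial.eval₂_X]

theorem h9_gen_coe (N : ℕ) [NeZero N] (d : h9_DivN N) :
    ((h9_gen N d : FN N) : LaurentSeries Kbar) =
      haveI : NeZero d.1 := ⟨h9_DivN_ne_zero N d⟩
      coeffEmb Kbar (qExpand ℚ d.1 jq) := rfl

theorem h9_gen_one (N : ℕ) [NeZero N] : h9_gen N ⟨1, one_dvd N⟩ = xJ N := by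
  apply Subtype.ext
  rw [h9_gen_coe]
  show coeffEmb Kbar (qExpand ℚ 1 jq) = jBar
  rw [qExpand_one_apply]
  rfl

theorem h9_full_le (N : ℕ) [NeZero N] :
    ∀ y ∈ modularFunctionFieldFull N, coeffEmb Kbar y ∈ h9_fracSubfield (h9_evL N) := by
  intro y hy
  have hy' : y ∈ Subfield.closure
      (Set.range (algebraMap ℚ (LaurentSeries ℚ)) ∪ divisorExpansions N) := hy
  have hle : Subfield.closure
      (Set.range (algebraMap ℚ (LaurentSeries ℚ)) ∪ divisorExpansions N)
        ≤ (h9_fracSubfield (h9_evL N)).comap (coeffEmb Kbar) := by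
    rw [Subfield.closure_le]
    rintro x (⟨c, rfl⟩ | ⟨d, hne, hd, rfl⟩)
    · show coeffEmb Kbar (algebraMap ℚ (LaurentSeries ℚ) c) ∈ h9_fracSubfield (h9_evL N)
      have e : coeffEmb Kbar (algebraMap ℚ (LaurentSeries ℚ) c)
          = h9_evL N (MvPolynomial.C (algebraMap ℚ Kbar c)) := by
        rw [h9_evL_apply, h9_evF_C]
        show _ = algebraMap Kbar (LaurentSeries Kbar) (algebraMap ℚ Kbar c)
        rw [algebraMap_apply_eq_single, algebraMap_laurentSeries_eq_single, coeffEmb,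
          coeffMap_single]
      rw [e]
      exact h9_map_mem_fracSubfield _ _
    · show coeffEmb Kbar (qExpand ℚ d jq) ∈ h9_fracSubfield (h9_evL N)
      have e : coeffEmb Kbar (qExpand ℚ d jq) = h9_evL N (MvPolynomial.X ⟨d, hd⟩) := by
        rw [h9_evL_apply, h9_evF_X]
        rfl
      rw [e]
      exact h9_map_mem_fracSubfield _ _
  exact hle hy'

/-- Every element of `F_N` is a fraction of polynomials in the generators. -/
theorem h9_hgen (N : ℕ) [NeZero N] (f : FN N) :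
    ∃ P Q, h9_evF N Q ≠ 0 ∧ f = h9_evF N P / h9_evF N Q := by
  have hf : (f : LaurentSeries Kbar) ∈ h9_fracSubfield (h9_evL N) := by
    have hf0 : (f : LaurentSeries Kbar) ∈ Subfield.closure
        (Set.range (algebraMap Kbar (LaurentSeries Kbar)) ∪
          (⇑(coeffEmb Kbar) '' (modularFunctionFieldFull N : Set (LaurentSeries ℚ)))) :=
      mem_laurentBaseChange_iff.mp f.2
    have hle : Subfield.closure
        (Set.range (algebraMap Kbar (LaurentSeries Kbar)) ∪
          (⇑(coeffEmb Kbar) '' (modularFunctionFieldFull N : Set (LaurentSeries ℚ))))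
          ≤ h9_fracSubfield (h9_evL N) := by
      rw [Subfield.closure_le]
      rintro x (⟨c, rfl⟩ | ⟨y, hy, rfl⟩)
      · have e : algebraMap Kbar (LaurentSeries Kbar) c = h9_evL N (MvPolynomial.C c) := by
          rw [h9_evL_apply, h9_evF_C]
          rfl
        rw [e]
        exact h9_map_mem_fracSubfield _ _
      · exact h9_full_le N y hy
    exact hle hf0
  obtain ⟨P, Q, hQ, hfPQ⟩ := hf
  refine ⟨P, Q, ?_, ?_⟩
  · intro h0
    apply hQ
    rw [h9_evL_apply, h0]
    rfl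
  · apply Subtype.ext
    rw [hfPQ, h9_evL_apply, h9_evL_apply]
    rfl

/-- A family of local expansions of the polynomials in the generators, indexed by `SL(2,ℤ)`:
`ψ g P` is the expansion of the function `P ∘ g⁻¹`. -/
structure h9_EmbFamily (N : ℕ) [NeZero N] where
  ψ : SL(2, ℤ) → (MvPolynomial (h9_DivN N) Kbar →+* LaurentSeries ℂ)
  ker : ∀ g P, ψ g P = 0 ↔ h9_evF N P = 0
  const : ∀ g a, ψ g (MvPolynomial.C a) = HahnSeries.C (iotaC a)
  coset : ∀ g δ, δ ∈ CongruenceSubgroup.Gamma0 N → ψ (g * δ) = ψ g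
  distinct : ∀ g g', ψ g = ψ g' → g⁻¹ * g' ∈ CongruenceSubgroup.Gamma0 N
  agree : ∀ g g', ψ g (MvPolynomial.X ⟨1, one_dvd N⟩) = ψ g' (MvPolynomial.X ⟨1, one_dvd N⟩)

namespace h9_EmbFamily

variable {N : ℕ} [NeZero N] (Fam : h9_EmbFamily N)

theorem exists_lift (g : SL(2, ℤ)) :
    ∃ τ : FN N →+* LaurentSeries ℂ, ∀ P, τ (h9_evF N P) = Fam.ψ g P :=
  h9_lift (h9_evF N) (Fam.ψ g) (Fam.ker g) (h9_hgen N)

/-- The embedding of `F_N` attached to `g`. -/
def lift (g : SL(2, ℤ)) : FN N →+* LaurentSeries ℂ := (Fam.exists_lift g).choose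

theorem lift_evF (g : SL(2, ℤ)) (P : MvPolynomial (h9_DivN N) Kbar) :
    Fam.lift g (h9_evF N P) = Fam.ψ g P := (Fam.exists_lift g).choose_spec P

theorem lift_eq_of_psi_eq {g g' : SL(2, ℤ)} (h : Fam.ψ g = Fam.ψ g') :
    Fam.lift g = Fam.lift g' :=
  h9_lift_unique (h9_evF N) (h9_hgen N) _ _ (fun P => by rw [lift_evF, lift_evF, h])

theorem psi_eq_of_lift_eq {g g' : SL(2, ℤ)} (h : Fam.lift g = Fam.lift g') :
    Fam.ψ g = Fam.ψ g' := by
  refine RingHom.ext (fun P => ?_)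
  rw [← lift_evF, ← lift_evF, h]

theorem lift_eq_of_coset {g g' : SL(2, ℤ)} (h : (g : QN N) = (g' : QN N)) :
    Fam.lift g = Fam.lift g' := by
  apply Fam.lift_eq_of_psi_eq
  have hmem := QuotientGroup.eq.mp h
  have : g' = g * (g⁻¹ * g') := by group
  rw [this, Fam.coset g _ hmem]

theorem lift_const (g : SL(2, ℤ)) (a : Kbar) :
    Fam.lift g (algebraMap Kbar (FN N) a) = HahnSeries.C (iotaC a) := by
  rw [← h9_evF_C, lift_evF, Fam.const]

theorem lift_xJ (g : SL(2, ℤ)) :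
    Fam.lift g (xJ N) = Fam.ψ g (MvPolynomial.X ⟨1, one_dvd N⟩) := by
  rw [← h9_gen_one, ← h9_evF_X, lift_evF]

theorem lift_injective (g : SL(2, ℤ)) : Function.Injective (Fam.lift g) :=
  (Fam.lift g).injective

/-- The embedding attached to a coset. -/
def tau (q : QN N) : FN N →+* LaurentSeries ℂ := Fam.lift (Quotient.out q)

theorem tau_mk (g : SL(2, ℤ)) : Fam.tau (g : QN N) = Fam.lift g := by
  apply Fam.lift_eq_of_coset
  exact QuotientGroup.out_eq' _

theorem tau_injective : Function.Injective Fam.tau := by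
  intro q q' h
  have h1 := Fam.distinct _ _ (Fam.psi_eq_of_lift_eq h)
  have h2 : ((Quotient.out q : SL(2, ℤ)) : QN N) = ((Quotient.out q' : SL(2, ℤ)) : QN N) :=
    QuotientGroup.eq.mpr h1
  rwa [QuotientGroup.out_eq', QuotientGroup.out_eq'] at h2

/-- Order of the image of a fraction. -/
theorem order_lift_div (g : SL(2, ℤ)) {P Q : MvPolynomial (h9_DivN N) Kbar}
    (hP : h9_evF N P ≠ 0) (hQ : h9_evF N Q ≠ 0) :
    (Fam.lift g (h9_evF N P / h9_evF N Q)).order = (Fam.ψ g P).order - (Fam.ψ g Q).order := by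
  have hP' : Fam.ψ g P ≠ 0 := fun h => hP ((Fam.ker g P).mp h)
  have hQ' : Fam.ψ g Q ≠ 0 := fun h => hQ ((Fam.ker g Q).mp h)
  rw [map_div₀, lift_evF, lift_evF]
  have hne : Fam.ψ g P / Fam.ψ g Q ≠ 0 := div_ne_zero hP' hQ'
  have h := HahnSeries.order_mul hne hQ'
  rw [div_mul_cancel₀ _ hQ'] at h
  rw [h]; ring

/-- The `LocalEmb` attached to a family. -/
def localEmb (t : FN N) (M : ℕ) (hM : 0 < M)
    (ht : ∀ g : SL(2, ℤ), (Fam.lift g t).order = (M : ℤ)) :
    LocalEmb iotaC (xJ N) t (QN N) M where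
  τ := Fam.tau
  inj := Fam.tau_injective
  const q a := Fam.lift_const _ a
  agree q q' := by
    show Fam.lift _ (xJ N) = Fam.lift _ (xJ N)
    rw [lift_xJ, lift_xJ]
    exact Fam.agree _ _
  ord_t q := ht _
  M_pos := hM

@[simp]
theorem localEmb_tau (t : FN N) (M : ℕ) (hM : 0 < M)
    (ht : ∀ g : SL(2, ℤ), (Fam.lift g t).order = (M : ℤ)) :
    (Fam.localEmb t M hM ht).τ = Fam.tau := rfl

/-- Transfer of order equalities. -/
theorem order_tau_smul (γ : SL(2, ℤ))
    (h : ∀ g P, (Fam.ψ (γ * g) P).order = (Fam.ψ g P).order) (q : QN N) (f : FN N) :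
    (Fam.tau (γ • q) f).order = (Fam.tau q f).order := by
  obtain ⟨g, rfl⟩ := QuotientGroup.mk_surjective q
  have hsm : γ • (g : QN N) = ((γ * g : SL(2, ℤ)) : QN N) := rfl
  rw [hsm, tau_mk, tau_mk]
  obtain ⟨P, Q, hQ, rfl⟩ := h9_hgen N f
  by_cases hP : h9_evF N P = 0
  · rw [hP, zero_div, map_zero, map_zero]
  · rw [order_lift_div _ _ hP hQ, order_lift_div _ _ hP hQ, h, h]

/-- Transfer of order divisibility on fixed cosets. -/
theorem dvd_order_tau_of_fixed (γ : SL(2, ℤ)) (e : ℤ)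
    (h : ∀ g, g⁻¹ * γ * g ∈ CongruenceSubgroup.Gamma0 N → ∀ P, e ∣ (Fam.ψ g P).order)
    (q : QN N) (hq : γ • q = q) (f : FN N) : e ∣ (Fam.tau q f).order := by
  obtain ⟨g, rfl⟩ := QuotientGroup.mk_surjective q
  have hsm : γ • (g : QN N) = ((γ * g : SL(2, ℤ)) : QN N) := rfl
  rw [hsm] at hq
  have hmem := QuotientGroup.eq.mp hq
  have hmem' : g⁻¹ * γ * g ∈ CongruenceSubgroup.Gamma0 N := by
    have := (CongruenceSubgroup.Gamma0 N).inv_mem hmem
    convert this using 1
    group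
  rw [tau_mk]
  obtain ⟨P, Q, hQ, rfl⟩ := h9_hgen N f
  by_cases hP : h9_evF N P = 0
  · rw [hP, zero_div, map_zero, HahnSeries.order_zero]; exact dvd_zero e
  · rw [order_lift_div _ _ hP hQ]
    exact dvd_sub (h g hmem' P) (h g hmem' Q)

end h9_EmbFamily

end Fermat.Agent.Lib.X0
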