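import Mathlib
import Fermat.Agent.Lib.X0.EmbFamily
import Fermat.Agent.Lib.X0.CuspExp

/-!
# Project X0 (S24), slab (C): the family of expansions at the cusp `∞`

Owner: helper5.  `h5_cuspPsi N g P` is the `q_N`-expansion of `z ↦ P(J_d)(g⁻¹ z)`.
-/

set_option autoImplicit false

noncomputable section

namespace Fermat.Agent.Lib.X0

open Matrix MatrixGroups ModularCurve HahnSeries
open UpperHalfPlane hiding I
open Complex

local notation "𝕢" => Function.Periodic.qParam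

/-! ### Translations act by twists -/

theorem h5_qParam_T (N : ℕ) (hN : 0 < N) (k : ℤ) (z : ℍ) :
    𝕢 (N : ℝ) ((matT ^ k • z : ℍ) : ℂ) = ((h5_zeta N ^ k : ℂˣ) : ℂ) * 𝕢 (N : ℝ) (z : ℂ) := by
  have hNC : (N : ℂ) ≠ 0 := by exact_mod_cast hN.ne'
  rw [ModularGroup.coe_T_zpow_smul_eq, h5_zeta_zpow_coe, Function.Periodic.qParam,
    Function.Periodic.qParam, ← Complex.exp_add]
  congr 1
  push_cast
  field_simp
  ring

/-- **(C4.0)** if `s` expands `h` then the twist of `s` by `ζ_N^k` expands `h ∘ T^k`. -/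
theorem h5_expandsInfty_T (N : ℕ) [NeZero N] (h : ℍ → ℂ) (k : ℤ) (s : LaurentSeries ℂ)
    (hs : h9_ExpandsInfty N h s) :
    h9_ExpandsInfty N (fun z => h (matT ^ k • z)) (h5_twist (h5_zeta N ^ k) s) := by
  intro z
  rw [h5_LSum_twist_iff, ← h5_qParam_T N (Nat.pos_of_ne_zero (NeZero.ne N))]
  exact hs (matT ^ k • z)

/-- **(C4.1)** translation preserves the order of the expansion. -/
theorem h5_order_T (N : ℕ) [NeZero N] (h : ℍ → ℂ) (k : ℤ) (s s' : LaurentSeries ℂ)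
    (hs : h9_ExpandsInfty N h s) (hs' : h9_ExpandsInfty N (fun z => h (matT ^ k • z)) s') :
    s'.order = s.order := by
  rw [h5_expandsInfty_unique N hs' (h5_expandsInfty_T N h k s hs), h5_twist_order]

/-- **(C4.2)** functions of period `m ∣ N` have expansions with order divisible by `N / m`. -/
theorem h5_dvd_order_of_periodic (N : ℕ) [NeZero N] (h : ℍ → ℂ) (m : ℕ) (_hm : 0 < m) (hmN : m ∣ N)
    (hper : ∀ z : ℍ, h (matT ^ m • z) = h z) (s : LaurentSeries ℂ) (hs : h9_ExpandsInfty N h s) :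
    (((N / m : ℕ) : ℤ) ∣ s.order) := by
  by_cases hs0 : s = 0
  · rw [hs0, HahnSeries.order_zero]; exact dvd_zero _
  have hN : 0 < N := Nat.pos_of_ne_zero (NeZero.ne N)
  have h1 : h9_ExpandsInfty N h (h5_twist (h5_zeta N ^ (m : ℤ)) s) := by
    refine h5_expandsInfty_congr (fun z => ?_) (h5_expandsInfty_T N h (m : ℤ) s hs)
    rw [zpow_natCast]
    exact hper z
  have h2 : h5_twist (h5_zeta N ^ (m : ℤ)) s = s := h5_expandsInfty_unique N h1 hs
  have hprim : IsPrimitiveRoot (h5_zeta N ^ (m : ℤ)) (N / m) := by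
    rw [zpow_natCast]
    exact (h5_zeta_isPrimitiveRoot N hN.ne').pow hN (Nat.mul_div_cancel' hmN).symm
  exact h5_dvd_order_of_twist_eq _ hprim s hs0 h2

/-- **(C4)** helper9's contract. -/
theorem h5_inftyTwistStatement (N : ℕ) [NeZero N] : h9_InftyTwistStatement N :=
  ⟨fun h k s s' hs hs' => h5_order_T N h k s s' hs hs',
   fun h m hm hmN hper s hs => h5_dvd_order_of_periodic N h m hm hmN hper s hs⟩

/-- **(C3)** helper9's contract. -/
theorem h5_inftyExpStatement (N : ℕ) [NeZero N] : h9_InftyExpStatement N :=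
  ⟨fun d hd δ hδ z => h5_Jd_invariant N d hd δ hδ z,
   fun d hd g => h5_exists_expandsInfty_Jd N d hd g⟩

/-- **(C4')** helper9's contract. -/
theorem h5_distinctStatement (N : ℕ) [NeZero N] : h9_DistinctStatement N :=
  fun g g' h => h5_distinct N g g' h

/-! ### The family -/

/-- The `q_N`-expansion of `J_d ∘ γ`. -/
def h5_JdSeries (N : ℕ) [NeZero N] (d : h9_DivN N) (γ : SL(2, ℤ)) : LaurentSeries ℂ :=
  Classical.choose (h5_exists_expandsInfty_Jd N d.1 d.2 γ)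

theorem h5_JdSeries_spec (N : ℕ) [NeZero N] (d : h9_DivN N) (γ : SL(2, ℤ)) :
    h9_ExpandsInfty N (fun z => h9_Jd d.1 (γ • z)) (h5_JdSeries N d γ) :=
  Classical.choose_spec (h5_exists_expandsInfty_Jd N d.1 d.2 γ)

/-- `ψ_g P` = the `q_N`-expansion of `z ↦ P(J_d)(g⁻¹ z)`. -/
def h5_cuspPsi (N : ℕ) [NeZero N] (g : SL(2, ℤ)) :
    MvPolynomial (h9_DivN N) Kbar →+* LaurentSeries ℂ :=
  MvPolynomial.eval₂Hom ((HahnSeries.C : ℂ →+* LaurentSeries ℂ).comp iotaC)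
    (fun d => h5_JdSeries N d g⁻¹)

theorem h5_cuspPsi_expands (N : ℕ) [NeZero N] (g : SL(2, ℤ)) (P : MvPolynomial (h9_DivN N) Kbar) :
    h9_ExpandsInfty N (fun z => h9_evAn N P (g⁻¹ • z)) (h5_cuspPsi N g P) := by
  intro z
  exact h9_LSum_eval₂ iotaC (fun d => h5_JdSeries N d g⁻¹) (fun d => h9_Jd d.1 (g⁻¹ • z))
    (Function.Periodic.qParam_ne_zero _) (fun d => h5_JdSeries_spec N d g⁻¹ z) P

theorem h5_evAn_invariant (N : ℕ) (P : MvPolynomial (h9_DivN N) Kbar) (δ : SL(2, ℤ))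
    (hδ : δ ∈ CongruenceSubgroup.Gamma0 N) (z : ℍ) : h9_evAn N P (δ • z) = h9_evAn N P z := by
  have e : (fun d : h9_DivN N => h9_Jd d.1 (δ • z)) = fun d : h9_DivN N => h9_Jd d.1 z := by
    funext d
    exact h5_Jd_invariant N d.1 d.2 δ hδ z
  rw [h9_evAn, h9_evAn, e]

theorem h5_cuspPsi_eq_zero_iff (N : ℕ) [NeZero N] (g : SL(2, ℤ))
    (P : MvPolynomial (h9_DivN N) Kbar) :
    h5_cuspPsi N g P = 0 ↔ ∀ τ : ℍ, h9_evAn N P τ = 0 := by
  rw [h5_expandsInfty_eq_zero_iff N (h5_cuspPsi_expands N g P)]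
  constructor
  · intro h τ
    have := h (g • τ)
    rwa [inv_smul_smul] at this
  · intro h z
    exact h _

theorem h5_cuspPsi_C (N : ℕ) [NeZero N] (g : SL(2, ℤ)) (a : Kbar) :
    h5_cuspPsi N g (MvPolynomial.C a) = HahnSeries.C (iotaC a) := by
  rw [h5_cuspPsi, MvPolynomial.eval₂Hom_C]
  rfl

theorem h5_cuspPsi_X (N : ℕ) [NeZero N] (g : SL(2, ℤ)) (d : h9_DivN N) :
    h5_cuspPsi N g (MvPolynomial.X d) = h5_JdSeries N d g⁻¹ := by
  rw [h5_cuspPsi, MvPolynomial.eval₂Hom_X']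

theorem h5_cuspPsi_ext (N : ℕ) [NeZero N] (g g' : SL(2, ℤ))
    (h : ∀ d : h9_DivN N, ∀ z : ℍ, h9_Jd d.1 (g⁻¹ • z) = h9_Jd d.1 (g'⁻¹ • z)) :
    h5_cuspPsi N g = h5_cuspPsi N g' := by
  have : (fun d => h5_JdSeries N d g⁻¹) = fun d => h5_JdSeries N d g'⁻¹ := by
    funext d
    exact h5_expandsInfty_unique N
      (h5_expandsInfty_congr (h d) (h5_JdSeries_spec N d g⁻¹)) (h5_JdSeries_spec N d g'⁻¹)
  rw [h5_cuspPsi, h5_cuspPsi, this]

theorem h5_cuspPsi_coset (N : ℕ) [NeZero N] (g δ : SL(2, ℤ))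
    (hδ : δ ∈ CongruenceSubgroup.Gamma0 N) : h5_cuspPsi N (g * δ) = h5_cuspPsi N g := by
  refine h5_cuspPsi_ext N (g * δ) g (fun d z => ?_)
  rw [_root_.mul_inv_rev, mul_smul]
  exact h5_Jd_invariant N d.1 d.2 δ⁻¹ (inv_mem hδ) _

theorem h5_cuspPsi_distinct (N : ℕ) [NeZero N] (g g' : SL(2, ℤ))
    (h : h5_cuspPsi N g = h5_cuspPsi N g') : g⁻¹ * g' ∈ CongruenceSubgroup.Gamma0 N := by
  refine h5_distinct N g g' (fun z => ?_)
  have h1 := h5_JdSeries_spec N ⟨N, dvd_rfl⟩ g⁻¹ z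
  have h2 := h5_JdSeries_spec N ⟨N, dvd_rfl⟩ g'⁻¹ z
  have h3 : h5_JdSeries N ⟨N, dvd_rfl⟩ g⁻¹ = h5_JdSeries N ⟨N, dvd_rfl⟩ g'⁻¹ := by
    rw [← h5_cuspPsi_X, ← h5_cuspPsi_X, h]
  rw [h3] at h1
  exact h9_LSum_val_unique h1 h2

theorem h5_Jd_one (τ : ℍ) : h9_Jd 1 τ = jFun τ := by
  rw [h9_Jd]
  congr 1
  apply UpperHalfPlane.ext
  rw [h9_dmul_coe one_pos, Nat.cast_one, one_mul]

/-- The expansion of `j` itself in `q_N`. -/
theorem h5_expands_jFun (N : ℕ) [NeZero N] :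
    h9_ExpandsInfty N jFun (h5_cuspSeries N (h5_zeta 1 ^ 0)) := by
  intro z
  rw [h5_LSum_cuspSeries_iff,
    ← h5_qParam_hermite N 1 0 1 N (Nat.pos_of_ne_zero (NeZero.ne N)) one_pos (by ring) z z
      (by push_cast; ring)]
  exact h5_LSum_jqC z

theorem h5_JdSeries_one (N : ℕ) [NeZero N] (γ : SL(2, ℤ)) :
    h5_JdSeries N ⟨1, one_dvd N⟩ γ = h5_cuspSeries N (h5_zeta 1 ^ 0) := by
  refine h5_expandsInfty_unique N (h5_JdSeries_spec N ⟨1, one_dvd N⟩ γ)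
    (h5_expandsInfty_congr (fun z => ?_) (h5_expands_jFun N))
  rw [h5_Jd_one, h3_jFun_smul]

theorem h5_cuspPsi_agree (N : ℕ) [NeZero N] (g g' : SL(2, ℤ)) :
    h5_cuspPsi N g (MvPolynomial.X ⟨1, one_dvd N⟩)
      = h5_cuspPsi N g' (MvPolynomial.X ⟨1, one_dvd N⟩) := by
  rw [h5_cuspPsi_X, h5_cuspPsi_X, h5_JdSeries_one, h5_JdSeries_one]

/-- **(c)** the family of expansions at the cusp `∞`. -/
def h5_cuspFamily (N : ℕ) [NeZero N]
    (hk : ∀ P : MvPolynomial (h9_DivN N) Kbar, h9_evF N P = 0 ↔ ∀ τ : ℍ, h9_evAn N P τ = 0) :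
    h9_EmbFamily N where
  ψ := h5_cuspPsi N
  ker g P := (h5_cuspPsi_eq_zero_iff N g P).trans (hk P).symm
  const := h5_cuspPsi_C N
  coset := h5_cuspPsi_coset N
  distinct := h5_cuspPsi_distinct N
  agree := h5_cuspPsi_agree N

/-- **(d)** the coordinate `j` has a pole of order `N` in `q_N`. -/
theorem h5_cuspPsi_order_X (N : ℕ) [NeZero N] (g : SL(2, ℤ)) :
    (h5_cuspPsi N g (MvPolynomial.X ⟨1, one_dvd N⟩)).order = -(N : ℤ) := by
  rw [h5_cuspPsi_X, h5_JdSeries_one, h5_cuspSeries_order]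

/-- **(e)** orders are constant along `T`-orbits. -/
theorem h5_cuspPsi_order_T (N : ℕ) [NeZero N] (g : SL(2, ℤ))
    (P : MvPolynomial (h9_DivN N) Kbar) :
    (h5_cuspPsi N (matT * g) P).order = (h5_cuspPsi N g P).order := by
  refine h5_order_T N (fun z => h9_evAn N P (g⁻¹ • z)) (-1) _ _ (h5_cuspPsi_expands N g P)
    (h5_expandsInfty_congr (fun z => ?_) (h5_cuspPsi_expands N (matT * g) P))
  show h9_evAn N P ((matT * g)⁻¹ • z) = h9_evAn N P (g⁻¹ • (matT ^ (-1 : ℤ) • z))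
  rw [_root_.mul_inv_rev, mul_smul, _root_.zpow_neg_one]

/-- **(f)** at a cusp of width dividing `h`, orders are divisible by `N / h`. -/
theorem h5_cuspPsi_dvd_order (N : ℕ) [NeZero N] (g : SL(2, ℤ)) (h : ℕ) (hh : 0 < h) (hhN : h ∣ N)
    (hg : g⁻¹ * matT ^ h * g ∈ CongruenceSubgroup.Gamma0 N)
    (P : MvPolynomial (h9_DivN N) Kbar) :
    (((N / h : ℕ) : ℤ) ∣ (h5_cuspPsi N g P).order) := by
  refine h5_dvd_order_of_periodic N (fun z => h9_evAn N P (g⁻¹ • z)) h hh hhN (fun z => ?_) _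
    (h5_cuspPsi_expands N g P)
  show h9_evAn N P (g⁻¹ • (matT ^ h • z)) = h9_evAn N P (g⁻¹ • z)
  have h1 : g⁻¹ • (matT ^ h • z) = (g⁻¹ * matT ^ h * g) • (g⁻¹ • z) := by
    rw [mul_smul, mul_smul, smul_inv_smul]
  rw [h1]
  exact h5_evAn_invariant N P _ hg _

end Fermat.Agent.Lib.X0
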