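/-
X0 project (S24), slab (B1), helper6: the projective line over `ZMod N` as a model of the left
coset space `SL(2,ℤ) ⧸ Γ₀(N)`.

* `h6P1Vec N`     : primitive column vectors `(a, c)` over `ZMod N` (`IsCoprime a c`);
* units `(ZMod N)ˣ` act by scalars, `SL(2,ℤ)` acts by matrix multiplication; the actions commute;
* `h6_col g`      : the first column of `g` mod `N`;
  - `h6_col_mul`        : `h6_col (g * h) = g • h6_col h`;
  - `h6_col_rel_iff`    : `(∃ u, h6_col g' = u • h6_col g) ↔ g⁻¹ * g' ∈ Γ₀(N)`;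
  - `h6_col_surjective` : every primitive vector is the first column of some `g`.
-/
import Mathlib

set_option autoImplicit false

open scoped MatrixGroups
open CongruenceSubgroup Matrix

namespace Fermat.Agent.Lib.X0

/-- Primitive column vectors over `ZMod N`. -/
def h6P1Vec (N : ℕ) : Type := {v : ZMod N × ZMod N // IsCoprime v.1 v.2}

namespace h6P1Vec

variable {N : ℕ}

@[ext] theorem ext {v w : h6P1Vec N} (h1 : v.1.1 = w.1.1) (h2 : v.1.2 = w.1.2) : v = w :=
  Subtype.ext (Prod.ext h1 h2)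

instance : DecidableEq (h6P1Vec N) := by
  unfold h6P1Vec; infer_instance

instance [NeZero N] : Finite (h6P1Vec N) := by
  unfold h6P1Vec; infer_instance

/-- scalar action of the units -/
instance instUnitsSMul : SMul (ZMod N)ˣ (h6P1Vec N) where
  smul u v := ⟨((u : ZMod N) * v.1.1, (u : ZMod N) * v.1.2), by
    obtain ⟨x, y, hxy⟩ := v.2
    refine ⟨x * ((u⁻¹ : (ZMod N)ˣ) : ZMod N), y * ((u⁻¹ : (ZMod N)ˣ) : ZMod N), ?_⟩
    have hu : ((u⁻¹ : (ZMod N)ˣ) : ZMod N) * (u : ZMod N) = 1 := by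
      rw [← Units.val_mul, inv_mul_cancel, Units.val_one]
    linear_combination hxy + (x * v.1.1 + y * v.1.2) * hu⟩

@[simp] theorem units_smul_fst (u : (ZMod N)ˣ) (v : h6P1Vec N) :
    (u • v).1.1 = (u : ZMod N) * v.1.1 := rfl

@[simp] theorem units_smul_snd (u : (ZMod N)ˣ) (v : h6P1Vec N) :
    (u • v).1.2 = (u : ZMod N) * v.1.2 := rfl

instance instUnitsMulAction : MulAction (ZMod N)ˣ (h6P1Vec N) where
  one_smul v := by ext <;> simp
  mul_smul u w v := by ext <;> simp [mul_assoc]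

/-- action of `SL(2,ℤ)` on column vectors -/
instance instSLSMul : SMul SL(2, ℤ) (h6P1Vec N) where
  smul g v := ⟨(((g 0 0 : ℤ) : ZMod N) * v.1.1 + ((g 0 1 : ℤ) : ZMod N) * v.1.2,
      ((g 1 0 : ℤ) : ZMod N) * v.1.1 + ((g 1 1 : ℤ) : ZMod N) * v.1.2), by
    obtain ⟨x, y, hxy⟩ := v.2
    have hdet : ((g 0 0 : ℤ) : ZMod N) * ((g 1 1 : ℤ) : ZMod N)
        - ((g 0 1 : ℤ) : ZMod N) * ((g 1 0 : ℤ) : ZMod N) = 1 := by
      have h := g.det_coe
      rw [Matrix.det_fin_two] at h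
      have h' := congrArg (Int.cast : ℤ → ZMod N) h
      push_cast at h'
      exact h'
    refine ⟨x * ((g 1 1 : ℤ) : ZMod N) - y * ((g 1 0 : ℤ) : ZMod N),
      -x * ((g 0 1 : ℤ) : ZMod N) + y * ((g 0 0 : ℤ) : ZMod N), ?_⟩
    linear_combination hxy + (x * v.1.1 + y * v.1.2) * hdet⟩

@[simp] theorem sl_smul_fst (g : SL(2, ℤ)) (v : h6P1Vec N) :
    (g • v).1.1 = ((g 0 0 : ℤ) : ZMod N) * v.1.1 + ((g 0 1 : ℤ) : ZMod N) * v.1.2 := rfl

@[simp] theorem sl_smul_snd (g : SL(2, ℤ)) (v : h6P1Vec N) :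
    (g • v).1.2 = ((g 1 0 : ℤ) : ZMod N) * v.1.1 + ((g 1 1 : ℤ) : ZMod N) * v.1.2 := rfl

instance instSLMulAction : MulAction SL(2, ℤ) (h6P1Vec N) where
  one_smul v := by ext <;> simp
  mul_smul g h v := by
    ext
    · simp only [sl_smul_fst, sl_smul_snd, Matrix.SpecialLinearGroup.coe_mul, Matrix.mul_apply,
        Fin.sum_univ_two]
      push_cast
      ring
    · simp only [sl_smul_fst, sl_smul_snd, Matrix.SpecialLinearGroup.coe_mul, Matrix.mul_apply,
        Fin.sum_univ_two]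
      push_cast
      ring

instance instSMulComm : SMulCommClass SL(2, ℤ) (ZMod N)ˣ (h6P1Vec N) where
  smul_comm g u v := by
    ext
    · simp only [sl_smul_fst, units_smul_fst, units_smul_snd]; ring
    · simp only [sl_smul_snd, units_smul_fst, units_smul_snd]; ring

instance instSMulComm' : SMulCommClass (ZMod N)ˣ SL(2, ℤ) (h6P1Vec N) :=
  SMulCommClass.symm _ _ _

/-- The unit action is free. -/
theorem units_smul_eq_self_iff (u : (ZMod N)ˣ) (v : h6P1Vec N) : u • v = v ↔ u = 1 := by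
  constructor
  · intro h
    obtain ⟨x, y, hxy⟩ := v.2
    have h1 : (u : ZMod N) * v.1.1 = v.1.1 := congrArg (fun w : h6P1Vec N => w.1.1) h
    have h2 : (u : ZMod N) * v.1.2 = v.1.2 := congrArg (fun w : h6P1Vec N => w.1.2) h
    apply Units.ext
    rw [Units.val_one]
    linear_combination (-(u : ZMod N) + 1) * hxy + x * h1 + y * h2
  · rintro rfl; exact one_smul _ v

theorem units_smul_left_cancel {u w : (ZMod N)ˣ} {v : h6P1Vec N} (h : u • v = w • v) : u = w := by
  have h' : (w⁻¹ * u) • v = v := by rw [mul_smul, h, ← mul_smul, inv_mul_cancel, one_smul]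
  have := (units_smul_eq_self_iff _ _).1 h'
  calc u = w * (w⁻¹ * u) := by group
    _ = w := by rw [this, mul_one]

end h6P1Vec

variable {N : ℕ}

/-- The first column of `g` modulo `N`. -/
def h6_col (N : ℕ) (g : SL(2, ℤ)) : h6P1Vec N :=
  ⟨(((g 0 0 : ℤ) : ZMod N), ((g 1 0 : ℤ) : ZMod N)), by
    have h := g.det_coe
    rw [Matrix.det_fin_two] at h
    have h' := congrArg (Int.cast : ℤ → ZMod N) h
    push_cast at h'
    exact ⟨((g 1 1 : ℤ) : ZMod N), -((g 0 1 : ℤ) : ZMod N), by linear_combination h'⟩⟩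

@[simp] theorem h6_col_fst (g : SL(2, ℤ)) : (h6_col N g).1.1 = ((g 0 0 : ℤ) : ZMod N) := rfl

@[simp] theorem h6_col_snd (g : SL(2, ℤ)) : (h6_col N g).1.2 = ((g 1 0 : ℤ) : ZMod N) := rfl

theorem h6_col_mul (g h : SL(2, ℤ)) : h6_col N (g * h) = g • h6_col N h := by
  ext
  · simp only [h6_col_fst, h6P1Vec.sl_smul_fst, h6_col_snd, Matrix.SpecialLinearGroup.coe_mul,
      Matrix.mul_apply, Fin.sum_univ_two]
    push_cast
    ring
  · simp only [h6_col_fst, h6P1Vec.sl_smul_snd, h6_col_snd, Matrix.SpecialLinearGroup.coe_mul,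
      Matrix.mul_apply, Fin.sum_univ_two]
    push_cast
    ring

theorem h6_col_one_fst : (h6_col N 1).1.1 = 1 := by simp
theorem h6_col_one_snd : (h6_col N 1).1.2 = 0 := by simp

theorem h6_col_eq_smul_col_one (g : SL(2, ℤ)) : h6_col N g = g • h6_col N 1 := by
  rw [← h6_col_mul, mul_one]

/-- Two matrices have unit-proportional first columns mod `N` iff they define the same left coset
of `Γ₀(N)`. -/
theorem h6_col_rel_iff (g g' : SL(2, ℤ)) :
    (∃ u : (ZMod N)ˣ, h6_col N g' = u • h6_col N g) ↔ g⁻¹ * g' ∈ Gamma0 N := by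
  constructor
  · rintro ⟨u, hu⟩
    have h1 : h6_col N (g⁻¹ * g') = u • h6_col N 1 := by
      rw [h6_col_mul, hu, smul_comm, ← h6_col_mul, inv_mul_cancel]
    have h2 := congrArg (fun w : h6P1Vec N => w.1.2) h1
    simp only [h6_col_snd, h6P1Vec.units_smul_snd] at h2
    rw [Gamma0_mem]
    simpa using h2
  · intro h
    rw [Gamma0_mem] at h
    set γ : SL(2, ℤ) := g⁻¹ * g' with hγ
    have hdet : ((γ 0 0 : ℤ) : ZMod N) * ((γ 1 1 : ℤ) : ZMod N) = 1 := by
      have h0 := γ.det_coe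
      rw [Matrix.det_fin_two] at h0
      have h' := congrArg (Int.cast : ℤ → ZMod N) h0
      push_cast at h'
      rw [h, mul_zero, sub_zero] at h'
      exact h'
    let u : (ZMod N)ˣ := ⟨((γ 0 0 : ℤ) : ZMod N), ((γ 1 1 : ℤ) : ZMod N), hdet, by
      rw [mul_comm]; exact hdet⟩
    refine ⟨u, ?_⟩
    have hg' : g' = g * γ := by rw [hγ]; group
    have hcolγ : h6_col N γ = u • h6_col N 1 := by
      ext
      · simp [u]
      · simp [h]
    rw [hg', h6_col_mul, hcolγ, smul_comm, ← h6_col_mul, mul_one]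

/-- Auxiliary: a shift `a + t c` coprime to `N`. -/
theorem h6_exists_shift_coprime {N : ℕ} (hN : N ≠ 0) (a c : ℤ)
    (h : ∃ x y k : ℤ, x * a + y * c + k * N = 1) :
    ∃ t : ℤ, IsCoprime (a + t * c) (N : ℤ) := by
  classical
  obtain ⟨x, y, k, hxy⟩ := h
  set s : Finset ℕ := N.primeFactors.filter fun p => ¬ ((p : ℤ) ∣ a) with hs
  refine ⟨∏ p ∈ s, (p : ℤ), ?_⟩
  set t : ℤ := ∏ p ∈ s, (p : ℤ) with ht
  rw [Int.isCoprime_iff_gcd_eq_one]
  have hgcd : Int.gcd (a + t * c) N = Nat.gcd (a + t * c).natAbs N := by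
    rw [Int.gcd_def]; simp
  rw [hgcd]
  apply Nat.coprime_of_dvd
  intro p hp hp1 hp2
  have hpZ : Prime (p : ℤ) := Nat.prime_iff_prime_int.1 hp
  have hp1' : (p : ℤ) ∣ a + t * c := Int.natCast_dvd.2 hp1
  have hp2' : (p : ℤ) ∣ (N : ℤ) := Int.natCast_dvd_natCast.2 hp2
  by_cases hpa : (p : ℤ) ∣ a
  · -- then `p ∤ t`, so `p ∣ c`, contradiction with primitivity
    have hpt : ¬ (p : ℤ) ∣ t := by
      intro hdiv
      rw [ht, Prime.dvd_finsetProd_iff hpZ] at hdiv
      obtain ⟨q, hq, hpq⟩ := hdiv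
      rw [hs, Finset.mem_filter] at hq
      have hqprime : q.Prime := Nat.prime_of_mem_primeFactors hq.1
      have : p = q := (Nat.prime_dvd_prime_iff_eq hp hqprime).1 (Int.natCast_dvd_natCast.1 hpq)
      exact hq.2 (this ▸ hpa)
    have hptc : (p : ℤ) ∣ t * c := (dvd_add_right hpa).1 hp1'
    have hpc : (p : ℤ) ∣ c := (hpZ.dvd_or_dvd hptc).resolve_left hpt
    have h1 : (p : ℤ) ∣ 1 := by
      rw [← hxy]
      exact dvd_add (dvd_add (Dvd.dvd.mul_left hpa x) (Dvd.dvd.mul_left hpc y))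
        (Dvd.dvd.mul_left hp2' k)
    exact hpZ.not_isUnit (isUnit_of_dvd_one h1)
  · have hmem : p ∈ s := by
      rw [hs, Finset.mem_filter]
      exact ⟨Nat.mem_primeFactors.2 ⟨hp, hp2, hN⟩, hpa⟩
    have hpt : (p : ℤ) ∣ t := by
      rw [ht]
      exact Finset.dvd_prod_of_mem (fun q : ℕ => (q : ℤ)) hmem
    have : (p : ℤ) ∣ a := (dvd_add_left (Dvd.dvd.mul_right hpt c)).1 hp1'
    exact hpa this

/-- Every primitive vector mod `N` is the first column of some element of `SL(2,ℤ)`. -/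
theorem h6_col_surjective (N : ℕ) [NeZero N] : Function.Surjective (h6_col N) := by
  intro v
  obtain ⟨⟨a, c⟩, x, y, hxy⟩ := v
  simp only at hxy
  obtain ⟨a0, rfl⟩ := ZMod.intCast_surjective a
  obtain ⟨c0, rfl⟩ := ZMod.intCast_surjective c
  obtain ⟨x0, rfl⟩ := ZMod.intCast_surjective x
  obtain ⟨y0, rfl⟩ := ZMod.intCast_surjective y
  have hk : ∃ k : ℤ, x0 * a0 + y0 * c0 + k * N = 1 := by
    have h1 : ((x0 * a0 + y0 * c0 - 1 : ℤ) : ZMod N) = 0 := by
      push_cast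
      linear_combination hxy
    rw [ZMod.intCast_zmod_eq_zero_iff_dvd] at h1
    obtain ⟨k, hk⟩ := h1
    exact ⟨-k, by linear_combination hk⟩
  obtain ⟨k, hk⟩ := hk
  obtain ⟨t, ht⟩ := h6_exists_shift_coprime (NeZero.ne N) a0 c0 ⟨x0, y0, k, hk⟩
  obtain ⟨r, s, hrs⟩ := ht
  -- `r * (a0 + t c0) + s * N = 1`
  set a' : ℤ := a0 + t * c0 with ha'
  set c' : ℤ := c0 + N * s * (1 - c0) with hc'
  have hcop : IsCoprime a' c' := ⟨r * (1 - c0), 1, by rw [hc']; linear_combination (1 - c0) * hrs⟩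
  obtain ⟨g', hg0, hg1⟩ := hcop.exists_SL2_col 0
  refine ⟨ModularGroup.T ^ (-t) * g', ?_⟩
  rw [h6_col_mul]
  apply h6P1Vec.ext
  · simp only [h6P1Vec.sl_smul_fst, h6_col_fst, h6_col_snd, ModularGroup.coe_T_zpow, hg0, hg1]
    simp only [Matrix.of_apply, Matrix.cons_val', Matrix.cons_val_zero, Matrix.cons_val_one,
      Matrix.empty_val', Matrix.cons_val_fin_one]
    rw [ha', hc']
    push_cast
    simp only [ZMod.natCast_self]
    ring
  · simp only [h6P1Vec.sl_smul_snd, h6_col_fst, h6_col_snd, ModularGroup.coe_T_zpow, hg0, hg1]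
    simp only [Matrix.of_apply, Matrix.cons_val', Matrix.cons_val_zero, Matrix.cons_val_one,
      Matrix.empty_val', Matrix.cons_val_fin_one]
    rw [hc']
    push_cast
    simp only [ZMod.natCast_self]
    ring

end Fermat.Agent.Lib.X0
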