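/-
X0 project (S24), slab (B1), helper6: `P¹(ℤ/N)` as orbit quotient of primitive vectors by units,
with its `SL(2,ℤ)`-action, and the equivariant bijection `SL(2,ℤ) ⧸ Γ₀(N) ≃ P¹(ℤ/N)`.
-/
import Mathlib
import Fermat.Agent.Lib.X0.P1

set_option autoImplicit false

open scoped MatrixGroups
open CongruenceSubgroup Matrix

namespace Fermat.Agent.Lib.X0

/-- The projective line over `ZMod N`: primitive vectors modulo units. -/
def h6P1 (N : ℕ) : Type := MulAction.orbitRel.Quotient (ZMod N)ˣ (h6P1Vec N)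

namespace h6P1

variable {N : ℕ}

/-- The class of a primitive vector. -/
def mk (v : h6P1Vec N) : h6P1 N := Quotient.mk'' v

theorem mk_surjective : Function.Surjective (mk : h6P1Vec N → h6P1 N) :=
  Quotient.mk''_surjective

theorem mk_eq_mk_iff {v w : h6P1Vec N} : mk v = mk w ↔ ∃ u : (ZMod N)ˣ, w = u • v := by
  show @Eq (MulAction.orbitRel.Quotient (ZMod N)ˣ (h6P1Vec N)) (Quotient.mk'' v) (Quotient.mk'' w)
    ↔ _
  rw [Quotient.eq'', MulAction.orbitRel_apply, MulAction.mem_orbit_iff]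
  constructor
  · rintro ⟨u, hu⟩
    exact ⟨u⁻¹, by rw [← hu, inv_smul_smul]⟩
  · rintro ⟨u, hu⟩
    exact ⟨u⁻¹, by rw [hu, inv_smul_smul]⟩

theorem mk_units_smul (u : (ZMod N)ˣ) (v : h6P1Vec N) : mk (u • v) = mk v :=
  (mk_eq_mk_iff.2 ⟨u, rfl⟩).symm

instance [NeZero N] : Finite (h6P1 N) := Finite.of_surjective mk mk_surjective

instance instSMul : SMul SL(2, ℤ) (h6P1 N) where
  smul g := Quotient.map' (fun v => g • v) (by
    intro v w h
    rw [MulAction.orbitRel_apply, MulAction.mem_orbit_iff] at h ⊢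
    obtain ⟨u, hu⟩ := h
    exact ⟨u, by rw [← hu, smul_comm]⟩)

theorem smul_mk (g : SL(2, ℤ)) (v : h6P1Vec N) : g • mk v = mk (g • v) := rfl

instance instMulAction : MulAction SL(2, ℤ) (h6P1 N) where
  one_smul q := by
    obtain ⟨v, rfl⟩ := mk_surjective q
    rw [smul_mk, one_smul]
  mul_smul g h q := by
    obtain ⟨v, rfl⟩ := mk_surjective q
    rw [smul_mk, smul_mk, smul_mk, mul_smul]

end h6P1

/-- The equivariant bijection `SL(2,ℤ) ⧸ Γ₀(N) ≃ P¹(ℤ/N)`, `g Γ₀(N) ↦ [first column of g]`. -/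
noncomputable def h6_quotEquiv (N : ℕ) [NeZero N] : SL(2, ℤ) ⧸ Gamma0 N ≃ h6P1 N :=
  Equiv.ofBijective
    (Quotient.map' (h6_col N) (by
      intro g g' h
      rw [QuotientGroup.leftRel_apply] at h
      obtain ⟨u, hu⟩ := (h6_col_rel_iff g g').2 h
      rw [MulAction.orbitRel_apply, MulAction.mem_orbit_iff]
      exact ⟨u⁻¹, by rw [hu, inv_smul_smul]⟩))
    (by
      constructor
      · intro q q' h
        induction q using Quotient.inductionOn' with | _ g => ?_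
        induction q' using Quotient.inductionOn' with | _ g' => ?_
        have h' : h6P1.mk (h6_col N g) = h6P1.mk (h6_col N g') := h
        rw [h6P1.mk_eq_mk_iff] at h'
        apply Quotient.sound'
        rw [QuotientGroup.leftRel_apply]
        exact (h6_col_rel_iff g g').1 h'
      · intro p
        obtain ⟨v, rfl⟩ := h6P1.mk_surjective p
        obtain ⟨g, rfl⟩ := h6_col_surjective N v
        exact ⟨(g : SL(2, ℤ) ⧸ Gamma0 N), rfl⟩)

theorem h6_quotEquiv_mk (N : ℕ) [NeZero N] (g : SL(2, ℤ)) :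
    h6_quotEquiv N (g : SL(2, ℤ) ⧸ Gamma0 N) = h6P1.mk (h6_col N g) := rfl

theorem h6_quotEquiv_smul (N : ℕ) [NeZero N] (g : SL(2, ℤ)) (q : SL(2, ℤ) ⧸ Gamma0 N) :
    h6_quotEquiv N (g • q) = g • h6_quotEquiv N q := by
  induction q using Quotient.inductionOn' with | _ h => ?_
  show h6_quotEquiv N ((g * h : SL(2, ℤ)) : SL(2, ℤ) ⧸ Gamma0 N) = _
  rw [h6_quotEquiv_mk, h6_col_mul]
  rfl

/-- Fixed points correspond. -/
noncomputable def h6_fixedEquiv (N : ℕ) [NeZero N] (g : SL(2, ℤ)) :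
    {q : SL(2, ℤ) ⧸ Gamma0 N // g • q = q} ≃ {p : h6P1 N // g • p = p} :=
  Equiv.subtypeEquiv (h6_quotEquiv N) (by
    intro q
    rw [← h6_quotEquiv_smul]
    exact (h6_quotEquiv N).apply_eq_iff_eq.symm)

/-- `T^N` acts trivially on `SL(2,ℤ) ⧸ Γ₀(N)`. -/
theorem h6_T_pow_smul (N : ℕ) [NeZero N] (q : SL(2, ℤ) ⧸ Gamma0 N) :
    ModularGroup.T ^ N • q = q := by
  apply (h6_quotEquiv N).injective
  rw [h6_quotEquiv_smul]
  obtain ⟨v, hv⟩ := h6P1.mk_surjective (h6_quotEquiv N q)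
  rw [← hv, h6P1.smul_mk]
  congr 1
  have hT : ((ModularGroup.T ^ N : SL(2, ℤ)) : Matrix (Fin 2) (Fin 2) ℤ) = !![1, (N : ℤ); 0, 1] := by
    have := ModularGroup.coe_T_zpow (N : ℤ)
    rwa [zpow_natCast] at this
  apply h6P1Vec.ext
  · simp only [h6P1Vec.sl_smul_fst, hT]
    simp
  · simp only [h6P1Vec.sl_smul_snd, hT]
    simp

end Fermat.Agent.Lib.X0
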