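/-
X0 project (S24) (helper3): the level one facts about `j` in the bundled form `h2_LevelOneData`
consumed by helper2's `h2_cFinite`.
-/
import Mathlib
import Fermat.Agent.Lib.X0.Defs
import Fermat.Agent.Lib.X0.JOrder
import Fermat.Agent.Lib.X0.CFinite

set_option autoImplicit false

open UpperHalfPlane hiding I
open Complex ModularForm EisensteinSeries ModularGroup Filter Function
open scoped MatrixGroups ModularForm Manifold Topology Real

namespace Fermat.Agent.Lib.X0

theorem h3_order_taylorH_eq {f : ℍ → ℂ} (hf : MDiff f) (τ₀ : ℍ) :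
    (h2_taylorH f τ₀).order = analyticOrderAt (f ∘ ofComplex) (τ₀ : ℂ) :=
  h2_order_taylorPS (h2_analyticAt_comp_ofComplex hf τ₀)

theorem h3_jFun_sub_const_mdiff (c : ℂ) : MDiff (fun τ => jFun τ - c) :=
  h3_jFun_mdiff.sub mdifferentiable_const

theorem h3_levelOneData : h2_LevelOneData where
  jinv := h3_jFun_smul
  jsurj := h3_jFun_surjective
  ord_generic := by
    intro τ₀ h0 h1
    rw [h3_order_taylorH_eq (h3_jFun_sub_const_mdiff _)]
    exact h3_order_jFun_generic τ₀ h0 h1
  ord_rho := by
    refine ⟨h3_rho, h3_ST_smul_rho, h3_jFun_rho, ?_⟩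
    rw [h3_order_taylorH_eq (h3_jFun_sub_const_mdiff _)]
    have : ((fun τ => jFun τ - 0) ∘ ofComplex) = jFun ∘ ofComplex := by
      funext z; simp
    rw [this]
    exact h3_order_jFun_rho
  ord_i := by
    refine ⟨UpperHalfPlane.I, h3_S_smul_I, h3_jFun_I, ?_⟩
    rw [h3_order_taylorH_eq (h3_jFun_sub_const_mdiff _)]
    exact h3_order_jFun_I

end Fermat.Agent.Lib.X0
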