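/-
X0 project (S24), helper2: orders of Laurent series under ring homs from a fraction field:
statements about orders proved on a subring `A` with `Frac A = F` pass to all of `F`.
-/
import Mathlib

set_option autoImplicit false

namespace Fermat.Agent.Lib.X0

section

variable {K' : Type*} [Field K']

theorem h2_order_inv (x : LaurentSeries K') : (x⁻¹).order = -x.order := by
  by_cases hx : x = 0
  · subst hx; simp
  · have h1 : x * x⁻¹ = 1 := mul_inv_cancel₀ hx
    have h2 := HahnSeries.order_mul hx (inv_ne_zero hx)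
    rw [h1, HahnSeries.order_one] at h2
    linarith

theorem h2_order_div (x y : LaurentSeries K') (hx : x ≠ 0) (hy : y ≠ 0) :
    (x / y).order = x.order - y.order := by
  rw [div_eq_mul_inv, HahnSeries.order_mul hx (inv_ne_zero hy), h2_order_inv, sub_eq_add_neg]

variable {A F : Type*} [CommRing A] [IsDomain A] [Field F] [Algebra A F] [IsFractionRing A F]

/-- If two ring homs `F → K'((u))` have the same orders on `A`, they have the same orders on
`F = Frac A`. -/
theorem h2_order_eq_of_frac (τ₁ τ₂ : F →+* LaurentSeries K')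
    (h : ∀ a : A, (τ₁ (algebraMap A F a)).order = (τ₂ (algebraMap A F a)).order) (f : F) :
    (τ₁ f).order = (τ₂ f).order := by
  obtain ⟨a, b, hb, rfl⟩ := IsFractionRing.div_surjective A f
  have hb0 : algebraMap A F b ≠ 0 :=
    IsFractionRing.to_map_ne_zero_of_mem_nonZeroDivisors hb
  by_cases ha : algebraMap A F a = 0
  · rw [ha, zero_div, map_zero, map_zero]
  · rw [map_div₀, map_div₀,
      h2_order_div _ _ ((map_ne_zero τ₁).mpr ha) ((map_ne_zero τ₁).mpr hb0),
      h2_order_div _ _ ((map_ne_zero τ₂).mpr ha) ((map_ne_zero τ₂).mpr hb0), h a, h b]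

/-- If `m` divides the orders of the images of all nonzero elements of `A`, it divides the
orders of the images of all nonzero elements of `F = Frac A`. -/
theorem h2_dvd_order_of_frac (τ : F →+* LaurentSeries K') (m : ℤ)
    (h : ∀ a : A, a ≠ 0 → m ∣ (τ (algebraMap A F a)).order) (f : F) (hf : f ≠ 0) :
    m ∣ (τ f).order := by
  obtain ⟨a, b, hb, rfl⟩ := IsFractionRing.div_surjective A f
  have hb0 : algebraMap A F b ≠ 0 :=
    IsFractionRing.to_map_ne_zero_of_mem_nonZeroDivisors hb
  have ha0 : algebraMap A F a ≠ 0 := by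
    intro h0
    apply hf
    rw [h0, zero_div]
  have ha : a ≠ 0 := by
    rintro rfl
    exact ha0 (map_zero _)
  have hb' : b ≠ 0 := by
    rintro rfl
    exact hb0 (map_zero _)
  rw [map_div₀, h2_order_div _ _ ((map_ne_zero τ).mpr ha0) ((map_ne_zero τ).mpr hb0)]
  exact dvd_sub (h a ha) (h b hb')

/-- Two ring homs out of `F = Frac A` which agree on `A` are equal. -/
theorem h2_ringHom_ext_of_frac {L : Type*} [Field L] (τ₁ τ₂ : F →+* L)
    (h : ∀ a : A, τ₁ (algebraMap A F a) = τ₂ (algebraMap A F a)) : τ₁ = τ₂ := by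
  ext f
  obtain ⟨a, b, -, rfl⟩ := IsFractionRing.div_surjective A f
  rw [map_div₀, map_div₀, h a, h b]

end

end Fermat.Agent.Lib.X0
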