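/-
X0 project (S24), piece (B3) (helper8): Scott's lemma for permutation triples, the sign parity,
and the resulting integrality/nonnegativity of the genus formula.
Mathlib-only.
-/
import Mathlib

set_option autoImplicit false

namespace Fermat.Agent.Lib.X0

open Equiv Equiv.Perm

section Cycles

variable {Q : Type*} [Fintype Q] [DecidableEq Q]

/-- number of cycles (including fixed points) of a permutation = number of `SameCycle` classes. -/
noncomputable def h8_numCycles (σ : Perm Q) : ℕ :=
  Nat.card (Quotient (SameCycle.setoid σ))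

/-- the classifying map of the cycles: a fixed point, or the cycle factor through the point. -/
noncomputable def h8_cycleClass (σ : Perm Q) (x : Q) :
    (Function.fixedPoints σ) ⊕ σ.cycleFactorsFinset :=
  if h : σ x = x then Sum.inl ⟨x, h⟩
  else Sum.inr ⟨σ.cycleOf x, cycleOf_mem_cycleFactorsFinset_iff.mpr (mem_support.mpr h)⟩

theorem h8_cycleClass_eq_iff (σ : Perm Q) (x y : Q) :
    h8_cycleClass σ x = h8_cycleClass σ y ↔ SameCycle σ x y := by
  unfold h8_cycleClass
  by_cases hx : σ x = x
  · by_cases hy : σ y = y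
    · rw [dif_pos hx, dif_pos hy]
      constructor
      · intro h
        have : x = y := by
          have h' := Sum.inl.inj h
          exact congrArg Subtype.val h'
        rw [this]
      · intro h
        have hxy : x = y := by
          obtain ⟨i, hi⟩ := h
          have : (σ ^ i) x = x := zpow_apply_eq_self_of_apply_eq_self hx i
          rw [← hi, this]
        subst hxy
        rfl
    · rw [dif_pos hx, dif_neg hy]
      constructor
      · intro h; simp at h
      · intro h
        exfalso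
        apply hy
        obtain ⟨i, hi⟩ := h
        have : (σ ^ i) x = x := zpow_apply_eq_self_of_apply_eq_self hx i
        rw [this] at hi
        rw [← hi]; exact hx
  · by_cases hy : σ y = y
    · rw [dif_neg hx, dif_pos hy]
      constructor
      · intro h; simp at h
      · intro h
        exfalso
        apply hx
        obtain ⟨i, hi⟩ := h.symm
        have : (σ ^ i) y = y := zpow_apply_eq_self_of_apply_eq_self hy i
        rw [this] at hi
        rw [← hi]; exact hy
    · rw [dif_neg hx, dif_neg hy]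
      constructor
      · intro h
        have h' : σ.cycleOf x = σ.cycleOf y := by simpa using h
        have h1 : σ.cycleOf x y = σ y := by rw [h', cycleOf_apply_self]
        rw [cycleOf_apply] at h1
        by_contra hc
        rw [if_neg hc] at h1
        exact hy h1.symm
      · intro h
        have := h.cycleOf_eq
        simp [this]

theorem h8_cycleClass_surjective (σ : Perm Q) : Function.Surjective (h8_cycleClass σ) := by
  rintro (⟨x, hx⟩ | ⟨c, hc⟩)
  · refine ⟨x, ?_⟩
    have hx' : σ x = x := hx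
    unfold h8_cycleClass
    rw [dif_pos hx']
  · have hcyc := (mem_cycleFactorsFinset_iff.mp hc).1
    obtain ⟨a, ha⟩ := hcyc.nonempty_support
    have hca : c = σ.cycleOf a := cycle_is_cycleOf ha hc
    have hsa : σ a ≠ a := by
      have : σ.cycleOf a ∈ σ.cycleFactorsFinset := hca ▸ hc
      exact mem_support.mp (cycleOf_mem_cycleFactorsFinset_iff.mp this)
    refine ⟨a, ?_⟩
    unfold h8_cycleClass
    rw [dif_neg hsa]
    simp [hca]

/-- **number of cycles = fixed points + nontrivial cycles.** -/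
theorem h8_numCycles_eq (σ : Perm Q) :
    h8_numCycles σ = Fintype.card (Function.fixedPoints σ) + Multiset.card σ.cycleType := by
  classical
  unfold h8_numCycles
  have hker : SameCycle.setoid σ = Setoid.ker (h8_cycleClass σ) := by
    ext x y
    exact (h8_cycleClass_eq_iff σ x y).symm
  rw [hker]
  rw [Nat.card_congr (Setoid.quotientKerEquivOfSurjective _ (h8_cycleClass_surjective σ))]
  rw [Nat.card_eq_fintype_card, Fintype.card_sum, Fintype.card_coe, cycleType_def]
  simp

/-- `card Q = fixed points + sum of the cycle lengths`. -/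
theorem h8_card_eq_fixed_add_sum (σ : Perm Q) :
    Fintype.card Q = Fintype.card (Function.fixedPoints σ) + σ.cycleType.sum := by
  have h := Equiv.Perm.card_fixedPoints σ
  have hle := sum_cycleType_le σ
  omega

/-- **sign = (-1)^(n + number of cycles)**. -/
theorem h8_sign_eq (σ : Perm Q) :
    Perm.sign σ = (-1 : ℤˣ) ^ (Fintype.card Q + h8_numCycles σ) := by
  rw [sign_of_cycleType, h8_numCycles_eq, h8_card_eq_fixed_add_sum σ]
  have : Fintype.card (Function.fixedPoints σ) + σ.cycleType.sum +
      (Fintype.card (Function.fixedPoints σ) + Multiset.card σ.cycleType) =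
      2 * Fintype.card (Function.fixedPoints σ) + (σ.cycleType.sum + Multiset.card σ.cycleType) := by
    ring
  rw [this, pow_add (-1 : ℤˣ) (2 * _) _, pow_mul]
  simp

/-- if `σ ^ p = 1` with `p` prime, all nontrivial cycles have length `p`. -/
theorem h8_sum_cycleType_of_pow_prime (σ : Perm Q) {p : ℕ} (hp : p.Prime) (hσ : σ ^ p = 1) :
    σ.cycleType.sum = p * Multiset.card σ.cycleType := by
  have hall : ∀ n ∈ σ.cycleType, n = p := by
    intro n hn
    have h1 : n ∣ orderOf σ := dvd_of_mem_cycleType hn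
    have h2 : orderOf σ ∣ p := orderOf_dvd_of_pow_eq_one hσ
    have h3 : 2 ≤ n := two_le_of_mem_cycleType hn
    rcases (Nat.dvd_prime hp).mp (h1.trans h2) with h | h
    · omega
    · exact h
  rw [Multiset.eq_replicate_card.mpr hall]
  simp [mul_comm]

/-- if `σ ^ p = 1` with `p` prime: `p * numCycles = n + (p-1) * fixed points`. -/
theorem h8_numCycles_of_pow_prime (σ : Perm Q) {p : ℕ} (hp : p.Prime) (hσ : σ ^ p = 1) :
    p * h8_numCycles σ + Fintype.card (Function.fixedPoints σ) =
      Fintype.card Q + p * Fintype.card (Function.fixedPoints σ) := by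
  rw [h8_numCycles_eq, h8_card_eq_fixed_add_sum σ, h8_sum_cycleType_of_pow_prime σ hp hσ]
  ring

end Cycles


section Linear

variable {Q : Type*} [Fintype Q] [DecidableEq Q]

/-- the permutation operator `(P σ f) x = f (σ⁻¹ x)` on `Q → ℚ` (a homomorphism in `σ`). -/
noncomputable def h8_P (σ : Perm Q) : (Q → ℚ) →ₗ[ℚ] (Q → ℚ) :=
  LinearMap.funLeft ℚ ℚ (σ.symm)

@[simp] theorem h8_P_apply (σ : Perm Q) (f : Q → ℚ) (x : Q) : h8_P σ f x = f (σ⁻¹ x) := rfl

theorem h8_P_mul (σ τ : Perm Q) : h8_P (σ * τ) = (h8_P σ).comp (h8_P τ) := by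
  refine LinearMap.ext fun f => funext fun x => ?_
  simp [mul_inv_rev, Perm.mul_apply]

theorem h8_P_single (σ : Perm Q) (x : Q) :
    h8_P σ (Pi.single x (1 : ℚ)) = Pi.single (σ x) (1 : ℚ) := by
  ext y
  simp only [h8_P_apply, Pi.single_apply]
  by_cases h : y = σ x
  · rw [if_pos h, if_pos]
    rw [h]; simp
  · rw [if_neg h, if_neg]
    intro h'
    apply h
    rw [← h']; simp

/-- `A σ = 1 - P σ`. -/
noncomputable def h8_A (σ : Perm Q) : (Q → ℚ) →ₗ[ℚ] (Q → ℚ) := LinearMap.id - h8_P σ

@[simp] theorem h8_A_apply (σ : Perm Q) (f : Q → ℚ) : h8_A σ f = f - h8_P σ f := rfl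

theorem h8_mem_ker_A_iff (σ : Perm Q) (f : Q → ℚ) :
    f ∈ LinearMap.ker (h8_A σ) ↔ ∀ x, f (σ x) = f x := by
  rw [LinearMap.mem_ker, h8_A_apply, sub_eq_zero]
  constructor
  · intro h x
    have := congrFun h (σ x)
    simp only [h8_P_apply, Equiv.Perm.coe_inv, Equiv.symm_apply_apply] at this
    exact this
  · intro h
    ext x
    simp only [h8_P_apply]
    have := h (σ⁻¹ x)
    simp only [Equiv.Perm.coe_inv, Equiv.apply_symm_apply] at this
    simp only [Equiv.Perm.coe_inv]
    exact this

theorem h8_invariant_zpow (σ : Perm Q) (f : Q → ℚ) (h : ∀ x, f (σ x) = f x) (i : ℤ) (x : Q) :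
    f ((σ ^ i) x) = f x := by
  induction i using Int.induction_on generalizing x with
  | zero => simp
  | succ n ih => rw [zpow_add, zpow_one, Perm.mul_apply, ih, h]
  | pred n ih =>
    rw [zpow_sub, zpow_one, Perm.mul_apply, ih]
    have := h (σ⁻¹ x)
    simp only [Equiv.Perm.coe_inv, Equiv.apply_symm_apply] at this
    exact this.symm

/-- **the invariants of `σ` have dimension = number of cycles.** -/
theorem h8_finrank_ker_A (σ : Perm Q) :
    Module.finrank ℚ (LinearMap.ker (h8_A σ)) = h8_numCycles σ := by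
  classical
  let q := Quotient (SameCycle.setoid σ)
  let Ψ : (q → ℚ) →ₗ[ℚ] (Q → ℚ) := LinearMap.funLeft ℚ ℚ (Quotient.mk (SameCycle.setoid σ))
  have hinj : Function.Injective Ψ :=
    LinearMap.funLeft_injective_of_surjective ℚ ℚ _ Quotient.mk_surjective
  have hrange : LinearMap.range Ψ = LinearMap.ker (h8_A σ) := by
    ext f
    rw [h8_mem_ker_A_iff, LinearMap.mem_range]
    constructor
    · rintro ⟨h, rfl⟩ x
      show h (Quotient.mk _ (σ x)) = h (Quotient.mk _ x)
      congr 1
      apply Quotient.sound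
      exact (SameCycle.refl σ x).apply_left
    · intro hf
      refine ⟨Quotient.lift f ?_, ?_⟩
      · rintro a b ⟨i, hi⟩
        rw [← hi, h8_invariant_zpow σ f hf]
      · ext x
        rfl
  rw [← hrange, LinearMap.finrank_range_of_inj hinj, Module.finrank_fintype_fun_eq_card]
  unfold h8_numCycles
  rw [Nat.card_eq_fintype_card]

/-- rank of `1 - P σ` = `n - number of cycles`. -/
theorem h8_finrank_range_A (σ : Perm Q) :
    Module.finrank ℚ (LinearMap.range (h8_A σ)) + h8_numCycles σ = Fintype.card Q := by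
  have h := LinearMap.finrank_range_add_finrank_ker (h8_A σ)
  rw [h8_finrank_ker_A, Module.finrank_fintype_fun_eq_card] at h
  exact h

end Linear


section Scott

variable {Q : Type*} [Fintype Q] [DecidableEq Q]

/-- functions invariant under two permutations are invariant under the generated group. -/
theorem h8_invariant_closure (g₁ g₂ : Perm Q) (f : Q → ℚ)
    (h1 : ∀ x, f (g₁ x) = f x) (h2 : ∀ x, f (g₂ x) = f x)
    (g : Perm Q) (hg : g ∈ Subgroup.closure ({g₁, g₂} : Set (Perm Q))) (x : Q) :
    f (g x) = f x := by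
  induction hg using Subgroup.closure_induction generalizing x with
  | mem g hg =>
    rcases hg with rfl | hg
    · exact h1 x
    · rw [Set.mem_singleton_iff] at hg; subst hg; exact h2 x
  | one => rfl
  | mul a b _ _ iha ihb => rw [Perm.mul_apply, iha, ihb]
  | inv a _ iha =>
    have := iha (a⁻¹ x)
    simp only [Equiv.Perm.coe_inv, Equiv.apply_symm_apply] at this
    simp only [Equiv.Perm.coe_inv]
    exact this.symm

/-- the constant functions. -/
noncomputable def h8_const : ℚ →ₗ[ℚ] (Q → ℚ) where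
  toFun c := fun _ => c
  map_add' _ _ := rfl
  map_smul' _ _ := rfl

/-- the sum functional. -/
noncomputable def h8_sum : (Q → ℚ) →ₗ[ℚ] ℚ where
  toFun f := ∑ x, f x
  map_add' f g := by simp [Finset.sum_add_distrib]
  map_smul' c f := by simp [Finset.mul_sum]

theorem h8_finrank_ker_sum : Fintype.card Q ≤ Module.finrank ℚ (LinearMap.ker (h8_sum (Q := Q))) + 1 := by
  have h := LinearMap.finrank_range_add_finrank_ker (h8_sum (Q := Q))
  rw [Module.finrank_fintype_fun_eq_card] at h
  have h1 : Module.finrank ℚ (LinearMap.range (h8_sum (Q := Q))) ≤ 1 := by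
    have := Submodule.finrank_le (LinearMap.range (h8_sum (Q := Q)))
    simpa using this
  omega

/-- **Scott's lemma** for a transitive permutation triple `g₁ g₂ = g₃`:
`rk(1-g₁) + rk(1-g₂) + rk(1-g₃) ≥ 2n - 2`. -/
theorem h8_scott (g₁ g₂ g₃ : Perm Q) (hrel : g₁ * g₂ = g₃)
    (htrans : ∀ x y : Q, ∃ g ∈ Subgroup.closure ({g₁, g₂} : Set (Perm Q)), g x = y) :
    2 * Fintype.card Q ≤
      Module.finrank ℚ (LinearMap.range (h8_A g₁)) + Module.finrank ℚ (LinearMap.range (h8_A g₂))
        + Module.finrank ℚ (LinearMap.range (h8_A g₃)) + 2 := by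
  classical
  set R₁ := LinearMap.range (h8_A g₁) with hR₁
  set R₂ := LinearMap.range (h8_A g₂) with hR₂
  set R₃ := LinearMap.range (h8_A g₃) with hR₃
  -- the two maps
  let δ : (R₁ × R₂ × R₃) →ₗ[ℚ] (Q → ℚ) :=
    R₁.subtype.comp (LinearMap.fst ℚ R₁ (R₂ × R₃))
      + ((h8_P g₁).comp R₂.subtype).comp ((LinearMap.fst ℚ R₂ R₃).comp (LinearMap.snd ℚ R₁ (R₂ × R₃)))
      - R₃.subtype.comp ((LinearMap.snd ℚ R₂ R₃).comp (LinearMap.snd ℚ R₁ (R₂ × R₃)))
  let β : (Q → ℚ) →ₗ[ℚ] (R₁ × R₂ × R₃) :=
    (h8_A g₁).rangeRestrict.prod ((h8_A g₂).rangeRestrict.prod (h8_A g₃).rangeRestrict)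
  have hδ : ∀ a : R₁ × R₂ × R₃, δ a = (a.1 : Q → ℚ) + h8_P g₁ (a.2.1 : Q → ℚ) - (a.2.2 : Q → ℚ) :=
    fun a => rfl
  have hβ : ∀ f, β f = (⟨h8_A g₁ f, ⟨f, rfl⟩⟩, ⟨h8_A g₂ f, ⟨f, rfl⟩⟩, ⟨h8_A g₃ f, ⟨f, rfl⟩⟩) :=
    fun f => rfl
  have hδβ : ∀ f, δ (β f) = 0 := by
    intro f
    rw [hδ, hβ]
    simp only [h8_A_apply, map_sub]
    have : h8_P g₁ (h8_P g₂ f) = h8_P g₃ f := by
      rw [← hrel, h8_P_mul]; rfl
    rw [this]
    abel
  -- dimension count
  have hdim : Module.finrank ℚ (R₁ × R₂ × R₃) =
      Module.finrank ℚ R₁ + Module.finrank ℚ R₂ + Module.finrank ℚ R₃ := by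
    rw [Module.finrank_prod, Module.finrank_prod]; ring
  have hrn := LinearMap.finrank_range_add_finrank_ker δ
  have hβle : LinearMap.range β ≤ LinearMap.ker δ := by
    rintro _ ⟨f, rfl⟩
    exact hδβ f
  have h1 : Module.finrank ℚ (LinearMap.range β) ≤ Module.finrank ℚ (LinearMap.ker δ) :=
    Submodule.finrank_mono hβle
  -- rank of β
  have hβrn := LinearMap.finrank_range_add_finrank_ker β
  rw [Module.finrank_fintype_fun_eq_card] at hβrn
  have hkerβ : Module.finrank ℚ (LinearMap.ker β) ≤ 1 := by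
    have hle : LinearMap.ker β ≤ LinearMap.range (h8_const (Q := Q)) := by
      intro f hf
      rw [LinearMap.mem_ker, hβ] at hf
      have hf1 : h8_A g₁ f = 0 := by
        have := congrArg (fun a => (a.1 : Q → ℚ)) hf
        simpa using this
      have hf2 : h8_A g₂ f = 0 := by
        have := congrArg (fun a => (a.2.1 : Q → ℚ)) hf
        simpa using this
      have i1 := (h8_mem_ker_A_iff g₁ f).mp hf1
      have i2 := (h8_mem_ker_A_iff g₂ f).mp hf2
      rcases isEmpty_or_nonempty Q with hQ | ⟨⟨x₀⟩⟩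
      · exact ⟨0, funext fun x => (hQ.false x).elim⟩
      · refine ⟨f x₀, funext fun y => ?_⟩
        obtain ⟨g, hg, hgy⟩ := htrans x₀ y
        show f x₀ = f y
        rw [← hgy, h8_invariant_closure g₁ g₂ f i1 i2 g hg]
    calc Module.finrank ℚ (LinearMap.ker β)
        ≤ Module.finrank ℚ (LinearMap.range (h8_const (Q := Q))) := Submodule.finrank_mono hle
      _ ≤ Module.finrank ℚ ℚ := LinearMap.finrank_range_le _
      _ = 1 := Module.finrank_self ℚ
  -- range of δ contains the sum-zero hyperplane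
  have hW : LinearMap.ker (h8_sum (Q := Q)) ≤ LinearMap.range δ := by
    set W := LinearMap.range δ with hWdef
    have w1 : ∀ r ∈ R₁, r ∈ W := by
      intro r hr
      refine ⟨(⟨r, hr⟩, 0, 0), ?_⟩
      rw [hδ]; simp
    have w2 : ∀ r ∈ R₂, h8_P g₁ r ∈ W := by
      intro r hr
      refine ⟨(0, ⟨r, hr⟩, 0), ?_⟩
      rw [hδ]; simp
    have w3 : ∀ r ∈ R₃, r ∈ W := by
      intro r hr
      have : -r ∈ W := by
        refine ⟨(0, 0, ⟨r, hr⟩), ?_⟩
        rw [hδ]; simp
      simpa using W.neg_mem this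
    have w2' : ∀ r ∈ R₂, r ∈ W := by
      intro r hr
      have e : r = h8_P g₁ r + h8_A g₁ r := by rw [h8_A_apply]; abel
      rw [e]
      exact W.add_mem (w2 r hr) (w1 _ ⟨r, rfl⟩)
    have hstep1 : ∀ x : Q, (Pi.single x (1:ℚ) - Pi.single (g₁ x) (1:ℚ) : Q → ℚ) ∈ W := by
      intro x
      apply w1
      refine ⟨Pi.single x 1, ?_⟩
      rw [h8_A_apply, h8_P_single]
    have hstep2 : ∀ x : Q, (Pi.single x (1:ℚ) - Pi.single (g₂ x) (1:ℚ) : Q → ℚ) ∈ W := by
      intro x
      apply w2'
      refine ⟨Pi.single x 1, ?_⟩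
      rw [h8_A_apply, h8_P_single]
    have hcl : ∀ g ∈ Subgroup.closure ({g₁, g₂} : Set (Perm Q)), ∀ x : Q,
        (Pi.single x (1:ℚ) - Pi.single (g x) (1:ℚ) : Q → ℚ) ∈ W := by
      intro g hg
      induction hg using Subgroup.closure_induction with
      | mem g hg =>
        rcases hg with rfl | hg
        · exact hstep1
        · rw [Set.mem_singleton_iff] at hg; subst hg; exact hstep2
      | one => intro x; simp
      | mul a b _ _ iha ihb =>
        intro x
        have e : (Pi.single x (1:ℚ) - Pi.single ((a * b) x) (1:ℚ) : Q → ℚ) =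
            (Pi.single x (1:ℚ) - Pi.single (b x) (1:ℚ)) +
            (Pi.single (b x) (1:ℚ) - Pi.single (a (b x)) (1:ℚ)) := by
          rw [Perm.mul_apply]; abel
        rw [e]
        exact W.add_mem (ihb x) (iha (b x))
      | inv a _ iha =>
        intro x
        have := iha (a⁻¹ x)
        simp only [Equiv.Perm.coe_inv, Equiv.apply_symm_apply] at this
        have e : (Pi.single x (1:ℚ) - Pi.single (a⁻¹ x) (1:ℚ) : Q → ℚ) =
            -(Pi.single ((Equiv.symm a) x) (1:ℚ) - Pi.single x (1:ℚ)) := by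
          simp only [Equiv.Perm.coe_inv]; abel
        rw [e]
        exact W.neg_mem this
    have hall : ∀ x y : Q, (Pi.single x (1:ℚ) - Pi.single y (1:ℚ) : Q → ℚ) ∈ W := by
      intro x y
      obtain ⟨g, hg, hgy⟩ := htrans x y
      rw [← hgy]
      exact hcl g hg x
    intro f hf
    rw [LinearMap.mem_ker] at hf
    rcases isEmpty_or_nonempty Q with hQ | ⟨⟨x₀⟩⟩
    · have : f = 0 := funext fun x => (hQ.false x).elim
      rw [this]; exact W.zero_mem
    · have hsum : ∑ x, f x = 0 := hf
      have e : f = ∑ x, f x • (Pi.single x (1:ℚ) - Pi.single x₀ (1:ℚ) : Q → ℚ) := by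
        have e1 : f = ∑ x, f x • (Pi.single x (1:ℚ) : Q → ℚ) := by
          ext y
          simp [Finset.sum_apply, Pi.single_apply]
        have e2 : ∑ x, f x • (Pi.single x (1:ℚ) - Pi.single x₀ (1:ℚ) : Q → ℚ) =
            ∑ x, f x • (Pi.single x (1:ℚ) : Q → ℚ) - (∑ x, f x) • (Pi.single x₀ (1:ℚ) : Q → ℚ) := by
          simp only [smul_sub, Finset.sum_sub_distrib, Finset.sum_smul]
        rw [e2, hsum, zero_smul, sub_zero]
        exact e1
      rw [e]
      exact W.sum_mem fun x _ => W.smul_mem _ (hall x x₀)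
  have h2 : Fintype.card Q ≤ Module.finrank ℚ (LinearMap.range δ) + 1 := by
    have := Submodule.finrank_mono hW
    have h' := h8_finrank_ker_sum (Q := Q)
    omega
  rw [hdim] at hrn
  omega

end Scott


section Genus

variable {Q : Type*} [Fintype Q] [DecidableEq Q]

/-- **(B3) Integrality and nonnegativity of the genus formula** for a transitive triple
`s * t = u`, `s² = 1`, `u³ = 1` of permutations of a finite set `Q`:
`1 + n/12 - f₂/4 - f₃/3 - c/2` is a natural number, where `n = |Q|`, `f₂ = #Fix s`, `f₃ = #Fix u`,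
`c = #cycles of t`. -/
theorem h8_genus_nat (s t u : Perm Q) (hrel : s * t = u) (hs : s ^ 2 = 1) (hu : u ^ 3 = 1)
    (htrans : ∀ x y : Q, ∃ g ∈ Subgroup.closure ({s, t} : Set (Perm Q)), g x = y) :
    ∃ g : ℕ, (g : ℚ) = 1 + (Fintype.card Q : ℚ) / 12
      - (Fintype.card (Function.fixedPoints s) : ℚ) / 4
      - (Fintype.card (Function.fixedPoints u) : ℚ) / 3 - (h8_numCycles t : ℚ) / 2 := by
  have hsc := h8_scott s t u hrel htrans
  have r1 := h8_finrank_range_A s
  have r2 := h8_finrank_range_A t
  have r3 := h8_finrank_range_A u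
  have c2 := h8_numCycles_of_pow_prime s Nat.prime_two hs
  have c3 := h8_numCycles_of_pow_prime u Nat.prime_three hu
  -- parity
  have hsign : Perm.sign s * Perm.sign t = Perm.sign u := by rw [← hrel, Perm.sign_mul]
  rw [h8_sign_eq s, h8_sign_eq t, h8_sign_eq u, ← pow_add] at hsign
  have hpar : Even (Fintype.card Q + h8_numCycles s + (Fintype.card Q + h8_numCycles t) +
      (Fintype.card Q + h8_numCycles u)) := by
    have h1 : (-1 : ℤˣ) ^ (Fintype.card Q + h8_numCycles s + (Fintype.card Q + h8_numCycles t) +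
        (Fintype.card Q + h8_numCycles u)) = 1 := by
      rw [pow_add, hsign, ← pow_add, ← two_mul, pow_mul]
      simp
    have hne : (-1 : ℤˣ) ≠ 1 := by decide
    exact (neg_one_pow_eq_one_iff_even hne).mp h1
  obtain ⟨k, hk⟩ := hpar
  -- n + 2 - (z_s + z_t + z_u) is even and nonnegative
  have hle : h8_numCycles s + h8_numCycles t + h8_numCycles u ≤ Fintype.card Q + 2 := by omega
  obtain ⟨g, hg⟩ : ∃ g : ℕ, Fintype.card Q + 2 = h8_numCycles s + h8_numCycles t + h8_numCycles u + 2 * g := by
    refine ⟨(Fintype.card Q + 2 - (h8_numCycles s + h8_numCycles t + h8_numCycles u)) / 2, ?_⟩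
    omega
  refine ⟨g, ?_⟩
  have hgQ : ((Fintype.card Q : ℚ) + 2) = (h8_numCycles s : ℚ) + h8_numCycles t + h8_numCycles u + 2 * g := by
    exact_mod_cast hg
  have c2Q : 2 * (h8_numCycles s : ℚ) + (Fintype.card (Function.fixedPoints s) : ℚ) =
      (Fintype.card Q : ℚ) + 2 * (Fintype.card (Function.fixedPoints s) : ℚ) := by exact_mod_cast c2
  have c3Q : 3 * (h8_numCycles u : ℚ) + (Fintype.card (Function.fixedPoints u) : ℚ) =
      (Fintype.card Q : ℚ) + 3 * (Fintype.card (Function.fixedPoints u) : ℚ) := by exact_mod_cast c3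
  linarith

end Genus

end Fermat.Agent.Lib.X0
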