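/-
X0 project (S24), piece (B3, concrete) (helper8): from the four counts on `SL(2,ℤ)/Γ₀(N)`
the genus formula is a natural number.
-/
import Mathlib
import Fermat.Agent.Lib.X0.Defs
import Fermat.Agent.Lib.X0.Scott

set_option autoImplicit false

open scoped MatrixGroups
open CongruenceSubgroup ModularCurve

namespace Fermat.Agent.Lib.X0

/-- `-1` acts trivially on the left cosets of `Γ₀(N)`. -/
theorem h8_neg_one_smul (N : ℕ) (q : QN N) : (-1 : SL(2, ℤ)) • q = q := by
  induction q using QuotientGroup.induction_on with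
  | H g =>
    show ((((-1 : SL(2, ℤ)) * g : SL(2, ℤ)) : QN N)) = (g : QN N)
    rw [QuotientGroup.eq]
    have h : ((-1 : SL(2, ℤ)) * g)⁻¹ * g = -1 := by
      rw [mul_inv_rev]
      have : ((-1 : SL(2, ℤ)))⁻¹ = -1 := by decide
      rw [this]
      have hc : g⁻¹ * (-1 : SL(2, ℤ)) = (-1) * g⁻¹ := by
        ext i j
        simp
      rw [hc, mul_assoc, inv_mul_cancel, mul_one]
    rw [h, Gamma0_mem]
    simp

theorem h8_S_sq : (matS : SL(2, ℤ)) ^ 2 = -1 := by decide

theorem h8_U_cube : (matU : SL(2, ℤ)) ^ 3 = -1 := by decide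

theorem h8_toPerm_zpow {G α : Type*} [Group G] [MulAction G α] (g : G) (i : ℤ) (a : α) :
    ((MulAction.toPerm g : Equiv.Perm α) ^ i) a = g ^ i • a := by
  have h : (MulAction.toPerm g : Equiv.Perm α) ^ i = MulAction.toPerm (g ^ i) :=
    (map_zpow (MulAction.toPermHom G α) g i).symm
  rw [h]
  rfl

/-- cycles of `toPerm g` = orbits of `zpowers g`. -/
theorem h8_numCycles_toPerm {G α : Type*} [Group G] [MulAction G α] [Fintype α] [DecidableEq α]
    (g : G) :
    h8_numCycles (MulAction.toPerm g : Equiv.Perm α) =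
      Nat.card (MulAction.orbitRel.Quotient (Subgroup.zpowers g) α) := by
  unfold h8_numCycles MulAction.orbitRel.Quotient
  apply Nat.card_congr
  refine Quotient.congr (Equiv.refl α) ?_
  intro a b
  show Equiv.Perm.SameCycle (MulAction.toPerm g) a b ↔ a ∈ MulAction.orbit (Subgroup.zpowers g) b
  constructor
  · rintro ⟨i, hi⟩
    refine ⟨⟨g ^ (-i), ⟨-i, rfl⟩⟩, ?_⟩
    show g ^ (-i) • b = a
    rw [← hi]
    rw [h8_toPerm_zpow, smul_smul, ← zpow_add]
    simp
  · rintro ⟨⟨_, ⟨i, rfl⟩⟩, hi⟩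
    refine ⟨-i, ?_⟩
    have hi' : g ^ i • b = a := hi
    rw [h8_toPerm_zpow, ← hi', smul_smul, ← zpow_add]
    simp

/-- **(B3) concrete**: the genus formula of `X₀(N)` is a natural number, given the four counts. -/
theorem h8_genus_exists (N : ℕ) [NeZero N]
    (h1 : Nat.card (QN N) = dedekindPsi N)
    (h2 : Nat.card {q : QN N // matS • q = q} = nuTwo N)
    (h3 : Nat.card {q : QN N // matU • q = q} = nuThree N)
    (h4 : Nat.card (MulAction.orbitRel.Quotient (Subgroup.zpowers matT) (QN N)) = cuspCount N) :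
    ∃ g : ℕ, (g : ℚ) = genusFormula N := by
  classical
  letI : Fintype (QN N) := Subgroup.fintypeQuotientOfFiniteIndex
  set s : Equiv.Perm (QN N) := MulAction.toPerm matS with hs
  set t : Equiv.Perm (QN N) := MulAction.toPerm matT with ht
  set u : Equiv.Perm (QN N) := MulAction.toPerm matU with hu
  have hrel : s * t = u := by
    rw [hs, ht, hu]
    exact (map_mul (MulAction.toPermHom SL(2, ℤ) (QN N)) matS matT).symm
  have hneg : (MulAction.toPerm (-1 : SL(2, ℤ)) : Equiv.Perm (QN N)) = 1 := by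
    ext q
    exact h8_neg_one_smul N q
  have hs2 : s ^ 2 = 1 := by
    rw [hs, ← hneg, ← h8_S_sq]
    exact (map_pow (MulAction.toPermHom SL(2, ℤ) (QN N)) matS 2).symm
  have hu3 : u ^ 3 = 1 := by
    rw [hu, ← hneg, ← h8_U_cube]
    exact (map_pow (MulAction.toPermHom SL(2, ℤ) (QN N)) matU 3).symm
  have htrans : ∀ x y : QN N, ∃ g ∈ Subgroup.closure ({s, t} : Set (Equiv.Perm (QN N))), g x = y := by
    intro x y
    obtain ⟨g, hg⟩ := MulAction.exists_smul_eq SL(2, ℤ) x y
    refine ⟨MulAction.toPerm g, ?_, hg⟩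
    have hcl : (MulAction.toPermHom SL(2, ℤ) (QN N)) g ∈
        Subgroup.map (MulAction.toPermHom SL(2, ℤ) (QN N))
          (Subgroup.closure ({ModularGroup.S, ModularGroup.T} : Set SL(2, ℤ))) := by
      rw [SpecialLinearGroup.SL2Z_generators]
      exact Subgroup.mem_map_of_mem _ (Subgroup.mem_top g)
    rw [MonoidHom.map_closure] at hcl
    have himg : (MulAction.toPermHom SL(2, ℤ) (QN N)) '' ({ModularGroup.S, ModularGroup.T} : Set SL(2, ℤ))
        = ({s, t} : Set (Equiv.Perm (QN N))) := by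
      rw [Set.image_pair]
      rfl
    rw [himg] at hcl
    exact hcl
  obtain ⟨g, hg⟩ := h8_genus_nat s t u hrel hs2 hu3 htrans
  refine ⟨g, ?_⟩
  rw [hg, genusFormula]
  have e1 : Fintype.card (QN N) = dedekindPsi N := by rw [← h1, Nat.card_eq_fintype_card]
  have e2 : Fintype.card (Function.fixedPoints s) = nuTwo N := by
    rw [← h2, ← Nat.card_eq_fintype_card]
    rfl
  have e3 : Fintype.card (Function.fixedPoints u) = nuThree N := by
    rw [← h3, ← Nat.card_eq_fintype_card]
    rfl
  have e4 : h8_numCycles t = cuspCount N := by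
    rw [← h4, ht]
    exact h8_numCycles_toPerm matT
  rw [e1, e2, e3, e4]

end Fermat.Agent.Lib.X0
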