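/-
X0 project (S24), piece (B2) (helper8): the number of `T`-orbits on `SL(2,ℤ)/Γ₀(N)` is
`cuspCount N = ∑_{d ∣ N} φ(gcd(d, N/d))`.
-/
import Mathlib
import Fermat.Agent.Lib.X0.Defs
import Fermat.Agent.Lib.X0.P1

set_option autoImplicit false

open scoped MatrixGroups
open CongruenceSubgroup ModularCurve

namespace Fermat.Agent.Lib.X0

section ZModLemmas

variable {N : ℕ} [NeZero N]

/-- an element of `ZMod N` dies in `ZMod m` (`m ∣ N`) iff it is a multiple of `m`. -/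
theorem h8_cast_eq_zero_iff {m : ℕ} (hm : m ∣ N) (x : ZMod N) :
    ZMod.castHom hm (ZMod m) x = 0 ↔ ∃ y : ZMod N, x = (m : ZMod N) * y := by
  constructor
  · intro h
    rw [ZMod.castHom_apply, ← ZMod.natCast_val, ZMod.natCast_eq_zero_iff] at h
    obtain ⟨y, hy⟩ := h
    refine ⟨(y : ZMod N), ?_⟩
    rw [← Nat.cast_mul, ← hy, ZMod.natCast_zmod_val]
  · rintro ⟨y, rfl⟩
    rw [map_mul, map_natCast, ZMod.natCast_self, zero_mul]

/-- `μ d = d` in `ZMod N` iff `μ ≡ 1 mod N/d`. -/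
theorem h8_mul_eq_self_iff {d : ℕ} (hd : d ∣ N) (μ : ZMod N) :
    μ * (d : ZMod N) = (d : ZMod N) ↔ ZMod.castHom (Nat.div_dvd_of_dvd hd) (ZMod (N / d)) μ = 1 := by
  have hN : N ≠ 0 := NeZero.ne N
  have hd0 : d ≠ 0 := fun h => hN (by rw [h] at hd; exact Nat.eq_zero_of_zero_dvd hd)
  have hNd : d * (N / d) = N := Nat.mul_div_cancel' hd
  constructor
  · intro h
    have h1 : ZMod.castHom (Nat.div_dvd_of_dvd hd) (ZMod (N / d)) (μ - 1) = 0 := by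
      rw [ZMod.castHom_apply, ← ZMod.natCast_val, ZMod.natCast_eq_zero_iff]
      have h2 : (μ - 1) * (d : ZMod N) = 0 := by rw [sub_mul, h, one_mul, sub_self]
      have h3 : (((μ - 1).val * d : ℕ) : ZMod N) = 0 := by
        rw [Nat.cast_mul, ZMod.natCast_zmod_val]; exact h2
      rw [ZMod.natCast_eq_zero_iff] at h3
      -- N ∣ val * d  ⟹ N/d ∣ val
      have h4 : (N / d) * d ∣ (μ - 1).val * d := by
        have : (N / d) * d = N := Nat.div_mul_cancel hd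
        rw [this]; exact h3
      exact Nat.dvd_of_mul_dvd_mul_right (Nat.pos_of_ne_zero hd0) h4
    rw [map_sub, map_one, sub_eq_zero] at h1
    exact h1
  · intro h
    have h1 : ZMod.castHom (Nat.div_dvd_of_dvd hd) (ZMod (N / d)) (μ - 1) = 0 := by
      rw [map_sub, map_one, h, sub_self]
    obtain ⟨y, hy⟩ := (h8_cast_eq_zero_iff _ _).mp h1
    have : μ = 1 + ((N / d : ℕ) : ZMod N) * y := by rw [← hy]; ring
    rw [this, add_mul, one_mul, mul_right_comm, ← Nat.cast_mul, Nat.div_mul_cancel hd,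
      ZMod.natCast_self, zero_mul, add_zero]

end ZModLemmas


section Normalize

variable {N : ℕ} [NeZero N]

/-- (K1) every `c : ZMod N` is a unit multiple of the divisor `gcd(c, N)`. -/
theorem h8_normalize (c : ZMod N) :
    ∃ u : (ZMod N)ˣ, (u : ZMod N) * c = ((Nat.gcd c.val N : ℕ) : ZMod N) := by
  set d := Nat.gcd c.val N with hd
  have hdN : d ∣ N := Nat.gcd_dvd_right _ _
  have hdc : d ∣ c.val := Nat.gcd_dvd_left _ _
  have hd0 : 0 < d := Nat.gcd_pos_of_pos_right _ (NeZero.pos N)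
  set c' := c.val / d with hc'
  have hcop : Nat.Coprime c' (N / d) := Nat.coprime_div_gcd_div_gcd hd0
  haveI : NeZero (N / d) := ⟨(Nat.div_pos (Nat.le_of_dvd (NeZero.pos N) hdN) hd0).ne'⟩
  let u₀ : (ZMod (N / d))ˣ := ZMod.unitOfCoprime c' hcop
  obtain ⟨u, hu⟩ := ZMod.unitsMap_surjective (Nat.div_dvd_of_dvd hdN) u₀⁻¹
  refine ⟨u, ?_⟩
  have hc : c = (d : ZMod N) * (c' : ZMod N) := by
    rw [← Nat.cast_mul, Nat.mul_div_cancel' hdc, ZMod.natCast_zmod_val]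
  have h1 : ZMod.castHom (Nat.div_dvd_of_dvd hdN) (ZMod (N / d)) ((u : ZMod N) * (c' : ZMod N)) = 1 := by
    rw [map_mul, map_natCast]
    have h2 : ZMod.castHom (Nat.div_dvd_of_dvd hdN) (ZMod (N / d)) (u : ZMod N) =
        ((u₀⁻¹ : (ZMod (N / d))ˣ) : ZMod (N / d)) := by
      rw [← hu]; rfl
    rw [h2]
    have h3 : (c' : ZMod (N / d)) = (u₀ : ZMod (N / d)) := by
      simp [u₀, ZMod.coe_unitOfCoprime]
    rw [h3, ← Units.val_mul, inv_mul_cancel, Units.val_one]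
  have h4 := (h8_mul_eq_self_iff hdN ((u : ZMod N) * (c' : ZMod N))).mpr h1
  rw [hc]
  linear_combination h4

/-- (D) two divisors of `N` that are unit multiples of each other in `ZMod N` are equal. -/
theorem h8_divisor_unique {d₁ d₂ : ℕ} (h₁ : d₁ ∣ N) (h₂ : d₂ ∣ N) (u : (ZMod N)ˣ)
    (h : (d₂ : ZMod N) = (u : ZMod N) * (d₁ : ZMod N)) : d₁ = d₂ := by
  have key : ∀ {e₁ e₂ : ℕ}, e₁ ∣ N → e₂ ∣ N → ∀ w : ZMod N, (e₂ : ZMod N) = w * (e₁ : ZMod N) →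
      e₁ ∣ e₂ := by
    intro e₁ e₂ he₁ he₂ w hw
    have h1 := congrArg (ZMod.castHom he₁ (ZMod e₁)) hw
    rw [map_mul, map_natCast, map_natCast, ZMod.natCast_self, mul_zero] at h1
    exact (ZMod.natCast_eq_zero_iff _ _).mp h1
  apply Nat.dvd_antisymm
  · exact key h₁ h₂ _ h
  · refine key h₂ h₁ ((u⁻¹ : (ZMod N)ˣ) : ZMod N) ?_
    rw [h, ← mul_assoc, ← Units.val_mul, inv_mul_cancel, Units.val_one, one_mul]

end Normalize


section LemmaB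

variable {N : ℕ} [NeZero N]

/-- (B) lifting a unit `ρ mod d` with `ρ ≡ 1 mod gcd(d, N/d)` to a unit `μ mod N` with
`μ ≡ ρ mod d` and `μ ≡ 1 mod N/d`. -/
theorem h8_lift_unit {d : ℕ} (hd : d ∣ N) (ρ : ZMod d)
    (hρu : IsUnit ρ)
    (hρ : ZMod.castHom (Nat.gcd_dvd_left d (N / d)) (ZMod (Nat.gcd d (N / d))) ρ = 1) :
    ∃ μ : (ZMod N)ˣ, ZMod.castHom hd (ZMod d) (μ : ZMod N) = ρ ∧
      ZMod.castHom (Nat.div_dvd_of_dvd hd) (ZMod (N / d)) (μ : ZMod N) = 1 := by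
  have hN : 0 < N := NeZero.pos N
  have hd0 : 0 < d := Nat.pos_of_dvd_of_pos hd hN
  haveI : NeZero d := ⟨hd0.ne'⟩
  have hNd : d * (N / d) = N := Nat.mul_div_cancel' hd
  -- ρ.val ≡ 1 mod g
  have h1 : ρ.val ≡ 1 [MOD Nat.gcd d (N / d)] := by
    rw [ZMod.castHom_apply, ← ZMod.natCast_val] at hρ
    have : ((ρ.val : ℕ) : ZMod (Nat.gcd d (N / d))) = ((1 : ℕ) : ZMod (Nat.gcd d (N / d))) := by
      rw [hρ, Nat.cast_one]
    exact (ZMod.natCast_eq_natCast_iff _ _ _).mp this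
  obtain ⟨k, hk1, hk2⟩ := Nat.chineseRemainder' h1
  -- k coprime to d and to N/d
  have hkd : Nat.Coprime k d := by
    have hρc : Nat.Coprime ρ.val d := by
      obtain ⟨u, rfl⟩ := hρu
      exact ZMod.val_coe_unit_coprime u
    have := hk1.gcd_eq
    rw [Nat.Coprime, this]; exact hρc
  have hkNd : Nat.Coprime k (N / d) := by
    have := hk2.gcd_eq
    rw [Nat.Coprime, this]; simp
  have hkN : Nat.Coprime k N := by
    rw [← hNd]; exact Nat.Coprime.mul_right hkd hkNd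
  refine ⟨ZMod.unitOfCoprime k hkN, ?_, ?_⟩
  · rw [ZMod.coe_unitOfCoprime, map_natCast]
    have : ((k : ℕ) : ZMod d) = ((ρ.val : ℕ) : ZMod d) :=
      (ZMod.natCast_eq_natCast_iff _ _ _).mpr hk1
    rw [this, ZMod.natCast_zmod_val]
  · rw [ZMod.coe_unitOfCoprime, map_natCast]
    have : ((k : ℕ) : ZMod (N / d)) = ((1 : ℕ) : ZMod (N / d)) :=
      (ZMod.natCast_eq_natCast_iff _ _ _).mpr hk2
    rw [this, Nat.cast_one]

end LemmaB


section Classify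

variable {N : ℕ} [NeZero N]

theorem h8_gdvd {d : ℕ} (hd : d ∣ N) : Nat.gcd d (N / d) ∣ N := (Nat.gcd_dvd_left _ _).trans hd

/-- reduction `ZMod N → ZMod (gcd(d, N/d))`. -/
noncomputable def h8_cg {d : ℕ} (hd : d ∣ N) : ZMod N →+* ZMod (Nat.gcd d (N / d)) :=
  ZMod.castHom (h8_gdvd hd) _

theorem h8_cg_natCast_d {d : ℕ} (hd : d ∣ N) : h8_cg hd (d : ZMod N) = 0 := by
  unfold h8_cg
  rw [map_natCast, ZMod.natCast_eq_zero_iff]
  exact Nat.gcd_dvd_left _ _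

theorem h8_cg_natCast_Nd {d : ℕ} (hd : d ∣ N) : h8_cg hd ((N / d : ℕ) : ZMod N) = 0 := by
  unfold h8_cg
  rw [map_natCast, ZMod.natCast_eq_zero_iff]
  exact Nat.gcd_dvd_right _ _

/-- `μ d = d` implies `μ ≡ 1 mod gcd(d, N/d)`. -/
theorem h8_cg_eq_one {d : ℕ} (hd : d ∣ N) (μ : ZMod N)
    (h : μ * (d : ZMod N) = (d : ZMod N)) : h8_cg hd μ = 1 := by
  have h1 := (h8_mul_eq_self_iff hd μ).mp h
  have h2 : ZMod.castHom (Nat.div_dvd_of_dvd hd) (ZMod (N / d)) (μ - 1) = 0 := by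
    rw [map_sub, map_one, h1, sub_self]
  obtain ⟨y, hy⟩ := (h8_cast_eq_zero_iff _ _).mp h2
  have : μ = 1 + ((N / d : ℕ) : ZMod N) * y := by rw [← hy]; ring
  rw [this, map_add, map_one, map_mul, h8_cg_natCast_Nd, zero_mul, add_zero]

/-- the classifying relation between primitive vectors and normal forms `(d, r)`. -/
def h8_Rel (v : h6P1Vec N) (d : ℕ) (hd : d ∣ N) (r : (ZMod (Nat.gcd d (N / d)))ˣ) : Prop :=
  ∃ u : (ZMod N)ˣ, (u : ZMod N) * v.1.2 = (d : ZMod N) ∧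
    h8_cg hd ((u : ZMod N) * v.1.1) = (r : ZMod (Nat.gcd d (N / d)))

/-- primitivity: if `u c = d` and `m ∣ d`, then `u a` is a unit mod `m`. -/
theorem h8_isUnit_cast (v : h6P1Vec N) (u : (ZMod N)ˣ) {d m : ℕ} (hm : m ∣ N) (hmd : m ∣ d)
    (huc : (u : ZMod N) * v.1.2 = (d : ZMod N)) :
    IsUnit (ZMod.castHom hm (ZMod m) ((u : ZMod N) * v.1.1)) := by
  obtain ⟨x, y, hxy⟩ := v.2
  have hu : ((u⁻¹ : (ZMod N)ˣ) : ZMod N) * (u : ZMod N) = 1 := by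
    rw [← Units.val_mul, inv_mul_cancel, Units.val_one]
  have h1 : x * ((u⁻¹ : (ZMod N)ˣ) : ZMod N) * ((u : ZMod N) * v.1.1)
      + y * ((u⁻¹ : (ZMod N)ˣ) : ZMod N) * (d : ZMod N) = 1 := by
    rw [← huc]
    linear_combination hxy + (x * v.1.1 + y * v.1.2) * hu
  have h2 := congrArg (ZMod.castHom hm (ZMod m)) h1
  rw [map_add, map_mul, map_mul _ _ (d : ZMod N), map_natCast,
    (ZMod.natCast_eq_zero_iff d m).mpr hmd, mul_zero, add_zero, map_one] at h2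
  exact IsUnit.of_mul_eq_one _ (by rw [mul_comm]; exact h2)

/-- (E) existence of a normal form. -/
theorem h8_Rel_exists (v : h6P1Vec N) :
    ∃ (d : ℕ) (hd : d ∣ N) (r : (ZMod (Nat.gcd d (N / d)))ˣ), h8_Rel v d hd r := by
  obtain ⟨u, hu⟩ := h8_normalize v.1.2
  set d := Nat.gcd v.1.2.val N with hd
  have hdN : d ∣ N := Nat.gcd_dvd_right _ _
  have hunit := h8_isUnit_cast v u (h8_gdvd hdN) (Nat.gcd_dvd_left d (N / d)) hu
  exact ⟨d, hdN, hunit.unit, u, hu, rfl⟩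

/-- (U) uniqueness of the normal form. -/
theorem h8_Rel_unique (v : h6P1Vec N) {d₁ d₂ : ℕ} (h₁ : d₁ ∣ N) (h₂ : d₂ ∣ N)
    (r₁ : (ZMod (Nat.gcd d₁ (N / d₁)))ˣ) (r₂ : (ZMod (Nat.gcd d₂ (N / d₂)))ˣ)
    (R₁ : h8_Rel v d₁ h₁ r₁) (R₂ : h8_Rel v d₂ h₂ r₂) :
    ∃ h : d₁ = d₂, h ▸ r₁ = r₂ := by
  obtain ⟨u₁, hc₁, hr₁⟩ := R₁
  obtain ⟨u₂, hc₂, hr₂⟩ := R₂
  have hu₁ : ((u₁⁻¹ : (ZMod N)ˣ) : ZMod N) * (u₁ : ZMod N) = 1 := by
    rw [← Units.val_mul, inv_mul_cancel, Units.val_one]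
  have hd : d₁ = d₂ := by
    refine h8_divisor_unique h₁ h₂ (u₂ * u₁⁻¹) ?_
    rw [← hc₁, ← hc₂, Units.val_mul]
    linear_combination (-(u₂ : ZMod N) * v.1.2) * hu₁
  subst hd
  refine ⟨rfl, ?_⟩
  apply Units.ext
  show ((r₁ : (ZMod (Nat.gcd d₁ (N / d₁)))ˣ) : ZMod (Nat.gcd d₁ (N / d₁))) =
    ((r₂ : (ZMod (Nat.gcd d₁ (N / d₁)))ˣ) : ZMod (Nat.gcd d₁ (N / d₁)))
  rw [← hr₁, ← hr₂]
  have hμ : ((u₂ : ZMod N) * ((u₁⁻¹ : (ZMod N)ˣ) : ZMod N)) * (d₁ : ZMod N) = (d₁ : ZMod N) := by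
    nth_rewrite 1 [← hc₁]
    rw [← hc₂]
    linear_combination ((u₂ : ZMod N) * v.1.2) * hu₁
  have h1 := h8_cg_eq_one h₁ _ hμ
  have h2 : (u₂ : ZMod N) * v.1.1 =
      ((u₂ : ZMod N) * ((u₁⁻¹ : (ZMod N)ˣ) : ZMod N)) * ((u₁ : ZMod N) * v.1.1) := by
    linear_combination (-(u₂ : ZMod N) * v.1.1) * hu₁
  have h3 : h8_cg h₁ ((u₂ : ZMod N) * v.1.1) = h8_cg h₁ ((u₁ : ZMod N) * v.1.1) := by
    rw [h2, map_mul (h8_cg h₁) ((u₂ : ZMod N) * ((u₁⁻¹ : (ZMod N)ˣ) : ZMod N)), h1, one_mul]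
  exact h3.symm

end Classify


section Invariance

variable {N : ℕ} [NeZero N]

theorem h8_T_zpow_smul_fst (k : ℤ) (v : h6P1Vec N) :
    (matT ^ k • v).1.1 = v.1.1 + (k : ZMod N) * v.1.2 := by
  rw [h6P1Vec.sl_smul_fst]
  simp [ModularGroup.coe_T_zpow]

theorem h8_T_zpow_smul_snd (k : ℤ) (v : h6P1Vec N) :
    (matT ^ k • v).1.2 = v.1.2 := by
  rw [h6P1Vec.sl_smul_snd]
  simp [ModularGroup.coe_T_zpow]

theorem h8_Rel_T_iff (k : ℤ) (v : h6P1Vec N) (d : ℕ) (hd : d ∣ N)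
    (r : (ZMod (Nat.gcd d (N / d)))ˣ) : h8_Rel (matT ^ k • v) d hd r ↔ h8_Rel v d hd r := by
  unfold h8_Rel
  simp only [h8_T_zpow_smul_fst, h8_T_zpow_smul_snd]
  constructor
  · rintro ⟨u, hc, hr⟩
    refine ⟨u, hc, ?_⟩
    rw [← hr]
    have : (u : ZMod N) * (v.1.1 + (k : ZMod N) * v.1.2) =
        (u : ZMod N) * v.1.1 + (k : ZMod N) * (d : ZMod N) := by rw [← hc]; ring
    rw [this, map_add, map_mul _ (k : ZMod N), h8_cg_natCast_d, mul_zero, add_zero]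
  · rintro ⟨u, hc, hr⟩
    refine ⟨u, hc, ?_⟩
    rw [← hr]
    have : (u : ZMod N) * (v.1.1 + (k : ZMod N) * v.1.2) =
        (u : ZMod N) * v.1.1 + (k : ZMod N) * (d : ZMod N) := by rw [← hc]; ring
    rw [this, map_add, map_mul _ (k : ZMod N), h8_cg_natCast_d, mul_zero, add_zero]

theorem h8_Rel_units_iff (μ : (ZMod N)ˣ) (v : h6P1Vec N) (d : ℕ) (hd : d ∣ N)
    (r : (ZMod (Nat.gcd d (N / d)))ˣ) : h8_Rel (μ • v) d hd r ↔ h8_Rel v d hd r := by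
  unfold h8_Rel
  simp only [h6P1Vec.units_smul_fst, h6P1Vec.units_smul_snd]
  have hμ : ((μ⁻¹ : (ZMod N)ˣ) : ZMod N) * (μ : ZMod N) = 1 := by
    rw [← Units.val_mul, inv_mul_cancel, Units.val_one]
  constructor
  · rintro ⟨u, hc, hr⟩
    refine ⟨u * μ, ?_, ?_⟩
    · rw [Units.val_mul, mul_assoc]; exact hc
    · rw [Units.val_mul, mul_assoc]; exact hr
  · rintro ⟨u, hc, hr⟩
    refine ⟨u * μ⁻¹, ?_, ?_⟩
    · rw [Units.val_mul, ← hc]
      linear_combination ((u : ZMod N) * v.1.2) * hμ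
    · rw [← hr]
      congr 1
      rw [Units.val_mul]
      linear_combination ((u : ZMod N) * v.1.1) * hμ

/-- (S) every normal form occurs. -/
theorem h8_Rel_surjective (d : ℕ) (hd : d ∣ N) (r : (ZMod (Nat.gcd d (N / d)))ˣ) :
    ∃ v : h6P1Vec N, h8_Rel v d hd r := by
  obtain ⟨a, ha⟩ := ZMod.unitsMap_surjective (h8_gdvd hd) r
  have hcop : IsCoprime (a : ZMod N) (d : ZMod N) :=
    ⟨((a⁻¹ : (ZMod N)ˣ) : ZMod N), 0, by
      rw [zero_mul, add_zero, ← Units.val_mul, inv_mul_cancel, Units.val_one]⟩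
  refine ⟨⟨((a : ZMod N), (d : ZMod N)), hcop⟩, 1, ?_, ?_⟩
  · simp
  · simp only [Units.val_one, one_mul]
    rw [← ha]
    rfl

end Invariance


section Injectivity

variable {N : ℕ} [NeZero N]

/-- (J) two primitive vectors with the same normal form differ by a unit and a power of `T`. -/
theorem h8_Rel_inj (v w : h6P1Vec N) (d : ℕ) (hd : d ∣ N) (r : (ZMod (Nat.gcd d (N / d)))ˣ)
    (Rv : h8_Rel v d hd r) (Rw : h8_Rel w d hd r) :
    ∃ (μ : (ZMod N)ˣ) (k : ℤ), w = μ • (matT ^ k • v) := by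
  obtain ⟨u₁, hc₁, hr₁⟩ := Rv
  obtain ⟨u₂, hc₂, hr₂⟩ := Rw
  have hd0 : 0 < d := Nat.pos_of_dvd_of_pos hd (NeZero.pos N)
  haveI : NeZero d := ⟨hd0.ne'⟩
  set a₁ : ZMod N := (u₁ : ZMod N) * v.1.1 with ha₁
  set a₂ : ZMod N := (u₂ : ZMod N) * w.1.1 with ha₂
  -- units mod d
  have hx₁ := h8_isUnit_cast v u₁ hd dvd_rfl hc₁
  have hx₂ := h8_isUnit_cast w u₂ hd dvd_rfl hc₂
  set x₁ : (ZMod d)ˣ := hx₁.unit with hx₁def
  set x₂ : (ZMod d)ˣ := hx₂.unit with hx₂def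
  have hx₁v : (x₁ : ZMod d) = ZMod.castHom hd (ZMod d) a₁ := rfl
  have hx₂v : (x₂ : ZMod d) = ZMod.castHom hd (ZMod d) a₂ := rfl
  -- ρ = x₂ / x₁ is ≡ 1 mod g
  have hg : Nat.gcd d (N / d) ∣ d := Nat.gcd_dvd_left _ _
  have hcomp : ∀ z : ZMod N, ZMod.castHom hg (ZMod (Nat.gcd d (N / d))) (ZMod.castHom hd (ZMod d) z)
      = h8_cg hd z := by
    intro z
    have := ZMod.castHom_comp hg hd
    exact congrArg (fun f : ZMod N →+* ZMod (Nat.gcd d (N / d)) => f z) this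
  have hcoe : ∀ z : (ZMod d)ˣ, ((ZMod.unitsMap hg z : (ZMod (Nat.gcd d (N / d)))ˣ) : ZMod _) =
      ZMod.castHom hg (ZMod (Nat.gcd d (N / d))) (z : ZMod d) := fun z => rfl
  have hmap : ZMod.unitsMap hg x₁ = ZMod.unitsMap hg x₂ := by
    apply Units.ext
    rw [hcoe, hcoe, hx₁v, hx₂v, hcomp, hcomp, hr₁, hr₂]
  have hρ : ZMod.castHom hg (ZMod (Nat.gcd d (N / d))) ((x₂ * x₁⁻¹ : (ZMod d)ˣ) : ZMod d) = 1 := by
    have : ZMod.unitsMap hg (x₂ * x₁⁻¹) = 1 := by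
      rw [map_mul, map_inv, hmap, mul_inv_cancel]
    rw [← hcoe, this, Units.val_one]
  obtain ⟨μ, hμd, hμNd⟩ := h8_lift_unit hd ((x₂ * x₁⁻¹ : (ZMod d)ˣ) : ZMod d) (Units.isUnit _) hρ
  have hμdd : (μ : ZMod N) * (d : ZMod N) = (d : ZMod N) := (h8_mul_eq_self_iff hd _).mpr hμNd
  -- a₂ - μ a₁ is a multiple of d
  have hdiff : ZMod.castHom hd (ZMod d) (a₂ - (μ : ZMod N) * a₁) = 0 := by
    rw [map_sub, map_mul (ZMod.castHom hd (ZMod d)) (μ : ZMod N) a₁, hμd, ← hx₁v, ← hx₂v,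
      ← Units.val_mul, inv_mul_cancel_right, sub_self]
  obtain ⟨m, hm⟩ := (h8_cast_eq_zero_iff hd _).mp hdiff
  refine ⟨u₂⁻¹ * μ * u₁, (m.val : ℤ), ?_⟩
  have hk : (((m.val : ℕ) : ℤ) : ZMod N) = m := by
    rw [Int.cast_natCast, ZMod.natCast_zmod_val]
  have hu₂ : ((u₂⁻¹ : (ZMod N)ˣ) : ZMod N) * (u₂ : ZMod N) = 1 := by
    rw [← Units.val_mul, inv_mul_cancel, Units.val_one]
  apply h6P1Vec.ext
  · rw [h6P1Vec.units_smul_fst, h8_T_zpow_smul_fst, hk, Units.val_mul, Units.val_mul]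
    -- u₂⁻¹ μ u₁ (a_v + m c_v) = a_w
    have e1 : (u₁ : ZMod N) * (v.1.1 + m * v.1.2) = a₁ + m * (d : ZMod N) := by
      rw [ha₁, ← hc₁]; ring
    have e2 : (μ : ZMod N) * (a₁ + m * (d : ZMod N)) = a₂ := by
      have : a₂ = (μ : ZMod N) * a₁ + (d : ZMod N) * m := by rw [← hm]; ring
      rw [this, mul_add]
      linear_combination m * hμdd
    calc w.1.1 = ((u₂⁻¹ : (ZMod N)ˣ) : ZMod N) * a₂ := by
          rw [ha₂]; linear_combination (-w.1.1) * hu₂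
      _ = ((u₂⁻¹ : (ZMod N)ˣ) : ZMod N) * (μ : ZMod N) * (u₁ : ZMod N) * (v.1.1 + m * v.1.2) := by
          rw [← e2, ← e1]; ring
  · rw [h6P1Vec.units_smul_snd, h8_T_zpow_smul_snd, Units.val_mul, Units.val_mul]
    calc w.1.2 = ((u₂⁻¹ : (ZMod N)ˣ) : ZMod N) * (d : ZMod N) := by
          rw [← hc₂]; linear_combination (-w.1.2) * hu₂
      _ = ((u₂⁻¹ : (ZMod N)ˣ) : ZMod N) * (μ : ZMod N) * (u₁ : ZMod N) * v.1.2 := by
          rw [mul_assoc, mul_assoc, hc₁, hμdd]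

end Injectivity


section Count

variable {N : ℕ} [NeZero N]

/-- the type of normal forms `(d, r)`, `d ∣ N`, `r ∈ (ℤ/gcd(d, N/d))ˣ`. -/
abbrev h8_NF (N : ℕ) : Type := Σ d : {d : ℕ // d ∈ N.divisors}, (ZMod (Nat.gcd d.1 (N / d.1)))ˣ

theorem h8_card_NF : Nat.card (h8_NF N) = cuspCount N := by
  haveI : ∀ d : {d : ℕ // d ∈ N.divisors}, NeZero (Nat.gcd d.1 (N / d.1)) := fun d =>
    ⟨Nat.gcd_ne_zero_left (Nat.pos_of_mem_divisors d.2).ne'⟩
  rw [Nat.card_sigma]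
  unfold cuspCount
  rw [← Finset.sum_coe_sort N.divisors (fun d => Nat.totient (Nat.gcd d (N / d)))]
  refine Finset.sum_congr rfl fun d _ => ?_
  rw [Nat.card_eq_fintype_card, ZMod.card_units_eq_totient]

/-- the relation with bundled normal forms. -/
def h8_RelNF (v : h6P1Vec N) (nf : h8_NF N) : Prop :=
  h8_Rel v nf.1.1 (Nat.dvd_of_mem_divisors nf.1.2) nf.2

theorem h8_existsUnique_nf (v : h6P1Vec N) : ∃! nf : h8_NF N, h8_RelNF v nf := by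
  obtain ⟨d, hd, r, hR⟩ := h8_Rel_exists v
  refine ⟨⟨⟨d, Nat.mem_divisors.mpr ⟨hd, NeZero.ne N⟩⟩, r⟩, hR, ?_⟩
  rintro ⟨⟨d', hd'⟩, r'⟩ hR'
  obtain ⟨h, hr⟩ := h8_Rel_unique v (Nat.dvd_of_mem_divisors hd') hd r' r hR' hR
  subst h
  simp only at hr
  rw [hr]

/-- the normal form of a primitive vector. -/
noncomputable def h8_nf (v : h6P1Vec N) : h8_NF N := (h8_existsUnique_nf v).choose

theorem h8_nf_spec (v : h6P1Vec N) : h8_RelNF v (h8_nf v) := (h8_existsUnique_nf v).choose_spec.1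

theorem h8_nf_eq_of_rel (v : h6P1Vec N) (nf : h8_NF N) (h : h8_RelNF v nf) : h8_nf v = nf :=
  ((h8_existsUnique_nf v).choose_spec.2 nf h).symm

theorem h8_nf_units (μ : (ZMod N)ˣ) (v : h6P1Vec N) : h8_nf (μ • v) = h8_nf v :=
  h8_nf_eq_of_rel _ _ ((h8_Rel_units_iff μ v _ _ _).mpr (h8_nf_spec v))

theorem h8_nf_T (k : ℤ) (v : h6P1Vec N) : h8_nf (matT ^ k • v) = h8_nf v :=
  h8_nf_eq_of_rel _ _ ((h8_Rel_T_iff k v _ _ _).mpr (h8_nf_spec v))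

theorem h8_nf_surjective : Function.Surjective (h8_nf (N := N)) := by
  rintro ⟨⟨d, hd⟩, r⟩
  obtain ⟨v, hv⟩ := h8_Rel_surjective d (Nat.dvd_of_mem_divisors hd) r
  exact ⟨v, h8_nf_eq_of_rel v _ hv⟩

theorem h8_nf_inj (v w : h6P1Vec N) (h : h8_nf v = h8_nf w) :
    ∃ (μ : (ZMod N)ˣ) (k : ℤ), w = μ • (matT ^ k • v) := by
  have hv := h8_nf_spec v
  have hw := h8_nf_spec w
  rw [← h] at hw
  exact h8_Rel_inj v w _ _ _ hv hw

/-- the classifying map on `SL(2,ℤ)/Γ₀(N)`. -/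
noncomputable def h8_cuspClass : QN N → h8_NF N :=
  Quotient.lift (fun g : SL(2, ℤ) => h8_nf (h6_col N g)) (by
    intro a b hab
    have hab' : a⁻¹ * b ∈ Gamma0 N := QuotientGroup.leftRel_apply.mp hab
    obtain ⟨u, hu⟩ := (h6_col_rel_iff a b).mpr hab'
    show h8_nf (h6_col N a) = h8_nf (h6_col N b)
    rw [hu, h8_nf_units])

theorem h8_cuspClass_mk (g : SL(2, ℤ)) : h8_cuspClass (N := N) (g : QN N) = h8_nf (h6_col N g) := rfl

theorem h8_cuspClass_surjective : Function.Surjective (h8_cuspClass (N := N)) := by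
  intro nf
  obtain ⟨v, hv⟩ := h8_nf_surjective nf
  obtain ⟨g, hg⟩ := h6_col_surjective N v
  exact ⟨(g : QN N), by rw [h8_cuspClass_mk, hg, hv]⟩

theorem h8_cuspClass_eq_iff (q q' : QN N) :
    h8_cuspClass q = h8_cuspClass q' ↔ ∃ k : ℤ, q' = matT ^ k • q := by
  induction q using QuotientGroup.induction_on with
  | H g =>
  induction q' using QuotientGroup.induction_on with
  | H g' =>
  rw [h8_cuspClass_mk, h8_cuspClass_mk]
  constructor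
  · intro h
    obtain ⟨μ, k, hk⟩ := h8_nf_inj _ _ h
    refine ⟨k, ?_⟩
    rw [← h6_col_mul] at hk
    have := (h6_col_rel_iff (N := N) (matT ^ k * g) g').mp ⟨μ, hk⟩
    show (g' : QN N) = ((matT ^ k * g : SL(2, ℤ)) : QN N)
    exact (QuotientGroup.eq.mpr this).symm
  · rintro ⟨k, hk⟩
    have hk' : (g' : QN N) = ((matT ^ k * g : SL(2, ℤ)) : QN N) := hk
    have := QuotientGroup.eq.mp hk'.symm
    obtain ⟨u, hu⟩ := (h6_col_rel_iff (N := N) (matT ^ k * g) g').mpr this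
    rw [hu, h8_nf_units, h6_col_mul, h8_nf_T]

/-- **(B2)** the number of `T`-orbits on `SL(2,ℤ)/Γ₀(N)` is `cuspCount N`. -/
theorem h8_card_T_orbits (N : ℕ) [NeZero N] :
    Nat.card (MulAction.orbitRel.Quotient (Subgroup.zpowers matT) (QN N)) = cuspCount N := by
  rw [← h8_card_NF (N := N)]
  have hker : MulAction.orbitRel (Subgroup.zpowers matT) (QN N) = Setoid.ker (h8_cuspClass (N := N)) := by
    ext q q'
    rw [Setoid.ker_def, MulAction.orbitRel_apply, eq_comm, h8_cuspClass_eq_iff]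
    constructor
    · rintro ⟨⟨_, ⟨k, rfl⟩⟩, hk⟩
      exact ⟨k, hk.symm⟩
    · rintro ⟨k, hk⟩
      exact ⟨⟨matT ^ k, ⟨k, rfl⟩⟩, hk.symm⟩
  unfold MulAction.orbitRel.Quotient
  rw [hker]
  exact Nat.card_congr (Setoid.quotientKerEquivOfSurjective _ h8_cuspClass_surjective)

end Count

end Fermat.Agent.Lib.X0
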