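/-
X0 project (S24), slab (B1), helper6: counting.
* `h6_card_P1`     : `Nat.card (h6P1 N) = dedekindPsi N`
* `h6_card_QN`     : `Nat.card (SL(2,ℤ) ⧸ Γ₀(N)) = dedekindPsi N`
* `h6_card_fixed_S`: `#Fix(S) = nuTwo N`, `h6_card_fixed_U`: `#Fix(S*T) = nuThree N`.
-/
import Mathlib
import Fermat.Prelude.Def_ModularCurve_GenusNumerics
import Fermat.Agent.Lib.X0.P1Quot

set_option autoImplicit false

open scoped MatrixGroups
open CongruenceSubgroup Matrix ModularCurve

namespace Fermat.Agent.Lib.X0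

/-! ### (a) vectors = points × units -/

theorem h6_card_vec_eq (N : ℕ) [NeZero N] :
    Nat.card (h6P1Vec N) = Nat.card (h6P1 N) * N.totient := by
  classical
  have hfree : ∀ b : h6P1Vec N, MulAction.stabilizer (ZMod N)ˣ b = ⊥ := by
    intro b
    rw [Subgroup.eq_bot_iff_forall]
    intro u hu
    rw [MulAction.mem_stabilizer_iff] at hu
    exact (h6P1Vec.units_smul_eq_self_iff u b).1 hu
  have e := MulAction.selfEquivOrbitsQuotientProd hfree
  have h1 : Nat.card (h6P1Vec N)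
      = Nat.card (Quotient (MulAction.orbitRel (ZMod N)ˣ (h6P1Vec N)) × (ZMod N)ˣ) :=
    Nat.card_congr e
  rw [h1, Nat.card_prod]
  have h2 : Nat.card (ZMod N)ˣ = N.totient := by
    rw [Nat.card_eq_fintype_card, ZMod.card_units_eq_totient]
  rw [h2]
  rfl

/-! ### (b) multiplicativity of the number of primitive vectors -/

theorem h6_isCoprime_prod_iff {R S : Type*} [CommRing R] [CommRing S] (a c : R × S) :
    IsCoprime a c ↔ IsCoprime a.1 c.1 ∧ IsCoprime a.2 c.2 := by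
  constructor
  · rintro ⟨x, y, h⟩
    exact ⟨⟨x.1, y.1, congrArg Prod.fst h⟩, ⟨x.2, y.2, congrArg Prod.snd h⟩⟩
  · rintro ⟨⟨x1, y1, h1⟩, ⟨x2, y2, h2⟩⟩
    exact ⟨(x1, x2), (y1, y2), Prod.ext h1 h2⟩

theorem h6_isCoprime_ringEquiv_iff {A B : Type*} [CommRing A] [CommRing B] (e : A ≃+* B)
    (a c : A) : IsCoprime (e a) (e c) ↔ IsCoprime a c := by
  constructor
  · intro h
    have := h.map (e.symm : B →+* A)
    simpa using this
  · intro h
    exact h.map (e : A →+* B)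

theorem h6_card_vec_mul {m n : ℕ} (hmn : m.Coprime n) :
    Nat.card (h6P1Vec (m * n)) = Nat.card (h6P1Vec m) * Nat.card (h6P1Vec n) := by
  let e := ZMod.chineseRemainder hmn
  let E1 : (ZMod (m * n) × ZMod (m * n)) ≃ ((ZMod m × ZMod m) × (ZMod n × ZMod n)) :=
    (e.toEquiv.prodCongr e.toEquiv).trans (Equiv.prodProdProdComm _ _ _ _)
  have E2 : h6P1Vec (m * n) ≃
      {x : (ZMod m × ZMod m) × (ZMod n × ZMod n) // IsCoprime x.1.1 x.1.2 ∧ IsCoprime x.2.1 x.2.2} :=
    Equiv.subtypeEquiv E1 (by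
      intro v
      rw [← h6_isCoprime_ringEquiv_iff e, h6_isCoprime_prod_iff]
      rfl)
  have E3 : {x : (ZMod m × ZMod m) × (ZMod n × ZMod n) //
      IsCoprime x.1.1 x.1.2 ∧ IsCoprime x.2.1 x.2.2} ≃ h6P1Vec m × h6P1Vec n :=
    Equiv.subtypeProdEquivProd (p := fun a : ZMod m × ZMod m => IsCoprime a.1 a.2)
      (q := fun b : ZMod n × ZMod n => IsCoprime b.1 b.2)
  rw [Nat.card_congr (E2.trans E3), Nat.card_prod]

/-! ### (c) prime powers -/

theorem h6_isCoprime_iff_isUnit_or {p k : ℕ} (hp : p.Prime) (hk : 0 < k) (a c : ZMod (p ^ k)) :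
    IsCoprime a c ↔ IsUnit a ∨ IsUnit c := by
  have : NeZero (p ^ k) := ⟨pow_ne_zero k hp.ne_zero⟩
  have hdiv : ∀ b : ZMod (p ^ k), ¬ IsUnit b → ∃ b' : ZMod (p ^ k), b = (p : ZMod (p ^ k)) * b' := by
    intro b hb
    have h1 : ¬ Nat.Coprime b.val (p ^ k) := by
      intro hcop
      apply hb
      have := (ZMod.isUnit_iff_coprime b.val (p ^ k)).2 hcop
      rwa [ZMod.natCast_zmod_val] at this
    have h2 : p ∣ b.val := by
      by_contra hnd
      exact h1 (((hp.coprime_iff_not_dvd).2 hnd).symm.pow_right k)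
    obtain ⟨m, hm⟩ := h2
    refine ⟨(m : ZMod (p ^ k)), ?_⟩
    rw [← ZMod.natCast_zmod_val b, hm]
    push_cast
    rfl
  have hpnu : ¬ IsUnit ((p : ℕ) : ZMod (p ^ k)) := by
    rw [ZMod.isUnit_iff_coprime]
    intro hcop
    have h1 : p ∣ p ^ k := dvd_pow_self p hk.ne'
    have := Nat.eq_one_of_dvd_coprimes hcop (dvd_refl p) h1
    exact hp.one_lt.ne' this
  constructor
  · intro h
    by_contra hcon
    push Not at hcon
    obtain ⟨a', rfl⟩ := hdiv a hcon.1
    obtain ⟨c', rfl⟩ := hdiv c hcon.2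
    obtain ⟨x, y, hxy⟩ := h
    apply hpnu
    exact IsUnit.of_mul_eq_one (x * a' + y * c') (by linear_combination hxy)
  · rintro (h | h)
    · obtain ⟨u, rfl⟩ := h
      exact ⟨((u⁻¹ : (ZMod (p ^ k))ˣ) : ZMod (p ^ k)), 0, by simp⟩
    · obtain ⟨u, rfl⟩ := h
      exact ⟨0, ((u⁻¹ : (ZMod (p ^ k))ˣ) : ZMod (p ^ k)), by simp⟩

theorem h6_ncard_isUnit (N : ℕ) [NeZero N] :
    {a : ZMod N | IsUnit a}.ncard = N.totient := by
  classical
  rw [← Nat.card_coe_set_eq]
  have e : (ZMod N)ˣ ≃ {a : ZMod N | IsUnit a} :=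
    { toFun := fun u => ⟨(u : ZMod N), u.isUnit⟩
      invFun := fun a => a.2.unit
      left_inv := fun u => Units.ext rfl
      right_inv := fun a => Subtype.ext (IsUnit.unit_spec a.2) }
  rw [← Nat.card_congr e, Nat.card_eq_fintype_card, ZMod.card_units_eq_totient]

theorem h6_card_vec_prime_pow {p k : ℕ} (hp : p.Prime) (hk : 0 < k) :
    Nat.card (h6P1Vec (p ^ k)) = (p ^ k) ^ 2 - (p ^ (k - 1)) ^ 2 := by
  classical
  have : NeZero (p ^ k) := ⟨pow_ne_zero k hp.ne_zero⟩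
  set U : Set (ZMod (p ^ k)) := {a | IsUnit a} with hU
  set P : Set (ZMod (p ^ k) × ZMod (p ^ k)) := {v | IsCoprime v.1 v.2} with hP
  have hPc : Pᶜ = Uᶜ ×ˢ Uᶜ := by
    ext v
    simp only [hP, hU, Set.mem_compl_iff, Set.mem_ofPred_eq, Set.mem_prod,
      h6_isCoprime_iff_isUnit_or hp hk, not_or]
  have hUc : Uᶜ.ncard = p ^ (k - 1) := by
    have h1 := Set.ncard_add_ncard_compl U
    rw [hU, h6_ncard_isUnit, Nat.card_zmod, Nat.totient_prime_pow hp hk] at h1
    have h2 : p ^ k = p ^ (k - 1) * p := by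
      rw [← pow_succ, Nat.sub_add_cancel hk]
    have hp1 : 1 ≤ p := hp.one_lt.le
    have h3 : p ^ (k - 1) * (p - 1) + p ^ (k - 1) = p ^ k := by
      rw [h2, ← Nat.mul_succ, Nat.succ_eq_add_one, Nat.sub_add_cancel hp1]
    rw [← hU] at h1
    omega
  have hsum := Set.ncard_add_ncard_compl P
  rw [hPc, Set.ncard_prod, hUc, Nat.card_prod, Nat.card_zmod] at hsum
  have : Nat.card (h6P1Vec (p ^ k)) = P.ncard := by
    rw [← Nat.card_coe_set_eq]
    rfl
  rw [this]
  have h4 : (p ^ k) ^ 2 = p ^ k * p ^ k := sq _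
  have h5 : (p ^ (k - 1)) ^ 2 = p ^ (k - 1) * p ^ (k - 1) := sq _
  omega

/-! ### (d) the Dedekind psi function is multiplicative -/

/-- indicator of squarefree numbers -/
def h6_sqf : ArithmeticFunction ℕ :=
  ⟨fun n => if Squarefree n then 1 else 0, by simp⟩

theorem h6_sqf_apply (n : ℕ) : h6_sqf n = if Squarefree n then 1 else 0 := rfl

theorem h6_sqf_isMultiplicative : h6_sqf.IsMultiplicative := by
  refine ⟨by simp [h6_sqf_apply], ?_⟩
  intro m n hmn
  simp only [h6_sqf_apply, Nat.squarefree_mul hmn]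
  by_cases h1 : Squarefree m <;> by_cases h2 : Squarefree n <;> simp [h1, h2]

theorem h6_psi_eq (N : ℕ) : dedekindPsi N = (h6_sqf * ArithmeticFunction.id) N := by
  rw [ArithmeticFunction.mul_apply,
    Nat.sum_divisorsAntidiagonal (f := fun a b => h6_sqf a * ArithmeticFunction.id b)]
  rw [dedekindPsi, Finset.sum_filter]
  apply Finset.sum_congr rfl
  intro d _
  simp only [h6_sqf_apply, ArithmeticFunction.id_apply]
  split_ifs <;> simp

theorem h6_psi_mul {m n : ℕ} (hmn : m.Coprime n) :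
    dedekindPsi (m * n) = dedekindPsi m * dedekindPsi n := by
  rw [h6_psi_eq, h6_psi_eq, h6_psi_eq]
  exact (h6_sqf_isMultiplicative.mul ArithmeticFunction.isMultiplicative_id).map_mul_of_coprime hmn

theorem h6_psi_prime_pow {p k : ℕ} (hp : p.Prime) (hk : 0 < k) :
    dedekindPsi (p ^ k) = p ^ k + p ^ (k - 1) := by
  obtain ⟨k', rfl⟩ : ∃ k', k = k' + 1 := ⟨k - 1, by omega⟩
  rw [dedekindPsi, Finset.sum_filter, Nat.sum_divisors_prime_pow hp]
  rw [Finset.sum_range_succ', Finset.sum_range_succ']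
  have hzero : ∑ x ∈ Finset.range k', (if Squarefree (p ^ (x + 1 + 1)) then
      p ^ (k' + 1) / p ^ (x + 1 + 1) else 0) = 0 := by
    apply Finset.sum_eq_zero
    intro x _
    rw [if_neg]
    rw [Nat.squarefree_pow_iff hp.ne_one (by omega)]
    omega
  rw [hzero]
  simp only [zero_add, pow_zero, pow_one, squarefree_one, if_true, Nat.div_one,
    Nat.add_sub_cancel, hp.prime.squarefree]
  rw [pow_succ, Nat.mul_div_cancel _ hp.pos]
  ring

/-! ### (e) the count -/

theorem h6_card_vec_one : Nat.card (h6P1Vec 1) = 1 := by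
  rw [Nat.card_eq_one_iff_unique]
  constructor
  · constructor
    intro v w
    apply h6P1Vec.ext <;> exact Subsingleton.elim _ _
  · exact ⟨⟨(0, 0), ⟨0, 0, Subsingleton.elim _ _⟩⟩⟩

theorem h6_card_vec (N : ℕ) (hN : N ≠ 0) :
    Nat.card (h6P1Vec N) = N.totient * dedekindPsi N := by
  induction N using Nat.recOnPosPrimePosCoprime with
  | prime_pow p k hp hk =>
    rw [h6_card_vec_prime_pow hp hk, Nat.totient_prime_pow hp hk, h6_psi_prime_pow hp hk]
    obtain ⟨r, rfl⟩ : ∃ r, p = r + 1 := ⟨p - 1, by have := hp.one_lt; omega⟩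
    obtain ⟨k', rfl⟩ : ∃ k', k = k' + 1 := ⟨k - 1, by omega⟩
    simp only [Nat.add_sub_cancel]
    apply Nat.sub_eq_of_eq_add
    ring
  | zero => exact absurd rfl hN
  | one => simp [h6_card_vec_one]
  | coprime a b ha hb hab iha ihb =>
    rw [h6_card_vec_mul hab, iha (by omega), ihb (by omega), Nat.totient_mul hab, h6_psi_mul hab]
    ring

theorem h6_card_P1 (N : ℕ) [NeZero N] : Nat.card (h6P1 N) = dedekindPsi N := by
  have h1 := h6_card_vec_eq N
  rw [h6_card_vec N (NeZero.ne N)] at h1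
  have hpos : 0 < N.totient := Nat.totient_pos.2 (Nat.pos_of_ne_zero (NeZero.ne N))
  rw [mul_comm N.totient] at h1
  exact (Nat.eq_of_mul_eq_mul_right hpos h1.symm)

theorem h6_card_QN (N : ℕ) [NeZero N] :
    Nat.card (SL(2, ℤ) ⧸ Gamma0 N) = dedekindPsi N := by
  rw [Nat.card_congr (h6_quotEquiv N), h6_card_P1]

end Fermat.Agent.Lib.X0
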