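/-
X0 project (S24), slab (B1), helper6: fixed points of `S` and `U = S T` on `SL(2,ℤ) ⧸ Γ₀(N)`.
* `h6_card_fixed_S : Nat.card {q : SL(2,ℤ) ⧸ Γ₀(N) // S • q = q} = nuTwo N`
* `h6_card_fixed_U : Nat.card {q : SL(2,ℤ) ⧸ Γ₀(N) // (S * T) • q = q} = nuThree N`
-/
import Mathlib
import Fermat.Prelude.Def_ModularCurve_GenusNumerics
import Fermat.Agent.Lib.X0.P1Quot

set_option autoImplicit false

open scoped MatrixGroups
open CongruenceSubgroup Matrix ModularCurve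

namespace Fermat.Agent.Lib.X0

variable {N : ℕ}

/-- The point `(x : 1)`. -/
def h6_pt (x : ZMod N) : h6P1Vec N := ⟨(x, 1), isCoprime_one_right⟩

@[simp] theorem h6_pt_fst (x : ZMod N) : (h6_pt x).1.1 = x := rfl
@[simp] theorem h6_pt_snd (x : ZMod N) : (h6_pt x).1.2 = 1 := rfl

theorem h6_mk_pt_injective : Function.Injective (fun x : ZMod N => h6P1.mk (h6_pt x)) := by
  intro x x' h
  simp only at h
  rw [h6P1.mk_eq_mk_iff] at h
  obtain ⟨u, hu⟩ := h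
  have h2 := congrArg (fun w : h6P1Vec N => w.1.2) hu
  have h1 := congrArg (fun w : h6P1Vec N => w.1.1) hu
  simp only [h6_pt_snd, h6P1Vec.units_smul_snd, mul_one, h6_pt_fst, h6P1Vec.units_smul_fst] at h1 h2
  rw [← h2, one_mul] at h1
  exact h1.symm

/-- A primitive vector `(k c, c)` is the point `(k : 1)`. -/
theorem h6_mk_eq_pt_of_eq_mul (v : h6P1Vec N) (k : ZMod N) (h : v.1.1 = k * v.1.2) :
    IsUnit v.1.2 ∧ h6P1.mk v = h6P1.mk (h6_pt k) := by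
  obtain ⟨x, y, hxy⟩ := v.2
  have hu : IsUnit v.1.2 :=
    IsUnit.of_mul_eq_one (x * k + y) (by rw [h] at hxy; linear_combination hxy)
  refine ⟨hu, ?_⟩
  obtain ⟨u, hu'⟩ := hu
  rw [h6P1.mk_eq_mk_iff]
  refine ⟨u⁻¹, ?_⟩
  have hinv : ((u⁻¹ : (ZMod N)ˣ) : ZMod N) * v.1.2 = 1 := by
    rw [← hu', ← Units.val_mul, inv_mul_cancel, Units.val_one]
  apply h6P1Vec.ext
  · simp only [h6_pt_fst, h6P1Vec.units_smul_fst, h]
    linear_combination (-k) * hinv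
  · simp only [h6_pt_snd, h6P1Vec.units_smul_snd]
    exact hinv.symm

theorem h6_S_smul_fst (v : h6P1Vec N) : (ModularGroup.S • v).1.1 = -v.1.2 := by
  simp [ModularGroup.coe_S]

theorem h6_S_smul_snd (v : h6P1Vec N) : (ModularGroup.S • v).1.2 = v.1.1 := by
  simp [ModularGroup.coe_S]

theorem h6_T_smul_fst (v : h6P1Vec N) : (ModularGroup.T • v).1.1 = v.1.1 + v.1.2 := by
  simp [ModularGroup.coe_T]

theorem h6_T_smul_snd (v : h6P1Vec N) : (ModularGroup.T • v).1.2 = v.1.2 := by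
  simp [ModularGroup.coe_T]

theorem h6_U_smul_fst (v : h6P1Vec N) :
    ((ModularGroup.S * ModularGroup.T) • v).1.1 = -v.1.2 := by
  rw [mul_smul, h6_S_smul_fst, h6_T_smul_snd]

theorem h6_U_smul_snd (v : h6P1Vec N) :
    ((ModularGroup.S * ModularGroup.T) • v).1.2 = v.1.1 + v.1.2 := by
  rw [mul_smul, h6_S_smul_snd, h6_T_smul_fst]

/-! ### Fixed points of `S` -/

theorem h6_S_fixes_pt (x : ZMod N) (hx : x ^ 2 + 1 = 0) :
    ModularGroup.S • h6P1.mk (h6_pt x) = h6P1.mk (h6_pt x) := by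
  rw [h6P1.smul_mk, h6P1.mk_eq_mk_iff]
  have hunit : (-x) * x = 1 := by linear_combination -hx
  let u : (ZMod N)ˣ := ⟨-x, x, hunit, by rw [mul_comm]; exact hunit⟩
  refine ⟨u, ?_⟩
  apply h6P1Vec.ext
  · simp only [h6_pt_fst, h6P1Vec.units_smul_fst, h6_S_smul_fst, h6_pt_snd, u]
    ring
  · simp only [h6_pt_snd, h6P1Vec.units_smul_snd, h6_S_smul_snd, h6_pt_fst, u]
    exact hunit.symm

theorem h6_S_fixed_exists (p : h6P1 N) (hp : ModularGroup.S • p = p) :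
    ∃ x : ZMod N, x ^ 2 + 1 = 0 ∧ p = h6P1.mk (h6_pt x) := by
  obtain ⟨v, rfl⟩ := h6P1.mk_surjective p
  rw [h6P1.smul_mk, h6P1.mk_eq_mk_iff] at hp
  obtain ⟨u, hu⟩ := hp
  have h1 := congrArg (fun w : h6P1Vec N => w.1.1) hu
  have h2 := congrArg (fun w : h6P1Vec N => w.1.2) hu
  simp only [h6P1Vec.units_smul_fst, h6P1Vec.units_smul_snd, h6_S_smul_fst, h6_S_smul_snd] at h1 h2
  -- h1 : a = u * (-c), h2 : c = u * a
  have hk : v.1.1 = (-(u : ZMod N)) * v.1.2 := by rw [h1]; ring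
  obtain ⟨hc, hmk⟩ := h6_mk_eq_pt_of_eq_mul v (-(u : ZMod N)) hk
  refine ⟨-(u : ZMod N), ?_, hmk⟩
  have h3 : ((u : ZMod N) ^ 2 + 1) * v.1.2 = 0 := by
    linear_combination (1 : ZMod N) * h2 + (u : ZMod N) * hk
  have h4 : (u : ZMod N) ^ 2 + 1 = 0 := by
    obtain ⟨w, hw⟩ := hc
    rw [← hw] at h3
    exact (Units.mul_left_eq_zero w).1 h3
  linear_combination h4

theorem h6_card_fixed_S_P1 (N : ℕ) :
    Nat.card {p : h6P1 N // ModularGroup.S • p = p} = nuTwo N := by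
  rw [nuTwo]
  symm
  apply Nat.card_congr
  refine Equiv.ofBijective
    (fun x => ⟨h6P1.mk (h6_pt x.1), h6_S_fixes_pt x.1 x.2⟩) ⟨?_, ?_⟩
  · intro x x' h
    apply Subtype.ext
    exact h6_mk_pt_injective (congrArg Subtype.val h)
  · rintro ⟨p, hp⟩
    obtain ⟨x, hx, rfl⟩ := h6_S_fixed_exists p hp
    exact ⟨⟨x, hx⟩, rfl⟩

/-! ### Fixed points of `U = S T` -/

theorem h6_U_fixes_pt (x : ZMod N) (hx : x ^ 2 + x + 1 = 0) :
    (ModularGroup.S * ModularGroup.T) • h6P1.mk (h6_pt x) = h6P1.mk (h6_pt x) := by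
  rw [h6P1.smul_mk, h6P1.mk_eq_mk_iff]
  have hunit : (-x) * (x + 1) = 1 := by linear_combination -hx
  let u : (ZMod N)ˣ := ⟨-x, x + 1, hunit, by rw [mul_comm]; exact hunit⟩
  refine ⟨u, ?_⟩
  apply h6P1Vec.ext
  · simp only [h6_pt_fst, h6P1Vec.units_smul_fst, h6_U_smul_fst, h6_pt_snd, u]
    ring
  · simp only [h6_pt_snd, h6P1Vec.units_smul_snd, h6_U_smul_snd, h6_pt_fst, u]
    exact hunit.symm

theorem h6_U_fixed_exists (p : h6P1 N) (hp : (ModularGroup.S * ModularGroup.T) • p = p) :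
    ∃ x : ZMod N, x ^ 2 + x + 1 = 0 ∧ p = h6P1.mk (h6_pt x) := by
  obtain ⟨v, rfl⟩ := h6P1.mk_surjective p
  rw [h6P1.smul_mk, h6P1.mk_eq_mk_iff] at hp
  obtain ⟨u, hu⟩ := hp
  have h1 := congrArg (fun w : h6P1Vec N => w.1.1) hu
  have h2 := congrArg (fun w : h6P1Vec N => w.1.2) hu
  simp only [h6P1Vec.units_smul_fst, h6P1Vec.units_smul_snd, h6_U_smul_fst, h6_U_smul_snd] at h1 h2
  -- h1 : a = u * (-c), h2 : c = u * (a + c)
  have hk : v.1.1 = (-(u : ZMod N)) * v.1.2 := by rw [h1]; ring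
  obtain ⟨hc, hmk⟩ := h6_mk_eq_pt_of_eq_mul v (-(u : ZMod N)) hk
  refine ⟨-(u : ZMod N), ?_, hmk⟩
  have h3 : ((u : ZMod N) ^ 2 - (u : ZMod N) + 1) * v.1.2 = 0 := by
    linear_combination (1 : ZMod N) * h2 + (u : ZMod N) * hk
  have h4 : (u : ZMod N) ^ 2 - (u : ZMod N) + 1 = 0 := by
    obtain ⟨w, hw⟩ := hc
    rw [← hw] at h3
    exact (Units.mul_left_eq_zero w).1 h3
  linear_combination h4

theorem h6_card_fixed_U_P1 (N : ℕ) :
    Nat.card {p : h6P1 N // (ModularGroup.S * ModularGroup.T) • p = p} = nuThree N := by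
  rw [nuThree]
  symm
  apply Nat.card_congr
  refine Equiv.ofBijective
    (fun x => ⟨h6P1.mk (h6_pt x.1), h6_U_fixes_pt x.1 x.2⟩) ⟨?_, ?_⟩
  · intro x x' h
    apply Subtype.ext
    exact h6_mk_pt_injective (congrArg Subtype.val h)
  · rintro ⟨p, hp⟩
    obtain ⟨x, hx, rfl⟩ := h6_U_fixed_exists p hp
    exact ⟨⟨x, hx⟩, rfl⟩

/-! ### Transport to `SL(2,ℤ) ⧸ Γ₀(N)` -/

theorem h6_card_fixed_S (N : ℕ) [NeZero N] :
    Nat.card {q : SL(2, ℤ) ⧸ Gamma0 N // ModularGroup.S • q = q} = nuTwo N := by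
  rw [Nat.card_congr (h6_fixedEquiv N ModularGroup.S), h6_card_fixed_S_P1]

theorem h6_card_fixed_U (N : ℕ) [NeZero N] :
    Nat.card {q : SL(2, ℤ) ⧸ Gamma0 N // (ModularGroup.S * ModularGroup.T) • q = q} = nuThree N := by
  rw [Nat.card_congr (h6_fixedEquiv N (ModularGroup.S * ModularGroup.T)), h6_card_fixed_U_P1]

end Fermat.Agent.Lib.X0
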