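/-
X0 project (S24): assembly of `CombStatement N` (helper6: counts; helper8: T-orbits, genus).
-/
import Mathlib
import Fermat.Agent.Lib.X0.Defs
import Fermat.Agent.Lib.X0.P1Quot
import Fermat.Agent.Lib.X0.P1Count
import Fermat.Agent.Lib.X0.P1Fixed
import Fermat.Agent.Lib.X0.CuspCount
import Fermat.Agent.Lib.X0.CombGenus

set_option autoImplicit false

namespace Fermat.Agent.Lib.X0

/-- **(B) the combinatorics of `SL(2,ℤ)/Γ₀(N)`**: the contract `CombStatement N`. -/
theorem h8_combStatement (N : ℕ) [NeZero N] : CombStatement N :=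
  ⟨h6_card_QN N, h6_card_fixed_S N, h6_card_fixed_U N, h8_card_T_orbits N, h6_T_pow_smul N,
    h8_genus_exists N (h6_card_QN N) (h6_card_fixed_S N) (h6_card_fixed_U N) (h8_card_T_orbits N)⟩

end Fermat.Agent.Lib.X0
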