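import Mathlib
import Fermat.Agent.Lib.X0.Defs
import Fermat.Agent.Lib.X0.JBridge
import Fermat.Agent.Lib.X0.EmbDefs

/-!
# Project X0 (S24), slab (C): the contract `h9_A1Statement`

Owner: helper1.  The formal `jq` (coefficients embedded in `ℂ`) evaluated at
`q = exp (2 π i τ)` converges to the analytic `jFun τ = E₄ τ ^ 3 / Δ τ`.
-/

set_option autoImplicit false

noncomputable section

namespace Fermat.Agent.Lib.X0

open UpperHalfPlane ModularCurve HahnSeries

/-- `coeffMap` commutes with `ofPowerSeries`. -/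
theorem h1_coeffMap_ofPowerSeries {R S : Type*} [CommRing R] [CommRing S] (f : R →+* S)
    (A : PowerSeries R) :
    coeffMap f (HahnSeries.ofPowerSeries ℤ R A)
      = HahnSeries.ofPowerSeries ℤ S (A.map f) := by
  ext k
  rw [coeffMap_coeff]
  rcases lt_or_ge k 0 with hk | hk
  · rw [ofPowerSeries_coeff_of_neg _ hk, ofPowerSeries_coeff_of_neg _ hk, map_zero]
  · obtain ⟨n, rfl⟩ := Int.eq_ofNat_of_zero_le hk
    rw [HahnSeries.ofPowerSeries_apply_coeff, HahnSeries.ofPowerSeries_apply_coeff,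
      PowerSeries.coeff_map]

/-- The shape of `coeffEmb ℂ jq`. -/
theorem h1_coeffEmb_jq :
    coeffEmb ℂ jq = HahnSeries.single (-1 : ℤ) (1 : ℂ) *
      HahnSeries.ofPowerSeries ℤ ℂ (jNum.map (Int.castRingHom ℂ)) := by
  rw [coeffEmb, jq, map_mul, coeffMap_single, map_one, h1_coeffMap_ofPowerSeries, jNumQ]
  have e : (PowerSeries.map (algebraMap ℚ ℂ)) ((PowerSeries.map (Int.castRingHom ℚ)) jNum)
      = (PowerSeries.map (Int.castRingHom ℂ)) jNum := by
    ext n
    simp [PowerSeries.coeff_map]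
  rw [e]

/-- (A1) the formal `jq` is the `q`-expansion of the analytic `j`. -/
theorem h1_A1 : h9_A1Statement := by
  intro τ
  set q := Function.Periodic.qParam 1 (τ : ℂ) with hq
  have hq0 : q ≠ 0 := Function.Periodic.qParam_ne_zero _
  rw [h1_coeffEmb_jq]
  have h1 : h9_LSum (HahnSeries.single (-1 : ℤ) (1 : ℂ)) q (1 * q ^ (-1 : ℤ)) :=
    h9_LSum_single (-1) 1 q
  have h2 : h9_LSum (HahnSeries.ofPowerSeries ℤ ℂ (jNum.map (Int.castRingHom ℂ))) q
      (q * ModularForm.E₄ τ ^ 3 / ModularForm.discriminant τ) := by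
    rw [h9_LSum_ofPowerSeries_iff]
    have h := h1_hasSum_jNum τ
    have e : (fun n : ℕ => PowerSeries.coeff n (jNum.map (Int.castRingHom ℂ)) * q ^ n)
        = fun n : ℕ => ((PowerSeries.coeff n ModularCurve.jNum : ℤ) : ℂ) * q ^ n := by
      funext n
      rw [PowerSeries.coeff_map]
      rfl
    rw [e]
    exact h
  have h3 := h9_LSum_mul hq0 h1 h2
  have e : 1 * q ^ (-1 : ℤ) * (q * ModularForm.E₄ τ ^ 3 / ModularForm.discriminant τ)
      = jFun τ := by
    rw [jFun]
    field_simp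
  rw [e] at h3
  exact h3

end Fermat.Agent.Lib.X0
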