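import Mathlib
import Fermat.Agent.Lib.X0.Defs
import Fermat.Agent.Lib.X0.JBridge
import Fermat.Agent.Lib.X0.EmbDefs
import Fermat.Agent.Lib.X0.A1Proof

/-!
# Project X0 (S24), slab (C): kernel comparison

Owner: helper1.  For a polynomial `P` in the generators `j(q^d)`, `d ∣ N`, with coefficients in
`ℚ̄`, the formal realisation `h9_evF N P ∈ F_N` vanishes iff the analytic realisation
`h9_evAn N P` vanishes identically on the upper half plane.

Main results:
* `h1_LSum_xJd` : the formal `j(q^d)` (coefficients through `iotaC`) sums at `q = e^{2πiτ}` to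
  `j(dτ)`.
* `h1_LSum_evF` : `coeffMap iotaC (h9_evF N P)` sums at `q = e^{2πiτ}` to `h9_evAn N P τ`.
* `h1_kernel` : `h9_evF N P = 0 ↔ ∀ τ, h9_evAn N P τ = 0`.
-/

set_option autoImplicit false

noncomputable section

namespace Fermat.Agent.Lib.X0

open UpperHalfPlane ModularCurve HahnSeries

/-- `coeffMap` commutes with `qExpand`. -/
theorem h1_coeffMap_qExpand {R S : Type*} [CommRing R] [CommRing S] (f : R →+* S) (d : ℕ)
    [NeZero d] (x : LaurentSeries R) :
    coeffMap f (qExpand R d x) = qExpand S d (coeffMap f x) := by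
  ext k
  rw [coeffMap_coeff]
  by_cases hk : (d : ℤ) ∣ k
  · obtain ⟨m, rfl⟩ := hk
    rw [qExpand_coeff_mul, qExpand_coeff_mul, coeffMap_coeff]
  · rw [qExpand_coeff_of_not_dvd d x hk, qExpand_coeff_of_not_dvd d _ hk, map_zero]

/-- Summing `qExpand d s` at `w` is summing `s` at `w ^ d`. -/
theorem h1_LSum_qExpand (d : ℕ) [NeZero d] {s : LaurentSeries ℂ} {w v : ℂ}
    (h : h9_LSum s (w ^ d) v) : h9_LSum (qExpand ℂ d s) w v := by
  unfold h9_LSum at *
  have hd : (d : ℤ) ≠ 0 := by exact_mod_cast NeZero.ne d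
  have hinj : Function.Injective (fun n : ℤ => (d : ℤ) * n) := mul_right_injective₀ hd
  have h2 := Function.Injective.hasSum_iff hinj
    (f := fun m : ℤ => (qExpand ℂ d s).coeff m * w ^ m) (a := v)
    (by
      intro m hm
      have hnd : ¬ (d : ℤ) ∣ m := by
        rintro ⟨k, rfl⟩
        exact hm ⟨k, rfl⟩
      rw [qExpand_coeff_of_not_dvd d s hnd, zero_mul])
  rw [← h2]
  have e : ((fun m : ℤ => (qExpand ℂ d s).coeff m * w ^ m) ∘ fun n : ℤ => (d : ℤ) * n)
      = fun n : ℤ => s.coeff n * (w ^ d) ^ n := by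
    funext n
    simp only [Function.comp_apply]
    rw [qExpand_coeff_mul, zpow_mul, zpow_natCast]
  rw [e]
  exact h

/-- `q(dτ) = q(τ)^d`. -/
theorem h1_qParam_dmul {d : ℕ} (hd : 0 < d) (τ : ℍ) :
    Function.Periodic.qParam 1 ((h9_dmul d τ : ℍ) : ℂ)
      = Function.Periodic.qParam 1 (τ : ℂ) ^ d := by
  rw [h9_dmul_coe hd, Function.Periodic.qParam, Function.Periodic.qParam, ← Complex.exp_nat_mul]
  congr 1
  push_cast
  ring

/-- `iotaC` is compatible with the rational structure. -/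
theorem h1_iotaC_comp : (iotaC : Kbar →+* ℂ).comp (algebraMap ℚ Kbar) = algebraMap ℚ ℂ :=
  RingHom.ext fun c => by simp

/-- `coeffMap iotaC` after `coeffEmb Kbar` is `coeffEmb ℂ`. -/
theorem h1_coeffMap_iotaC_coeffEmb (x : LaurentSeries ℚ) :
    coeffMap iotaC (coeffEmb Kbar x) = coeffEmb ℂ x := by
  rw [coeffEmb, coeffMap_coeffMap, coeffEmb]
  exact coeffMap_congr h1_iotaC_comp x

/-- The formal `j(q^d)` sums at `q = e^{2πiτ}` to `j(dτ)`. -/
theorem h1_LSum_xJd (N d : ℕ) [NeZero d] (hd : d ∣ N) (τ : ℍ) :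
    h9_LSum (coeffMap iotaC ((xJd N d hd : FN N) : LaurentSeries Kbar))
      (Function.Periodic.qParam 1 (τ : ℂ)) (h9_Jd d τ) := by
  have e : coeffMap iotaC ((xJd N d hd : FN N) : LaurentSeries Kbar)
      = qExpand ℂ d (coeffEmb ℂ jq) := by
    show coeffMap iotaC (coeffEmb Kbar (qExpand ℚ d jq)) = _
    rw [h1_coeffMap_iotaC_coeffEmb, coeffEmb, h1_coeffMap_qExpand]
  rw [e]
  refine h1_LSum_qExpand d ?_
  have hd0 : 0 < d := Nat.pos_of_ne_zero (NeZero.ne d)
  rw [← h1_qParam_dmul hd0 τ]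
  exact h1_A1 (h9_dmul d τ)

/-- The ring homomorphism `F_N → ℂ((q))`, coefficients through `iotaC`. -/
def h1_PhiC (N : ℕ) : FN N →+* LaurentSeries ℂ :=
  (coeffMap iotaC).comp (modularFunctionFieldBar N).val.toRingHom

theorem h1_PhiC_apply (N : ℕ) (f : FN N) :
    h1_PhiC N f = coeffMap iotaC (f : LaurentSeries Kbar) := rfl

theorem h1_coeffMap_iotaC_injective : Function.Injective (coeffMap iotaC) := by
  intro x y hxy
  ext k
  have h := congrArg (fun z => z.coeff k) hxy
  simp only [coeffMap_coeff] at h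
  exact iotaC.injective h

theorem h1_PhiC_injective (N : ℕ) : Function.Injective (h1_PhiC N) := by
  intro f g hfg
  exact Subtype.ext (h1_coeffMap_iotaC_injective hfg)

theorem h1_PhiC_algebraMap (N : ℕ) (a : Kbar) :
    h1_PhiC N (algebraMap Kbar (FN N) a) = HahnSeries.C (iotaC a) := by
  rw [h1_PhiC_apply]
  show coeffMap iotaC (algebraMap Kbar (LaurentSeries Kbar) a) = _
  rw [algebraMap_laurentSeries_eq_single, coeffMap_single]
  rfl

/-- `Φ (evF P)` is the polynomial `P` evaluated at the series `Φ (gen d)`. -/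
theorem h1_PhiC_evF (N : ℕ) [NeZero N] (P : MvPolynomial (h9_DivN N) Kbar) :
    h1_PhiC N (h9_evF N P)
      = MvPolynomial.eval₂ ((HahnSeries.C : ℂ →+* LaurentSeries ℂ).comp iotaC)
          (fun d => h1_PhiC N (h9_gen N d)) P := by
  induction P using MvPolynomial.induction_on with
  | C a =>
    rw [MvPolynomial.eval₂_C, h9_evF, MvPolynomial.coe_eval₂Hom, MvPolynomial.eval₂_C,
      h1_PhiC_algebraMap]
    rfl
  | add p q hp hq =>
    rw [map_add, map_add, MvPolynomial.eval₂_add, hp, hq]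
  | mul_X p i hp =>
    rw [map_mul, map_mul, MvPolynomial.eval₂_mul, MvPolynomial.eval₂_X, hp]
    congr 1
    rw [h9_evF, MvPolynomial.coe_eval₂Hom, MvPolynomial.eval₂_X]

/-- `coeffMap iotaC (h9_evF N P)` sums at `q = e^{2πiτ}` to `h9_evAn N P τ`. -/
theorem h1_LSum_evF (N : ℕ) [NeZero N] (P : MvPolynomial (h9_DivN N) Kbar) (τ : ℍ) :
    h9_LSum (h1_PhiC N (h9_evF N P)) (Function.Periodic.qParam 1 (τ : ℂ)) (h9_evAn N P τ) := by
  rw [h1_PhiC_evF, h9_evAn]
  refine h9_LSum_eval₂ iotaC _ _ (Function.Periodic.qParam_ne_zero _) (fun d => ?_) P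
  have : NeZero d.1 := ⟨h9_DivN_ne_zero N d⟩
  exact h1_LSum_xJd N d.1 d.2 τ

/-- Every point of the punctured unit disc is `q(τ)`. -/
theorem h1_exists_qParam (w : ℂ) (hw : w ≠ 0) (hw1 : ‖w‖ < 1) :
    ∃ τ : ℍ, Function.Periodic.qParam 1 (τ : ℂ) = w := by
  have him : 0 < (Function.Periodic.invQParam 1 w).im :=
    Function.Periodic.im_invQParam_pos_of_norm_lt_one one_pos hw1 hw
  refine ⟨⟨Function.Periodic.invQParam 1 w, him⟩, ?_⟩
  exact Function.Periodic.qParam_right_inv one_ne_zero hw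

/-- **Kernel comparison**: the formal and the analytic realisation have the same kernel. -/
theorem h1_kernel (N : ℕ) [NeZero N] (P : MvPolynomial (h9_DivN N) Kbar) :
    h9_evF N P = 0 ↔ ∀ τ : ℍ, h9_evAn N P τ = 0 := by
  constructor
  · intro h τ
    have h1 := h1_LSum_evF N P τ
    rw [h, map_zero] at h1
    exact (h9_LSum_val_unique h1 (h9_LSum_zero _))
  · intro h
    apply h1_PhiC_injective N
    rw [map_zero]
    refine h9_LSum_eq_zero one_pos (fun w hw hw1 => ?_)
    obtain ⟨τ, rfl⟩ := h1_exists_qParam w hw hw1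
    have h1 := h1_LSum_evF N P τ
    rwa [h τ] at h1

end Fermat.Agent.Lib.X0
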