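import Mathlib
import Fermat.Agent.Lib.X0.EmbCount

/-!
# Project X0 (S24), slab (G2'): the count corollary `h7_embCountCor : EmbCountCorStatement`
(number of places over a point = `∑ q, 1 / h q`).  Owner: helper7.
-/

set_option autoImplicit false
set_option linter.unusedSectionVars false
set_option linter.style.haveILetI false

namespace Fermat.Agent.Lib.X0

open scoped LaurentSeries
open WithZero IsDedekindDomain AlgebraicCurve IntermediateField

/-- (G2') the count corollary follows from the embedding count theorem. -/
theorem h7_embCountCor_of_embCount (H : EmbCountStatement) : EmbCountCorStatement := by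
  intro k F K' _ _ _ _ _ _ ι x hx t ht Q _ hQ M E h hh1 hh2
  classical
  obtain ⟨P, hP1, hP2, hP3, hP4⟩ := H ι x hx t ht Q hQ M E
  have hMpos : (0 : ℤ) < M := by exact_mod_cast E.M_pos
  -- same order function ⟹ same place
  have hsame : ∀ q q', (∀ f : F, (E.τ q' f).order = (E.τ q f).order) → P q' = P q := by
    have key : ∀ q q', (∀ f : F, (E.τ q' f).order = (E.τ q f).order) → ∀ f : F,
        f ∈ (P q').toValuationSubring → f ∈ (P q).toValuationSubring := by
      intro q q' hqq f hmem
      by_cases hf : f = 0
      · rw [hf]; exact zero_mem _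
      have e1 := hP4 q f hf
      have e2 := hP4 q' f hf
      rw [hqq f] at e2
      have h1 := h4_ord_nonneg_of_mem (P q') hmem
      apply h4_mem_of_ord_nonneg
      have h2 : 0 ≤ (E.τ q f).order * (P q').ord t := by
        rw [e2]; exact mul_nonneg hMpos.le h1
      have h3 : 0 ≤ (E.τ q f).order := nonneg_of_mul_nonneg_left h2 (hP1 q')
      have h4 : 0 ≤ (M : ℤ) * (P q).ord f := by
        rw [← e1]; exact mul_nonneg h3 (hP1 q).le
      exact nonneg_of_mul_nonneg_right h4 hMpos
    intro q q' hqq
    apply Place.ext
    apply SetLike.ext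
    intro f
    exact ⟨key q q' hqq f, key q' q (fun f => (hqq f).symm) f⟩
  -- the ramification index is `h q`
  have heq : ∀ q, (P q).ord t = (h q : ℤ) := by
    intro q
    have hepos : 0 < (P q).ord t := hP1 q
    have hle : (h q : ℤ) ≤ (P q).ord t := by
      have hcard := hP3 (P q) (hP1 q)
      have hinj : Nat.card {q' // ∀ f : F, (E.τ q' f).order = (E.τ q f).order} ≤
          Nat.card {q' // P q' = P q} := by
        apply Nat.card_le_card_of_injective
          (fun a : {q' // ∀ f : F, (E.τ q' f).order = (E.τ q f).order} =>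
            (⟨a.1, hsame q a.1 a.2⟩ : {q' // P q' = P q}))
        intro a b hab
        apply Subtype.ext
        exact congrArg (fun z : {q' // P q' = P q} => z.1) hab
      have := (hh1 q).trans hinj
      rw [← hcard]
      exact_mod_cast this
    obtain ⟨hdvd, hdiv⟩ := hh2 q
    obtain ⟨π, hπ⟩ := IsDiscreteValuationRing.exists_irreducible (P q).toValuationSubring
    have hπ1 : (P q).ord (π : F) = 1 := (P q).ord_coe_irreducible hπ
    have hπ0 : (π : F) ≠ 0 := by
      intro h0
      rw [h0] at hπ1
      simp at hπ1
    have e1 := hP4 q π hπ0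
    obtain ⟨c, hc⟩ := hdiv π hπ0
    obtain ⟨d, hd⟩ := hdvd
    have hhpos : 0 < h q := Nat.pos_of_dvd_of_pos ⟨d, hd⟩ E.M_pos
    have hdpos : 0 < d := by
      rcases Nat.eq_zero_or_pos d with h0 | h0
      · rw [h0, mul_zero] at hd
        have := E.M_pos
        omega
      · exact h0
    have hMd : M / h q = d := by
      rw [hd]; exact Nat.mul_div_cancel_left d hhpos
    rw [hMd] at hc
    have hce : c * (P q).ord t = (h q : ℤ) := by
      have h5 : (d : ℤ) * (c * (P q).ord t) = (d : ℤ) * (h q : ℤ) := by
        rw [hπ1, mul_one, hc, hd] at e1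
        push_cast at e1
        linarith
      exact mul_left_cancel₀ (by exact_mod_cast hdpos.ne') h5
    have hcpos : 0 < c := by
      by_contra hc0
      rw [not_lt] at hc0
      have := mul_nonpos_of_nonpos_of_nonneg hc0 hepos.le
      rw [hce] at this
      have : (0 : ℤ) < h q := by exact_mod_cast hhpos
      omega
    have hle2 : (P q).ord t ≤ c * (P q).ord t := le_mul_of_one_le_left hepos.le hcpos
    rw [hce] at hle2
    omega
  refine ⟨?_, ?_⟩
  · apply (Set.finite_range P).subset
    intro v hv
    obtain ⟨q, hq⟩ := hP2 v hv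
    exact ⟨q, hq⟩
  · let S : Finset (Place k F) := Finset.univ.image P
    have hS : ∀ v, v ∈ S ↔ 0 < v.ord t := by
      intro v
      simp only [S, Finset.mem_image, Finset.mem_univ, true_and]
      constructor
      · rintro ⟨q, rfl⟩; exact hP1 q
      · intro hv; exact hP2 v hv
    have hcardS : Nat.card {v : Place k F // 0 < v.ord t} = S.card := by
      rw [← Fintype.card_coe S, ← Nat.card_eq_fintype_card]
      exact Nat.card_congr (Equiv.subtypeEquivRight (fun v => (hS v).symm))
    rw [hcardS]
    let g : Place k F → ℚ := fun v => (1 : ℚ) / ((v.ord t : ℤ) : ℚ)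
    have h6 : ∀ q, (1 : ℚ) / (h q) = g (P q) := by
      intro q
      simp only [g, heq q]
      push_cast
      rfl
    have h10 : ∑ q, (1 : ℚ) / (h q) = ∑ q, g (P q) := Finset.sum_congr rfl (fun q _ => h6 q)
    rw [h10, Finset.sum_comp g P]
    have h7 : ∀ v ∈ S, ((Finset.univ.filter fun q => P q = v).card) • g v = 1 := by
      intro v hv
      have hv' := (hS v).mp hv
      have h3 := hP3 v hv'
      have h8 : ((Finset.univ.filter fun q => P q = v).card : ℤ) = v.ord t := by
        rw [← h3, Nat.card_eq_fintype_card, Fintype.card_subtype]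
      show ((Finset.univ.filter fun q => P q = v).card) • ((1 : ℚ) / ((v.ord t : ℤ) : ℚ)) = 1
      rw [nsmul_eq_mul, ← h8]
      have h9 : ((Finset.univ.filter fun q => P q = v).card : ℚ) ≠ 0 := by
        have : (0 : ℤ) < ((Finset.univ.filter fun q => P q = v).card : ℤ) := by rw [h8]; exact hv'
        have : 0 < (Finset.univ.filter fun q => P q = v).card := by exact_mod_cast this
        exact_mod_cast this.ne'
      push_cast
      field_simp
    rw [Finset.sum_congr rfl h7]
    simp [S]

/-- (G2') **Count corollary**, unconditionally. -/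
theorem h7_embCountCor : EmbCountCorStatement := h7_embCountCor_of_embCount h7_embCount

end Fermat.Agent.Lib.X0
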