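/-
X0 project (S24), contract (G2') (helper8): the count corollary `EmbCountCorStatement` follows
from the embedding count theorem `EmbCountStatement`.
-/
import Fermat.Agent.Lib.X0.Defs
import Fermat.Agent.Lib.X0.PlacesOver
import Fermat.Agent.Lib.X0.EmbCount

set_option autoImplicit false

namespace Fermat.Agent.Lib.X0

open AlgebraicCurve

/-- a place is determined by the sign of its order function. -/
theorem h8_place_ext_of_ord {k F : Type*} [Field k] [Field F] [Algebra k F] (v w : Place k F)
    (h : ∀ f : F, f ≠ 0 → (0 ≤ v.ord f ↔ 0 ≤ w.ord f)) : v = w := by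
  apply Place.ext
  ext f
  rcases eq_or_ne f 0 with rfl | hf
  · simp only [zero_mem]
  · constructor
    · intro hv
      exact h4_mem_of_ord_nonneg w ((h f hf).mp (h4_ord_nonneg_of_mem v hv))
    · intro hw
      exact h4_mem_of_ord_nonneg v ((h f hf).mpr (h4_ord_nonneg_of_mem w hw))

/-- a place has a uniformizer. -/
theorem h8_exists_ord_eq_one {k F : Type*} [Field k] [Field F] [Algebra k F] (v : Place k F) :
    ∃ f : F, f ≠ 0 ∧ v.ord f = 1 := by
  obtain ⟨π, hπ⟩ := IsDiscreteValuationRing.exists_irreducible v.toValuationSubring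
  refine ⟨(π : F), ?_, v.ord_coe_irreducible hπ⟩
  have := hπ.ne_zero
  simpa [ne_eq, ZeroMemClass.coe_eq_zero] using this

theorem h8_embCountCor (hG : EmbCountStatement) : EmbCountCorStatement := by
  intro k F K' _ _ _ _ _ _ ι x hx t ht Q _ hcard M E h hlow hdiv
  classical
  obtain ⟨P, hpos, hsurj, hfib, hord⟩ := hG ι x hx t ht Q hcard M E
  have hMpos : (0 : ℤ) < (M : ℤ) := by exact_mod_cast E.M_pos
  -- sign of the order along `τ q` is the sign of the order at `P q`
  have hsign : ∀ q (f : F), f ≠ 0 → (0 ≤ (E.τ q f).order ↔ 0 ≤ (P q).ord f) := by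
    intro q f hf
    have h1 := hord q f hf
    have he := hpos q
    constructor
    · intro h0
      have : 0 ≤ (M : ℤ) * (P q).ord f := by rw [← h1]; positivity
      exact nonneg_of_mul_nonneg_right this hMpos
    · intro h0
      have : 0 ≤ (E.τ q f).order * (P q).ord t := by rw [h1]; positivity
      exact nonneg_of_mul_nonneg_left this he
  -- same order function implies same place
  have hsame : ∀ q q', (∀ f : F, (E.τ q' f).order = (E.τ q f).order) → P q' = P q := by
    intro q q' hqq
    apply h8_place_ext_of_ord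
    intro f hf
    rw [← hsign q' f hf, ← hsign q f hf, hqq f]
  -- `h q = e_q`
  have hh : ∀ q, ((h q : ℕ) : ℤ) = (P q).ord t := by
    intro q
    obtain ⟨hqM, hqdiv⟩ := hdiv q
    have he := hpos q
    obtain ⟨f, hf0, hf1⟩ := h8_exists_ord_eq_one (P q)
    have h1 := hord q f hf0
    rw [hf1, mul_one] at h1
    obtain ⟨c, hc⟩ := hqdiv f hf0
    have hMh : (((M / h q : ℕ) : ℤ)) * (h q : ℤ) = (M : ℤ) := by
      exact_mod_cast Nat.div_mul_cancel hqM
    have hhpos : 0 < h q := Nat.pos_of_dvd_of_pos hqM E.M_pos
    have hMhne : (((M / h q : ℕ) : ℤ)) ≠ 0 := by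
      have : 0 < M / h q := Nat.div_pos (Nat.le_of_dvd E.M_pos hqM) hhpos
      exact_mod_cast this.ne'
    -- c * e = h
    have hce : c * (P q).ord t = (h q : ℤ) := by
      apply mul_left_cancel₀ hMhne
      rw [hMh, ← h1, hc]; ring
    -- upper bound
    have hle : (h q : ℤ) ≤ (P q).ord t := by
      rw [← hfib (P q) he]
      have h2 : Nat.card {q' // ∀ f : F, (E.τ q' f).order = (E.τ q f).order} ≤
          Nat.card {q' // P q' = P q} :=
        Nat.card_le_card_of_injective (fun a => ⟨a.1, hsame q a.1 a.2⟩)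
          (fun a b hab => Subtype.ext (by simpa using congrArg Subtype.val hab))
      exact_mod_cast (hlow q).trans h2
    -- lower bound
    have hcpos : 0 < c := by
      have : 0 < c * (P q).ord t := by rw [hce]; exact_mod_cast hhpos
      exact pos_of_mul_pos_left this he.le
    have : (P q).ord t ≤ c * (P q).ord t := le_mul_of_one_le_left he.le hcpos
    rw [hce] at this
    exact le_antisymm hle this
  -- finiteness
  have hrange : {v : Place k F | 0 < v.ord t} ⊆ Set.range P := by
    intro v hv
    obtain ⟨q, hq⟩ := hsurj v hv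
    exact ⟨q, hq⟩
  have hfinite : Set.Finite {v : Place k F | 0 < v.ord t} :=
    (Set.finite_range P).subset hrange
  refine ⟨hfinite, ?_⟩
  -- the count
  have : Fintype {v : Place k F // 0 < v.ord t} := hfinite.fintype
  let P' : Q → {v : Place k F // 0 < v.ord t} := fun q => ⟨P q, hpos q⟩
  rw [Nat.card_eq_fintype_card, ← Finset.sum_fiberwise Finset.univ P' (fun q => (1 : ℚ) / (h q))]
  rw [Fintype.card_eq_sum_ones]
  push_cast
  refine Finset.sum_congr rfl fun v _ => ?_
  have hv := v.2
  have h3 : ∀ q ∈ Finset.univ.filter (fun q => P' q = v), (1 : ℚ) / (h q) = 1 / ((v.1.ord t : ℤ) : ℚ) := by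
    intro q hq
    rw [Finset.mem_filter] at hq
    have : P q = v.1 := congrArg Subtype.val hq.2
    rw [← this, ← hh q]
    simp
  rw [Finset.sum_congr rfl h3, Finset.sum_const, nsmul_eq_mul]
  have h4 : ((Finset.univ.filter (fun q => P' q = v)).card : ℤ) = v.1.ord t := by
    rw [← hfib v.1 hv, Nat.card_eq_fintype_card, Fintype.card_subtype]
    congr 2
    ext q
    simp only [Finset.mem_filter, Finset.mem_univ, true_and]
    exact ⟨fun hq => congrArg Subtype.val hq, fun hq => Subtype.ext hq⟩
  have h5 : ((Finset.univ.filter (fun q => P' q = v)).card : ℚ) = ((v.1.ord t : ℤ) : ℚ) := by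
    exact_mod_cast h4
  rw [h5]
  have : ((v.1.ord t : ℤ) : ℚ) ≠ 0 := by exact_mod_cast hv.ne'
  field_simp

/-- contract (G2') closed. -/
theorem h8_embCountCor_holds : EmbCountCorStatement := h8_embCountCor h7_embCount

end Fermat.Agent.Lib.X0
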