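import Fermat.Agent.Lib.X0.Count

/-!
# Project X0: assembly of S24 from the contracts (owner: lead)
-/

set_option autoImplicit false

noncomputable section

namespace Fermat.Agent.Lib.X0

open AlgebraicCurve ModularCurve Function
open scoped MatrixGroups

section Group

variable (N : ℕ)

theorem neg_one_mem_Gamma0 : (-1 : SL(2, ℤ)) ∈ CongruenceSubgroup.Gamma0 N := by
  rw [CongruenceSubgroup.Gamma0_mem]
  simp

theorem neg_one_smul_QN (q : QN N) : (-1 : SL(2, ℤ)) • q = q := by
  induction q using QuotientGroup.induction_on with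
  | H g =>
    rw [MulAction.Quotient.smul_mk, QuotientGroup.eq]
    have : ((-1 : SL(2, ℤ)) • g)⁻¹ * g = -1 := by
      rw [smul_eq_mul, mul_inv_rev]
      simp
    rw [this]
    exact neg_one_mem_Gamma0 N

theorem matS_sq : matS ^ 2 = (-1 : SL(2, ℤ)) := by
  ext i j
  fin_cases i <;> fin_cases j <;>
    simp [matS, pow_succ, ModularGroup.S, Matrix.mul_apply, Fin.sum_univ_two]

theorem matU_cube : matU ^ 3 = (-1 : SL(2, ℤ)) := by
  ext i j
  fin_cases i <;> fin_cases j <;>
    simp [matU, pow_succ, ModularGroup.S, ModularGroup.T, Matrix.mul_apply, Fin.sum_univ_two]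

theorem matS_iterate (q : QN N) : (matS • ·)^[2] q = q := by
  rw [smul_iterate, matS_sq]; exact neg_one_smul_QN N q

theorem matU_iterate (q : QN N) : (matU • ·)^[3] q = q := by
  rw [smul_iterate, matU_cube]; exact neg_one_smul_QN N q

end Group

section Main

/-- If a finite family of integers `≥ 1` has as many members as its sum, all members are `1`. -/
theorem all_one_of_sum_eq_card {α : Type} (S : Finset α) (f : α → ℤ) (h1 : ∀ a ∈ S, 1 ≤ f a)
    (hs : ∑ a ∈ S, f a = S.card) : ∀ a ∈ S, f a = 1 := by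
  have h0 : ∑ a ∈ S, (f a - 1) = 0 := by
    rw [Finset.sum_sub_distrib, hs]; simp
  have h2 := (Finset.sum_eq_zero_iff_of_nonneg (fun a ha => by have := h1 a ha; omega)).1 h0
  intro a ha
  have := h2 a ha
  omega

variable (N : ℕ) [NeZero N]

theorem dedekindPsi_pos : 0 < dedekindPsi N := by
  unfold dedekindPsi
  have hN : 0 < N := Nat.pos_of_ne_zero (NeZero.ne N)
  apply Finset.sum_pos'
  · intro d _; exact Nat.zero_le _
  · refine ⟨1, ?_, ?_⟩
    · simp [hN.ne']
    · simpa using hN

/-- **S24 from the contracts.** -/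
theorem s24_of_contracts (hG1 : PlacesStatement) (hG2 : EmbCountCorStatement)
    (hG3 : DifferentialStatement)
    (hC : CoordStatement N) (hCf : CFiniteStatement N) (hCi : CInftyStatement N)
    (hB : CombStatement N)
    [HasCanonicalDivisor (K := Kbar) (F := FN N)] :
    (genus Kbar (FN N) : ℚ) = genusFormula N := by
  classical
  obtain ⟨hcoord, hdegree⟩ := hC
  obtain ⟨hcard, hS, hU, hT, hTN, g, hg⟩ := hB
  haveI : Finite (QN N) := Nat.finite_of_card_ne_zero (by rw [hcard]; exact (dedekindPsi_pos N).ne')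
  haveI : Fintype (QN N) := Fintype.ofFinite _
  set x : FN N := xJ N with hx
  set n : ℕ := coordDegree Kbar x with hn
  have hQ : Fintype.card (QN N) = n := by
    rw [← Nat.card_eq_fintype_card, ← hdegree]
  have hnpsi : n = dedekindPsi N := by rw [← hcard, hdegree]
  obtain ⟨hdeg1, huniq, hFI, hprin⟩ := hG1 x hcoord
  -- generic points
  have hgen : ∀ c : Kbar, c ≠ 0 → c ≠ 1728 → ∀ v : Place Kbar (FN N),
      0 < v.ord (x - algebraMap Kbar (FN N) c) → v.ord (x - algebraMap Kbar (FN N) c) = 1 := by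
    intro c hc0 hc1
    obtain ⟨M, E, h1, -, -⟩ := hCf c
    obtain rfl := h1 hc0 hc1
    obtain ⟨hfin, hcnt⟩ := count_cyclic hG2 iotaC x hcoord _ (Or.inl ⟨c, rfl⟩) (QN N) hQ 1 E id
      (fun q => rfl) (fun q f => rfl)
      (fun q h _ hh _ f _ => by
        have : h = 1 := Nat.dvd_one.1 hh
        subst this; simp)
    have hsum1 : ∑ q : QN N, (1 : ℚ) / (minimalPeriod (id : QN N → QN N) q) = n := by
      simp [← hQ]
    rw [hsum1] at hcnt
    have hcnt' : Nat.card {v : Place Kbar (FN N) // 0 < v.ord (x - algebraMap Kbar (FN N) c)}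
        = n := by exact_mod_cast hcnt
    have hFIc := (hFI _ (transcendental_sub_const hcoord.transc c)).2
    rw [finsum_mem_eq_finite_toFinset_sum _ hfin,
      finrank_congr_intermediateField (adjoin_sub_const x c)] at hFIc
    have hcardS : hfin.toFinset.card = n := by
      rw [← hcnt', ← Set.ncard_eq_toFinset_card _ hfin]
      exact (Nat.card_coe_set_eq _).symm
    intro v hv
    refine all_one_of_sum_eq_card hfin.toFinset
      (fun v => v.ord (x - algebraMap Kbar (FN N) c)) ?_ ?_ v ?_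
    · intro a ha
      rw [Set.Finite.mem_toFinset] at ha
      exact ha
    · rw [hFIc, hcardS]; rfl
    · rw [Set.Finite.mem_toFinset]; exact hv
  -- the point 0
  have h0 : (Nat.card (placesOver (k := Kbar) x 0) : ℚ)
      = (nuThree N : ℚ) + ((n : ℚ) - nuThree N) / 3 := by
    obtain ⟨M, E, -, h3, -⟩ := hCf 0
    obtain ⟨rfl, hinv, hfix⟩ := h3 rfl
    obtain ⟨-, hcnt⟩ := count_cyclic hG2 iotaC x hcoord (x - algebraMap Kbar (FN N) 0)
      (Or.inl ⟨0, rfl⟩) (QN N) hQ 3 E
      (matU • ·) (matU_iterate N) hinv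
      (fun q h h0 hh hq f hf => by
        rcases (Nat.dvd_prime Nat.prime_three).1 hh with rfl | rfl
        · exact hfix q hq f hf
        · simp)
    rw [sum_inv_minimalPeriod_prime _ 3 Nat.prime_three (matU_iterate N)] at hcnt
    have hfixc : Fintype.card {q : QN N // matU • q = q} = nuThree N := by
      rw [← Nat.card_eq_fintype_card, hU]
    rw [hfixc, hQ, show ((3 : ℕ) : ℚ) = 3 by norm_num] at hcnt
    exact hcnt
  -- the point 1728
  have h1728 : (Nat.card (placesOver (k := Kbar) x 1728) : ℚ)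
      = (nuTwo N : ℚ) + ((n : ℚ) - nuTwo N) / 2 := by
    obtain ⟨M, E, -, -, h2⟩ := hCf 1728
    obtain ⟨rfl, hinv, hfix⟩ := h2 rfl
    obtain ⟨-, hcnt⟩ := count_cyclic hG2 iotaC x hcoord (x - algebraMap Kbar (FN N) 1728)
      (Or.inl ⟨1728, rfl⟩) (QN N) hQ 2 E
      (matS • ·) (matS_iterate N) hinv
      (fun q h h0 hh hq f hf => by
        rcases (Nat.dvd_prime Nat.prime_two).1 hh with rfl | rfl
        · exact hfix q hq f hf
        · simp)
    rw [sum_inv_minimalPeriod_prime _ 2 Nat.prime_two (matS_iterate N)] at hcnt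
    have hfixc : Fintype.card {q : QN N // matS • q = q} = nuTwo N := by
      rw [← Nat.card_eq_fintype_card, hS]
    rw [hfixc, hQ, show ((2 : ℕ) : ℚ) = 2 by norm_num] at hcnt
    exact hcnt
  -- infinity
  have hinfty : (Nat.card (placesInf (k := Kbar) x) : ℚ) = cuspCount N := by
    obtain ⟨E, hinv, hdiv⟩ := hCi
    obtain ⟨-, hcnt⟩ := count_cyclic hG2 iotaC x hcoord _ (Or.inr rfl) (QN N) hQ N E
      (matT • ·) (fun q => by rw [smul_iterate]; exact hTN q) hinv
      (fun q h h0 hh hq f hf => hdiv q h h0 hh (by rwa [smul_iterate] at hq) f hf)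
    rw [sum_inv_minimalPeriod_eq_card_orbits] at hcnt
    rw [← hT]
    exact hcnt
  -- the differential
  obtain ⟨hspan, hne, hgenD, hfinD, hinfD⟩ := hG3 x hcoord
  have hex : ∃ ω : Ω[FN N⁄Kbar], ω ≠ 0 := ⟨_, hne⟩
  rw [genus, dif_pos hex]
  have hω0 : hex.choose ≠ 0 := hex.choose_spec
  have h01728 : (0 : Kbar) ≠ 1728 := by norm_num
  have hdeg := degree_differential hG1 hG3 x hcoord ({0, 1728} : Finset Kbar)
    (fun c hc v hv => hgen c (fun h => hc (by simp [h])) (fun h => hc (by simp [h])) v hv)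
    hex.choose hω0 (canonicalDivisorOf hω0) (canonicalDivisorOf_apply hω0)
  rw [Finset.sum_pair h01728] at hdeg
  have hq : ((Divisor.degree (canonicalDivisorOf hω0) : ℤ) : ℚ) = 2 * genusFormula N - 2 := by
    rw [hdeg]
    push_cast
    rw [h0, h1728, hinfty, genusFormula, ← hn, hnpsi]
    ring
  have hz : Divisor.degree (canonicalDivisorOf hω0) = 2 * (g : ℤ) - 2 := by
    have : ((Divisor.degree (canonicalDivisorOf hω0) : ℤ) : ℚ) = ((2 * (g : ℤ) - 2 : ℤ) : ℚ) := by
      rw [hq, ← hg]; push_cast; ring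
    exact_mod_cast this
  rw [hz, ← hg]
  have h2 : (2 * (g : ℤ) - 2 + 2).toNat / 2 = g := by
    have : (2 * (g : ℤ) - 2 + 2) = ((2 * g : ℕ) : ℤ) := by push_cast; ring
    rw [this, Int.toNat_natCast]; omega
  rw [h2]

end Main

end Fermat.Agent.Lib.X0
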