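import Mathlib
import Fermat.Agent.Lib.X0.EmbFamily

/-!
# Project X0 (S24), slab (C): `CInftyStatement N` from a cusp family

Owner: helper9.  Generic assembly: an `h9_EmbFamily N` of `q_N`-expansions at `∞` with
* `(ψ g (X ⟨1,_⟩)).order = -N`,
* orders invariant under `g ↦ T * g`,
* `(N / h) ∣` all orders of `ψ g` when `g⁻¹ T^h g ∈ Γ₀(N)`,
gives `CInftyStatement N`.
-/

set_option autoImplicit false

noncomputable section

namespace Fermat.Agent.Lib.X0

open UpperHalfPlane ModularCurve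
open scoped MatrixGroups Manifold

theorem h9_order_inv_laurent {x : LaurentSeries ℂ} (hx : x ≠ 0) : (x⁻¹).order = -x.order := by
  have hinv : x⁻¹ ≠ 0 := inv_ne_zero hx
  have h := HahnSeries.order_mul hx hinv
  rw [mul_inv_cancel₀ hx, HahnSeries.order_one] at h
  linarith

theorem h9_cInfty_of_family (N : ℕ) [NeZero N] (Fam : h9_EmbFamily N)
    (hd : ∀ g, (Fam.ψ g (MvPolynomial.X ⟨1, one_dvd N⟩)).order = -(N : ℤ))
    (he : ∀ g P, (Fam.ψ (matT * g) P).order = (Fam.ψ g P).order)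
    (hf : ∀ g (h : ℕ), 0 < h → h ∣ N → g⁻¹ * matT ^ h * g ∈ CongruenceSubgroup.Gamma0 N →
      ∀ P, (((N / h : ℕ) : ℤ) ∣ (Fam.ψ g P).order)) :
    CInftyStatement N := by
  have hN : 0 < N := Nat.pos_of_ne_zero (NeZero.ne N)
  have ht : ∀ g : SL(2, ℤ), (Fam.lift g (xJ N)⁻¹).order = (N : ℤ) := by
    intro g
    rw [map_inv₀, h9_EmbFamily.lift_xJ]
    have hne : Fam.ψ g (MvPolynomial.X ⟨1, one_dvd N⟩) ≠ 0 := by
      intro h0
      have := hd g
      rw [h0, HahnSeries.order_zero] at this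
      have hN' : (0 : ℤ) < N := by exact_mod_cast hN
      omega
    rw [h9_order_inv_laurent hne, hd g, neg_neg]
  refine ⟨Fam.localEmb _ N hN ht, ?_, ?_⟩
  · intro q f
    exact Fam.order_tau_smul matT he q f
  · intro q h hh hhN hq f _
    exact Fam.dvd_order_tau_of_fixed (matT ^ h) _ (fun g hg P => hf g h hh hhN hg P) q hq f

end Fermat.Agent.Lib.X0
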