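import Mathlib
import Fermat.Agent.Lib.X0.CInftyProof
import Fermat.Agent.Lib.X0.CuspFamily
import Fermat.Agent.Lib.X0.Kernel

/-!
# Project X0 (S24), slab (C): `CInftyStatement N`

Assembly (helper5) of helper9's `h9_cInfty_of_family` with the cusp family `h5_cuspFamily`
and helper1's kernel comparison `h1_kernel`.
-/

set_option autoImplicit false

namespace Fermat.Agent.Lib.X0

/-- **Contract (C, cusps)**. -/
theorem h5_cInfty (N : ℕ) [NeZero N] : CInftyStatement N :=
  h9_cInfty_of_family N (h5_cuspFamily N (h1_kernel N)) (h5_cuspPsi_order_X N)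
    (h5_cuspPsi_order_T N) (h5_cuspPsi_dvd_order N)

end Fermat.Agent.Lib.X0
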