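import Mathlib
import Fermat.Agent.Lib.X0.EmbFamily
import Fermat.Agent.Lib.X0.FinFamily
import Fermat.Agent.Lib.X0.Kernel
import Fermat.Agent.Lib.X0.JdInv
import Fermat.Agent.Lib.X0.LevelOneData

/-!
# Project X0 (S24), slab (C): `CFiniteStatement N` from the finite family

Owner: helper9.  Assembles helper2's finite family `h2_psi`, helper1's kernel comparison
`h1_kernel`, helper5's `h5_Jd_invariant`, helper3's level one data and the generic
`h9_EmbFamily` machinery into `CFiniteStatement N`, modulo the distinctness hypothesis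
`h9_DistinctHyp N` (helper5's `h5_distinct`).
-/

set_option autoImplicit false

noncomputable section

namespace Fermat.Agent.Lib.X0

open UpperHalfPlane ModularCurve
open scoped MatrixGroups Manifold

/-- Distinct cosets give distinct functions `J_N ∘ g⁻¹` (helper5's `h5_distinct`). -/
def h9_DistinctHyp (N : ℕ) : Prop :=
  ∀ g g' : SL(2, ℤ), (∀ z : ℍ, h9_Jd N (g⁻¹ • z) = h9_Jd N (g'⁻¹ • z)) →
    g⁻¹ * g' ∈ CongruenceSubgroup.Gamma0 N

/-- The family of Taylor expansions at `τ₀`. -/
def h9_finFamily (N : ℕ) [NeZero N] (τ₀ : ℍ) (hdist : h9_DistinctHyp N) : h9_EmbFamily N where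
  ψ := h2_psi N τ₀
  ker g P := (h2_psi_eq_zero_iff N τ₀ g P).trans (h1_kernel N P).symm
  const := h2_psi_C N τ₀
  coset := h2_psi_coset N τ₀ (h5_Jd_invariant N)
  distinct := h2_psi_distinct N τ₀ hdist
  agree := h2_psi_agree N τ₀

theorem h9_iotaC_injective : Function.Injective iotaC := iotaC.injective

theorem h9_xJ_sub_eq (N : ℕ) [NeZero N] (c : Kbar) :
    xJ N - algebraMap Kbar (FN N) c
      = h9_evF N (MvPolynomial.X ⟨1, one_dvd N⟩ - MvPolynomial.C c) := by
  rw [map_sub, h9_evF_X, h9_evF_C, h9_gen_one]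

/-- The order of `x - c` under the expansion at a point `τ₀` with `j(τ₀) = c`. -/
theorem h9_finFamily_order_t (N : ℕ) [NeZero N] (τ₀ : ℍ) (hdist : h9_DistinctHyp N) (c : Kbar)
    (m : ℕ) (hc : jFun τ₀ = iotaC c)
    (hm : analyticOrderAt (fun z => (jFun ∘ ofComplex) z - jFun τ₀) (τ₀ : ℂ) = m)
    (g : SL(2, ℤ)) :
    ((h9_finFamily N τ₀ hdist).lift g (xJ N - algebraMap Kbar (FN N) c)).order = (m : ℤ) := by
  rw [h9_xJ_sub_eq, h9_EmbFamily.lift_evF]
  exact h2_psi_order_X_sub_C N τ₀ g c m hc hm

theorem h9_cFinite_of_distinct (N : ℕ) [NeZero N] (hdist : h9_DistinctHyp N) :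
    CFiniteStatement N := by
  intro c
  have h1728 : (1728 : Kbar) ≠ 0 := by norm_num
  by_cases h0 : c = 0
  · -- expansion at ρ
    subst h0
    have hc : jFun h3_rho = iotaC 0 := by rw [map_zero]; exact h3_jFun_rho
    have hm : analyticOrderAt (fun z => (jFun ∘ ofComplex) z - jFun h3_rho) (h3_rho : ℂ)
        = (3 : ℕ) := by
      have h3 := h3_order_jFun_rho
      rw [h3_jFun_rho]
      have e : (fun z => (jFun ∘ ofComplex) z - 0) = jFun ∘ ofComplex := by
        funext z; rw [sub_zero]
      rw [e, h3]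
      rfl
    set Fam := h9_finFamily N h3_rho hdist with hFam
    refine ⟨3, Fam.localEmb _ 3 (by norm_num)
      (h9_finFamily_order_t N h3_rho hdist 0 3 hc hm), ?_, ?_, ?_⟩
    · intro h; exact absurd rfl h
    · intro _
      refine ⟨rfl, ?_, ?_⟩
      · intro q f
        exact Fam.order_tau_smul matU
          (fun g P => h2_psi_order_stab N h3_rho matU h3_ST_smul_rho g P) q f
      · intro q hq f _
        exact Fam.dvd_order_tau_of_fixed matU 3
          (fun g hg P => h2_psi_three_dvd N (h5_Jd_invariant N) g hg P) q hq f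
    · intro h; exact absurd h.symm h1728
  · by_cases h1 : c = 1728
    · -- expansion at i
      subst h1
      have hc : jFun UpperHalfPlane.I = iotaC 1728 := by
        rw [map_ofNat]; exact h3_jFun_I
      have hm : analyticOrderAt (fun z => (jFun ∘ ofComplex) z - jFun UpperHalfPlane.I)
          ((UpperHalfPlane.I : ℍ) : ℂ) = (2 : ℕ) := by
        have h3 := h3_order_jFun_I
        rw [h3_jFun_I, h3]
        rfl
      set Fam := h9_finFamily N UpperHalfPlane.I hdist with hFam
      refine ⟨2, Fam.localEmb _ 2 (by norm_num)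
        (h9_finFamily_order_t N UpperHalfPlane.I hdist 1728 2 hc hm), ?_, ?_, ?_⟩
      · intro _ h; exact absurd rfl h
      · intro h; exact absurd h h1728
      · intro _
        refine ⟨rfl, ?_, ?_⟩
        · intro q f
          exact Fam.order_tau_smul matS
            (fun g P => h2_psi_order_stab N UpperHalfPlane.I matS h3_S_smul_I g P) q f
        · intro q hq f _
          exact Fam.dvd_order_tau_of_fixed matS 2
            (fun g hg P => h2_psi_two_dvd N (h5_Jd_invariant N) g hg P) q hq f
    · -- generic point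
      obtain ⟨τ₀, hτ₀⟩ := h3_jFun_surjective (iotaC c)
      have hj0 : jFun τ₀ ≠ 0 := by
        rw [hτ₀]
        intro h
        exact h0 (h9_iotaC_injective (by rw [h, map_zero]))
      have hj1 : jFun τ₀ ≠ 1728 := by
        rw [hτ₀]
        intro h
        exact h1 (h9_iotaC_injective (by rw [h, map_ofNat]))
      have hm : analyticOrderAt (fun z => (jFun ∘ ofComplex) z - jFun τ₀) (τ₀ : ℂ) = (1 : ℕ) := by
        rw [h3_order_jFun_generic τ₀ hj0 hj1]
        rfl
      set Fam := h9_finFamily N τ₀ hdist with hFam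
      refine ⟨1, Fam.localEmb _ 1 (by norm_num)
        (h9_finFamily_order_t N τ₀ hdist c 1 hτ₀ hm), ?_, ?_, ?_⟩
      · intro _ _; rfl
      · intro h; exact absurd h h0
      · intro h; exact absurd h h1

end Fermat.Agent.Lib.X0
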