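import Mathlib
import Fermat.Agent.Lib.X0.CFiniteProof
import Fermat.Agent.Lib.X0.CuspExp

/-!
# Project X0 (S24), slab (C): `CFiniteStatement N` (final)

Owner: helper9.
-/

set_option autoImplicit false

namespace Fermat.Agent.Lib.X0

theorem h9_distinctHyp (N : ℕ) [NeZero N] : h9_DistinctHyp N :=
  fun g g' h => h5_distinct N g g' h

/-- **Contract (C, finite points)**. -/
theorem h9_cFinite (N : ℕ) [NeZero N] : CFiniteStatement N :=
  h9_cFinite_of_distinct N (h9_distinctHyp N)

end Fermat.Agent.Lib.X0
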