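/-
X0 project (S24), contract (C5)+(C4) `CoordStatement N`, final assembly (helper8):
from the transcendence of `xJ N` and a relation of degree `≤ [SL₂(ℤ) : Γ₀(N)]` over `ℚ̄[j]` for
every polynomial in the generators, deduce `CoordStatement N`.
-/
import Fermat.Agent.Lib.X0.DegreeUpper
import Fermat.Agent.Lib.X0.DegreeLower
import Fermat.Agent.Lib.X0.EmbFamily
import Fermat.Agent.Lib.X0.CFiniteFinal

set_option autoImplicit false

namespace Fermat.Agent.Lib.X0

open IntermediateField Polynomial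

instance h8_finite_DivN (N : ℕ) [NeZero N] : Finite (h9_DivN N) :=
  Finite.of_injective
    (fun d : h9_DivN N =>
      (⟨d.1, Nat.lt_succ_of_le (Nat.le_of_dvd (NeZero.pos N) d.2)⟩ : Fin (N + 1)))
    (fun a b h => Subtype.ext (by simpa using congrArg Fin.val h))

/-- the finite set of generators `j(q^d)`, `d ∣ N`. -/
noncomputable def h8_genSet (N : ℕ) [NeZero N] : Finset (FN N) :=
  (Set.toFinite (Set.range (h9_gen N))).toFinset

theorem h8_mem_genSet (N : ℕ) [NeZero N] (f : FN N) :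
    f ∈ h8_genSet N ↔ ∃ d, h9_gen N d = f := by
  simp [h8_genSet]

theorem h8_xJ_mem_genSet (N : ℕ) [NeZero N] : xJ N ∈ h8_genSet N :=
  (h8_mem_genSet N _).mpr ⟨⟨1, one_dvd N⟩, h9_gen_one N⟩

/-- every element of the `ℚ̄`-algebra generated by the generators is a polynomial in them. -/
theorem h8_exists_evF_of_mem_adjoin (N : ℕ) [NeZero N] (θ : FN N)
    (hθ : θ ∈ Algebra.adjoin Kbar (insert (xJ N) (↑(h8_genSet N) : Set (FN N)))) :
    ∃ P, h9_evF N P = θ := by
  induction hθ using Algebra.adjoin_induction with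
  | mem s hs =>
    rcases hs with rfl | hs
    · exact ⟨MvPolynomial.X ⟨1, one_dvd N⟩, by rw [h9_evF_X, h9_gen_one]⟩
    · obtain ⟨d, rfl⟩ := (h8_mem_genSet N s).mp (Finset.mem_coe.mp hs)
      exact ⟨MvPolynomial.X d, h9_evF_X N d⟩
  | algebraMap a => exact ⟨MvPolynomial.C a, h9_evF_C N a⟩
  | add y z _ _ hy hz =>
    obtain ⟨P, rfl⟩ := hy
    obtain ⟨Q, rfl⟩ := hz
    exact ⟨P + Q, map_add _ _ _⟩
  | mul y z _ _ hy hz =>
    obtain ⟨P, rfl⟩ := hy
    obtain ⟨Q, rfl⟩ := hz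
    exact ⟨P * Q, map_mul _ _ _⟩

/-- polynomials in the generators lie in the field generated by them. -/
theorem h8_evF_mem_adjoin (N : ℕ) [NeZero N] (P : MvPolynomial (h9_DivN N) Kbar) :
    h9_evF N P ∈ adjoin Kbar (insert (xJ N) (↑(h8_genSet N) : Set (FN N))) := by
  induction P using MvPolynomial.induction_on with
  | C a =>
    rw [h9_evF_C]
    exact IntermediateField.algebraMap_mem _ a
  | add p q hp hq =>
    rw [map_add]; exact add_mem hp hq
  | mul_X p d hp =>
    rw [map_mul, h9_evF_X]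
    refine mul_mem hp (subset_adjoin _ _ (Set.mem_insert_of_mem _ ?_))
    exact Finset.mem_coe.mpr ((h8_mem_genSet N _).mpr ⟨d, rfl⟩)

/-- (gen) `F_N = ℚ̄(j, j(q^d) : d ∣ N)`. -/
theorem h8_adjoin_genSet_eq_top (N : ℕ) [NeZero N] :
    adjoin Kbar (insert (xJ N) (↑(h8_genSet N) : Set (FN N))) = ⊤ := by
  rw [eq_top_iff]
  intro f _
  obtain ⟨P, Q, _, rfl⟩ := h9_hgen N f
  exact div_mem (h8_evF_mem_adjoin N P) (h8_evF_mem_adjoin N Q)

/-- **Final assembly of `CoordStatement N`.** -/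
theorem h8_coordStatement_of (N : ℕ) [NeZero N] (htr : Transcendental Kbar (xJ N))
    (hrel : ∀ P : MvPolynomial (h9_DivN N) Kbar,
      ∃ b : Fin (Nat.card (QN N) + 1) → Polynomial Kbar, b ≠ 0 ∧
        ∑ i, Polynomial.aeval (xJ N) (b i) * (h9_evF N P) ^ (i : ℕ) = 0) :
    CoordStatement N := by
  obtain ⟨hcoord, hle⟩ := h8_isCoord_of_relations (xJ N) htr (Nat.card (QN N)) (h8_genSet N)
    (h8_adjoin_genSet_eq_top N) (by
      intro θ hθ
      obtain ⟨P, rfl⟩ := h8_exists_evF_of_mem_adjoin N θ hθ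
      exact hrel P)
  refine ⟨hcoord, le_antisymm hle ?_⟩
  obtain ⟨M, E, _⟩ := h9_cFinite N 0
  letI : Fintype (QN N) := Fintype.ofFinite _
  rw [Nat.card_eq_fintype_card]
  exact h8_card_le_coordDegree iotaC (xJ N) _ hcoord (QN N) M E

end Fermat.Agent.Lib.X0
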