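import Mathlib
import Fermat.Agent.Lib.X0.Kernel
import Fermat.Agent.Lib.X0.EmbFamily

/-!
# Project X0 (S24), slab (C): the bridge in the `h9_evL` form

Owner: helper1.  `h1_bridge` : the formal realisation `h9_evL N P ∈ ℚ̄((q))`, coefficients through
`iotaC`, evaluated at `q = e^{2πiτ}`, converges to the analytic realisation `h9_evAn N P τ`.
-/

set_option autoImplicit false

noncomputable section

namespace Fermat.Agent.Lib.X0

open UpperHalfPlane ModularCurve HahnSeries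

theorem h1_PhiC_evF_eq (N : ℕ) [NeZero N] (P : MvPolynomial (h9_DivN N) Kbar) :
    h1_PhiC N (h9_evF N P) = coeffMap iotaC (h9_evL N P) := rfl

/-- **Bridge**: `coeffMap iotaC (h9_evL N P)` sums at `q = e^{2πiτ}` to `h9_evAn N P τ`. -/
theorem h1_bridge (N : ℕ) [NeZero N] (P : MvPolynomial (h9_DivN N) Kbar) (τ : ℍ) :
    h9_LSum (coeffMap iotaC (h9_evL N P)) (Function.Periodic.qParam 1 (τ : ℂ))
      (h9_evAn N P τ) :=
  h1_LSum_evF N P τ

/-- A formal Laurent series over `ℂ` which sums to `0` at `q(τ)` for every `τ : ℍ` is `0`. -/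
theorem h1_eq_zero_of_LSum_qParam {s : LaurentSeries ℂ}
    (h : ∀ τ : ℍ, h9_LSum s (Function.Periodic.qParam 1 (τ : ℂ)) 0) : s = 0 := by
  refine h9_LSum_eq_zero one_pos (fun w hw hw1 => ?_)
  obtain ⟨τ, rfl⟩ := h1_exists_qParam w hw hw1
  exact h τ

/-- Two formal Laurent series over `ℂ` with the same sums at `q(τ)` for every `τ : ℍ` are
equal. -/
theorem h1_eq_of_LSum_qParam {s s' : LaurentSeries ℂ} (g : ℍ → ℂ)
    (h : ∀ τ : ℍ, h9_LSum s (Function.Periodic.qParam 1 (τ : ℂ)) (g τ))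
    (h' : ∀ τ : ℍ, h9_LSum s' (Function.Periodic.qParam 1 (τ : ℂ)) (g τ)) : s = s' := by
  rw [← sub_eq_zero]
  refine h1_eq_zero_of_LSum_qParam (fun τ => ?_)
  have := h9_LSum_sub (h τ) (h' τ)
  rwa [sub_self] at this

end Fermat.Agent.Lib.X0
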