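/-
X0 project (S24), piece (C5-iv) (helper8): DESCENT of linear relations between Laurent series
along a field extension of the coefficient field (linear disjointness of `k((q))` and `K` over `k`).
Mathlib + the Prelude's `coeffMap`.
-/
import Mathlib
import Fermat.Prelude.Def_ModularCurve_LaurentCoeff

set_option autoImplicit false

namespace Fermat.Agent.Lib.X0

open ModularCurve

section Descent

variable {k K : Type*} [Field k] [Field K] (ι : k →+* K)

/-- core: a `K`-linear relation between the coefficient extensions of `k`-linearly independent
Laurent series is trivial. -/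
theorem h8_descent_core {m : Type*} [Fintype m] (s : m → LaurentSeries k)
    (hs : LinearIndependent k s) (a : m → K)
    (h : ∑ j, a j • coeffMap ι (s j) = 0) : a = 0 := by
  classical
  letI : Algebra k K := ι.toAlgebra
  have halg : ∀ c : k, algebraMap k K c = ι c := fun c => rfl
  set V : Submodule k K := Submodule.span k (Set.range a) with hV
  haveI : FiniteDimensional k V := FiniteDimensional.span_of_finite k (Set.finite_range a)
  let e := Module.finBasis k V
  have haV : ∀ j, a j ∈ V := fun j => Submodule.subset_span ⟨j, rfl⟩
  let b : m → Fin (Module.finrank k V) → k := fun j l => e.repr ⟨a j, haV j⟩ l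
  have hab : ∀ j, a j = ∑ l, ι (b j l) * (e l : K) := by
    intro j
    have h1 := e.sum_repr ⟨a j, haV j⟩
    have h2 := congrArg (fun v : V => (v : K)) h1
    simp only [Submodule.coe_sum, Submodule.coe_smul] at h2
    rw [← h2]
    refine Finset.sum_congr rfl fun l _ => ?_
    rw [Algebra.smul_def, halg]
  -- independence of the basis vectors inside K
  have hind : LinearIndependent k (fun l => (e l : K)) :=
    e.linearIndependent.map' V.subtype (Submodule.ker_subtype V)
  -- coefficientwise
  have hcoef : ∀ (n : ℤ) (l : Fin (Module.finrank k V)), ∑ j, b j l * (s j).coeff n = 0 := by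
    intro n
    have h1 := congrArg (fun y : LaurentSeries K => y.coeff n) h
    simp only [HahnSeries.coeff_sum, HahnSeries.coeff_smul, coeffMap_coeff, HahnSeries.coeff_zero,
      smul_eq_mul] at h1
    have h2 : ∑ l, (∑ j, b j l * (s j).coeff n) • (e l : K) = 0 := by
      rw [← h1]
      simp_rw [Algebra.smul_def, halg, map_sum, map_mul, Finset.sum_mul]
      rw [Finset.sum_comm]
      refine Finset.sum_congr rfl fun j _ => ?_
      rw [hab j, Finset.sum_mul]
      refine Finset.sum_congr rfl fun l _ => ?_
      ring
    exact fun l => (Fintype.linearIndependent_iff.mp hind _ h2) l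
  have hrel : ∀ l, ∑ j, b j l • s j = 0 := by
    intro l
    ext n
    simp only [HahnSeries.coeff_sum, HahnSeries.coeff_smul, smul_eq_mul, HahnSeries.coeff_zero]
    exact hcoef n l
  have hb : ∀ l j, b j l = 0 := fun l => Fintype.linearIndependent_iff.mp hs _ (hrel l)
  funext j
  rw [hab j]
  simp [hb]

/-- **linear disjointness**: `k`-linearly independent Laurent series stay linearly independent
over `K` after extension of the coefficients. -/
theorem h8_linearIndependent_coeffMap {m : Type*} (s : m → LaurentSeries k)
    (hs : LinearIndependent k s) :
    LinearIndependent K (fun j => coeffMap ι (s j)) := by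
  classical
  rw [linearIndependent_iff']
  intro t a h j hj
  have hs' : LinearIndependent k (fun j : t => s j) := hs.comp _ Subtype.val_injective
  have h' : ∑ j : t, a j • coeffMap ι (s j) = 0 := by
    rw [← h]
    exact Finset.sum_coe_sort t (fun j => a j • coeffMap ι (s j))
  have := h8_descent_core ι (fun j : t => s j) hs' (fun j : t => a j) h'
  exact congrFun this ⟨j, hj⟩

/-- **descent of dependence**: if the coefficient extensions of finitely many Laurent series are
`K`-linearly dependent, the series are `k`-linearly dependent. -/
theorem h8_descent {m : Type*} [Fintype m] (s : m → LaurentSeries k) (a : m → K) (ha : a ≠ 0)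
    (h : ∑ j, a j • coeffMap ι (s j) = 0) :
    ∃ b : m → k, b ≠ 0 ∧ ∑ j, b j • s j = 0 := by
  by_contra hcon
  push Not at hcon
  have hs : LinearIndependent k s := by
    rw [Fintype.linearIndependent_iff]
    intro b hb
    by_contra hne
    have : b ≠ 0 := fun h0 => hne (by intro i; rw [h0]; rfl)
    exact hcon b this hb
  exact ha (h8_descent_core ι s hs a h)

end Descent

end Fermat.Agent.Lib.X0
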