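/-
X0 project (S24), helper2: CoordStatement step (rel): every element `h9_evF N P` of the carrier
satisfies a nonzero relation of degree `≤ n = [SL₂(ℤ) : Γ₀(N)]` over `ℚ̄[x]`, `x = j`.
-/
import Mathlib
import Fermat.Agent.Lib.X0.NormPolyCor
import Fermat.Agent.Lib.X0.Bridge
import Fermat.Agent.Lib.X0.Descent
import Fermat.Agent.Lib.X0.DegreeUpper
import Fermat.Agent.Lib.X0.JdInv
import Fermat.Agent.Lib.X0.GrowthJd

set_option autoImplicit false

open Filter Topology UpperHalfPlane Polynomial ModularCurve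
open scoped Manifold MatrixGroups

namespace Fermat.Agent.Lib.X0

theorem h2_LSum_smul {s : LaurentSeries ℂ} {w v : ℂ} (a : ℂ) (h : h9_LSum s w v) :
    h9_LSum (a • s) w (a * v) := by
  unfold h9_LSum at *
  have e : (fun n : ℤ => (a • s).coeff n * w ^ n) = fun n => a * (s.coeff n * w ^ n) := by
    funext n
    rw [HahnSeries.coeff_smul, smul_eq_mul, mul_assoc]
  rw [e]
  exact h.mul_left a

theorem h2_evAn_monomial (N : ℕ) (P : MvPolynomial (h9_DivN N) Kbar) (e i : ℕ) (τ : ℍ) :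
    h9_evAn N ((MvPolynomial.X ⟨1, one_dvd N⟩) ^ e * P ^ i) τ
      = jFun τ ^ e * h9_evAn N P τ ^ i := by
  rw [← h2_evAnHom_apply, map_mul, map_pow, map_pow, h2_evAnHom_X]
  show (h2_JdHolo 1).1 τ ^ e * (h2_evAnHom N P).1 τ ^ i = _
  rw [h2_evAnHom_apply]
  show h9_Jd 1 τ ^ e * _ = _
  rw [h2_Jd_one]

/-- **(rel)**: the relation of degree `≤ n` over `ℚ̄[x]` for `θ = h9_evF N P`. -/
theorem h2_coordRel (N : ℕ) [NeZero N] (P : MvPolynomial (h9_DivN N) Kbar) :
    ∃ b : Fin (Nat.card (QN N) + 1) → Polynomial Kbar, b ≠ 0 ∧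
      ∑ i, Polynomial.aeval (xJ N) (b i) * (h9_evF N P) ^ (i : ℕ) = 0 := by
  obtain ⟨p, hmonic, hdeg, hp⟩ := h2_normPoly_evAn N
    (fun d hd δ hδ z => h5_Jd_invariant N d hd δ hδ z) (fun d hd g => h3_growth_Jd N d hd g) P
  set n := Nat.card (QN N) with hn
  set D := (Finset.range (n + 1)).sup (fun i => (p.coeff i).natDegree) with hD
  have hDle : ∀ i, i < n + 1 → (p.coeff i).natDegree < D + 1 := fun i hi =>
    Nat.lt_succ_of_le (Finset.le_sup (f := fun i => (p.coeff i).natDegree) (Finset.mem_range.mpr hi))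
  let a : Fin (n + 1) × Fin (D + 1) → ℂ := fun j => (p.coeff (j.1 : ℕ)).coeff (j.2 : ℕ)
  have ha : a ≠ 0 := by
    intro h
    have h1 := congrFun h (⟨n, Nat.lt_succ_self n⟩, ⟨0, Nat.succ_pos D⟩)
    have h2 : p.coeff n = 1 := by
      have := hmonic.coeff_natDegree
      rwa [hdeg] at this
    simp only [a, Pi.zero_apply, h2, Polynomial.coeff_one_zero] at h1
    exact one_ne_zero h1
  let M : Fin (n + 1) × Fin (D + 1) → MvPolynomial (h9_DivN N) Kbar :=
    fun j => (MvPolynomial.X ⟨1, one_dvd N⟩) ^ (j.2 : ℕ) * P ^ (j.1 : ℕ)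
  let s : Fin (n + 1) × Fin (D + 1) → LaurentSeries Kbar := fun j => h9_evL N (M j)
  have hrel : ∑ j, a j • coeffMap iotaC (s j) = 0 := by
    apply h1_eq_zero_of_LSum_qParam
    intro τ
    have h1 : ∀ j, h9_LSum (a j • coeffMap iotaC (s j)) (Function.Periodic.qParam 1 (τ : ℂ))
        (a j * (jFun τ ^ (j.2 : ℕ) * h9_evAn N P τ ^ (j.1 : ℕ))) := fun j => by
      have := h1_bridge N (M j) τ
      rw [h2_evAn_monomial] at this
      exact h2_LSum_smul (a j) this
    have h2 := h9_LSum_sum Finset.univ (fun j _ => h1 j)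
    have hval : ∑ j, a j * (jFun τ ^ (j.2 : ℕ) * h9_evAn N P τ ^ (j.1 : ℕ)) = 0 := by
      rw [← hp τ, Fintype.sum_prod_type]
      have hnat : (p.map (Polynomial.evalRingHom (jFun τ))).natDegree < n + 1 := by
        rw [hmonic.natDegree_map, hdeg]
        exact Nat.lt_succ_self n
      rw [Polynomial.eval_eq_sum_range' hnat, Finset.sum_range]
      refine Finset.sum_congr rfl fun i _ => ?_
      rw [Polynomial.coeff_map, Polynomial.coe_evalRingHom,
        Polynomial.eval_eq_sum_range' (hDle i i.2), Finset.sum_range, Finset.sum_mul]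
      refine Finset.sum_congr rfl fun e _ => ?_
      simp only [a]
      ring
    rw [hval] at h2
    exact h2
  obtain ⟨b, hb, hbrel⟩ := h8_descent iotaC s a ha hrel
  apply h8_rel_of_coeffs (xJ N) (h9_evF N P) n D b hb
  apply (algebraMap (FN N) (LaurentSeries Kbar)).injective
  rw [map_zero, ← hbrel, map_sum]
  refine Finset.sum_congr rfl fun j _ => ?_
  rw [map_mul, ← IsScalarTower.algebraMap_apply, ← HahnSeries.C_mul_eq_smul]
  congr 1
  · rw [ModularCurve.algebraMap_laurentSeries_eq_single]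
    rfl
  · show (algebraMap (FN N) (LaurentSeries Kbar)) (xJ N ^ (j.2 : ℕ) * (h9_evF N) P ^ (j.1 : ℕ))
      = (algebraMap (FN N) (LaurentSeries Kbar)) (h9_evF N (M j))
    congr 1
    simp only [M, map_mul, map_pow, h9_evF_X, h9_gen_one]

end Fermat.Agent.Lib.X0
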