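/-
X0 project (S24), helper3: CoordStatement piece (i): `xJ N` is transcendental over `ℚ̄`.
-/
import Fermat.Agent.Lib.X0.Defs

set_option autoImplicit false

noncomputable section

namespace Fermat.Agent.Lib.X0

open ModularCurve

/-- The coefficient of `q⁻¹` in `jBar` is `1`. -/
theorem h3_jBar_coeff_neg_one : jBar.coeff (-1 : ℤ) = 1 := by
  rw [jBar, coeffEmb_coeff, coeff_jq_neg_one, map_one]

/-- A constant of `F_N`, viewed as a Laurent series, is a constant series. -/
theorem h3_algebraMap_FN_coe (N : ℕ) (c : Kbar) :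
    ((algebraMap Kbar (FN N) c : FN N) : LaurentSeries Kbar) = HahnSeries.single 0 c := by
  show algebraMap Kbar (LaurentSeries Kbar) c = _
  rw [algebraMap_laurentSeries_eq_single]

/-- (i) The coordinate `x = j` of `F_N` is transcendental over `ℚ̄`. -/
theorem h3_transcendental_xJ (N : ℕ) : Transcendental Kbar (xJ N) := by
  intro halg
  have hint : IsIntegral Kbar (xJ N) := halg.isIntegral
  have hirr := minpoly.irreducible hint
  have hdeg := IsAlgClosed.degree_eq_one_of_irreducible Kbar hirr
  obtain ⟨c, hc⟩ := minpoly.mem_range_of_degree_eq_one Kbar (xJ N) hdeg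
  have h1 : ((algebraMap Kbar (FN N) c : FN N) : LaurentSeries Kbar) = jBar := by
    rw [hc]; rfl
  rw [h3_algebraMap_FN_coe] at h1
  have h2 := congrArg (fun s : LaurentSeries Kbar => s.coeff (-1 : ℤ)) h1
  simp only [h3_jBar_coeff_neg_one] at h2
  rw [HahnSeries.coeff_single_of_ne (by norm_num)] at h2
  exact zero_ne_one h2

end Fermat.Agent.Lib.X0
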