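/-
X0 project (S24): contract (C5) CLOSED: `CoordStatement N`.
-/
import Mathlib
import Fermat.Agent.Lib.X0.CoordAssembly
import Fermat.Agent.Lib.X0.Transc
import Fermat.Agent.Lib.X0.CoordRel

set_option autoImplicit false

namespace Fermat.Agent.Lib.X0

/-- `x = j` is a coordinate of `F_N` and `[F_N : ℚ̄(j)] = [SL₂(ℤ) : Γ₀(N)]`. -/
theorem h2_coordStatement (N : ℕ) [NeZero N] : CoordStatement N :=
  h8_coordStatement_of N (h3_transcendental_xJ N) (h2_coordRel N)

end Fermat.Agent.Lib.X0
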