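/-
X0 project (S24), helper6: `CoordStatement N` ((C5)+(C4)) reduced to the analytic inputs.

* `h6_xJ_transcendental` : `j` is transcendental over `ℚ̄`.
* `h6_isFrac_all` : every element of `F_N` is `evF P / D(j)`.
* `h6_finrank_le` : if every `evF P` is a root of a nonzero polynomial of degree `≤ n` over `ℚ̄(j)`
  then `F_N / ℚ̄(j)` is finite of degree `≤ n` (primitive element in the range of `evF`).
* `h6_claimU` : such a polynomial from a monic polynomial over `ℂ[j]` killing the analytic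
  realisation (q-expansion bridge + uniqueness of Laurent expansions + descent `ℂ → ℚ̄`).
* `h6_coordStatement_of` : `CoordStatement N` from the bridge, the norm polynomials and any family
  of local embeddings (lower bound, helper8).
-/
import Mathlib
import Fermat.Agent.Lib.X0.Defs
import Fermat.Agent.Lib.X0.EmbFamily
import Fermat.Agent.Lib.X0.Descent
import Fermat.Agent.Lib.X0.DegreeLower
import Fermat.Agent.Lib.X0.FinFamily

set_option autoImplicit false

noncomputable section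

namespace Fermat.Agent.Lib.X0

open ModularCurve IntermediateField Polynomial UpperHalfPlane

/-! ### part 1 -/
theorem h6_jBar_coeff_neg_one : jBar.coeff (-1 : ℤ) = 1 := by
  show algebraMap ℚ Kbar (jq.coeff (-1 : ℤ)) = 1
  rw [coeff_jq_neg_one, map_one]

/-- (i) `j` is transcendental over `ℚ̄`. -/
theorem h6_xJ_transcendental (N : ℕ) : Transcendental Kbar (xJ N) := by
  intro halg
  have hint : IsIntegral Kbar (xJ N) := halg.isIntegral
  have hdeg : (minpoly Kbar (xJ N)).degree = 1 :=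
    IsAlgClosed.degree_eq_one_of_irreducible Kbar (minpoly.irreducible hint)
  obtain ⟨c, hc⟩ := minpoly.mem_range_of_degree_eq_one Kbar (xJ N) hdeg
  have h1 : ((algebraMap Kbar (FN N) c : FN N) : LaurentSeries Kbar) = jBar := by
    rw [hc]; rfl
  have h2 := congrArg (fun s : LaurentSeries Kbar => s.coeff (-1 : ℤ)) h1
  simp only [h6_jBar_coeff_neg_one] at h2
  have h3 : ((algebraMap Kbar (FN N) c : FN N) : LaurentSeries Kbar)
      = algebraMap Kbar (LaurentSeries Kbar) c := rfl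
  rw [h3, algebraMap_laurentSeries_eq_single, HahnSeries.coeff_single_of_ne (by decide)] at h2
  exact zero_ne_one h2

variable (N : ℕ) [NeZero N]

/-! ### part 2 -/
/-- polynomials in `j`, inside the carrier. -/
def h6_polyX : Kbar[X] →+* MvPolynomial (h9_DivN N) Kbar :=
  (Polynomial.aeval (R := Kbar) (MvPolynomial.X (⟨1, one_dvd N⟩ : h9_DivN N))).toRingHom

theorem h6_evF_polyX (D : Kbar[X]) : h9_evF N (h6_polyX N D) = Polynomial.aeval (xJ N) D := by
  have h : (h9_evF N).comp (h6_polyX N) = (Polynomial.aeval (R := Kbar) (xJ N)).toRingHom := by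
    apply Polynomial.ringHom_ext
    · intro a
      simp only [h6_polyX, RingHom.comp_apply, AlgHom.toRingHom_eq_coe, RingHom.coe_coe,
        Polynomial.aeval_C]
      rw [MvPolynomial.algebraMap_eq, h9_evF_C]
    · simp only [h6_polyX, RingHom.comp_apply, AlgHom.toRingHom_eq_coe, RingHom.coe_coe,
        Polynomial.aeval_X]
      rw [h9_evF_X, h9_gen_one]
  exact congrArg (fun φ : Kbar[X] →+* FN N => φ D) h

/-- `α D(j) = evF P` with `D ≠ 0`. -/
def h6_IsFrac (α : FN N) : Prop :=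
  ∃ (P : MvPolynomial (h9_DivN N) Kbar) (D : Kbar[X]),
    Polynomial.aeval (xJ N) D ≠ 0 ∧ α * Polynomial.aeval (xJ N) D = h9_evF N P

theorem h6_isFrac_gen (d : h9_DivN N) : h6_IsFrac N (h9_gen N d) :=
  ⟨MvPolynomial.X d, 1, by simp, by rw [h9_evF_X]; simp⟩

theorem h6_isFrac_add {α β : FN N} (hα : h6_IsFrac N α) (hβ : h6_IsFrac N β) :
    h6_IsFrac N (α + β) := by
  obtain ⟨P, D, hD, h⟩ := hα
  obtain ⟨P', D', hD', h'⟩ := hβ
  refine ⟨P * h6_polyX N D' + P' * h6_polyX N D, D * D', ?_, ?_⟩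
  · rw [map_mul]; exact mul_ne_zero hD hD'
  · rw [map_mul, map_add, map_mul, map_mul, h6_evF_polyX, h6_evF_polyX, ← h, ← h']
    ring

theorem h6_isFrac_mul {α β : FN N} (hα : h6_IsFrac N α) (hβ : h6_IsFrac N β) :
    h6_IsFrac N (α * β) := by
  obtain ⟨P, D, hD, h⟩ := hα
  obtain ⟨P', D', hD', h'⟩ := hβ
  refine ⟨P * P', D * D', ?_, ?_⟩
  · rw [map_mul]; exact mul_ne_zero hD hD'
  · rw [map_mul, map_mul, ← h, ← h']
    ring

theorem h6_isFrac_base (c : FN N) (hc : c ∈ Kbar⟮xJ N⟯) : h6_IsFrac N c := by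
  obtain ⟨r, s, hrs⟩ := (mem_adjoin_simple_iff Kbar c).mp hc
  by_cases hs : Polynomial.aeval (xJ N) s = 0
  · refine ⟨0, 1, by simp, ?_⟩
    rw [hrs, hs]; simp
  · refine ⟨h6_polyX N r, s, hs, ?_⟩
    rw [h6_evF_polyX, hrs, div_mul_cancel₀ _ hs]

/-! ### part 3 -/
theorem h6_evF_mem_adjoin (P : MvPolynomial (h9_DivN N) Kbar) :
    h9_evF N P ∈ adjoin (Kbar⟮xJ N⟯) (Set.range (h9_gen N)) := by
  induction P using MvPolynomial.induction_on with
  | C a =>
    rw [h9_evF_C]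
    exact (adjoin (Kbar⟮xJ N⟯) (Set.range (h9_gen N))).algebraMap_mem (algebraMap Kbar (Kbar⟮xJ N⟯) a)
  | add p q hp hq =>
    rw [map_add]; exact add_mem hp hq
  | mul_X p d hp =>
    rw [map_mul, h9_evF_X]
    exact mul_mem hp (subset_adjoin _ _ ⟨d, rfl⟩)

theorem h6_adjoin_gen_eq_top :
    adjoin (Kbar⟮xJ N⟯) (Set.range (h9_gen N)) = ⊤ := by
  rw [eq_top_iff]
  intro f _
  obtain ⟨P, Q, _, hf⟩ := h9_hgen N f
  rw [hf]
  exact div_mem (h6_evF_mem_adjoin N P) (h6_evF_mem_adjoin N Q)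

theorem h6_isFrac_all
    (halg : ∀ P : MvPolynomial (h9_DivN N) Kbar, IsAlgebraic (Kbar⟮xJ N⟯) (h9_evF N P))
    (α : FN N) : h6_IsFrac N α := by
  have hS : ∀ y ∈ Set.range (h9_gen N), IsAlgebraic (Kbar⟮xJ N⟯) y := by
    rintro y ⟨d, rfl⟩
    rw [← h9_evF_X]
    exact halg _
  have h1 := adjoin_toSubalgebra_of_isAlgebraic hS
  have h2 : α ∈ (adjoin (Kbar⟮xJ N⟯) (Set.range (h9_gen N))).toSubalgebra := by
    rw [h6_adjoin_gen_eq_top]
    exact Algebra.mem_top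
  rw [h1] at h2
  induction h2 using Algebra.adjoin_induction with
  | mem y hy =>
    obtain ⟨d, rfl⟩ := hy
    exact h6_isFrac_gen N d
  | algebraMap c => exact h6_isFrac_base N _ c.2
  | add y z _ _ hy hz => exact h6_isFrac_add N hy hz
  | mul y z _ _ hy hz => exact h6_isFrac_mul N hy hz

/-! ### part 4 -/
instance h6_finite_DivN : Finite (h9_DivN N) := by
  have : ({d : ℕ | d ∣ N} : Set ℕ).Finite :=
    (Set.finite_Iic N).subset fun d hd => Nat.le_of_dvd (Nat.pos_of_ne_zero (NeZero.ne N)) hd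
  exact this.to_subtype

theorem h6_finrank_le (n : ℕ)
    (hU : ∀ P : MvPolynomial (h9_DivN N) Kbar, ∃ R : (Kbar⟮xJ N⟯)[X],
      R ≠ 0 ∧ R.natDegree ≤ n ∧ Polynomial.aeval (h9_evF N P) R = 0) :
    FiniteDimensional (Kbar⟮xJ N⟯) (FN N) ∧ Module.finrank (Kbar⟮xJ N⟯) (FN N) ≤ n := by
  have halg : ∀ P : MvPolynomial (h9_DivN N) Kbar, IsAlgebraic (Kbar⟮xJ N⟯) (h9_evF N P) := by
    intro P
    obtain ⟨R, hR, _, h0⟩ := hU P
    exact ⟨R, hR, h0⟩
  -- finite-dimensionality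
  have hfin : FiniteDimensional (Kbar⟮xJ N⟯) (FN N) := by
    have : Finite (Set.range (h9_gen N)) := Set.finite_range _
    have h1 : FiniteDimensional (Kbar⟮xJ N⟯) (adjoin (Kbar⟮xJ N⟯) (Set.range (h9_gen N))) := by
      apply finiteDimensional_adjoin
      rintro y ⟨d, rfl⟩
      rw [← h9_evF_X]
      exact (halg _).isIntegral
    rw [h6_adjoin_gen_eq_top] at h1
    exact Module.Finite.equiv (topEquiv (F := Kbar⟮xJ N⟯) (E := FN N)).toLinearEquiv
  refine ⟨hfin, ?_⟩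
  have hfin' := hfin
  have hcz : CharZero (Kbar⟮xJ N⟯) := inferInstance
  have halg' : Algebra.IsAlgebraic (Kbar⟮xJ N⟯) (FN N) := Algebra.IsAlgebraic.of_finite _ _
  have hsep : Algebra.IsSeparable (Kbar⟮xJ N⟯) (FN N) :=
    Algebra.IsAlgebraic.isSeparable_of_perfectField
  obtain ⟨α, hα⟩ := Field.exists_primitive_element (Kbar⟮xJ N⟯) (FN N)
  obtain ⟨P, D, hD, hPD⟩ := h6_isFrac_all N halg α
  set θ := h9_evF N P with hθ
  have hDmem : Polynomial.aeval (xJ N) D ∈ (Kbar⟮xJ N⟯)⟮θ⟯ := by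
    have : Polynomial.aeval (xJ N) D ∈ Kbar⟮xJ N⟯ := by
      rw [mem_adjoin_simple_iff]
      exact ⟨D, 1, by simp⟩
    exact (IntermediateField.algebraMap_mem ((Kbar⟮xJ N⟯)⟮θ⟯) (⟨_, this⟩ : Kbar⟮xJ N⟯))
  have hαmem : α ∈ (Kbar⟮xJ N⟯)⟮θ⟯ := by
    have e : α = θ / Polynomial.aeval (xJ N) D := by
      rw [← hPD, mul_div_cancel_right₀ _ hD]
    rw [e]
    exact div_mem (mem_adjoin_simple_self _ θ) hDmem
  have htop : (Kbar⟮xJ N⟯)⟮θ⟯ = ⊤ := by
    rw [eq_top_iff, ← hα]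
    exact adjoin_simple_le_iff.mpr hαmem
  obtain ⟨R, hR, hRn, h0⟩ := hU P
  have hint : IsIntegral (Kbar⟮xJ N⟯) θ := (halg P).isIntegral
  have h2 : Module.finrank (Kbar⟮xJ N⟯) (FN N) = (minpoly (Kbar⟮xJ N⟯) θ).natDegree := by
    rw [← adjoin.finrank hint, htop, finrank_top']
  rw [h2]
  exact (Polynomial.natDegree_le_of_dvd (minpoly.dvd _ θ h0) hR).trans hRn

/-! ### part 5 -/
theorem h6_exists_tau (w : ℂ) (hw : w ≠ 0) (hw1 : ‖w‖ < 1) :
    ∃ τ : ℍ, Function.Periodic.qParam 1 (τ : ℂ) = w := by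
  refine ⟨⟨Function.Periodic.invQParam 1 w,
    Function.Periodic.im_invQParam_pos_of_norm_lt_one one_pos hw1 hw⟩, ?_⟩
  exact Function.Periodic.qParam_right_inv one_ne_zero hw

theorem h6_LSum_smul {s : LaurentSeries ℂ} {w v : ℂ} (c : ℂ) (h : h9_LSum s w v) :
    h9_LSum (c • s) w (c * v) := by
  unfold h9_LSum at *
  have e : (fun n : ℤ => (c • s).coeff n * w ^ n) = fun n => c * (s.coeff n * w ^ n) := by
    funext n
    rw [HahnSeries.coeff_smul, smul_eq_mul, mul_assoc]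
  rw [e]
  exact h.mul_left c

/-- bivariate evaluation as a double sum. -/
theorem h6_eval_map_eq_sum (p : Polynomial (Polynomial ℂ)) (n m : ℕ) (hn : p.natDegree ≤ n)
    (hm : ∀ b ∈ Finset.range (n + 1), (p.coeff b).natDegree ≤ m) (z y : ℂ) :
    (p.map (Polynomial.evalRingHom z)).eval y
      = ∑ i : Fin (m + 1) × Fin (n + 1), (p.coeff i.2).coeff i.1 * (z ^ (i.1 : ℕ) * y ^ (i.2 : ℕ)) := by
  have h1 : (p.map (Polynomial.evalRingHom z)).natDegree < n + 1 :=
    lt_of_le_of_lt (Polynomial.natDegree_map_le) (Nat.lt_succ_of_le hn)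
  rw [Polynomial.eval_eq_sum_range' h1, Fintype.sum_prod_type_right,
    ← Fin.sum_univ_eq_sum_range (fun b => (p.map (Polynomial.evalRingHom z)).coeff b * y ^ b)]
  refine Finset.sum_congr rfl fun b _ => ?_
  rw [Polynomial.coeff_map, Polynomial.coe_evalRingHom,
    Polynomial.eval_eq_sum_range' (Nat.lt_succ_of_le (hm b (Finset.mem_range.mpr b.2))),
    ← Fin.sum_univ_eq_sum_range (fun a => (p.coeff b).coeff a * z ^ a), Finset.sum_mul]
  refine Finset.sum_congr rfl fun a _ => ?_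
  ring

/-! ### part 6 -/
omit [NeZero N] in
theorem h6_evAn_mon (P : MvPolynomial (h9_DivN N) Kbar) (a b : ℕ) (τ : ℍ) :
    h9_evAn N ((MvPolynomial.X ⟨1, one_dvd N⟩) ^ a * P ^ b) τ = jFun τ ^ a * h9_evAn N P τ ^ b := by
  unfold h9_evAn
  rw [MvPolynomial.eval₂_mul, MvPolynomial.eval₂_pow, MvPolynomial.eval₂_pow, MvPolynomial.eval₂_X,
    h2_Jd_one]

/-- formal relation over `ℂ` from the analytic one. -/
theorem h6_formal_rel (n : ℕ)
    (hbridge : ∀ (P : MvPolynomial (h9_DivN N) Kbar) (τ : ℍ),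
      h9_LSum (coeffMap iotaC (h9_evL N P)) (Function.Periodic.qParam 1 (τ : ℂ)) (h9_evAn N P τ))
    (P : MvPolynomial (h9_DivN N) Kbar)
    (p : Polynomial (Polynomial ℂ)) (hdeg : p.natDegree ≤ n) (m : ℕ)
    (hm : ∀ b ∈ Finset.range (n + 1), (p.coeff b).natDegree ≤ m)
    (hroot : ∀ τ : ℍ, (p.map (Polynomial.evalRingHom (jFun τ))).eval (h9_evAn N P τ) = 0) :
    ∑ i : Fin (m + 1) × Fin (n + 1), (p.coeff i.2).coeff i.1 •
      coeffMap iotaC (h9_evL N ((MvPolynomial.X ⟨1, one_dvd N⟩) ^ (i.1 : ℕ) * P ^ (i.2 : ℕ))) = 0 := by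
  apply h9_LSum_eq_zero (r := 1) one_pos
  intro w hw0 hw1
  obtain ⟨τ, rfl⟩ := h6_exists_tau w hw0 hw1
  have h1 := h9_LSum_sum (Finset.univ : Finset (Fin (m + 1) × Fin (n + 1)))
    (s := fun i => (p.coeff i.2).coeff i.1 •
      coeffMap iotaC (h9_evL N ((MvPolynomial.X ⟨1, one_dvd N⟩) ^ (i.1 : ℕ) * P ^ (i.2 : ℕ))))
    (w := Function.Periodic.qParam 1 (τ : ℂ))
    (v := fun i => (p.coeff i.2).coeff i.1 * (jFun τ ^ (i.1 : ℕ) * h9_evAn N P τ ^ (i.2 : ℕ)))
    (fun i _ => by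
      have h2 := h6_LSum_smul ((p.coeff i.2).coeff i.1) (hbridge
        ((MvPolynomial.X ⟨1, one_dvd N⟩) ^ (i.1 : ℕ) * P ^ (i.2 : ℕ)) τ)
      rw [h6_evAn_mon] at h2
      exact h2)
  rw [← h6_eval_map_eq_sum p n m hdeg hm, hroot τ] at h1
  exact h1

/-! ### part 7 -/
omit [NeZero N] in
/-- from a nonzero `ℚ̄`-relation among the `j^a θ^b` to a polynomial over `ℚ̄(j)`. -/
theorem h6_poly_of_rel (n m : ℕ) (θ : FN N) (b' : Fin (m + 1) × Fin (n + 1) → Kbar) (hb' : b' ≠ 0)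
    (hrel : ∑ i : Fin (m + 1) × Fin (n + 1), b' i • (xJ N ^ (i.1 : ℕ) * θ ^ (i.2 : ℕ)) = 0) :
    ∃ R : (Kbar⟮xJ N⟯)[X], R ≠ 0 ∧ R.natDegree ≤ n ∧ Polynomial.aeval θ R = 0 := by
  classical
  -- inner polynomials
  let pb : Fin (n + 1) → Kbar[X] := fun b => ∑ a : Fin (m + 1), Polynomial.monomial (a : ℕ) (b' (a, b))
  let g : Fin (n + 1) → Kbar⟮xJ N⟯ := fun b => Polynomial.aeval (AdjoinSimple.gen Kbar (xJ N)) (pb b)
  have hg : ∀ b, algebraMap (Kbar⟮xJ N⟯) (FN N) (g b) = Polynomial.aeval (xJ N) (pb b) := by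
    intro b
    rw [← Polynomial.aeval_algebraMap_apply, AdjoinSimple.algebraMap_gen]
  have hpb : ∀ b, Polynomial.aeval (xJ N) (pb b) = ∑ a : Fin (m + 1), b' (a, b) • xJ N ^ (a : ℕ) := by
    intro b
    simp only [pb, map_sum, Polynomial.aeval_monomial, Algebra.smul_def]
  refine ⟨∑ b : Fin (n + 1), Polynomial.monomial (b : ℕ) (g b), ?_, ?_, ?_⟩
  · -- nonzero
    obtain ⟨⟨a₀, b₀⟩, h0⟩ : ∃ i, b' i ≠ 0 := by
      by_contra hcon
      push Not at hcon
      exact hb' (funext hcon)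
    intro hR
    have h1 := congrArg (fun q : (Kbar⟮xJ N⟯)[X] => q.coeff (b₀ : ℕ)) hR
    simp only [Polynomial.finsetSum_coeff, Polynomial.coeff_monomial, Polynomial.coeff_zero] at h1
    rw [Finset.sum_eq_single b₀ (fun b _ hb => if_neg (fun h => hb (Fin.ext h)))
      (fun h => absurd (Finset.mem_univ _) h), if_pos rfl] at h1
    have h2 : Polynomial.aeval (xJ N) (pb b₀) = 0 := by rw [← hg, h1, map_zero]
    have h3 : pb b₀ = 0 := (transcendental_iff.mp (h6_xJ_transcendental N)) _ h2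
    have h4 := congrArg (fun q : Kbar[X] => q.coeff (a₀ : ℕ)) h3
    simp only [pb, Polynomial.finsetSum_coeff, Polynomial.coeff_monomial, Polynomial.coeff_zero] at h4
    rw [Finset.sum_eq_single a₀ (fun a _ ha => if_neg (fun h => ha (Fin.ext h)))
      (fun h => absurd (Finset.mem_univ _) h), if_pos rfl] at h4
    exact h0 h4
  · -- degree
    refine Polynomial.natDegree_sum_le_of_forall_le _ _ (fun b _ => ?_)
    exact (Polynomial.natDegree_monomial_le _).trans (Nat.lt_succ_iff.mp b.2)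
  · -- root
    rw [map_sum]
    simp only [Polynomial.aeval_monomial, hg, hpb]
    rw [← hrel, Fintype.sum_prod_type_right]
    refine Finset.sum_congr rfl fun b _ => ?_
    rw [Finset.sum_mul]
    refine Finset.sum_congr rfl fun a _ => ?_
    rw [smul_mul_assoc]

/-! ### part 8 -/
theorem h6_claimU (n : ℕ)
    (hbridge : ∀ (P : MvPolynomial (h9_DivN N) Kbar) (τ : ℍ),
      h9_LSum (coeffMap iotaC (h9_evL N P)) (Function.Periodic.qParam 1 (τ : ℂ)) (h9_evAn N P τ))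
    (P : MvPolynomial (h9_DivN N) Kbar)
    (p : Polynomial (Polynomial ℂ)) (hmonic : p.Monic) (hdeg : p.natDegree = n)
    (hroot : ∀ τ : ℍ, (p.map (Polynomial.evalRingHom (jFun τ))).eval (h9_evAn N P τ) = 0) :
    ∃ R : (Kbar⟮xJ N⟯)[X], R ≠ 0 ∧ R.natDegree ≤ n ∧ Polynomial.aeval (h9_evF N P) R = 0 := by
  classical
  set m : ℕ := (Finset.range (n + 1)).sup fun b => (p.coeff b).natDegree with hm
  have hmb : ∀ b ∈ Finset.range (n + 1), (p.coeff b).natDegree ≤ m := fun b hb =>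
    Finset.le_sup (f := fun b => (p.coeff b).natDegree) hb
  have hrel := h6_formal_rel N n hbridge P p hdeg.le m hmb hroot
  have hc : (fun i : Fin (m + 1) × Fin (n + 1) => (p.coeff i.2).coeff i.1) ≠ 0 := by
    intro h
    have h1 := congrFun h (0, Fin.last n)
    simp only [Fin.val_last, Fin.val_zero, Pi.zero_apply] at h1
    rw [← hdeg, hmonic.coeff_natDegree, Polynomial.coeff_one_zero] at h1
    exact one_ne_zero h1
  have hd := h8_descent (k := Kbar) (K := ℂ) iotaC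
    (fun i : Fin (m + 1) × Fin (n + 1) =>
      h9_evL N ((MvPolynomial.X ⟨1, one_dvd N⟩) ^ (i.1 : ℕ) * P ^ (i.2 : ℕ)))
    (fun i => (p.coeff i.2).coeff i.1) hc
  obtain ⟨b', hb', hrel'⟩ := hd (by convert hrel)
  refine h6_poly_of_rel N n m (h9_evF N P) b' hb' ?_
  apply Subtype.ext
  have e : ∀ i : Fin (m + 1) × Fin (n + 1),
      h9_evL N ((MvPolynomial.X ⟨1, one_dvd N⟩) ^ (i.1 : ℕ) * P ^ (i.2 : ℕ))
        = (modularFunctionFieldBar N).val (xJ N ^ (i.1 : ℕ) * h9_evF N P ^ (i.2 : ℕ)) := by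
    intro i
    rw [h9_evL_apply, map_mul, map_pow, map_pow, h9_evF_X, h9_gen_one]
    rfl
  have h2 : (modularFunctionFieldBar N).val
      (∑ i : Fin (m + 1) × Fin (n + 1), b' i • (xJ N ^ (i.1 : ℕ) * h9_evF N P ^ (i.2 : ℕ))) = 0 := by
    rw [map_sum, ← hrel']
    refine Finset.sum_congr rfl fun i _ => ?_
    rw [e, Algebra.smul_def, map_mul, AlgHom.commutes, algebraMap_laurentSeries_eq_single,
      HahnSeries.single_zero_mul_eq_smul]
  exact h2

/-! ### part 9 -/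
/-- **CoordStatement** from the analytic inputs. -/
theorem h6_coordStatement_of
    (hbridge : ∀ (P : MvPolynomial (h9_DivN N) Kbar) (τ : ℍ),
      h9_LSum (coeffMap iotaC (h9_evL N P)) (Function.Periodic.qParam 1 (τ : ℂ)) (h9_evAn N P τ))
    (hnorm : ∀ P : MvPolynomial (h9_DivN N) Kbar, ∃ p : Polynomial (Polynomial ℂ),
      p.Monic ∧ p.natDegree = Nat.card (QN N) ∧
        ∀ τ : ℍ, (p.map (Polynomial.evalRingHom (jFun τ))).eval (h9_evAn N P τ) = 0)
    (t : FN N) (M : ℕ) (E : LocalEmb iotaC (xJ N) t (QN N) M) : CoordStatement N := by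
  have hU : ∀ P : MvPolynomial (h9_DivN N) Kbar, ∃ R : (Kbar⟮xJ N⟯)[X],
      R ≠ 0 ∧ R.natDegree ≤ Nat.card (QN N) ∧ Polynomial.aeval (h9_evF N P) R = 0 := by
    intro P
    obtain ⟨p, hp1, hp2, hp3⟩ := hnorm P
    exact h6_claimU N _ hbridge P p hp1 hp2 hp3
  obtain ⟨hfin, hle⟩ := h6_finrank_le N _ hU
  have hcoord : IsCoord Kbar (xJ N) := ⟨h6_xJ_transcendental N, hfin⟩
  refine ⟨hcoord, le_antisymm hle ?_⟩
  have hfinQ : Finite (QN N) := inferInstance
  let _ : Fintype (QN N) := Fintype.ofFinite _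
  have h := h8_card_le_coordDegree iotaC (xJ N) t hcoord (QN N) M E
  rw [Nat.card_eq_fintype_card]
  exact h

end Fermat.Agent.Lib.X0
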