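import Fermat.Agent.Lib.X0.RH

/-!
# Project X0: counting places from cyclic symmetry of local embedding data (owner: lead)
-/

set_option autoImplicit false

noncomputable section

namespace Fermat.Agent.Lib.X0

open AlgebraicCurve Function

section Cyclic

variable {k F K' : Type} [Field k] [IsAlgClosed k] [CharZero k] [Field F] [Algebra k F] [Field K']

/-- Counting places over a point from local embedding data with a cyclic symmetry `ε`. -/
theorem count_cyclic (hG2 : EmbCountCorStatement)
    (ι : k →+* K') (x : F) (hx : IsCoord k x) (t : F)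
    (ht : (∃ c : k, t = x - algebraMap k F c) ∨ t = x⁻¹)
    (Q : Type) [Fintype Q] (hQ : Fintype.card Q = coordDegree k x) (M : ℕ)
    (E : LocalEmb ι x t Q M) (ε : Q → Q) (hper : ∀ q, ε^[M] q = q)
    (hinv : ∀ q f, (E.τ (ε q) f).order = (E.τ q f).order)
    (hdiv : ∀ q (h : ℕ), 0 < h → h ∣ M → ε^[h] q = q →
      ∀ f, f ≠ 0 → (((M / h : ℕ) : ℤ) ∣ (E.τ q f).order)) :
    Set.Finite {v : Place k F | 0 < v.ord t} ∧
    (Nat.card {v : Place k F // 0 < v.ord t} : ℚ)
      = ∑ q, (1 : ℚ) / (minimalPeriod ε q) := by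
  have hinv' : ∀ (i : ℕ) q f, (E.τ (ε^[i] q) f).order = (E.τ q f).order := by
    intro i
    induction i with
    | zero => intro q f; rfl
    | succ i ih =>
      intro q f
      rw [iterate_succ_apply', hinv, ih]
  have hpp : ∀ q, IsPeriodicPt ε M q := fun q => hper q
  refine hG2 ι x hx t ht Q hQ M E (fun q => minimalPeriod ε q) ?_ ?_
  · intro q
    let g : Fin (minimalPeriod ε q) →
        {q' // ∀ f : F, (E.τ q' f).order = (E.τ q f).order} :=
      fun i => ⟨ε^[i] q, fun f => hinv' i q f⟩
    have hg : Injective g := by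
      intro i j hij
      have h1 : ε^[(i : ℕ)] q = ε^[(j : ℕ)] q := congrArg Subtype.val hij
      exact Fin.ext (iterate_injOn_Iio_minimalPeriod (Set.mem_Iio.2 i.2) (Set.mem_Iio.2 j.2) h1)
    have := Nat.card_le_card_of_injective g hg
    rwa [Nat.card_fin] at this
  · intro q
    refine ⟨(hpp q).minimalPeriod_dvd, fun f hf => ?_⟩
    exact hdiv q _ ((hpp q).minimalPeriod_pos E.M_pos) (hpp q).minimalPeriod_dvd
      iterate_minimalPeriod f hf

/-- Evaluation of the sum when the period is a prime `e`. -/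
theorem sum_inv_minimalPeriod_prime {Q : Type} [Fintype Q] [DecidableEq Q] (ε : Q → Q) (e : ℕ)
    (he : e.Prime) (hper : ∀ q, ε^[e] q = q) :
    ∑ q, (1 : ℚ) / (minimalPeriod ε q)
      = (Fintype.card {q // ε q = q} : ℚ)
        + ((Fintype.card Q : ℚ) - (Fintype.card {q // ε q = q} : ℚ)) / e := by
  have hmp : ∀ q, minimalPeriod ε q = if ε q = q then 1 else e := by
    intro q
    split_ifs with h
    · exact minimalPeriod_eq_one_iff_isFixedPt.2 h
    · have hd : minimalPeriod ε q ∣ e := IsPeriodicPt.minimalPeriod_dvd (hper q)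
      rcases (Nat.dvd_prime he).1 hd with h1 | h1
      · exact absurd (minimalPeriod_eq_one_iff_isFixedPt.1 h1) h
      · exact h1
  have : ∀ q, (1 : ℚ) / (minimalPeriod ε q) = if ε q = q then 1 else 1 / (e : ℚ) := by
    intro q
    rw [hmp q]
    split_ifs <;> simp
  rw [Finset.sum_congr rfl (fun q _ => this q), Finset.sum_ite, Finset.sum_const, Finset.sum_const,
    Fintype.card_subtype]
  have hsum : (Finset.univ.filter fun q : Q => ε q = q).card
      + (Finset.univ.filter fun q : Q => ¬ ε q = q).card = Fintype.card Q := by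
    rw [← Finset.card_univ]
    exact Finset.card_filter_add_card_filter_not (fun q : Q => ε q = q)
  have hsum' : ((Finset.univ.filter fun q : Q => ¬ ε q = q).card : ℚ)
      = (Fintype.card Q : ℚ) - ((Finset.univ.filter fun q : Q => ε q = q).card : ℚ) := by
    rw [← hsum]; push_cast; ring
  simp only [nsmul_eq_mul]
  rw [hsum']
  ring

end Cyclic

theorem sum_inv_minimalPeriod_eq_card_orbits {G Q : Type} [Group G] [MulAction G Q] [Fintype Q]
    (a : G) :
    ∑ q : Q, (1 : ℚ) / (minimalPeriod (a • ·) q)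
      = Nat.card (MulAction.orbitRel.Quotient (Subgroup.zpowers a) Q) := by
  classical
  let Z := Subgroup.zpowers a
  haveI : Fintype (MulAction.orbitRel.Quotient Z Q) := Fintype.ofFinite _
  have hmp : ∀ q : Q, minimalPeriod (a • ·) q = Nat.card (MulAction.orbit Z q) := by
    intro q
    haveI : Fintype (MulAction.orbit Z q) := Fintype.ofFinite _
    rw [MulAction.minimalPeriod_eq_card, Nat.card_eq_fintype_card]
  let e := MulAction.selfEquivSigmaOrbits Z Q
  rw [← e.symm.sum_comp, Fintype.sum_sigma]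
  have hinner : ∀ ω : MulAction.orbitRel.Quotient Z Q,
      ∑ p : MulAction.orbit Z (Quotient.out ω),
        (1 : ℚ) / (minimalPeriod (a • ·) (e.symm ⟨ω, p⟩)) = 1 := by
    intro ω
    have h1 : ∀ p : MulAction.orbit Z (Quotient.out ω),
        (minimalPeriod (a • ·) (e.symm ⟨ω, p⟩) : ℚ)
          = Nat.card (MulAction.orbit Z (Quotient.out ω)) := by
      intro p
      have h2 : e.symm ⟨ω, p⟩ = (p : Q) := rfl
      rw [h2, hmp, MulAction.orbit_eq_iff.2 p.2]
    rw [Finset.sum_congr rfl (fun p _ => by rw [h1 p])]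
    rw [Finset.sum_const, Finset.card_univ, ← Nat.card_eq_fintype_card]
    have hpos : (Nat.card (MulAction.orbit Z (Quotient.out ω)) : ℚ) ≠ 0 := by
      have : 0 < Nat.card (MulAction.orbit Z (Quotient.out ω)) :=
        Nat.card_pos_iff.2 ⟨⟨⟨_, MulAction.mem_orbit_self _⟩⟩, inferInstance⟩
      exact_mod_cast this.ne'
    simp only [nsmul_eq_mul]
    field_simp
  rw [Finset.sum_congr rfl (fun ω _ => hinner ω), Finset.sum_const, Finset.card_univ,
    ← Nat.card_eq_fintype_card]
  simp only [nsmul_eq_mul, mul_one]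
  rfl


end Fermat.Agent.Lib.X0
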