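import Mathlib
import Fermat.Agent.Lib.X0.Kernel
import Fermat.Agent.Lib.X0.CuspSeries

/-!
# Project X0 (S24), slab (C): convergent expansions at the cusps

Owner: helper1.  The formal series `h5_cuspSeries s ζ = j(ζ X^s)` evaluated at
`q_N = exp (2πi z / N)` converges to `j((a z + b)/e)` where `s e = N a`, `ζ = exp (2πi b / e)`.
-/

set_option autoImplicit false

noncomputable section

namespace Fermat.Agent.Lib.X0

open UpperHalfPlane ModularCurve HahnSeries

/-- Summing the twist `X ↦ ζ X` of `s` at `w` is summing `s` at `ζ w`. -/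
theorem h1_LSum_twist (ζ : ℂˣ) {s : LaurentSeries ℂ} {w v : ℂ}
    (h : h9_LSum s ((ζ : ℂ) * w) v) : h9_LSum (h5_twist ζ s) w v := by
  unfold h9_LSum at *
  have e : (fun n : ℤ => (h5_twist ζ s).coeff n * w ^ n)
      = fun n : ℤ => s.coeff n * ((ζ : ℂ) * w) ^ n := by
    funext n
    rw [h5_twist_coeff, mul_zpow, Units.val_zpow_eq_zpow_val]
    ring
  rw [e]
  exact h

/-- Summing `j(ζ X^s)` at `w` is summing `j` at `ζ w^s`. -/
theorem h1_LSum_cuspSeries_of (s : ℕ) [NeZero s] (ζ : ℂˣ) {w v : ℂ}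
    (h : h9_LSum h5_jqC ((ζ : ℂ) * w ^ s) v) : h9_LSum (h5_cuspSeries s ζ) w v := by
  rw [h5_cuspSeries]
  exact h1_LSum_qExpand s (h1_LSum_twist ζ h)

theorem h1_jqC_eq : h5_jqC = coeffEmb ℂ jq := rfl

/-- The convergent `q_N`-expansion of `j((a z + b)/e)`, `s e = N a`, `ζ = exp (2πi b/e)`. -/
theorem h1_LSum_cuspSeries (N a b e s : ℕ) [NeZero s] (hN : 0 < N) (he : 0 < e)
    (hs : s * e = N * a) (ζ : ℂˣ)
    (hζ : (ζ : ℂ) = Complex.exp (2 * Real.pi * Complex.I * b / e)) (z τ' : ℍ)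
    (hτ' : (τ' : ℂ) = ((a : ℂ) * z + b) / e) :
    h9_LSum (h5_cuspSeries s ζ) (Function.Periodic.qParam (N : ℝ) (z : ℂ)) (jFun τ') := by
  refine h1_LSum_cuspSeries_of s ζ ?_
  have hq : (ζ : ℂ) * Function.Periodic.qParam (N : ℝ) (z : ℂ) ^ s
      = Function.Periodic.qParam 1 (τ' : ℂ) := by
    rw [hζ, hτ', Function.Periodic.qParam, Function.Periodic.qParam, ← Complex.exp_nat_mul,
      ← Complex.exp_add]
    congr 1
    have heC : (e : ℂ) ≠ 0 := by exact_mod_cast he.ne'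
    have hNC : (N : ℂ) ≠ 0 := by exact_mod_cast hN.ne'
    have hsC : (s : ℂ) * e = N * a := by exact_mod_cast hs
    push_cast
    field_simp
    linear_combination (z : ℂ) * hsC
  rw [hq, h1_jqC_eq]
  exact h1_A1 τ'

end Fermat.Agent.Lib.X0
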