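/-
X0 project (S24), piece (A3) (helper3): level one polynomiality, second version with a growth-hypothesis variant
(`h3_levelOne_poly_of_growth`) and plain-function helper lemmas (periodicity, limit at `i∞`, division by `Δ`).
The file `LevelOnePoly.lean` (helper6) proves the same main statement as `h6_levelOne_poly`.  A holomorphic
`SL(2,ℤ)`-invariant function `f` on the upper half plane such that `f Δ^m` is bounded at `i∞`
is a polynomial of degree `≤ m` in `j`.
-/
import Mathlib
import Fermat.Agent.Lib.X0.Defs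
import Fermat.Agent.Lib.X0.JOrder

set_option autoImplicit false

open UpperHalfPlane hiding I
open Complex ModularForm EisensteinSeries ModularGroup Filter Function Asymptotics
open scoped MatrixGroups ModularForm Manifold Topology Real

namespace Fermat.Agent.Lib.X0

local notation "Δ" => ModularForm.discriminant
local notation "𝕢" => Periodic.qParam

/-- A `T`-invariant function is `1`-periodic. -/
theorem h3_periodic_of_T_invariant {f : ℍ → ℂ} (hT : ∀ τ : ℍ, f (ModularGroup.T • τ) = f τ) :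
    Periodic (f ∘ ofComplex) (1 : ℝ) := by
  intro z
  simp only [Function.comp_apply]
  by_cases hz : 0 < z.im
  · have hz' : 0 < (z + (1 : ℝ)).im := by simpa using hz
    rw [ofComplex_apply_of_im_pos hz', ofComplex_apply_of_im_pos hz]
    have := hT ⟨z, hz⟩
    rw [UpperHalfPlane.modular_T_smul] at this
    rw [← this]
    congr 1
    ext
    simp [UpperHalfPlane.coe_vadd, add_comm]
  · have hz' : ¬ 0 < (z + (1 : ℝ)).im := by simpa using hz
    rw [ofComplex_apply_of_im_nonpos (not_lt.mp hz'), ofComplex_apply_of_im_nonpos (not_lt.mp hz)]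

/-- A holomorphic periodic function bounded at `i∞` has a limit at `i∞`. -/
theorem h3_tendsto_of_bdd {f : ℍ → ℂ} (hper : Periodic (f ∘ ofComplex) (1 : ℝ)) (hf : MDiff f)
    (hbdd : IsBoundedAtImInfty f) : Tendsto f atImInfty (𝓝 (cuspFunction 1 f 0)) := by
  have han : AnalyticAt ℂ (cuspFunction 1 f) 0 :=
    analyticAt_cuspFunction_zero one_pos hper hf hbdd
  have hlim : Tendsto (fun τ : ℍ => cuspFunction 1 f (𝕢 1 τ)) atImInfty
      (𝓝 (cuspFunction 1 f 0)) :=
    han.continuousAt.tendsto.comp (qParam_tendsto_atImInfty one_pos)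
  refine hlim.congr fun τ => ?_
  exact eq_cuspFunction τ one_ne_zero hper

/-- A holomorphic periodic function vanishing at `i∞` is `O(Δ)`; so its quotient by `Δ` is
bounded at `i∞`. -/
theorem h3_div_discriminant_bdd {H : ℍ → ℂ} (hper : Periodic (H ∘ ofComplex) (1 : ℝ))
    (hH : MDiff H) (hzero : IsZeroAtImInfty H) :
    IsBoundedAtImInfty (fun τ => H τ / Δ τ) := by
  have h1 : H =O[atImInfty] fun τ : ℍ => Real.exp (-2 * π * τ.im / 1) :=
    hzero.exp_decay_atImInfty one_pos hper hH hzero.isBoundedAtImInfty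
  have h2 : (fun τ : ℍ => Real.exp (-2 * π * τ.im)) =O[atImInfty] (Δ : ℍ → ℂ) :=
    exp_isBigO_discriminant
  have h1' : H =O[atImInfty] fun τ : ℍ => Real.exp (-2 * π * τ.im) := by
    simpa using h1
  have h3 : H =O[atImInfty] (Δ : ℍ → ℂ) := h1'.trans h2
  rw [IsBoundedAtImInfty, BoundedAtFilter]
  obtain ⟨C, hC⟩ := h3.bound
  refine IsBigO.of_bound C ?_
  filter_upwards [hC] with τ hτ
  have hΔ : Δ τ ≠ 0 := discriminant_ne_zero τ
  have hpos : 0 < ‖Δ τ‖ := norm_pos_iff.mpr hΔ
  simp only [Pi.one_apply, norm_one, mul_one, norm_div]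
  rw [div_le_iff₀ hpos]
  exact hτ

/-- A holomorphic `SL(2,ℤ)`-invariant function bounded at `i∞` is constant. -/
theorem h3_const_of_invariant_bdd {f : ℍ → ℂ} (hf : MDiff f)
    (hinv : ∀ (g : SL(2, ℤ)) (τ : ℍ), f (g • τ) = f τ) (hbdd : IsBoundedAtImInfty f) :
    ∃ c : ℂ, ∀ τ, f τ = c := by
  have hslash : ∀ γ : SL(2, ℤ), f ∣[(0 : ℤ)] γ = f := by
    intro γ
    funext z
    rw [ModularForm.SL_slash_apply, hinv]
    simp
  let F : ModularForm 𝒮ℒ 0 :=
    { toFun := f
      slash_action_eq' := by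
        intro A hA
        obtain ⟨A, rfl⟩ := hA
        exact hslash A
      holo' := hf
      bdd_at_cusps' := by
        intro cusp hc
        rw [Subgroup.IsArithmetic.isCusp_iff_isCusp_SL2Z] at hc
        rw [OnePoint.isBoundedAt_iff_forall_SL2Z hc]
        intro γ _
        rw [hslash]
        exact hbdd }
  obtain ⟨c, hc⟩ := ModularFormClass.levelOne_weight_zero_const F
  exact ⟨c, fun τ => congrFun hc τ⟩

theorem h3_discriminant_T (τ : ℍ) : Δ (ModularGroup.T • τ) = Δ τ := by
  rw [h3_discriminant_eqn, h3_denom_T, one_zpow, one_mul]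

theorem h3_E₄_cube_eq (τ : ℍ) : E₄ τ ^ 3 = jFun τ * Δ τ := by
  unfold jFun
  have := discriminant_ne_zero τ
  field_simp

/-- **Level one polynomiality**: a holomorphic `SL(2,ℤ)`-invariant function `f` with `f Δ^m`
bounded at `i∞` is a polynomial of degree `≤ m` in `j`. -/
theorem h3_levelOne_poly (m : ℕ) : ∀ (f : ℍ → ℂ), MDiff f →
    (∀ (g : SL(2, ℤ)) (τ : ℍ), f (g • τ) = f τ) →
    IsBoundedAtImInfty (fun τ => f τ * Δ τ ^ m) →
    ∃ p : Polynomial ℂ, p.natDegree ≤ m ∧ ∀ τ, f τ = p.eval (jFun τ) := by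
  induction m with
  | zero =>
    intro f hf hinv hbdd
    simp only [pow_zero, mul_one] at hbdd
    obtain ⟨c, hc⟩ := h3_const_of_invariant_bdd hf hinv hbdd
    exact ⟨Polynomial.C c, by simp, fun τ => by simp [hc τ]⟩
  | succ m ih =>
    intro f hf hinv hbdd
    -- `F = f Δ^(m+1)` has a limit `c` at `i∞`
    set F : ℍ → ℂ := fun τ => f τ * Δ τ ^ (m + 1) with hF
    have hΔmd : MDiff (fun τ => Δ τ ^ (m + 1)) := h3_discriminant_mdiff.pow (m + 1)
    have hFmd : MDiff F := hf.mul hΔmd
    have hFT : ∀ τ : ℍ, F (ModularGroup.T • τ) = F τ := by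
      intro τ; simp only [hF]; rw [hinv, h3_discriminant_T]
    have hFper := h3_periodic_of_T_invariant hFT
    set c : ℂ := cuspFunction 1 F 0 with hc
    have hFlim : Tendsto F atImInfty (𝓝 c) := h3_tendsto_of_bdd hFper hFmd hbdd
    -- `f' = f - c j^(m+1)`
    set f' : ℍ → ℂ := fun τ => f τ - c * jFun τ ^ (m + 1) with hf'
    have hcmd : MDiff (fun _ : ℍ => c) := mdifferentiable_const
    have hf'md : MDiff f' := hf.sub (hcmd.mul (h3_jFun_mdiff.pow (m + 1)))
    have hf'inv : ∀ (g : SL(2, ℤ)) (τ : ℍ), f' (g • τ) = f' τ := by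
      intro g τ; simp only [hf']; rw [hinv, h3_jFun_smul]
    -- `H = f' Δ^(m+1) = F - c E₄^(3(m+1))` vanishes at `i∞`
    set H : ℍ → ℂ := fun τ => f' τ * Δ τ ^ (m + 1) with hH
    have hHeq : ∀ τ, H τ = F τ - c * (E₄ τ ^ 3) ^ (m + 1) := by
      intro τ
      simp only [hH, hf', hF]
      rw [h3_E₄_cube_eq, mul_pow]; ring
    have hHmd : MDiff H := hf'md.mul hΔmd
    have hHT : ∀ τ : ℍ, H (ModularGroup.T • τ) = H τ := by
      intro τ; simp only [hH]; rw [hf'inv, h3_discriminant_T]
    have hHper := h3_periodic_of_T_invariant hHT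
    have hHzero : IsZeroAtImInfty H := by
      have h4 := h3_tendsto_modform E₄
      rw [E_qExpansion_coeff_zero _ ⟨2, rfl⟩] at h4
      have h4' := ((h4.pow 3).pow (m + 1)).const_mul c
      have := hFlim.sub h4'
      simp only [one_pow, mul_one, sub_self] at this
      exact this.congr fun τ => (hHeq τ).symm
    -- `f' Δ^m = H / Δ` is bounded at `i∞`
    have hbdd' : IsBoundedAtImInfty (fun τ => f' τ * Δ τ ^ m) := by
      have := h3_div_discriminant_bdd hHper hHmd hHzero
      refine this.congr' ?_ (EventuallyEq.refl _ _)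
      filter_upwards with τ
      simp only [hH]
      have hΔ := discriminant_ne_zero τ
      field_simp
      ring
    obtain ⟨p', hp'deg, hp'⟩ := ih f' hf'md hf'inv hbdd'
    refine ⟨p' + Polynomial.C c * Polynomial.X ^ (m + 1), ?_, fun τ => ?_⟩
    · refine (Polynomial.natDegree_add_le _ _).trans (max_le (hp'deg.trans (Nat.le_succ m)) ?_)
      exact (Polynomial.natDegree_C_mul_X_pow_le c (m + 1))
    · have := hp' τ
      simp only [hf'] at this
      simp only [Polynomial.eval_add, Polynomial.eval_mul, Polynomial.eval_C, Polynomial.eval_pow,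
        Polynomial.eval_X]
      rw [← this]; ring

/-- Variant of `h3_levelOne_poly` with an explicit growth hypothesis
`‖f τ‖ ≤ C exp(2π m Im τ)` for `Im τ ≥ A`. -/
theorem h3_levelOne_poly_of_growth (m : ℕ) (f : ℍ → ℂ) (hf : MDiff f)
    (hinv : ∀ (g : SL(2, ℤ)) (τ : ℍ), f (g • τ) = f τ) (C A : ℝ)
    (hgrowth : ∀ τ : ℍ, A ≤ τ.im → ‖f τ‖ ≤ C * Real.exp (2 * π * m * τ.im)) :
    ∃ p : Polynomial ℂ, p.natDegree ≤ m ∧ ∀ τ, f τ = p.eval (jFun τ) := by
  refine h3_levelOne_poly m f hf hinv ?_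
  have h1 : f =O[atImInfty] fun τ : ℍ => Real.exp (2 * π * m * τ.im) := by
    refine IsBigO.of_bound C ?_
    have hev : ∀ᶠ τ : ℍ in atImInfty, A ≤ τ.im :=
      (atImInfty_mem _).mpr ⟨A, fun τ hτ => hτ⟩
    filter_upwards [hev] with τ hτ
    rw [Real.norm_of_nonneg (Real.exp_pos _).le]
    exact hgrowth τ hτ
  have h2 : (Δ : ℍ → ℂ) =O[atImInfty] fun τ : ℍ => Real.exp (-2 * π * τ.im) := by
    have := CuspFormClass.exp_decay_atImInfty (h := 1) CuspForm.discriminant one_pos
      one_mem_strictPeriods_SL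
    simpa using this
  have h3 : (fun τ => Δ τ ^ m) =O[atImInfty] fun τ : ℍ => Real.exp (-2 * π * τ.im) ^ m :=
    h2.pow m
  have h4 := h1.mul h3
  rw [IsBoundedAtImInfty, BoundedAtFilter]
  refine h4.trans (IsBigO.of_bound 1 ?_)
  filter_upwards with τ
  have : Real.exp (2 * π * m * τ.im) * Real.exp (-2 * π * τ.im) ^ m = 1 := by
    rw [← Real.exp_nat_mul, ← Real.exp_add]
    have : 2 * π * m * τ.im + m * (-2 * π * τ.im) = 0 := by ring
    rw [this, Real.exp_zero]
  rw [this]
  simp

end Fermat.Agent.Lib.X0
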