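/-
X0 project (S24), piece (G1): places dictionary.

Part 1 (general): for a Dedekind domain `B` with fraction field `F`, containing a field `k`,
every height one prime `P` of `B` gives a place `h4_placeOfPrime P` of `F / k` whose order
function is the `P`-adic valuation; conversely every place whose valuation ring contains `B`
comes from a unique prime.
-/
import Mathlib
import Fermat.Prelude.Def_AlgebraicCurve_DivisorClassGroup

set_option autoImplicit false

open AlgebraicCurve IsDedekindDomain WithZero

namespace Fermat.Agent.Lib.X0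

section General

variable {k B F : Type*} [Field k] [CommRing B] [IsDedekindDomain B] [Algebra k B]
  [Field F] [Algebra B F] [IsFractionRing B F] [Algebra k F] [IsScalarTower k B F]

/-- The place of `F / k` attached to a height one prime of `B`. -/
noncomputable def h4_placeOfPrime (P : HeightOneSpectrum B) : Place k F where
  toValuationSubring := (P.valuation F).valuationSubring
  algebraMap_mem' a := by
    rw [IsScalarTower.algebraMap_apply k B F]
    exact P.valuation_le_one _
  ne_top' := by
    simp only [ne_eq, Valuation.valuationSubring_eq_top_iff, not_not]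
    infer_instance
  isPrincipalIdealRing' := Valuation.valuationSubring_isPrincipalIdealRing _

theorem h4_placeOfPrime_toValuationSubring (P : HeightOneSpectrum B) :
    (h4_placeOfPrime (k := k) P).toValuationSubring = (P.valuation F).valuationSubring := rfl

theorem h4_mem_placeOfPrime_iff (P : HeightOneSpectrum B) (f : F) :
    f ∈ (h4_placeOfPrime (k := k) P).toValuationSubring ↔ P.valuation F f ≤ 1 := Iff.rfl


/-- A `P`-adic uniformizer in `B` is irreducible in the valuation ring of `P`. -/
theorem h4_irreducible_of_uniformizer (P : HeightOneSpectrum B) {π : F}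
    (hπ : P.valuation F π = exp (-1 : ℤ))
    (hmem : π ∈ (h4_placeOfPrime (k := k) P).toValuationSubring) :
    Irreducible (⟨π, hmem⟩ : (h4_placeOfPrime (k := k) P).toValuationSubring) := by
  rw [IsDiscreteValuationRing.irreducible_iff_uniformizer]
  have hπ0 : π ≠ 0 := by
    rintro rfl
    rw [map_zero] at hπ
    exact WithZero.exp_ne_zero hπ.symm
  apply le_antisymm
  · intro x hx
    rw [IsLocalRing.mem_maximalIdeal, mem_nonunits_iff] at hx
    rw [Ideal.mem_span_singleton']
    have hx1 : P.valuation F (x : F) < 1 := by
      by_contra hge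
      rw [not_lt] at hge
      have hxle : P.valuation F (x : F) ≤ 1 := x.2
      have hx1 : P.valuation F (x : F) = 1 := le_antisymm hxle hge
      apply hx
      have hx0 : (x : F) ≠ 0 := by
        intro h0
        rw [h0, map_zero] at hx1
        exact zero_ne_one hx1
      have hinv : (x : F)⁻¹ ∈ (h4_placeOfPrime (k := k) P).toValuationSubring := by
        show P.valuation F (x : F)⁻¹ ≤ 1
        rw [map_inv₀, hx1, inv_one]
      exact ⟨⟨x, ⟨(x : F)⁻¹, hinv⟩, Subtype.ext (mul_inv_cancel₀ hx0),
        Subtype.ext (inv_mul_cancel₀ hx0)⟩, rfl⟩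
    have hq : (x : F) / π ∈ (h4_placeOfPrime (k := k) P).toValuationSubring := by
      show P.valuation F ((x : F) / π) ≤ 1
      rw [map_div₀, hπ]
      rcases eq_or_ne (x : F) 0 with h0 | h0
      · rw [h0, map_zero, zero_div]; exact zero_le_one
      · have hne : P.valuation F (x : F) ≠ 0 := (Valuation.ne_zero_iff _).mpr h0
        rw [← WithZero.exp_log hne] at hx1 ⊢
        rw [← WithZero.exp_zero, WithZero.exp_lt_exp] at hx1
        rw [← WithZero.exp_sub, ← WithZero.exp_zero, WithZero.exp_le_exp]
        omega
    exact ⟨⟨(x : F) / π, hq⟩, Subtype.ext (div_mul_cancel₀ _ hπ0)⟩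
  · rw [Ideal.span_singleton_le_iff_mem, IsLocalRing.mem_maximalIdeal, mem_nonunits_iff]
    intro hu
    obtain ⟨b, hb⟩ := isUnit_iff_exists_inv.mp hu
    have hb' : π * (b : F) = 1 := by
      have := congrArg Subtype.val hb
      simpa using this
    have hbv : P.valuation F (b : F) ≤ 1 := b.2
    have h1 : P.valuation F π * P.valuation F (b : F) = 1 := by
      rw [← map_mul, hb', map_one]
    rw [hπ] at h1
    have hlt : exp (-1 : ℤ) * P.valuation F (b : F) < 1 := by
      calc exp (-1 : ℤ) * P.valuation F (b : F) ≤ exp (-1 : ℤ) * 1 :=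
            mul_le_mul' le_rfl hbv
        _ = exp (-1 : ℤ) := mul_one _
        _ < 1 := by rw [← WithZero.exp_zero, WithZero.exp_lt_exp]; omega
    rw [h1] at hlt
    exact lt_irrefl _ hlt

/-- The order function of `h4_placeOfPrime P` is the `P`-adic valuation. -/
theorem h4_placeOfPrime_ord (P : HeightOneSpectrum B) (f : F) :
    (h4_placeOfPrime (k := k) P).ord f = -(log (P.valuation F f)) := by
  rcases eq_or_ne f 0 with rfl | hf
  · simp
  obtain ⟨π₀, hπ₀⟩ := P.valuation_exists_uniformizer' F
  set π : F := algebraMap B F π₀ with hπdef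
  have hπ : P.valuation F π = exp (-1 : ℤ) := hπ₀
  have hπ0 : π ≠ 0 := by
    intro h0
    rw [h0, map_zero] at hπ
    exact WithZero.coe_ne_zero hπ.symm
  have hπmem : π ∈ (h4_placeOfPrime (k := k) P).toValuationSubring := by
    show P.valuation F π ≤ 1
    exact P.valuation_le_one _
  have hirr := h4_irreducible_of_uniformizer (k := k) P hπ hπmem
  have hne : P.valuation F f ≠ 0 := (Valuation.ne_zero_iff _).mpr hf
  set n : ℤ := -(log (P.valuation F f)) with hn
  have hval : P.valuation F f = exp (-n) := by
    rw [hn, neg_neg, WithZero.exp_log hne]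
  have huval : P.valuation F (f * π ^ (-n)) = 1 := by
    rw [map_mul, map_zpow₀, hπ, hval, ← WithZero.exp_zsmul, ← WithZero.exp_add]
    simp
  have hu0 : f * π ^ (-n) ≠ 0 := mul_ne_zero hf (zpow_ne_zero _ hπ0)
  have humem : f * π ^ (-n) ∈ (h4_placeOfPrime (k := k) P).toValuationSubring := by
    show P.valuation F _ ≤ 1
    rw [huval]
  have huinv : (f * π ^ (-n))⁻¹ ∈ (h4_placeOfPrime (k := k) P).toValuationSubring := by
    show P.valuation F _ ≤ 1
    rw [map_inv₀, huval, inv_one]
  let u : ((h4_placeOfPrime (k := k) P).toValuationSubring)ˣ :=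
    ⟨⟨f * π ^ (-n), humem⟩, ⟨(f * π ^ (-n))⁻¹, huinv⟩, Subtype.ext (mul_inv_cancel₀ hu0),
      Subtype.ext (inv_mul_cancel₀ hu0)⟩
  have h := (h4_placeOfPrime (k := k) P).ord_unit_smul_zpow u hirr n
  have key : f = f * π ^ (-n) * π ^ n := by
    rw [mul_assoc, ← zpow_add₀ hπ0]
    simp
  rw [key]
  exact h


theorem h4_placeOfPrime_injective :
    Function.Injective (h4_placeOfPrime (k := k) (B := B) (F := F)) := by
  intro P Q h
  have h' : (P.valuation F).valuationSubring = (Q.valuation F).valuationSubring :=
    congrArg Place.toValuationSubring h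
  exact HeightOneSpectrum.eq_of_valuation_isEquiv_valuation
    ((Valuation.isEquiv_iff_valuationSubring _ _).mpr h')

/-- Every place of `F / k` whose valuation ring contains `B` comes from a height one prime. -/
theorem h4_exists_prime_of_le (v : Place k F)
    (hB : ∀ b : B, algebraMap B F b ∈ v.toValuationSubring) :
    ∃ P : HeightOneSpectrum B, h4_placeOfPrime (k := k) P = v := by
  classical
  let φ : B →+* v.toValuationSubring := (algebraMap B F).codRestrict v.toValuationSubring.toSubring hB
  have hφ : ∀ b : B, ((φ b : v.toValuationSubring) : F) = algebraMap B F b := fun _ => rfl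
  let P₀ : Ideal B := Ideal.comap φ (IsLocalRing.maximalIdeal v.toValuationSubring)
  have hprime : P₀.IsPrime := Ideal.comap_isPrime φ _
  have hinj : Function.Injective (algebraMap B F) := IsFractionRing.injective B F
  have hne : P₀ ≠ ⊥ := by
    intro hbot
    apply v.ne_top'
    refine SetLike.ext fun f => ⟨fun _ => ValuationSubring.mem_top f, fun _ => ?_⟩
    obtain ⟨b, s, hs, rfl⟩ := IsFractionRing.div_surjective (A := B) f
    have hs0 : s ≠ 0 := nonZeroDivisors.ne_zero hs
    have hsnot : s ∉ P₀ := by
      rw [hbot, Ideal.mem_bot]; exact hs0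
    have hunit : IsUnit (φ s) := by
      by_contra hnu
      exact hsnot (by
        show φ s ∈ IsLocalRing.maximalIdeal v.toValuationSubring
        rwa [IsLocalRing.mem_maximalIdeal, mem_nonunits_iff])
    obtain ⟨c, hc⟩ := isUnit_iff_exists_inv.mp hunit
    have hc' : algebraMap B F s * (c : F) = 1 := by
      have := congrArg Subtype.val hc
      simpa [hφ] using this
    have hsF : algebraMap B F s ≠ 0 := fun h0 => hs0 (hinj (by rw [h0, map_zero]))
    have hcinv : (c : F) = (algebraMap B F s)⁻¹ := by
      field_simp
      rw [mul_comm]; exact hc'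
    rw [div_eq_mul_inv, ← hcinv]
    exact mul_mem (hB b) c.2
  let P : HeightOneSpectrum B := ⟨P₀, hprime, hne⟩
  refine ⟨P, ?_⟩
  apply Place.ext
  show (P.valuation F).valuationSubring = v.toValuationSubring
  refine ValuationSubring.eq_of_le_of_ne_top _ ?_ v.ne_top'
  intro f hf
  have hf' : P.valuation F f ≤ 1 := hf
  obtain ⟨n, ⟨d, hd⟩, hnd⟩ := P.exists_primeCompl_mul_eq_of_integer f hf'
  have hdnot : d ∉ P₀ := hd
  have hunit : IsUnit (φ d) := by
    by_contra hnu
    exact hdnot (by
      show φ d ∈ IsLocalRing.maximalIdeal v.toValuationSubring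
      rwa [IsLocalRing.mem_maximalIdeal, mem_nonunits_iff])
  obtain ⟨c, hc⟩ := isUnit_iff_exists_inv.mp hunit
  have hc' : algebraMap B F d * (c : F) = 1 := by
    have := congrArg Subtype.val hc
    simpa [hφ] using this
  have : f = algebraMap B F n * (c : F) := by
    have h1 : f * (algebraMap B F d * (c : F)) = algebraMap B F n * (c : F) := by
      rw [← mul_assoc, hnd]
    rwa [hc', mul_one] at h1
  rw [this]
  exact mul_mem (hB n) c.2

end General

end Fermat.Agent.Lib.X0
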